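import Fermat.Agent.ResidualThree.Automorphic.Twist
import Fermat.Agent.ResidualThree.Spherical.Vol

/-!
# Automorphisms of the field acting on `Gf`, on `Ωf` and on `Hyp`

A field automorphism moves the finite places and extends to the completions, to `Gf` and to the
cosets of a stable level; on hyperbolic space it permutes the coordinates, up to complex
conjugation. This defines the twist in the twisted trace identity.
-/

noncomputable section

open IsDedekindDomain NumberField UniformSpace
open scoped WithZero ComplexConjugate ComplexOrder Matrix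

namespace Fermat.Agent.ResidualThree.Orbital

variable {L : Type} [Field L] [NumberField L]

/-! ### Finite places -/

/-- The inverse image of a place by a field automorphism. -/
def comapPlace (f : L ≃+* L) (w : FPlace L) : FPlace L :=
  HeightOneSpectrum.comap (RingOfIntegers.mapRingEquiv f : 𝓞 L →+* 𝓞 L)
    (RingOfIntegers.mapRingEquiv f).surjective w

theorem intValuation_comapPlace (f : L ≃+* L) (w : FPlace L) (r : 𝓞 L) :
    (comapPlace f w).intValuation r = w.intValuation (RingOfIntegers.mapRingEquiv f r) := by
  rcases eq_or_ne r 0 with rfl | hr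
  · simp
  set e := RingOfIntegers.mapRingEquiv f
  have hmap : Ideal.map (e : 𝓞 L →+* 𝓞 L) (comapPlace f w).asIdeal = w.asIdeal :=
    Ideal.map_comap_of_surjective _ e.surjective _
  have key : ∀ n : ℕ, (comapPlace f w).intValuation r ≤ WithZero.exp (-(n : ℤ)) ↔
      w.intValuation (e r) ≤ WithZero.exp (-(n : ℤ)) := by
    intro n
    rw [HeightOneSpectrum.intValuation_le_pow_iff_mem,
      HeightOneSpectrum.intValuation_le_pow_iff_mem,
      ← hmap, ← Ideal.map_pow]
    refine ⟨fun h => Ideal.mem_map_of_mem (e : 𝓞 L →+* 𝓞 L) h, fun h => ?_⟩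
    obtain ⟨x, hx, hxe⟩ := (Ideal.mem_map_iff_of_surjective (e : 𝓞 L →+* 𝓞 L) e.surjective).1 h
    exact e.injective hxe ▸ hx
  have her : e r ≠ 0 := (map_ne_zero_iff e e.injective).2 hr
  refine le_antisymm ?_ ?_
  · rw [w.intValuation_if_neg her]
    exact (key _).2 (w.intValuation_if_neg her).le
  · rw [(comapPlace f w).intValuation_if_neg hr]
    exact (key _).1 ((comapPlace f w).intValuation_if_neg hr).le

theorem valuation_comapPlace (f : L ≃+* L) (w : FPlace L) (x : L) :
    (comapPlace f w).valuation L x = w.valuation L (f x) := by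
  obtain ⟨a, b, -, rfl⟩ := IsFractionRing.div_surjective (A := 𝓞 L) x
  rw [map_div₀, map_div₀, map_div₀, HeightOneSpectrum.valuation_of_algebraMap,
    HeightOneSpectrum.valuation_of_algebraMap, intValuation_comapPlace, intValuation_comapPlace,
    ← HeightOneSpectrum.valuation_of_algebraMap (K := L),
    ← HeightOneSpectrum.valuation_of_algebraMap (K := L)]
  simp

/-- The completed automorphism. -/
def localAut (f : L ≃+* L) (w : FPlace L) :
    (comapPlace f w).adicCompletion L →+* w.adicCompletion L :=
  completionHom (f : L →+* L) 1 one_pos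
    fun x => by rw [pow_one, valuation_comapPlace]; rfl

@[simp] theorem localAut_coe (f : L ≃+* L) (w : FPlace L) (x : L) :
    localAut f w (algebraMap L ((comapPlace f w).adicCompletion L) x) =
      algebraMap L (w.adicCompletion L) (f x) :=
  completionHom_coe _ _ _ _ x

theorem continuous_toCompletion' (v : FPlace L) :
    Continuous (HeightOneSpectrum.adicCompletion.equiv L v) :=
  (HeightOneSpectrum.adicCompletion.isUniformInducing_toCompletion L v).uniformContinuous.continuous

theorem continuous_localAut (f : L ≃+* L) (w : FPlace L) : Continuous (localAut f w) :=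
  (Completion.continuous_extension).comp (continuous_toCompletion' _)

theorem valv_localAut_le_one (f : L ≃+* L) (w : FPlace L)
    (z : (comapPlace f w).adicCompletion L) (hz : valv (comapPlace f w) z ≤ 1) :
    valv w (localAut f w z) ≤ 1 := by
  have hclosed : IsClosed {y : w.adicCompletion L | valv w y ≤ 1} :=
    Valued.isClosed_integer (w.adicCompletion L)
  have hmem : z ∈ closure {y | y ∈ Set.range (algebraMap L ((comapPlace f w).adicCompletion L)) ∧
      valv (comapPlace f w) y ≤ 1} := by
    have hopen : IsOpen {y : (comapPlace f w).adicCompletion L | valv (comapPlace f w) y ≤ 1} :=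
      Valued.isOpen_integer ((comapPlace f w).adicCompletion L)
    have := (HeightOneSpectrum.denseRange_algebraMap (K := L)
      (comapPlace f w)).open_subset_closure_inter hopen hz
    rwa [Set.inter_comm] at this
  refine hclosed.closure_subset ((map_mem_closure (continuous_localAut f w) hmem) ?_)
  rintro _ ⟨⟨x, rfl⟩, hx⟩
  show valv w (localAut f w _) ≤ 1
  rw [localAut_coe]
  rw [show valv (comapPlace f w) (algebraMap L _ x) = (comapPlace f w).valuation L x from
    (comapPlace f w).valuedAdicCompletion_eq_valuation' x, valuation_comapPlace] at hx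
  rwa [show valv w (algebraMap L _ (f x)) = w.valuation L (f x) from
    w.valuedAdicCompletion_eq_valuation' _]

theorem valv_localAut_le (f : L ≃+* L) (w : FPlace L)
    (z : (comapPlace f w).adicCompletion L) :
    valv w (localAut f w z) ≤ valv (comapPlace f w) z := by
  rcases eq_or_ne z 0 with rfl | hz
  · simp
  obtain ⟨π, hπ⟩ := (comapPlace f w).valuation_exists_uniformizer L
  have hz0 : valv (comapPlace f w) z ≠ 0 := (Valuation.ne_zero_iff _).2 hz
  obtain ⟨k, hk⟩ : ∃ k : ℤ, valv (comapPlace f w) z = (comapPlace f w).valuation L (π ^ k) :=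
    ⟨-(WithZero.log (valv (comapPlace f w) z)), by
      rw [map_zpow₀, hπ, ← WithZero.exp_zsmul]; simp [WithZero.exp_log hz0]⟩
  have hπ0 : (comapPlace f w).valuation L (π ^ k) ≠ 0 := hk ▸ hz0
  have hone := valv_localAut_le_one f w (z / algebraMap L _ (π ^ k)) (by
    rw [map_div₀, hk, show valv (comapPlace f w) (algebraMap L _ (π ^ k)) =
      (comapPlace f w).valuation L (π ^ k) from
      (comapPlace f w).valuedAdicCompletion_eq_valuation' _, div_self hπ0])
  rw [map_div₀, localAut_coe, map_div₀, show valv w (algebraMap L _ (f (π ^ k))) =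
    w.valuation L (f (π ^ k)) from w.valuedAdicCompletion_eq_valuation' _,
    ← valuation_comapPlace] at hone
  rw [hk]
  exact (div_le_one₀ (zero_lt_iff.2 hπ0)).1 hone

theorem valv_localAut (f : L ≃+* L) (w : FPlace L)
    (z : (comapPlace f w).adicCompletion L) :
    valv w (localAut f w z) = valv (comapPlace f w) z := by
  refine le_antisymm (valv_localAut_le f w z) ?_
  rcases eq_or_ne z 0 with rfl | hz
  · simp
  have h := valv_localAut_le f w z⁻¹
  rw [map_inv₀, map_inv₀, map_inv₀] at h
  exact (inv_le_inv₀ (zero_lt_iff.2 ((Valuation.ne_zero_iff _).2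
    ((map_ne_zero _).2 hz))) (zero_lt_iff.2 ((Valuation.ne_zero_iff _).2 hz))).1 h

/-- The completed automorphism on matrices. -/
def localAutGL (f : L ≃+* L) (w : FPlace L) : GLv (comapPlace f w) →* GLv w :=
  Units.map (localAut f w).mapMatrix.toMonoidHom

theorem localAutGL_toLocal (f : L ≃+* L) (w : FPlace L) (g : GL (Fin 2) L) :
    localAutGL f w (toLocal (comapPlace f w) g) =
      toLocal w (Units.map (f : L →+* L).mapMatrix.toMonoidHom g) := by
  ext i j
  simp [localAutGL, toLocal]

theorem map_mem_center {A B : Type} [Field A] [Field B] (φ : A →+* B) {g : GL (Fin 2) A}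
    (hg : g ∈ Subgroup.center (GL (Fin 2) A)) :
    Units.map φ.mapMatrix.toMonoidHom g ∈ Subgroup.center (GL (Fin 2) B) := by
  obtain ⟨a, rfl⟩ := (Matrix.GeneralLinearGroup.center_eq_range_scalar (R := A) (n := Fin 2)) ▸ hg
  rw [Matrix.GeneralLinearGroup.center_eq_range_scalar]
  refine ⟨Units.map φ.toMonoidHom a, ?_⟩
  ext i j
  by_cases h : i = j <;>
    simp [Matrix.GeneralLinearGroup.scalar, Matrix.scalar, h]

theorem map_isIntGL {A B : Type} [Field A] [Field B] (vA : Valuation A ℤᵐ⁰) (vB : Valuation B ℤᵐ⁰)
    (φ : A →+* B) (hφ : ∀ z, vB (φ z) = vA z) {g : GL (Fin 2) A} (hg : IsIntGL vA g) :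
    IsIntGL vB (Units.map φ.mapMatrix.toMonoidHom g) := by
  refine ⟨fun i j => ?_, ?_⟩
  · show vB (φ ((g : Matrix (Fin 2) (Fin 2) A) i j)) ≤ 1
    rw [hφ]
    exact hg.1 i j
  · show vB (φ.mapMatrix (g : Matrix (Fin 2) (Fin 2) A)).det = 1
    rw [← RingHom.map_det, hφ]
    exact hg.2

theorem localAutGL_mem_max (f : L ≃+* L) (w : FPlace L) {g : GLv (comapPlace f w)}
    (hg : g ∈ maxSubgroup (comapPlace f w)) : localAutGL f w g ∈ maxSubgroup w := by
  have hle : maxSubgroup (comapPlace f w) ≤ (maxSubgroup w).comap (localAutGL f w) := by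
    refine (Subgroup.closure_le _).2 fun x hx => ?_
    refine Subgroup.mem_comap.2 (Subgroup.subset_closure ?_)
    rcases hx with hx | hx
    · exact Or.inl (map_isIntGL _ _ (localAut f w) (valv_localAut f w) hx)
    · exact Or.inr (map_mem_center (localAut f w) hx)
  exact hle hg

omit [NumberField L] in
theorem comapPlace_injective (f : L ≃+* L) : Function.Injective (comapPlace f) := by
  intro v w h
  ext1
  have := congrArg HeightOneSpectrum.asIdeal h
  exact Ideal.comap_injective_of_surjective _ (RingOfIntegers.mapRingEquiv f).surjective this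

/-- The automorphism on the finite adelic group. -/
def autGf (f : L ≃+* L) : Gf L →* Gf L where
  toFun x := ⟨fun w => localAutGL f w ((x : ∀ v, GLv v) (comapPlace f w)),
    show ∀ᶠ _w in Filter.cofinite, _ from
      ((comapPlace_injective f).tendsto_cofinite.eventually x.2).mono
        fun w hw => localAutGL_mem_max f w hw⟩
  map_one' := Subtype.ext (funext fun w => map_one (localAutGL f w))
  map_mul' _ _ := Subtype.ext (funext fun w => map_mul (localAutGL f w) _ _)

theorem autGf_diag (f : L ≃+* L) (g : GL (Fin 2) L) :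
    autGf f (diag L g) = diag L (Units.map (f : L →+* L).mapMatrix.toMonoidHom g) :=
  Subtype.ext (funext fun w => localAutGL_toLocal f w g)

/-- The level is stable under the automorphism. -/
def IsStableLevel (f : L ≃+* L) (U : Level L) : Prop :=
  ∀ w, ∀ g ∈ U.J (comapPlace f w), localAutGL f w g ∈ U.J w

/-- The automorphism on the finite part of the space. -/
def autΩ (f : L ≃+* L) (U : Level L) (hU : IsStableLevel f U) : Ωf U → Ωf U :=
  Quotient.map' (autGf f) fun a b hab => by
    rw [QuotientGroup.leftRel_apply] at hab ⊢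
    rw [← map_inv, ← map_mul]
    exact fun w => hU w _ (hab _)

theorem autΩ_smul (f : L ≃+* L) (U : Level L) (hU : IsStableLevel f U) (g : GL (Fin 2) L)
    (x : Ωf U) :
    autΩ f U hU (g • x) =
      (Units.map (f : L →+* L).mapMatrix.toMonoidHom g : GL (Fin 2) L) • autΩ f U hU x := by
  induction x using QuotientGroup.induction_on with
  | H a =>
    show ((autGf f (diag L g * a) : Gf L) : Gf L ⧸ U.group) =
      ((diag L _ * autGf f a : Gf L) : Gf L ⧸ U.group)
    rw [map_mul, autGf_diag]

/-! ### Infinite places -/

/-- Complex conjugation of hyperbolic space. -/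
def conjH3 (p : H3) : H3 := ⟨conj p.z, p.y, p.y_pos⟩

@[simp] theorem conjH3_conjH3 (p : H3) : conjH3 (conjH3 p) = p := by ext <;> simp [conjH3]

theorem toMat_conjH3 (p : H3) : (conjH3 p).toMat = p.toMat.map (starRingEnd ℂ) := by
  ext i j
  fin_cases i <;> fin_cases j <;> simp [conjH3, H3.toMat]

theorem conjH3_smul (g : GL (Fin 2) ℂ) (p : H3) :
    conjH3 (g • p) =
      (Units.map (starRingEnd ℂ).mapMatrix.toMonoidHom g : GL (Fin 2) ℂ) • conjH3 p := by
  set M : Matrix (Fin 2) (Fin 2) ℂ :=
    (g : Matrix (Fin 2) (Fin 2) ℂ) * p.toMat * (g : Matrix (Fin 2) (Fin 2) ℂ)ᴴ with hM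
  have e : ((Units.map (starRingEnd ℂ).mapMatrix.toMonoidHom g : GL (Fin 2) ℂ) :
      Matrix (Fin 2) (Fin 2) ℂ) * (conjH3 p).toMat *
      ((Units.map (starRingEnd ℂ).mapMatrix.toMonoidHom g : GL (Fin 2) ℂ) :
      Matrix (Fin 2) (Fin 2) ℂ)ᴴ = M.map (starRingEnd ℂ) := by
    rw [hM, toMat_conjH3, Matrix.map_mul, Matrix.map_mul, Matrix.conjTranspose_map]
    · rfl
    · intro x; simp
  have hd : (M.map (starRingEnd ℂ)).det = conj M.det := (RingHom.map_det _ M).symm
  rw [H3.smul_def, H3.smul_def,
    H3.ofMat_congr _ (by rw [← e]; exact H3.posDef_conj _ (H3.posDef_toMat _)) e]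
  ext
  · show conj (M 0 1 / M 1 1) = _
    simp [H3.ofMat]
  · show Real.sqrt M.det.re / (M 1 1).re = _
    simp [H3.ofMat, hd]

open Classical in
/-- The coordinate at an embedding. -/
def coord (φ : L →+* ℂ) (p : Hyp L) : H3 :=
  if (InfinitePlace.mk φ).embedding = φ then p (InfinitePlace.mk φ)
  else conjH3 (p (InfinitePlace.mk φ))

omit [NumberField L] in
theorem coord_smul (φ : L →+* ℂ) (g : GL (Fin 2) L) (p : Hyp L) :
    coord φ (g • p) = (Units.map φ.mapMatrix.toMonoidHom g : GL (Fin 2) ℂ) • coord φ p := by
  by_cases h : (InfinitePlace.mk φ).embedding = φ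
  · simp only [coord, if_pos h]
    show toComplex _ g • p _ = _
    rw [toComplex, h]
  · simp only [coord, if_neg h]
    show conjH3 (toComplex _ g • p _) = _
    rw [conjH3_smul]
    congr 1
    have hc : ComplexEmbedding.conjugate (InfinitePlace.mk φ).embedding = φ := by
      rcases InfinitePlace.embedding_mk_eq φ with h' | h'
      · exact absurd h' h
      · rw [h']; exact star_star φ
    ext i j
    show conj ((InfinitePlace.mk φ).embedding ((g : Matrix _ _ L) i j)) = _
    conv_rhs => rw [← hc]
    rfl

omit [NumberField L] in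
theorem coord_embedding (w : InfinitePlace L) (p : Hyp L) : coord w.embedding p = p w := by
  simp [coord, InfinitePlace.mk_embedding]

omit [NumberField L] in
theorem coord_conjugate [IsTotallyComplex L] (φ : L →+* ℂ) (p : Hyp L) :
    coord (ComplexEmbedding.conjugate φ) p = conjH3 (coord φ p) := by
  have hne : ComplexEmbedding.conjugate φ ≠ φ := fun h =>
    (InfinitePlace.not_isReal_iff_isComplex.2 (IsTotallyComplex.isComplex (InfinitePlace.mk φ)))
      ⟨φ, h, rfl⟩
  have hmk : InfinitePlace.mk (ComplexEmbedding.conjugate φ) = InfinitePlace.mk φ :=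
    InfinitePlace.mk_conjugate_eq φ
  rcases InfinitePlace.embedding_mk_eq φ with h | h
  · have h1 : (InfinitePlace.mk φ).embedding ≠ ComplexEmbedding.conjugate φ :=
      fun e => hne (e.symm.trans h)
    have h2 : (InfinitePlace.mk (ComplexEmbedding.conjugate φ)).embedding ≠
        ComplexEmbedding.conjugate φ := by rw [hmk]; exact h1
    rw [coord, if_neg h2, coord, if_pos h, hmk]
  · have h1 : (InfinitePlace.mk φ).embedding ≠ φ := fun e => hne (h.symm.trans e)
    have h2 : (InfinitePlace.mk (ComplexEmbedding.conjugate φ)).embedding =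
        ComplexEmbedding.conjugate φ := by rw [hmk]; exact h
    rw [coord, if_pos h2, coord, if_neg h1, conjH3_conjH3, hmk]

/-- The automorphism on `Hyp`. -/
def autHyp (f : L ≃+* L) (p : Hyp L) : Hyp L := fun w => coord (w.embedding.comp (f : L →+* L)) p

omit [NumberField L] in
theorem coord_autHyp [IsTotallyComplex L] (f : L ≃+* L) (φ : L →+* ℂ) (p : Hyp L) :
    coord φ (autHyp f p) = coord (φ.comp (f : L →+* L)) p := by
  by_cases h : (InfinitePlace.mk φ).embedding = φ
  · simp only [coord, if_pos h, autHyp]
    conv_rhs => rw [← h]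
  · conv_lhs => rw [coord, if_neg h]
    show conjH3 (coord _ p) = _
    rw [← coord_conjugate]
    congr 1
    rcases InfinitePlace.embedding_mk_eq φ with h' | h'
    · exact absurd h' h
    · refine RingHom.ext fun x => ?_
      show conj ((InfinitePlace.mk φ).embedding (f x)) = φ (f x)
      rw [h']
      simp [ComplexEmbedding.conjugate]

omit [NumberField L] in
theorem autHyp_smul (f : L ≃+* L) (g : GL (Fin 2) L) (p : Hyp L) :
    autHyp f (g • p) =
      (Units.map (f : L →+* L).mapMatrix.toMonoidHom g : GL (Fin 2) L) • autHyp f p := by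
  funext w
  show coord _ (g • p) = toComplex w _ • coord _ p
  rw [coord_smul]
  congr 1

theorem continuous_conjH3 : Continuous conjH3 :=
  H3.continuous_iff.2 ⟨Complex.continuous_conj.comp H3.continuous_z, H3.continuous_y⟩

omit [NumberField L] in
theorem continuous_coord (φ : L →+* ℂ) : Continuous (coord φ) := by
  by_cases h : (InfinitePlace.mk φ).embedding = φ
  · rw [show coord φ = fun p : Hyp L => p (InfinitePlace.mk φ) from funext fun p => if_pos h]
    exact continuous_apply _
  · rw [show coord φ = fun p : Hyp L => conjH3 (p (InfinitePlace.mk φ))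
      from funext fun p => if_neg h]
    exact continuous_conjH3.comp (continuous_apply _)

omit [NumberField L] in
theorem continuous_autHyp (f : L ≃+* L) : Continuous (autHyp f) :=
  continuous_pi fun _ => continuous_coord _

end Fermat.Agent.ResidualThree.Orbital
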