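import Fermat.Agent.ResidualThree.Orbital.Classes
import Fermat.Agent.ResidualThree.Orbital.Sigma

/-!
# Places of the cubic extension over a place of the base field

The places over a place of the base, the embeddings of completions and of local matrix groups,
and the action of the automorphism on families over a place. Local norms of twisted families are
defined here.
-/

noncomputable section

open IsDedekindDomain NumberField
open scoped WithZero

namespace Fermat.Agent.ResidualThree.Orbital

variable {K L : Type} [Field K] [NumberField K] [Field L] [NumberField L] [Algebra K L]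

variable (K) in
/-- The place below. -/
def below (w : FPlace L) : FPlace K := HeightOneSpectrum.under (𝓞 K) w

variable (K) in
/-- The ramification index of a place. -/
def ram (w : FPlace L) : ℕ := (below K w).asIdeal.ramificationIdx' w.asIdeal

instance liesOver_below (w : FPlace L) : w.asIdeal.LiesOver (below K w).asIdeal := ⟨rfl⟩

omit [NumberField K] in
theorem ram_pos (w : FPlace L) : 0 < ram K w :=
  Nat.pos_of_ne_zero
    (Ideal.IsDedekindDomain.ramificationIdx'_ne_zero_of_liesOver w.asIdeal (below K w).ne_bot)

theorem valuation_algebraMap_below (w : FPlace L) (x : K) :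
    w.valuation L (algebraMap K L x) = (below K w).valuation K x ^ ram K w :=
  (HeightOneSpectrum.valuation_liesOver L (below K w) w x).symm

theorem valuation_algebraMap_of_below (w : FPlace L) {v : FPlace K} (h : below K w = v) (x : K) :
    w.valuation L (algebraMap K L x) = v.valuation K x ^ ram K w :=
  h ▸ valuation_algebraMap_below w x

/-- The embedding of completions. -/
def baseHom (w : FPlace L) {v : FPlace K} (h : below K w = v) :
    v.adicCompletion K →+* w.adicCompletion L :=
  completionHom (algebraMap K L) (ram K w) (ram_pos w) (valuation_algebraMap_of_below w h)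

@[simp] theorem baseHom_coe (w : FPlace L) {v : FPlace K} (h : below K w = v) (x : K) :
    baseHom w h (algebraMap K (v.adicCompletion K) x) =
      algebraMap L (w.adicCompletion L) (algebraMap K L x) :=
  completionHom_coe _ _ _ _ x

/-- The embedding of local matrix groups. -/
def baseGL (w : FPlace L) {v : FPlace K} (h : below K w = v) : GLv v →* GLv w :=
  Units.map ((baseHom w h).mapMatrix (m := Fin 2)).toMonoidHom

/-- The places over `v`. -/
abbrev Over (L : Type) [Field L] [NumberField L] [Algebra K L] (v : FPlace K) : Type :=
  {w : FPlace L // below K w = v}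

theorem finite_over (v : FPlace K) : Finite (Over L v) := by
  have : Finite (v.asIdeal.primesOver (𝓞 L)) :=
    Set.finite_coe_iff.mpr (IsDedekindDomain.primesOver_finite v.asIdeal (𝓞 L))
  refine Finite.of_injective (fun w : Over L v =>
    (⟨w.1.asIdeal, w.1.isPrime, ⟨(congrArg HeightOneSpectrum.asIdeal w.2).symm⟩⟩ :
      v.asIdeal.primesOver (𝓞 L))) fun a b h => Subtype.ext (HeightOneSpectrum.ext ?_)
  simpa using congrArg Subtype.val h

instance fintypeOver (v : FPlace K) : Fintype (Over L v) :=
  @Fintype.ofFinite _ (finite_over v)

omit [NumberField K] [NumberField L] in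
theorem below_comapPlace (σ : L ≃ₐ[K] L) (w : FPlace L) :
    below K (comapPlace σ.toRingEquiv w) = below K w := by
  apply HeightOneSpectrum.ext
  ext r
  show RingOfIntegers.mapRingEquiv σ.toRingEquiv (algebraMap (𝓞 K) (𝓞 L) r) ∈ w.asIdeal ↔
    algebraMap (𝓞 K) (𝓞 L) r ∈ w.asIdeal
  rw [show RingOfIntegers.mapRingEquiv σ.toRingEquiv (algebraMap (𝓞 K) (𝓞 L) r) =
      algebraMap (𝓞 K) (𝓞 L) r from RingOfIntegers.ext (σ.commutes (r : K))]

/-- The families of local matrices at the places over `v`. -/
abbrev Gover (L : Type) [Field L] [NumberField L] [Algebra K L] (v : FPlace K) : Type :=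
  ∀ w : Over L v, GLv w.1

/-- The inverse image of a place over `v`. -/
def comapOver (σ : L ≃ₐ[K] L) {v : FPlace K} (w : Over L v) : Over L v :=
  ⟨comapPlace σ.toRingEquiv w.1, (below_comapPlace σ w.1).trans w.2⟩

/-- The automorphism on the local matrices over `v`. -/
def autOver (σ : L ≃ₐ[K] L) {v : FPlace K} : Gover L v →* Gover L v where
  toFun x w := localAutGL σ.toRingEquiv w.1 (x (comapOver σ w))
  map_one' := funext fun _ => map_one _
  map_mul' _ _ := funext fun _ => map_mul _ _ _

/-- The diagonal embedding of the local group of the base. -/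
def baseOver (L : Type) [Field L] [NumberField L] [Algebra K L] (v : FPlace K) :
    GLv v →* Gover L v where
  toFun g w := baseGL w.1 w.2 g
  map_one' := funext fun _ => map_one _
  map_mul' _ _ := funext fun _ => map_mul _ _ _

/-- The global matrices at the places over `v`. -/
def diagOver (v : FPlace K) : GL (Fin 2) L →* Gover L v where
  toFun g w := toLocal w.1 g
  map_one' := funext fun _ => map_one _
  map_mul' _ _ := funext fun _ => map_mul _ _ _

omit [NumberField K] in
theorem autOver_diagOver (σ : L ≃ₐ[K] L) (v : FPlace K) (g : GL (Fin 2) L) :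
    autOver σ (diagOver v g) =
      diagOver v (Units.map (σ.toRingEquiv : L →+* L).mapMatrix.toMonoidHom g) :=
  funext fun w => localAutGL_toLocal σ.toRingEquiv w.1 g

theorem baseOver_toLocal (v : FPlace K) (g : GL (Fin 2) K) :
    baseOver L v (toLocal v g) =
      diagOver v (Units.map (algebraMap K L).mapMatrix.toMonoidHom g) := by
  funext w
  ext i j
  simp [baseOver, baseGL, diagOver, toLocal]

/-- Every component is central. -/
def IsCentralOver {v : FPlace K} (x : Gover L v) : Prop :=
  ∀ w, x w ∈ Subgroup.center (GLv w.1)

/-- The norm of a twisted family. -/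
def normOver (σ : L ≃ₐ[K] L) {v : FPlace K} (δ : Gover L v) : Gover L v :=
  δ * autOver σ δ * autOver σ (autOver σ δ)

/-- `γ` is the norm of `δ` up to scalars. -/
def IsLocalNorm (σ : L ≃ₐ[K] L) {v : FPlace K} (δ : Gover L v) (γ : GLv v) : Prop :=
  IsCentralOver (normOver σ δ * (baseOver L v γ)⁻¹)

end Fermat.Agent.ResidualThree.Orbital
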