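import Fermat.Agent.ResidualThree.Orbital.Kernels

/-!
# Norms, sizes and heights under the automorphism

Norms of completions, sizes of local matrices and the heights on the adelic space are unchanged by
a field automorphism (`height_autGf_autHyp`, `spcHeight_autSpc`), so that truncation commutes with
the twist.
-/

noncomputable section

open IsDedekindDomain NumberField Matrix
open scoped WithZero ComplexConjugate

namespace Fermat.Agent.ResidualThree.Orbital

variable {L : Type} [Field L] [NumberField L] (f : L ≃+* L)

theorem absNorm_comapPlace (w : FPlace L) :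
    Ideal.absNorm (comapPlace f w).asIdeal = Ideal.absNorm w.asIdeal := by
  rw [Ideal.absNorm_apply, Ideal.absNorm_apply, Submodule.cardQuot_apply, Submodule.cardQuot_apply]
  set e := RingOfIntegers.mapRingEquiv f
  have h : w.asIdeal = Ideal.map (e : 𝓞 L →+* 𝓞 L) (comapPlace f w).asIdeal :=
    (Ideal.map_comap_of_surjective _ e.surjective _).symm
  exact Nat.card_congr (Ideal.quotientEquiv _ _ e h).toEquiv

theorem norm_localAut (w : FPlace L) (z : (comapPlace f w).adicCompletion L) :
    ‖localAut f w z‖ = ‖z‖ := by
  rw [FinitePlace.norm_def, FinitePlace.norm_def]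
  show ((WithZeroMulInt.toNNReal _ (valv w (localAut f w z)) : NNReal) : ℝ) =
    ((WithZeroMulInt.toNNReal _ (valv (comapPlace f w) z) : NNReal) : ℝ)
  rw [valv_localAut]
  have key : ∀ (a b : NNReal) (ha : a ≠ 0) (hb : b ≠ 0) (x : ℤᵐ⁰), a = b →
      WithZeroMulInt.toNNReal ha x = WithZeroMulInt.toNNReal hb x := by
    rintro a b ha hb x rfl; rfl
  congr 1
  exact key _ _ _ _ _ (by rw [absNorm_comapPlace])

theorem locSize_localAutGL (w : FPlace L) (g : GLv (comapPlace f w)) :
    locSize (localAutGL f w g) = locSize g := by
  have hd : (localAutGL f w g : Matrix (Fin 2) (Fin 2) (w.adicCompletion L)).det =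
      localAut f w (g : Matrix (Fin 2) (Fin 2) ((comapPlace f w).adicCompletion L)).det :=
    (RingHom.map_det (localAut f w) _).symm
  have he : ∀ i j, ‖(localAutGL f w g : Matrix (Fin 2) (Fin 2) (w.adicCompletion L)) i j‖ =
      ‖(g : Matrix (Fin 2) (Fin 2) ((comapPlace f w).adicCompletion L)) i j‖ := fun i j =>
    norm_localAut f w _
  simp only [locSize, entryMax, he, hd, norm_localAut]

theorem localHeight_localAutGL (w : FPlace L) (e : Fin 2 → L) (g : GLv (comapPlace f w)) :
    localHeight w (fun i => f (e i)) (localAutGL f w g) = localHeight (comapPlace f w) e g := by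
  have hd : (localAutGL f w g : Matrix (Fin 2) (Fin 2) (w.adicCompletion L)).det =
      localAut f w (g : Matrix (Fin 2) (Fin 2) ((comapPlace f w).adicCompletion L)).det :=
    (RingHom.map_det (localAut f w) _).symm
  have hr : ∀ j, ‖(locRow w (fun i => f (e i)) ᵥ*
      (localAutGL f w g : Matrix (Fin 2) (Fin 2) (w.adicCompletion L))) j‖ =
      ‖(locRow (comapPlace f w) e ᵥ*
        (g : Matrix (Fin 2) (Fin 2) ((comapPlace f w).adicCompletion L))) j‖ := fun j => by
    rw [← norm_localAut f w]
    congr 1
    simp only [Matrix.vecMul, dotProduct, Fin.sum_univ_two, map_add, map_mul, locRow, localAut_coe]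
    rfl
  rw [localHeight_eq, localHeight_eq, hd, norm_localAut]
  simp only [locNorm, hr]

omit [NumberField L] in
theorem comapPlace_surjective : Function.Surjective (comapPlace f) := fun w =>
  ⟨comapPlace f.symm w, HeightOneSpectrum.ext (Ideal.ext fun x => by
    show RingOfIntegers.mapRingEquiv f.symm (RingOfIntegers.mapRingEquiv f x) ∈ w.asIdeal ↔ _
    rw [show RingOfIntegers.mapRingEquiv f.symm (RingOfIntegers.mapRingEquiv f x) = x from
      RingOfIntegers.ext (f.symm_apply_apply x.1)])⟩

theorem archForm_conjH3 (u : Fin 2 → ℂ) (q : H3) :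
    archForm (fun i => conj (u i)) (conjH3 q) = archForm u q := by
  simp only [archForm, conjH3, ← map_mul, ← map_add, Complex.normSq_conj]

omit [NumberField L] in
theorem archForm_coord (ψ : L →+* ℂ) (e : Fin 2 → L) (p : Hyp L) :
    archForm (fun i => ψ (e i)) (coord ψ p) =
      archForm (archRow (InfinitePlace.mk ψ) e) (p (InfinitePlace.mk ψ)) := by
  by_cases h : (InfinitePlace.mk ψ).embedding = ψ
  · simp only [coord, if_pos h]
    rw [show (fun i => ψ (e i)) = archRow (InfinitePlace.mk ψ) e from
      funext fun i => by rw [archRow, h]]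
  · simp only [coord, if_neg h]
    have hc : ComplexEmbedding.conjugate (InfinitePlace.mk ψ).embedding = ψ := by
      rcases InfinitePlace.embedding_mk_eq ψ with h' | h'
      · exact absurd h' h
      · rw [h']; exact star_star ψ
    rw [show (fun i => ψ (e i)) = fun i => conj (archRow (InfinitePlace.mk ψ) e i) from
      funext fun i => (RingHom.congr_fun hc (e i)).symm]
    exact archForm_conjH3 _ _

/-- The automorphism preserves the height, moving the line along. -/
theorem height_autGf_autHyp (e : Fin 2 → L) (x : Gf L) (p : Hyp L) :
    height (fun i => f (e i)) (autGf f x) (autHyp f p) = height e x p := by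
  rw [height_eq, height_eq]
  congr 1
  · refine Eq.trans ?_
      (finprod_comp (comapPlace f) ⟨comapPlace_injective f, comapPlace_surjective f⟩)
    exact finprod_congr fun w => localHeight_localAutGL f w e _
  · let E : InfinitePlace L ≃ InfinitePlace L :=
      { toFun := fun w => w.comap (f : L →+* L)
        invFun := fun w => w.comap (f.symm : L →+* L)
        left_inv := fun w => by
          show (w.comap (f : L →+* L)).comap (f.symm : L →+* L) = w
          rw [← InfinitePlace.mk_embedding w, InfinitePlace.comap_mk, InfinitePlace.comap_mk]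
          congr 1
          ext a
          simp
        right_inv := fun w => by
          show (w.comap (f.symm : L →+* L)).comap (f : L →+* L) = w
          rw [← InfinitePlace.mk_embedding w, InfinitePlace.comap_mk, InfinitePlace.comap_mk]
          congr 1
          ext a
          simp }
    refine Eq.trans ?_ (Equiv.prod_comp E fun w => ((archForm (archRow w e) (p w)) ^ 2)⁻¹)
    refine Finset.prod_congr rfl fun w _ => ?_
    have hE : E w = InfinitePlace.mk (w.embedding.comp (f : L →+* L)) :=
      (congrArg (fun u => InfinitePlace.comap u (f : L →+* L))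
        (InfinitePlace.mk_embedding w).symm).trans (InfinitePlace.comap_mk _ _)
    rw [hE, ← archForm_coord]
    rfl

variable {K : Type} [Field K] [NumberField K] [Algebra K L] (τ : CubicAut K L) {UL : Level L}
  (hU : IsStableLevel τ.σ.toRingEquiv UL)

omit [NumberField K] in
/-- The height on the space is equivariant for the automorphism. -/
theorem spcHeight_autSpc (e : Fin 2 → L) (s : Spc UL) :
    spcHeight (fun i => τ.σ (e i)) (autSpc τ hU s) = spcHeight e s := by
  obtain ⟨ω, p⟩ := s
  induction ω using QuotientGroup.induction_on with
  | H x =>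
    show spcHeight (fun i => τ.σ (e i))
      ((((autGf τ.σ.toRingEquiv x : Gf L) : Ωf UL), autHyp τ.σ.toRingEquiv p) : Spc UL) = _
    rw [spcHeight_mk, spcHeight_mk]
    exact height_autGf_autHyp τ.σ.toRingEquiv e x p

end Fermat.Agent.ResidualThree.Orbital
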