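import Fermat.Agent.ResidualThree.Orbital.Places
import Fermat.Agent.ResidualThree.Spherical.Radial

/-!
# The statement of the twisted trace identity

The twisted diagonal of a kernel on the cubic extension has the same integral over the quotient as
the diagonal of the matching kernel on the base, once some split place forces odd valuations of
determinants and the horospherical transforms at infinity vanish near the origin.
-/

noncomputable section

open IsDedekindDomain NumberField MeasureTheory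
open scoped WithZero ENNReal

namespace Fermat.Agent.ResidualThree.Orbital

/-- The matrix is regular semisimple. -/
def IsRegular {R : Type} [CommRing R] (g : GL (Fin 2) R) : Prop :=
  (g : Matrix (Fin 2) (Fin 2) R).trace ^ 2 ≠ 4 * (g : Matrix (Fin 2) (Fin 2) R).det

variable {K L : Type} [Field K] [NumberField K] [Field L] [NumberField L] [Algebra K L]

/-- The cosets of the level at the places over `v`. -/
abbrev Ωover (UL : Level L) (v : FPlace K) : Type := ∀ w : Over L v, GLv w.1 ⧸ UL.J w.1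

section Local

variable (τ : CubicAut K L) (UL : Level L) (UK : Level K) (v : FPlace K)
  (fL : ∀ w : FPlace L, GLv w → ℂ) (fK : GLv v → ℂ)

/-- The twisted term of a coset. -/
def twistTerm (δ : Gover L v) (X : Ωover UL v) : ℂ :=
  ∏ w : Over L v, fL w.1 (((X w).out)⁻¹ * δ w *
    autOver τ.σ (fun w' => (X w').out : Gover L v) w)

/-- The term of a coset of the base. -/
def baseTerm (γ : GLv v) (y : GLv v ⧸ UK.J v) : ℂ := fK (y.out⁻¹ * γ * y.out)

open Classical in
/-- An equivariant projection of the cosets of the base with finite fibres on the support. -/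
structure LocalProj (γ : GLv v) (S : Set (GLv v)) : Type where
  /-- the projection -/
  proj : GLv v ⧸ UK.J v → Finset (GLv v ⧸ UK.J v)
  smul : ∀ g ∈ S, ∀ y, proj (g • y) = (proj y).image fun q => g • q
  nonempty : ∀ y, baseTerm UK v fK γ y ≠ 0 → (proj y).Nonempty
  finite : ∀ q, {y | baseTerm UK v fK γ y ≠ 0 ∧ q ∈ proj y}.Finite

open Classical in
/-- The fibre sum of a projection. -/
def LocalProj.push {γ : GLv v} {S : Set (GLv v)} (P : LocalProj UK v fK γ S)
    (q : GLv v ⧸ UK.J v) : ℂ :=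
  ∑ᶠ y ∈ {y | q ∈ P.proj y}, baseTerm UK v fK γ y / ((P.proj y).card : ℂ)

open Classical in
/-- Equivariant projections of twisted cosets and of cosets of the base with equal fibre sums. -/
structure LocalTransfer (δ : Gover L v) (γ : GLv v) : Type
    extends LocalProj UK v fK γ {g | Commute g γ} where
  /-- the projection of the twisted cosets -/
  projL : Ωover UL v → Finset (GLv v ⧸ UK.J v)
  smulL : ∀ g, Commute g γ → ∀ X : Ωover UL v,
    projL (fun w => baseOver L v g w • X w) = (projL X).image fun q => g • q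
  nonemptyL : ∀ X, twistTerm τ UL v fL δ X ≠ 0 → (projL X).Nonempty
  finiteL : ∀ q, {X | twistTerm τ UL v fL δ X ≠ 0 ∧ q ∈ projL X}.Finite
  sum_eq : ∀ q, ∑ᶠ X ∈ {X | q ∈ projL X}, twistTerm τ UL v fL δ X / ((projL X).card : ℂ) =
    toLocalProj.push UK v fK q

/-- Matching at a place: norms transfer, the others have vanishing fibre sums. -/
def LocalMatch : Prop :=
  ∀ γ : GLv v, IsRegular γ →
    (∀ δ : Gover L v, IsLocalNorm τ.σ δ γ →
      ((γ : Matrix (Fin 2) (Fin 2) (v.adicCompletion K)).trace ≠ 0 ∨ δ = baseOver L v γ) →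
      Nonempty (LocalTransfer τ UL UK v fL fK δ γ)) ∧
    ((¬ ∃ δ : Gover L v, IsLocalNorm τ.σ δ γ) →
      (γ : Matrix (Fin 2) (Fin 2) (v.adicCompletion K)).trace ≠ 0 →
      ∃ P : LocalProj UK v fK γ {g | Commute g γ}, ∀ q, P.push UK v fK q = 0)

end Local

/-- A regular element of non-zero trace which is everywhere a local norm is a norm. -/
def NormPrinciple (τ : CubicAut K L) : Prop :=
  ∀ γ : GL (Fin 2) K, IsRegular γ → (γ : Matrix (Fin 2) (Fin 2) K).trace ≠ 0 →
    (∀ v : FPlace K, ∃ δ : Gover L v, IsLocalNorm τ.σ δ (toLocal v γ)) →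
    ∃ (δ : GL (Fin 2) L) (c : L),
      τ.norm (δ : Matrix (Fin 2) (Fin 2) L) =
        c • (γ : Matrix (Fin 2) (Fin 2) K).map (algebraMap K L)

open Classical in
/-- The indicator of the maximal subgroup. -/
def unitFun {F : Type} [Field F] [NumberField F] (v : FPlace F) (g : GLv v) : ℂ :=
  if g ∈ maxSubgroup v then 1 else 0

/-- Matching families of local functions with odd valuations of determinants at `r`. -/
structure FinPair (τ : CubicAut K L) (UL : Level L) (UK : Level K) (r : FPlace K) : Type where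
  /-- the functions on the extension -/
  fL : ∀ w : FPlace L, GLv w → ℂ
  /-- the functions on the base -/
  fK : ∀ v : FPlace K, GLv v → ℂ
  biL : ∀ w, ∀ j₁ ∈ UL.J w, ∀ j₂ ∈ UL.J w, ∀ g, fL w (j₁ * g * j₂) = fL w g
  biK : ∀ v, ∀ j₁ ∈ UK.J v, ∀ j₂ ∈ UK.J v, ∀ g, fK v (j₁ * g * j₂) = fK v g
  finL : ∀ w, {q : GLv w ⧸ UL.J w | fL w q.out ≠ 0}.Finite
  finK : ∀ v, {q : GLv v ⧸ UK.J v | fK v q.out ≠ 0}.Finite
  unitL : ∀ᶠ w in Filter.cofinite, UL.J w = maxSubgroup w ∧ fL w = unitFun w
  unitK : ∀ᶠ v in Filter.cofinite, UK.J v = maxSubgroup v ∧ fK v = unitFun v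
  matching : ∀ v, LocalMatch τ UL UK v fL (fK v)
  oddL : ∀ g : Gover L r, (∀ w, fL w.1 (g w) ≠ 0) →
    Odd (∑ w : Over L r, WithZero.log
      (valv w.1 (g w : Matrix (Fin 2) (Fin 2) (w.1.adicCompletion L)).det))
  oddK : ∀ g : GLv r, fK r g ≠ 0 →
    Odd (WithZero.log (valv r (g : Matrix (Fin 2) (Fin 2) (r.adicCompletion K)).det))

/-- The product of local functions. -/
def globalFun {F : Type} [Field F] [NumberField F] (f : ∀ v : FPlace F, GLv v → ℂ) (x : Gf F) :
    ℂ :=
  ∏ᶠ v, f v ((x : ∀ v, GLv v) v)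

/-- The kernel of a product of local functions and radial functions. -/
def prodKernel {F : Type} [Field F] [NumberField F] {U : Level F}
    (f : ∀ v : FPlace F, GLv v → ℂ) (k : InfinitePlace F → ℝ → ℂ) (s t : Spc U) : ℂ :=
  globalFun f (s.1.out⁻¹ * t.1.out) * ∏ w, k w (H3.coshDist (s.2 w) (t.2 w))

/-- The automorphism on the space. -/
def autSpc (τ : CubicAut K L) {UL : Level L} (hU : IsStableLevel τ.σ.toRingEquiv UL) (s : Spc UL) :
    Spc UL :=
  (autΩ τ.σ.toRingEquiv UL hU s.1, autHyp τ.σ.toRingEquiv s.2)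

/-- All the heights are at most `T`. -/
def truncated {F : Type} [Field F] [NumberField F] (U : Level F) (T : ℝ) : Set (Spc U) :=
  {s | ∀ e : Fin 2 → F, e ≠ 0 → height e s.1.out s.2 ≤ T}

/-- The radial function of the base is the composition along the three places. -/
def IsArchTransfer (τ : CubicAut K L) (kL : InfinitePlace L → ℝ → ℂ) (kK : ℝ → ℂ) : Prop :=
  ∃ φ : L →+* ℂ, kK = H3.compKernel
    (H3.compKernel (kL (InfinitePlace.mk φ))
      (kL (InfinitePlace.mk (φ.comp (τ.σ.toRingEquiv : L →+* L)))))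
    (kL (InfinitePlace.mk
      ((φ.comp (τ.σ.toRingEquiv : L →+* L)).comp (τ.σ.toRingEquiv : L →+* L))))

/-- The twisted trace identity. The bound `C` depends only on the finite parts. -/
def TwistedTraceIdentity (τ : CubicAut K L) (UL : Level L) (UK : Level K)
    (hU : IsStableLevel τ.σ.toRingEquiv UL) : Prop :=
  NormPrinciple τ → ∀ r : FPlace K, Nat.card (Over L r) = 3 →
    ∀ (ι : Type) [Fintype ι] (P : ι → FinPair τ UL UK r), ∃ C : ℝ,
      ∀ (c : ι → ℂ) (kL : ι → InfinitePlace L → ℝ → ℂ) (kK : ι → ℝ → ℂ),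
        (∀ i w, H3.IsKernel (kL i w)) → (∀ i, IsArchTransfer τ (kL i) (kK i)) →
        (∀ i s, |s| ≤ C → abelTransform (kK i) s = 0) →
        ∀ (wL : QuotientWeight UL) (wK : QuotientWeight UK),
          (∀ i T, ∫⁻ s in truncated UL T, (wL.w s : ℝ≥0∞) * ∑' δ : PGLF L,
            ‖prodKernel (P i).fL (kL i) s (δ • autSpc τ hU s)‖ₑ ∂volSpc UL ≠ ⊤) →
          (∀ i T, ∫⁻ s in truncated UK T, (wK.w s : ℝ≥0∞) * ∑' γ : PGLF K,
            ‖prodKernel (P i).fK (fun _ => kK i) s (γ • s)‖ₑ ∂volSpc UK ≠ ⊤) →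
          Integrable (fun s => (wL.w s : ℂ) * ∑' δ : PGLF L,
            ∑ i, c i * prodKernel (P i).fL (kL i) s (δ • autSpc τ hU s)) (volSpc UL) →
          Integrable (fun s => (wK.w s : ℂ) * ∑' γ : PGLF K,
            ∑ i, c i * prodKernel (P i).fK (fun _ => kK i) s (γ • s)) (volSpc UK) →
          ∫ s, (wL.w s : ℂ) * ∑' δ : PGLF L,
              ∑ i, c i * prodKernel (P i).fL (kL i) s (δ • autSpc τ hU s) ∂volSpc UL =
            ∫ s, (wK.w s : ℂ) * ∑' γ : PGLF K,
              ∑ i, c i * prodKernel (P i).fK (fun _ => kK i) s (γ • s) ∂volSpc UK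

end Fermat.Agent.ResidualThree.Orbital
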