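import Fermat.Agent.ResidualThree.Automorphic.SiegelFinite
import Fermat.Agent.ResidualThree.Orbital.Target

/-!
# Products of local functions; the size of a finite adelic matrix; heights along kernels

A family of local functions gives a function on the finite adelic group with finite support
modulo the level. The size of a finite adelic matrix bounds the change of heights along kernels,
which confines the points where a kernel is non-zero.
-/

noncomputable section

open IsDedekindDomain NumberField Matrix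
open scoped WithZero

namespace Fermat.Agent.ResidualThree.Orbital

variable {F : Type} [Field F] [NumberField F]

/-! ### Cosets place by place -/

/-- The component of a coset at a place. -/
def qAt {U : Level F} (q : Ωf U) (v : FPlace F) : GLv v ⧸ U.J v :=
  QuotientGroup.mk ((q.out : ∀ v, GLv v) v)

theorem qAt_mk {U : Level F} (x : Gf F) (v : FPlace F) :
    qAt ((x : Ωf U)) v = QuotientGroup.mk ((x : ∀ v, GLv v) v) := by
  obtain ⟨j, hj⟩ := QuotientGroup.mk_out_eq_mul U.group x
  rw [qAt, hj]
  exact QuotientGroup.mk_mul_of_mem _ (j.2 v)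

theorem qAt_ext {U : Level F} {q q' : Ωf U} (h : ∀ v, qAt q v = qAt q' v) : q = q' := by
  induction q using QuotientGroup.induction_on with
  | H x =>
    induction q' using QuotientGroup.induction_on with
    | H x' =>
      rw [QuotientGroup.eq]
      intro v
      have := h v
      rw [qAt_mk, qAt_mk, QuotientGroup.eq] at this
      exact this

theorem qAt_smul {U : Level F} (g : GL (Fin 2) F) (q : Ωf U) (v : FPlace F) :
    qAt (g • q) v = toLocal v g • qAt q v := by
  induction q using QuotientGroup.induction_on with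
  | H x =>
    show qAt ((diag F g * x : Gf F) : Ωf U) v = _
    rw [qAt_mk, qAt_mk]
    rfl

theorem eventually_qAt_eq_one (U : Level F) (q : Ωf U) :
    ∀ᶠ v in Filter.cofinite, qAt q v = QuotientGroup.mk 1 := by
  filter_upwards [q.out.2, U.eventually_max] with v h1 h2
  rw [qAt, QuotientGroup.eq, mul_one, inv_mem_iff, h2]
  exact h1

/-! ### Products of local functions -/

/-- Local functions bi-invariant under the level and almost everywhere the unit. -/
structure IsLocalFamily (U : Level F) (f : ∀ v : FPlace F, GLv v → ℂ) : Prop where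
  bi : ∀ v, ∀ j₁ ∈ U.J v, ∀ j₂ ∈ U.J v, ∀ g, f v (j₁ * g * j₂) = f v g
  fin : ∀ v, {q : GLv v ⧸ U.J v | f v q.out ≠ 0}.Finite
  unit : ∀ᶠ v in Filter.cofinite, U.J v = maxSubgroup v ∧ f v = unitFun v

variable {U : Level F} {f : ∀ v : FPlace F, GLv v → ℂ}

theorem IsLocalFamily.hasFiniteMulSupport (hf : IsLocalFamily U f) (x : Gf F) :
    (fun v => f v ((x : ∀ v, GLv v) v)).HasFiniteMulSupport :=
  Filter.eventually_cofinite.mp ((hf.unit.and x.2).mono fun v h => by
    show f v _ = 1
    rw [h.1.2, unitFun, if_pos h.2])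

theorem IsLocalFamily.globalFun_ne_zero (hf : IsLocalFamily U f) {x : Gf F}
    (h : globalFun f x ≠ 0) (v : FPlace F) : f v ((x : ∀ v, GLv v) v) ≠ 0 := fun h0 =>
  h (finprod_eq_zero _ v h0 (hf.hasFiniteMulSupport x))

theorem IsLocalFamily.globalFun_biinv (hf : IsLocalFamily U f) {j₁ j₂ : Gf F} (h₁ : j₁ ∈ U.group)
    (h₂ : j₂ ∈ U.group) (x : Gf F) : globalFun f (j₁ * x * j₂) = globalFun f x :=
  finprod_congr fun v => hf.bi v _ (h₁ v) _ (h₂ v) _

theorem IsLocalFamily.apply_out (hf : IsLocalFamily U f) (v : FPlace F) (g : GLv v) :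
    f v (QuotientGroup.mk g : GLv v ⧸ U.J v).out = f v g := by
  obtain ⟨j, hj⟩ := QuotientGroup.mk_out_eq_mul (U.J v) g
  rw [hj]
  simpa using hf.bi v 1 (one_mem _) _ j.2 g

theorem IsLocalFamily.finite_support (hf : IsLocalFamily U f) :
    {q : Ωf U | globalFun f q.out ≠ 0}.Finite := by
  classical
  set B := {v : FPlace F | ¬ (U.J v = maxSubgroup v ∧ f v = unitFun v)} with hB
  have hBf : B.Finite := Filter.eventually_cofinite.mp hf.unit
  have := hBf.to_subtype
  have : ∀ v : B, Finite {q : GLv v.1 ⧸ U.J v.1 | f v.1 q.out ≠ 0} := fun v =>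
    (hf.fin v.1).to_subtype
  let r : {q : Ωf U | globalFun f q.out ≠ 0} →
      ∀ v : B, {q : GLv v.1 ⧸ U.J v.1 | f v.1 q.out ≠ 0} := fun q v =>
    ⟨qAt q.1 v.1, by
      show f v.1 (qAt q.1 v.1).out ≠ 0
      rw [qAt, hf.apply_out]
      exact hf.globalFun_ne_zero q.2 v.1⟩
  refine Set.finite_coe_iff.mp (Finite.of_injective r fun q q' h =>
    Subtype.ext (qAt_ext fun v => ?_))
  by_cases hv : v ∈ B
  · exact congrArg Subtype.val (congrFun h ⟨v, hv⟩)
  · simp only [hB, Set.mem_ofPred_eq, not_not] at hv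
    have key : ∀ p : Ωf U, globalFun f p.out ≠ 0 → qAt p v = QuotientGroup.mk 1 := fun p hp => by
      have h1 := hf.globalFun_ne_zero hp v
      rw [hv.2, unitFun] at h1
      rw [qAt, QuotientGroup.eq, mul_one, inv_mem_iff, hv.1]
      by_contra hc
      exact h1 (if_neg hc)
    rw [key _ q.2, key _ q'.2]

/-! ### Size of a matrix -/

/-- The largest norm of an entry. -/
def entryMax {v : FPlace F} (A : Matrix (Fin 2) (Fin 2) (v.adicCompletion F)) : ℝ :=
  max (max ‖A 0 0‖ ‖A 0 1‖) (max ‖A 1 0‖ ‖A 1 1‖)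

theorem norm_le_entryMax {v : FPlace F} (A : Matrix (Fin 2) (Fin 2) (v.adicCompletion F))
    (i j : Fin 2) : ‖A i j‖ ≤ entryMax A := by
  fin_cases i <;> fin_cases j <;> simp [entryMax]

theorem entryMax_nonneg {v : FPlace F} (A : Matrix (Fin 2) (Fin 2) (v.adicCompletion F)) :
    0 ≤ entryMax A := (norm_nonneg _).trans (norm_le_entryMax A 0 0)

theorem entryMax_adjugate {v : FPlace F} (A : Matrix (Fin 2) (Fin 2) (v.adicCompletion F)) :
    entryMax A.adjugate = entryMax A := by
  simp only [entryMax, Matrix.adjugate_fin_two, Matrix.of_apply, Matrix.cons_val',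
    Matrix.cons_val_zero, Matrix.cons_val_one, Matrix.empty_val', Matrix.cons_val_fin_one, norm_neg]
  refine le_antisymm ?_ ?_ <;> refine max_le (max_le ?_ ?_) (max_le ?_ ?_) <;>
    first
      | exact (le_max_left _ _).trans (le_max_left _ _)
      | exact (le_max_right _ _).trans (le_max_left _ _)
      | exact (le_max_left _ _).trans (le_max_right _ _)
      | exact (le_max_right _ _).trans (le_max_right _ _)

theorem entryMax_smul {v : FPlace F} (s : v.adicCompletion F)
    (A : Matrix (Fin 2) (Fin 2) (v.adicCompletion F)) :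
    entryMax (s • A) = ‖s‖ * entryMax A := by
  simp only [entryMax, Matrix.smul_apply, smul_eq_mul, norm_mul,
    mul_max_of_nonneg _ _ (norm_nonneg s)]

theorem entryMax_mul {v : FPlace F} (A B : Matrix (Fin 2) (Fin 2) (v.adicCompletion F)) :
    entryMax (A * B) ≤ entryMax A * entryMax B := by
  have h : ∀ i j, ‖(A * B) i j‖ ≤ entryMax A * entryMax B := fun i j => by
    rw [Matrix.mul_apply, Fin.sum_univ_two]
    refine (IsUltrametricDist.norm_add_le_max _ _).trans (max_le ?_ ?_) <;> rw [norm_mul] <;>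
      exact mul_le_mul (norm_le_entryMax A _ _) (norm_le_entryMax B _ _) (norm_nonneg _)
        (entryMax_nonneg A)
  exact max_le (max_le (h _ _) (h _ _)) (max_le (h _ _) (h _ _))

/-- The size of a matrix modulo scalars. -/
def locSize {v : FPlace F} (g : GLv v) : ℝ :=
  entryMax (g : Matrix (Fin 2) (Fin 2) (v.adicCompletion F)) ^ 2 /
    ‖(g : Matrix (Fin 2) (Fin 2) (v.adicCompletion F)).det‖

theorem one_le_locSize {v : FPlace F} (g : GLv v) : 1 ≤ locSize g := by
  set A := (g : Matrix (Fin 2) (Fin 2) (v.adicCompletion F))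
  rw [locSize, one_le_div (norm_pos_iff.mpr g.det_ne_zero), Matrix.det_fin_two, sub_eq_add_neg]
  refine (IsUltrametricDist.norm_add_le_max _ _).trans (max_le ?_ ?_) <;>
    simp only [norm_neg, norm_mul, sq] <;>
    exact mul_le_mul (norm_le_entryMax A _ _) (norm_le_entryMax A _ _) (norm_nonneg _)
      (entryMax_nonneg A)

theorem locSize_pos {v : FPlace F} (g : GLv v) : 0 < locSize g :=
  zero_lt_one.trans_le (one_le_locSize g)

theorem locSize_mul_le {v : FPlace F} (g h : GLv v) : locSize (g * h) ≤ locSize g * locSize h := by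
  rw [locSize, locSize, locSize, Units.val_mul, Matrix.det_mul, norm_mul, div_mul_div_comm,
    ← mul_pow]
  exact div_le_div_of_nonneg_right (pow_le_pow_left₀ (entryMax_nonneg _) (entryMax_mul _ _) 2)
    (mul_nonneg (norm_nonneg _) (norm_nonneg _))

theorem coe_inv_eq_smul_adjugate {v : FPlace F} (g : GLv v) :
    ((g⁻¹ : GLv v) : Matrix (Fin 2) (Fin 2) (v.adicCompletion F)) =
      ((g : Matrix (Fin 2) (Fin 2) (v.adicCompletion F)).det)⁻¹ •
        (g : Matrix (Fin 2) (Fin 2) (v.adicCompletion F)).adjugate := by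
  rw [Matrix.coe_units_inv, Matrix.inv_def, Ring.inverse_eq_inv']

theorem locSize_inv {v : FPlace F} (g : GLv v) : locSize g⁻¹ = locSize g := by
  have hd : ‖(g : Matrix (Fin 2) (Fin 2) (v.adicCompletion F)).det‖ ≠ 0 :=
    norm_ne_zero_iff.mpr g.det_ne_zero
  rw [locSize, locSize, coe_inv_eq_smul_adjugate, entryMax_smul, entryMax_adjugate,
    Matrix.det_smul, Matrix.det_adjugate, Fintype.card_fin]
  simp only [norm_mul, norm_pow, norm_inv, Nat.add_one_sub_one, pow_one]
  field_simp

theorem locSize_eq_one_of_mem_max {v : FPlace F} {k : GLv v} (hk : k ∈ maxSubgroup v) :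
    locSize k = 1 := by
  refine le_antisymm ?_ (one_le_locSize k)
  obtain ⟨s, k', hk', rfl⟩ := Tree.mul_mem_vertexSubgroup_iff.mp hk
  have hs : ‖(s : v.adicCompletion F)‖ ≠ 0 := norm_ne_zero_iff.mpr s.ne_zero
  rw [locSize, Units.val_mul, Tree.coe_scalar_eq_smul, Matrix.smul_mul, Matrix.one_mul,
    entryMax_smul, Matrix.det_smul, Fintype.card_fin, norm_mul, norm_pow, norm_det_eq_one hk',
    mul_one, mul_pow, mul_div_cancel_left₀ _ (pow_ne_zero 2 hs)]
  refine pow_le_one₀ (entryMax_nonneg _) ?_
  exact max_le (max_le (norm_apply_le_one hk' _ _) (norm_apply_le_one hk' _ _))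
    (max_le (norm_apply_le_one hk' _ _) (norm_apply_le_one hk' _ _))

theorem locSize_mul_max {v : FPlace F} (g : GLv v) {k : GLv v} (hk : k ∈ maxSubgroup v) :
    locSize (g * k) = locSize g := by
  refine le_antisymm ((locSize_mul_le g k).trans (by rw [locSize_eq_one_of_mem_max hk, mul_one])) ?_
  calc locSize g = locSize (g * k * k⁻¹) := by rw [mul_inv_cancel_right]
    _ ≤ locSize (g * k) * locSize k⁻¹ := locSize_mul_le _ _
    _ = _ := by rw [locSize_eq_one_of_mem_max (inv_mem hk), mul_one]

/-- The size of a finite adelic matrix. -/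
def gfSize (x : Gf F) : ℝ := ∏ᶠ v : FPlace F, locSize (x.1 v)

theorem hasFiniteMulSupport_locSize (x : Gf F) :
    (fun v : FPlace F => locSize (x.1 v)).HasFiniteMulSupport :=
  Filter.eventually_cofinite.mp
    (Filter.Eventually.mono x.2 fun _ h => locSize_eq_one_of_mem_max h)

theorem one_le_gfSize (x : Gf F) : 1 ≤ gfSize x :=
  finprod_induction (1 ≤ ·) le_rfl (fun _ _ => one_le_mul_of_one_le_of_one_le)
    fun _ => one_le_locSize _

theorem gfSize_mk_out (x : Gf F) : gfSize ((x : Ωf U)).out = gfSize x := by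
  obtain ⟨j, hj⟩ := QuotientGroup.mk_out_eq_mul U.group x
  rw [hj]
  exact finprod_congr fun v => locSize_mul_max _ (U.le_max v (j.2 v))

theorem gfSize_inv (x : Gf F) : gfSize x⁻¹ = gfSize x :=
  finprod_congr fun _ => locSize_inv _

theorem IsLocalFamily.exists_size_bound (hf : IsLocalFamily U f) :
    ∃ M : ℝ, 1 ≤ M ∧ ∀ x : Gf F, globalFun f x ≠ 0 → gfSize x ≤ M := by
  refine ⟨1 + ∑ q ∈ hf.finite_support.toFinset, gfSize q.out,
    le_add_of_nonneg_right (Finset.sum_nonneg fun q _ => zero_le_one.trans (one_le_gfSize _)),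
    fun x hx => ?_⟩
  have hmem : (x : Ωf U) ∈ hf.finite_support.toFinset := by
    rw [Set.Finite.mem_toFinset]
    obtain ⟨j, hj⟩ := QuotientGroup.mk_out_eq_mul U.group x
    show globalFun f _ ≠ 0
    rw [hj, ← one_mul x, hf.globalFun_biinv (one_mem _) j.2]
    exact hx
  calc gfSize x = gfSize (x : Ωf U).out := (gfSize_mk_out x).symm
    _ ≤ ∑ q ∈ hf.finite_support.toFinset, gfSize q.out :=
        Finset.single_le_sum (fun q _ => zero_le_one.trans (one_le_gfSize q.out)) hmem
    _ ≤ _ := le_add_of_nonneg_left zero_le_one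

/-! ### Heights along a kernel -/

theorem localHeight_mul_le_size {v : FPlace F} {e : Fin 2 → F} (he : e ≠ 0) (g c : GLv v) :
    localHeight v e (g * c) ≤ localHeight v e g * locSize c := by
  set G := (g : Matrix (Fin 2) (Fin 2) (v.adicCompletion F))
  set C := (c : Matrix (Fin 2) (Fin 2) (v.adicCompletion F)) with hC
  have h1 : 0 < locNorm (locRow v e ᵥ* G) := locNorm_locRow_mul_pos v he g
  have h2 : 0 < locNorm (locRow v e ᵥ* (G * C)) := locNorm_locRow_mul_pos v he (g * c)
  have hd : 0 < ‖C.det‖ := norm_pos_iff.mpr c.det_ne_zero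
  have key : locNorm (locRow v e ᵥ* G) ≤
      locNorm (locRow v e ᵥ* (G * C)) * (entryMax C / ‖C.det‖) := by
    calc locNorm (locRow v e ᵥ* G) = locNorm ((locRow v e ᵥ* (G * C)) ᵥ*
          ((c⁻¹ : GLv v) : Matrix (Fin 2) (Fin 2) (v.adicCompletion F))) := by
          rw [Matrix.vecMul_vecMul, Matrix.mul_assoc, hC, ← Units.val_mul, mul_inv_cancel,
            Units.val_one, Matrix.mul_one]
      _ ≤ _ := by
          refine locNorm_vecMul_le _ _ fun i j => ?_
          rw [coe_inv_eq_smul_adjugate, Matrix.smul_apply, smul_eq_mul, norm_mul, norm_inv,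
            inv_mul_eq_div]
          exact div_le_div_of_nonneg_right
            ((norm_le_entryMax _ i j).trans (entryMax_adjugate C).le) (norm_nonneg _)
  rw [localHeight_eq, localHeight_eq, Units.val_mul, Matrix.det_mul, norm_mul, locSize, ← hC,
    div_mul_div_comm, div_le_div_iff₀ (pow_pos h2 2) (mul_pos (pow_pos h1 2) hd)]
  calc ‖G.det‖ * ‖C.det‖ * (locNorm (locRow v e ᵥ* G) ^ 2 * ‖C.det‖)
      ≤ ‖G.det‖ * ‖C.det‖ *
          ((locNorm (locRow v e ᵥ* (G * C)) * (entryMax C / ‖C.det‖)) ^ 2 * ‖C.det‖) := by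
        gcongr
    _ = _ := by
        field_simp
        simp only [G]; ring

theorem archForm_le (u : Fin 2 → ℂ) (p q : H3) :
    archForm u q ≤ 2 * H3.coshDist p q * archForm u p := by
  have hg : H3.upTo p • H3.base = p := H3.upTo_smul_base p
  obtain ⟨r, rfl⟩ : ∃ r, H3.upTo p • r = q := ⟨(H3.upTo p)⁻¹ • q, smul_inv_smul _ _⟩
  have hd : 0 < ‖(H3.upTo p : Matrix (Fin 2) (Fin 2) ℂ).det‖ :=
    norm_pos_iff.mpr (H3.upTo p).det_ne_zero
  have e1 := archForm_smul (H3.upTo p) u r
  have e2 := archForm_smul (H3.upTo p) u H3.base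
  rw [hg] at e2
  have e3 : H3.coshDist p (H3.upTo p • r) = H3.coshDist H3.base r := by
    conv_lhs => arg 1; rw [← hg]
    exact H3.coshDist_smul _ _ _
  rw [e3]
  refine le_of_mul_le_mul_right ?_ hd
  rw [e1, mul_assoc _ (archForm u p), e2]
  generalize u ᵥ* (H3.upTo p : Matrix (Fin 2) (Fin 2) ℂ) = u'
  have hy := r.y_pos
  simp only [archForm, H3.coshDist_base]
  simp only [H3.base, mul_zero, zero_add, one_pow, mul_one, div_one]
  have h := norm_add_le (u' 0 * r.z) (u' 1)
  rw [norm_mul] at h
  rw [div_le_iff₀ hy]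
  simp only [Complex.normSq_eq_norm_sq]
  field_simp
  nlinarith [pow_le_pow_left₀ (norm_nonneg _) h 2, sq_nonneg (‖u' 0‖ - ‖r.z‖ * ‖u' 1‖),
    mul_nonneg (sq_nonneg ‖u' 1‖) (sq_nonneg r.y), sq_nonneg ‖u' 0‖]

theorem height_le_of_near {e : Fin 2 → F} (he : e ≠ 0) {x c : Gf F} {p q : Hyp F} {M R : ℝ}
    (hM : gfSize c ≤ M) (hR : ∀ w, H3.coshDist (p w) (q w) ≤ R) :
    height e (x * c) q ≤ M * (2 * R) ^ (2 * Fintype.card (InfinitePlace F)) * height e x p := by
  rw [height_eq, height_eq]
  have hM0 : 0 ≤ M := zero_le_one.trans ((one_le_gfSize c).trans hM)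
  have h1 : ∏ᶠ v, localHeight v e ((x * c : Gf F).1 v) ≤
      M * ∏ᶠ v, localHeight v e (x.1 v) := by
    have f := (hasFiniteMulSupport_localHeight he x).union
      ((hasFiniteMulSupport_localHeight he (x * c)).union (hasFiniteMulSupport_locSize c))
    calc ∏ᶠ v, localHeight v e ((x * c : Gf F).1 v)
        ≤ ∏ᶠ v, localHeight v e (x.1 v) * locSize (c.1 v) := by
          rw [finprod_eq_prod_of_mulSupport_subset _ (s := f.toFinset) ?_,
            finprod_eq_prod_of_mulSupport_subset _ (s := f.toFinset) ?_]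
          · exact Finset.prod_le_prod (fun v _ => (localHeight_pos v he _).le)
              fun v _ => localHeight_mul_le_size he _ _
          all_goals
            rw [Set.Finite.coe_toFinset]
            intro v hv
            by_contra hc
            simp only [Set.mem_union, Function.mem_mulSupport, not_or, not_not] at hc
            exact hv (by first | exact hc.2.1 | simp [hc.1, hc.2.2])
      _ = (∏ᶠ v, localHeight v e (x.1 v)) * gfSize c :=
          finprod_mul_distrib (hasFiniteMulSupport_localHeight he x) (hasFiniteMulSupport_locSize c)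
      _ ≤ _ := by
          rw [mul_comm]
          exact mul_le_mul_of_nonneg_right hM (finprod_nonneg fun v => (localHeight_pos v he _).le)
  have h2 : ∀ w : InfinitePlace F, ((archForm (archRow w e) (q w)) ^ 2)⁻¹ ≤
      (2 * R) ^ 2 * ((archForm (archRow w e) (p w)) ^ 2)⁻¹ := fun w => by
    have hp := archForm_pos (archRow_ne_zero w he) (p w)
    have hq := archForm_pos (archRow_ne_zero w he) (q w)
    have h3 : archForm (archRow w e) (p w) ≤ 2 * R * archForm (archRow w e) (q w) := by
      refine (archForm_le _ (q w) (p w)).trans ?_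
      rw [H3.coshDist_comm]
      gcongr
      exact hR w
    rw [← div_eq_mul_inv, inv_le_iff_one_le_mul₀ (by positivity), div_mul_eq_mul_div,
      one_le_div (by positivity), ← mul_pow]
    exact pow_le_pow_left₀ hp.le h3 2
  calc (∏ᶠ v, localHeight v e ((x * c : Gf F).1 v)) *
        ∏ w : InfinitePlace F, ((archForm (archRow w e) (q w)) ^ 2)⁻¹
      ≤ (M * ∏ᶠ v, localHeight v e (x.1 v)) *
          ∏ w : InfinitePlace F, ((2 * R) ^ 2 * ((archForm (archRow w e) (p w)) ^ 2)⁻¹) := by
        refine mul_le_mul h1 (Finset.prod_le_prod (fun w _ => by positivity) fun w _ => h2 w)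
          (Finset.prod_nonneg fun w _ => by positivity) ?_
        exact mul_nonneg hM0 (finprod_nonneg fun v => (localHeight_pos v he _).le)
    _ = _ := by
        rw [Finset.prod_mul_distrib, Finset.prod_const, Finset.card_univ, ← pow_mul]
        ring

end Fermat.Agent.ResidualThree.Orbital
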