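import Mathlib

/-!
# Weights, independence, and the decomposition of a periodised sum into orbits

`G` acts on a countable index set `D` and preserves a measure on `X`; `F d x` is equivariant.
The integral of `w x * ∑ d, F d x` against a weight `w` is the sum over the orbits in `D` of the
integrals of `F d₀` against a weight for the stabiliser of `d₀`.
-/

noncomputable section

open MeasureTheory MulAction Filter
open scoped ENNReal

namespace Fermat.Agent.ResidualThree.Orbital

variable {G X : Type*} [Group G] [MeasurableSpace X] [MulAction G X] [MeasurableConstSMul G X]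
variable (μ : Measure X) [SMulInvariantMeasure G X μ]

/-- A weight for `H` on the set `S`. -/
structure IsWeight (H : Subgroup G) (W : X → ℝ≥0∞) (S : Set X) : Prop where
  measurable : Measurable W
  sum_eq : ∀ᵐ x ∂μ, x ∈ S → ∑' h : H, W (h • x) = 1

variable {μ}

omit [MeasurableConstSMul G X] [SMulInvariantMeasure G X μ] in
theorem IsWeight.mono {H : Subgroup G} {W : X → ℝ≥0∞} {S T : Set X} (h : IsWeight μ H W S)
    (hTS : T ⊆ S) : IsWeight μ H W T :=
  ⟨h.measurable, h.sum_eq.mono fun _ hx hT => hx (hTS hT)⟩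

omit [MeasurableConstSMul G X] [SMulInvariantMeasure G X μ] in
theorem IsWeight.le_one {H : Subgroup G} {W : X → ℝ≥0∞} {S : Set X} (h : IsWeight μ H W S) :
    ∀ᵐ x ∂μ, x ∈ S → W x ≤ 1 := by
  filter_upwards [h.sum_eq] with x hx hS
  rw [← hx hS]
  simpa using ENNReal.le_tsum (f := fun k : H => W (k • x)) 1

theorem norm_integral_le_toReal {f : X → ℂ} (h : ∫⁻ x, ‖f x‖ₑ ∂μ ≠ ∞) :
    ‖∫ x, f x ∂μ‖ ≤ (∫⁻ x, ‖f x‖ₑ ∂μ).toReal := by
  rw [← toReal_enorm]
  exact ENNReal.toReal_mono h (enorm_integral_le_lintegral_enorm f)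

/-- The bijection `(cH, h) ↦ c.out * h` of `(G ⧸ H) × H` with `G`. -/
def cosetEquiv (H : Subgroup G) : (G ⧸ H) × H ≃ G :=
  Equiv.ofBijective (fun p => p.1.out * (p.2 : G))
    ⟨fun p q h => by
      have h1 : p.1 = q.1 := by
        have := congrArg (QuotientGroup.mk : G → G ⧸ H) h
        simpa [QuotientGroup.mk_mul_of_mem, p.2.2, q.2.2] using this
      refine Prod.ext h1 (Subtype.ext ?_)
      simpa [h1] using h,
    fun g => ⟨((g : G ⧸ H), ⟨(g : G ⧸ H).out⁻¹ * g, QuotientGroup.eq.1 (QuotientGroup.out_eq' _)⟩),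
      mul_inv_cancel_left _ _⟩⟩

theorem lintegral_comp_smul (g : G) (f : X → ℝ≥0∞) (hf : Measurable f) :
    ∫⁻ x, f (g • x) ∂μ = ∫⁻ x, f x ∂μ :=
  (measurePreserving_smul g μ).lintegral_comp hf

theorem integral_comp_smul (g : G) (f : X → ℂ) :
    ∫ x, f (g • x) ∂μ = ∫ x, f x ∂μ :=
  (measurePreserving_smul g μ).integral_comp
    (MeasurableEquiv.smul g).measurableEmbedding f

/-- Integrals of invariant functions do not depend on the weight. -/
theorem lintegral_weight_congr {H : Subgroup G} [Countable H] {W W' f : X → ℝ≥0∞}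
    (hf : Measurable f) (hinv : ∀ (h : H) x, f (h • x) = f x)
    (hW : IsWeight μ H W {x | f x ≠ 0}) (hW' : IsWeight μ H W' {x | f x ≠ 0}) :
    ∫⁻ x, W x * f x ∂μ = ∫⁻ x, W' x * f x ∂μ := by
  have hm : ∀ {U : X → ℝ≥0∞}, Measurable U → ∀ h : H, Measurable fun x => U (h • x) :=
    fun hU h => hU.comp (measurable_const_smul (h : G))
  have key : ∀ {U U' : X → ℝ≥0∞}, IsWeight μ H U' {x | f x ≠ 0} → Measurable U →
      ∫⁻ x, U x * f x ∂μ = ∑' h : H, ∫⁻ x, U x * f x * U' (h • x) ∂μ := by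
    intro U U' hU' hU
    have hm3 : ∀ h : H, Measurable fun x => U x * f x * U' (h • x) := fun h =>
      (hU.mul hf).mul (hm hU'.measurable h)
    rw [← lintegral_tsum (fun h => (hm3 h).aemeasurable)]
    refine lintegral_congr_ae ?_
    filter_upwards [hU'.sum_eq] with x hx
    rw [ENNReal.tsum_mul_left]
    by_cases h0 : f x = 0
    · simp [h0]
    · rw [hx h0, mul_one]
  rw [key hW' hW.measurable, key hW hW'.measurable, ← (Equiv.inv H).tsum_eq]
  refine tsum_congr fun h => ?_
  have hm4 : Measurable fun x => W x * f x * W' (h⁻¹ • x) :=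
    (hW.measurable.mul hf).mul (hm hW'.measurable _)
  simp only [Equiv.inv_apply]
  rw [← lintegral_comp_smul (h : G) _ hm4]
  refine lintegral_congr fun x => ?_
  rw [show ((h : G) • x) = h • x from rfl, inv_smul_smul, hinv]
  ring

omit [SMulInvariantMeasure G X μ] in
/-- A complex integral against a weight, as a sum of translates. -/
theorem integral_weight_expand {H : Subgroup G} [Countable H] {W W' : X → ℝ≥0∞} {f : X → ℂ}
    (hf : Measurable f) (hW : IsWeight μ H W {x | f x ≠ 0}) (hW' : IsWeight μ H W' {x | f x ≠ 0})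
    (hfin : ∫⁻ x, W x * ‖f x‖ₑ ∂μ ≠ ∞) :
    ∫ x, ((W x).toReal : ℂ) * f x ∂μ =
      ∑' h : H, ∫ x, ((W x).toReal : ℂ) * f x * ((W' (h • x)).toReal : ℂ) ∂μ := by
  have hmeas : ∀ h : H, Measurable fun x => ((W x).toReal : ℂ) * f x * ((W' (h • x)).toReal : ℂ) :=
    fun h => ((Complex.measurable_ofReal.comp hW.measurable.ennreal_toReal).mul hf).mul
      (Complex.measurable_ofReal.comp
        ((hW'.measurable.comp (measurable_const_smul (h : G))).ennreal_toReal))
  rw [← integral_tsum (fun h => (hmeas h).aestronglyMeasurable)]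
  · refine integral_congr_ae ?_
    filter_upwards [hW'.sum_eq] with x hx
    by_cases h0 : f x = 0
    · simp [h0]
    · rw [tsum_mul_left, ← Complex.ofReal_tsum,
        ← ENNReal.tsum_toReal_eq (fun h => ne_top_of_le_ne_top ENNReal.one_ne_top
          (hx h0 ▸ ENNReal.le_tsum h)), hx h0]
      simp
  · refine ne_top_of_le_ne_top hfin ?_
    rw [← lintegral_tsum (fun h => (hmeas h).enorm.aemeasurable)]
    refine lintegral_mono_ae ?_
    filter_upwards [hW'.sum_eq] with x hx
    by_cases h0 : f x = 0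
    · simp [h0]
    · calc ∑' h : H, ‖((W x).toReal : ℂ) * f x * ((W' (h • x)).toReal : ℂ)‖ₑ
          ≤ ∑' h : H, W x * ‖f x‖ₑ * W' (h • x) := by
            refine ENNReal.tsum_le_tsum fun h => ?_
            rw [enorm_mul, enorm_mul]
            gcongr <;>
            · rw [← ofReal_norm, Complex.norm_real, Real.norm_of_nonneg ENNReal.toReal_nonneg]
              exact ENNReal.ofReal_toReal_le
        _ = W x * ‖f x‖ₑ := by rw [ENNReal.tsum_mul_left, hx h0, mul_one]

/-- Complex version of the independence of the weight. -/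
theorem integral_weight_congr {H : Subgroup G} [Countable H] {W W' : X → ℝ≥0∞} {f : X → ℂ}
    (hf : Measurable f) (hinv : ∀ (h : H) x, f (h • x) = f x)
    (hW : IsWeight μ H W {x | f x ≠ 0}) (hW' : IsWeight μ H W' {x | f x ≠ 0})
    (hfin : ∫⁻ x, W x * ‖f x‖ₑ ∂μ ≠ ∞) :
    ∫ x, ((W x).toReal : ℂ) * f x ∂μ = ∫ x, ((W' x).toReal : ℂ) * f x ∂μ := by
  have hfin' : ∫⁻ x, W' x * ‖f x‖ₑ ∂μ ≠ ∞ := by
    rwa [← lintegral_weight_congr hf.enorm (fun h x => by rw [hinv]) (hW.mono (by simp))
      (hW'.mono (by simp))]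
  rw [integral_weight_expand hf hW hW' hfin, integral_weight_expand hf hW' hW hfin',
    ← (Equiv.inv H).tsum_eq]
  refine tsum_congr fun h => ?_
  rw [← integral_comp_smul (h : G)]
  refine integral_congr_ae (Eventually.of_forall fun x => ?_)
  simp only [Equiv.inv_apply]
  rw [show ((h : G) • x) = h • x from rfl, inv_smul_smul, hinv]
  ring

/-- The weight induced on a stabiliser by a weight of the whole group. -/
def orbitWeight (H : Subgroup G) (w : X → ℝ≥0∞) (x : X) : ℝ≥0∞ :=
  ∑' c : G ⧸ H, w (c.out • x)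

omit [SMulInvariantMeasure G X μ] in
theorem isWeight_orbitWeight [Countable G] (H : Subgroup G) {w : X → ℝ≥0∞} (hw : Measurable w)
    (hsum : ∀ᵐ x ∂μ, ∑' g : G, w (g • x) = 1) (S : Set X) :
    IsWeight μ H (orbitWeight H w) S := by
  have : Countable (G ⧸ H) := Quotient.countable
  refine ⟨Measurable.tsum fun c => hw.comp (measurable_const_smul _), ?_⟩
  filter_upwards [hsum] with x hx _
  rw [← hx]
  show ∑' h : H, ∑' c : G ⧸ H, w (c.out • h • x) = _
  rw [ENNReal.tsum_comm, ← ENNReal.tsum_prod,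
    ← (cosetEquiv H).tsum_eq]
  refine tsum_congr fun p => ?_
  rw [show cosetEquiv H p = p.1.out * (p.2 : G) from rfl, mul_smul]
  rfl

variable {D : Type*} [MulAction G D]

omit [MeasurableSpace X] [MeasurableConstSMul G X] in
theorem smul_eq_of_stab {F : D → X → ℂ} (hF : ∀ (g : G) d x, F (g • d) (g • x) = F d x) (d : D)
    (h : stabilizer G d) (x : X) : F d (h • x) = F d x := by
  have := hF (h : G) d x
  rwa [mem_stabilizer_iff.1 h.2] at this

/-- Decomposition of a periodised integral into orbits. -/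
theorem integral_tsum_orbits [Countable G] [Countable D] {F : D → X → ℂ}
    (hFm : ∀ d, Measurable (F d)) (hF : ∀ (g : G) d x, F (g • d) (g • x) = F d x)
    {w : X → ℝ≥0∞} (hw : Measurable w) (hsum : ∀ᵐ x ∂μ, ∑' g : G, w (g • x) = 1)
    (hfin : ∫⁻ x, w x * ∑' d, ‖F d x‖ₑ ∂μ ≠ ∞) :
    HasSum (fun ω : orbitRel.Quotient G D =>
        ∫ x, ((orbitWeight (stabilizer G ω.out) w x).toReal : ℂ) * F ω.out x ∂μ)
      (∫ x, ((w x).toReal : ℂ) * ∑' d, F d x ∂μ) := by
  have hwle : ∀ᵐ x ∂μ, w x ≤ 1 := by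
    filter_upwards [hsum] with x hx
    rw [← hx]
    simpa using ENNReal.le_tsum (f := fun g : G => w (g • x)) 1
  have hmeas : ∀ d, Measurable fun x => ((w x).toReal : ℂ) * F d x := fun d =>
    (Complex.measurable_ofReal.comp hw.ennreal_toReal).mul (hFm d)
  have hnorm : ∀ d x, ‖((w x).toReal : ℂ) * F d x‖ₑ ≤ w x * ‖F d x‖ₑ := fun d x => by
    rw [enorm_mul]
    gcongr
    rw [← ofReal_norm, Complex.norm_real, Real.norm_of_nonneg ENNReal.toReal_nonneg]
    exact ENNReal.ofReal_toReal_le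
  have hfin2 : ∑' d, ∫⁻ x, ‖((w x).toReal : ℂ) * F d x‖ₑ ∂μ ≠ ∞ := by
    refine ne_top_of_le_ne_top hfin ?_
    simp_rw [← ENNReal.tsum_mul_left]
    have hm6 : ∀ d, Measurable fun x => w x * ‖F d x‖ₑ := fun d => hw.mul (hFm d).enorm
    rw [lintegral_tsum (fun d => (hm6 d).aemeasurable)]
    exact ENNReal.tsum_le_tsum fun d => lintegral_mono (hnorm d)
  have hint : ∀ d, Integrable (fun x => ((w x).toReal : ℂ) * F d x) μ := fun d =>
    ⟨(hmeas d).aestronglyMeasurable, (lt_of_le_of_lt (ENNReal.le_tsum d) hfin2.lt_top)⟩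
  have hs : Summable fun d => ∫ x, ((w x).toReal : ℂ) * F d x ∂μ := by
    refine Summable.of_norm_bounded
      (ENNReal.summable_toReal hfin2) fun d => ?_
    exact norm_integral_le_toReal (ne_top_of_le_ne_top hfin2 (ENNReal.le_tsum d))
  have htot : ∫ x, ((w x).toReal : ℂ) * ∑' d, F d x ∂μ =
      ∑' d, ∫ x, ((w x).toReal : ℂ) * F d x ∂μ := by
    simp_rw [← tsum_mul_left]
    exact integral_tsum (fun d => (hmeas d).aestronglyMeasurable) hfin2
  rw [htot]
  have : ∀ d : D, Countable (G ⧸ stabilizer G d) := fun d => Quotient.countable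
  set e := (selfEquivSigmaOrbitsQuotientStabilizer G D).symm
  refine HasSum.sigma ((e.hasSum_iff).2 hs.hasSum) fun ω => ?_
  have hout : ∀ c : G ⧸ stabilizer G ω.out, e ⟨ω, c⟩ = c.out • ω.out := fun c => by
    conv_lhs => rw [← QuotientGroup.out_eq' c]
    rfl
  have hterm : ∀ c : G ⧸ stabilizer G ω.out,
      ∫ x, ((w x).toReal : ℂ) * F (e ⟨ω, c⟩) x ∂μ =
        ∫ x, ((w (c.out • x)).toReal : ℂ) * F ω.out x ∂μ := fun c => by
    rw [hout, ← integral_comp_smul c.out]
    simp_rw [hF]
  simp only [Function.comp_apply, hterm]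
  have hm' : ∀ c : G ⧸ stabilizer G ω.out,
      Measurable fun x => ((w (c.out • x)).toReal : ℂ) * F ω.out x := fun c =>
    (Complex.measurable_ofReal.comp (hw.comp (measurable_const_smul _)).ennreal_toReal).mul (hFm _)
  have hf1 : ∑' c : G ⧸ stabilizer G ω.out,
      ∫⁻ x, ‖((w (c.out • x)).toReal : ℂ) * F ω.out x‖ₑ ∂μ ≠ ∞ := by
    refine ne_top_of_le_ne_top hfin2 (le_trans (le_of_eq (tsum_congr fun c => ?_))
      (ENNReal.tsum_comp_le_tsum_of_injective
        (e.injective.comp sigma_mk_injective) _))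
    simp only [Function.comp_apply, hout]
    rw [← lintegral_comp_smul c.out _ (hmeas _).enorm]
    simp_rw [hF]
  have hsub : Summable fun c : G ⧸ stabilizer G ω.out =>
      ∫ x, ((w (c.out • x)).toReal : ℂ) * F ω.out x ∂μ :=
    Summable.of_norm_bounded (ENNReal.summable_toReal hf1) fun c =>
      norm_integral_le_toReal (ne_top_of_le_ne_top hf1 (ENNReal.le_tsum c))
  have heq : ∫ x, ((orbitWeight (stabilizer G ω.out) w x).toReal : ℂ) * F ω.out x ∂μ =
      ∑' c : G ⧸ stabilizer G ω.out, ∫ x, ((w (c.out • x)).toReal : ℂ) * F ω.out x ∂μ := by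
    rw [← integral_tsum (fun c => (hm' c).aestronglyMeasurable) hf1]
    refine integral_congr_ae ?_
    have hall : ∀ᵐ x ∂μ, ∀ c : G ⧸ stabilizer G ω.out, w (c.out • x) ≤ 1 :=
      ae_all_iff.2 fun c => (measurePreserving_smul c.out μ).quasiMeasurePreserving.ae hwle
    filter_upwards [hall] with x hx
    rw [orbitWeight,
      ENNReal.tsum_toReal_eq (fun c => ne_top_of_le_ne_top ENNReal.one_ne_top (hx c)),
      Complex.ofReal_tsum, tsum_mul_right]
  rw [heq]
  exact hsub.hasSum

end Fermat.Agent.ResidualThree.Orbital
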