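import Mathlib

/-!
# Twisted conjugacy classes in `PGL₂` of a cubic extension

`σ` is an automorphism of order three of `L` with fixed field `K`. The norm of `δ` is
`δ * σδ * σσδ`. Twisted classes with non-scalar norm correspond to classes over `K` of norms, and
the twisted stabiliser is the centraliser of the norm.
-/

noncomputable section

open Matrix

namespace Fermat.Agent.ResidualThree.Orbital

variable {K L : Type*} [Field K] [Field L] [Algebra K L]

local notation "M2" => Matrix (Fin 2) (Fin 2)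

/-- An automorphism of order three with fixed field `K`. -/
structure CubicAut (K L : Type*) [Field K] [Field L] [Algebra K L] where
  /-- the automorphism -/
  σ : L ≃ₐ[K] L
  pow_three : ∀ x, σ (σ (σ x)) = x
  fixed : ∀ x, σ x = x → x ∈ Set.range (algebraMap K L)
  ne_id : ∃ x, σ x ≠ x

namespace CubicAut

variable (τ : CubicAut K L)

/-- The automorphism on matrices. -/
def mat : M2 L →+* M2 L := (τ.σ.toRingEquiv.toRingHom).mapMatrix

@[simp] theorem mat_apply (g : M2 L) (i j : Fin 2) : τ.mat g i j = τ.σ (g i j) := rfl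

theorem mat_pow_three (g : M2 L) : τ.mat (τ.mat (τ.mat g)) = g := by
  ext i j; simp [τ.pow_three]

theorem mat_base (g : M2 K) : τ.mat (g.map (algebraMap K L)) = g.map (algebraMap K L) := by
  ext i j; simp

theorem mat_smul (c : L) (g : M2 L) : τ.mat (c • g) = τ.σ c • τ.mat g := by
  ext i j; simp

theorem det_mat (g : M2 L) : (τ.mat g).det = τ.σ g.det :=
  (RingHom.map_det τ.σ.toRingEquiv.toRingHom g).symm

theorem exists_of_mat_eq {g : M2 L} (h : τ.mat g = g) :
    ∃ g₀ : M2 K, g₀.map (algebraMap K L) = g := by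
  choose f hf using fun i j => τ.fixed (g i j) (by
    simpa using congrArg (fun m : M2 L => m i j) h)
  exact ⟨Matrix.of f, Matrix.ext hf⟩

/-- The norm of a scalar. -/
def nm (c : L) : L := c * τ.σ c * τ.σ (τ.σ c)

/-- The norm of a matrix. -/
def norm (g : M2 L) : M2 L := g * τ.mat g * τ.mat (τ.mat g)

theorem σ_nm (c : L) : τ.σ (τ.nm c) = τ.nm c := by
  simp only [nm, map_mul, τ.pow_three]; ring

theorem nm_mul (a b : L) : τ.nm (a * b) = τ.nm a * τ.nm b := by
  simp only [nm, map_mul]; ring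

theorem nm_base {c : L} (h : τ.σ c = c) : τ.nm c = c ^ 3 := by
  simp only [nm, h]; ring

theorem norm_smul (c : L) (g : M2 L) : τ.norm (c • g) = τ.nm c • τ.norm g := by
  simp only [norm, nm, mat_smul, Matrix.smul_mul, Matrix.mul_smul, smul_smul]
  congr 1; ring

theorem det_norm (g : M2 L) : (τ.norm g).det = τ.nm g.det := by
  simp only [norm, nm, det_mul, det_mat]

theorem mul_mat_norm (g : M2 L) : g * τ.mat (τ.norm g) = τ.norm g * g := by
  simp only [norm, map_mul, τ.mat_pow_three, Matrix.mul_assoc]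

theorem norm_conj {g h : M2 L} (δ : M2 L) (hh : g * h = 1) :
    τ.norm (g * δ * τ.mat h) = g * τ.norm δ * h := by
  have h' : h * g = 1 := mul_eq_one_comm.1 hh
  have e1 : τ.mat h * τ.mat g = 1 := by rw [← map_mul, h', map_one]
  have e2 : τ.mat (τ.mat h) * τ.mat (τ.mat g) = 1 := by rw [← map_mul, e1, map_one]
  simp only [norm, map_mul, τ.mat_pow_three]
  calc g * δ * τ.mat h * (τ.mat g * τ.mat δ * τ.mat (τ.mat h)) *
        (τ.mat (τ.mat g) * τ.mat (τ.mat δ) * h)
      = g * δ * (τ.mat h * τ.mat g) * τ.mat δ * (τ.mat (τ.mat h) * τ.mat (τ.mat g)) *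
          τ.mat (τ.mat δ) * h := by simp only [Matrix.mul_assoc]
    _ = g * (δ * τ.mat δ * τ.mat (τ.mat δ)) * h := by
          rw [e1, e2]; simp only [Matrix.mul_one, Matrix.mul_assoc]

/-! ### Non-scalar matrices -/

/-- The matrix is not scalar. -/
def NonScalar {R : Type*} [CommRing R] (g : M2 R) : Prop := ∀ c : R, g ≠ c • 1

theorem nonScalar_map {g : M2 K} :
    NonScalar (g.map (algebraMap K L)) ↔ NonScalar g := by
  constructor
  · intro h c hc
    refine h (algebraMap K L c) ?_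
    rw [hc]; ext i j
    by_cases hij : i = j <;> simp [hij]
  · intro h c hc
    have h00 := congrArg (fun m : M2 L => m 0 0) hc
    simp at h00
    refine h (g 0 0) ?_
    ext i j
    apply (algebraMap K L).injective
    have := congrArg (fun m : M2 L => m i j) hc
    simp only [Matrix.map_apply] at this
    rw [this, ← h00]
    by_cases hij : i = j <;> simp [hij, h00]

/-- A non-scalar matrix has a cyclic vector, hence is conjugate to its companion matrix. -/
theorem exists_companion {R : Type*} [Field R] {g : M2 R} (hg : NonScalar g) :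
    ∃ p q : M2 R, p * q = 1 ∧ q * g * p = !![0, -g.det; 1, g.trace] := by
  obtain ⟨v0, v1, hv⟩ : ∃ v0 v1 : R,
      v0 * (g 1 0 * v0 + g 1 1 * v1) - v1 * (g 0 0 * v0 + g 0 1 * v1) ≠ 0 := by
    by_cases h10 : g 1 0 = 0
    · by_cases h01 : g 0 1 = 0
      · refine ⟨1, 1, fun h => hg (g 0 0) ?_⟩
        simp only [h10, h01, one_mul, mul_one, zero_add, add_zero, sub_eq_zero] at h
        ext i j; fin_cases i <;> fin_cases j <;> simp [h10, h01, h]
      · exact ⟨0, 1, by simpa using h01⟩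
    · exact ⟨1, 0, by simpa using h10⟩
  set p : M2 R := !![v0, g 0 0 * v0 + g 0 1 * v1; v1, g 1 0 * v0 + g 1 1 * v1] with hp
  have hdet : IsUnit p.det := by
    rw [isUnit_iff_ne_zero, hp, Matrix.det_fin_two_of]
    convert hv using 1; ring
  have hgp : g * p = p * !![0, -g.det; 1, g.trace] := by
    ext i j; fin_cases i <;> fin_cases j <;>
      simp [hp, Matrix.mul_apply, Fin.sum_univ_two, Matrix.det_fin_two,
        Matrix.trace_fin_two] <;> ring
  exact ⟨p, p⁻¹, Matrix.mul_nonsing_inv p hdet, by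
    rw [Matrix.mul_assoc, hgp, ← Matrix.mul_assoc, Matrix.nonsing_inv_mul p hdet, Matrix.one_mul]⟩

/-- Non-scalar matrices with equal trace and determinant are conjugate. -/
theorem exists_conj_of_trace_det {R : Type*} [Field R] {g g' : M2 R} (hg : NonScalar g)
    (hg' : NonScalar g') (ht : g.trace = g'.trace) (hd : g.det = g'.det) :
    ∃ h h' : M2 R, h * h' = 1 ∧ g' = h * g * h' := by
  obtain ⟨p, q, hpq, he⟩ := exists_companion hg
  obtain ⟨p', q', hpq', he'⟩ := exists_companion hg'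
  have hqp : q * p = 1 := mul_eq_one_comm.1 hpq
  refine ⟨p' * q, p * q', ?_, ?_⟩
  · rw [Matrix.mul_assoc, ← Matrix.mul_assoc q, hqp, Matrix.one_mul, hpq']
  · rw [ht, hd] at he
    have : p' * (q' * g' * p') * q' = g' := by
      simp only [← Matrix.mul_assoc, hpq', Matrix.one_mul]
      rw [Matrix.mul_assoc, hpq', Matrix.mul_one]
    rw [← this, he', ← he]
    simp only [Matrix.mul_assoc]

/-- The centraliser of a non-scalar matrix is commutative. -/
theorem commute_of_commute {R : Type*} [Field R] {g a b : M2 R} (hg : NonScalar g)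
    (ha : Commute a g) (hb : Commute b g) : Commute a b := by
  obtain ⟨p, q, hpq, he⟩ := exists_companion hg
  have hqp : q * p = 1 := mul_eq_one_comm.1 hpq
  have key : ∀ x : M2 R, Commute x g →
      q * x * p = (q * x * p) 0 0 • 1 + (q * x * p) 1 0 • !![0, -g.det; 1, g.trace] := by
    intro x hx
    have hc : q * x * p * !![0, -g.det; 1, g.trace] = !![0, -g.det; 1, g.trace] * (q * x * p) := by
      rw [← he]
      calc q * x * p * (q * g * p) = q * x * (p * q) * g * p := by simp only [Matrix.mul_assoc]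
        _ = q * g * x * p := by rw [hpq, Matrix.mul_one, Matrix.mul_assoc q x g, hx.eq,
              Matrix.mul_assoc q g x]
        _ = q * g * (p * q) * x * p := by rw [hpq, Matrix.mul_one]
        _ = q * g * p * (q * x * p) := by simp only [Matrix.mul_assoc]
    set y := q * x * p
    have e00 := congrArg (fun m : M2 R => m 0 0) hc
    have e10 := congrArg (fun m : M2 R => m 1 0) hc
    simp [Matrix.mul_apply, Fin.sum_univ_two] at e00 e10
    ext i j; fin_cases i <;> fin_cases j <;> simp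
    · linear_combination e00
    · linear_combination e10
  have ka := key a ha
  have kb := key b hb
  generalize (!![0, -g.det; 1, g.trace] : M2 R) = C at ka kb
  have hcomm : Commute (q * a * p) (q * b * p) := by
    rw [ka, kb]
    refine Commute.add_left ?_ ?_ <;> refine Commute.add_right ?_ ?_
    · exact ((Commute.refl (1 : M2 R)).smul_left _).smul_right _
    · exact ((Commute.one_left _).smul_left _).smul_right _
    · exact ((Commute.one_right _).smul_left _).smul_right _
    · exact ((Commute.refl C).smul_left _).smul_right _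
  have back : ∀ x : M2 R, p * (q * x * p) * q = x := fun x => by
    simp only [← Matrix.mul_assoc, hpq, Matrix.one_mul]
    rw [Matrix.mul_assoc, hpq, Matrix.mul_one]
  show a * b = b * a
  have h := hcomm.eq
  calc a * b = p * ((q * a * p) * (q * b * p)) * q := by
        conv_lhs => rw [← back a, ← back b]
        rw [show p * (q * a * p) * q * (p * (q * b * p) * q) =
          p * (q * a * p) * (q * p) * (q * b * p) * q by simp only [Matrix.mul_assoc], hqp,
          Matrix.mul_one]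
        simp only [Matrix.mul_assoc]
    _ = p * ((q * b * p) * (q * a * p)) * q := by rw [h]
    _ = b * a := by
        conv_rhs => rw [← back a, ← back b]
        rw [show p * (q * b * p) * q * (p * (q * a * p) * q) =
          p * (q * b * p) * (q * p) * (q * a * p) * q by simp only [Matrix.mul_assoc], hqp,
          Matrix.mul_one]
        simp only [Matrix.mul_assoc]

/-! ### Hilbert's theorem 90 -/

theorem exists_eq_mul_mat [Infinite K] {ε : M2 L} (hε : τ.norm ε = 1) :
    ∃ (a b c : L) (x : M2 L), x = a • 1 + b • ε + c • (ε * τ.mat ε) ∧ IsUnit x.det ∧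
      ε * τ.mat x = x := by
  classical
  obtain ⟨y, hy⟩ := τ.ne_id
  set V : Matrix (Fin 3) (Fin 3) L := Matrix.vandermonde ![y, τ.σ y, τ.σ (τ.σ y)] with hV
  have hy' : τ.σ (τ.σ y) ≠ y := fun h => hy (by simpa [τ.pow_three] using (congrArg τ.σ h).symm)
  have hVdet : IsUnit V.det := isUnit_iff_ne_zero.2 (Matrix.det_vandermonde_ne_zero_iff.2 (by
    intro i j hij
    fin_cases i <;> fin_cases j <;> simp at hij ⊢ <;> first
      | exact hy hij | exact hy hij.symm | exact hy' hij | exact hy' hij.symm))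
  set c : Fin 3 → L := V⁻¹ *ᵥ ![1, 0, 0]
  have hc : V *ᵥ c = ![1, 0, 0] := by
    simp only [c, Matrix.mulVec_mulVec, Matrix.mul_nonsing_inv V hVdet, Matrix.one_mulVec]
  let X : L → M2 L := fun z => z • 1 + τ.σ z • ε + τ.σ (τ.σ z) • (ε * τ.mat ε)
  let Y : Fin 3 → M2 L := fun j => X (y ^ (j : ℕ))
  let P : MvPolynomial (Fin 3) L :=
    (∑ j : Fin 3, (MvPolynomial.X j : MvPolynomial (Fin 3) L) •
        (Y j).map (MvPolynomial.C (σ := Fin 3)) : M2 (MvPolynomial (Fin 3) L)).det
  have hP : ∀ t, MvPolynomial.eval t P = (∑ j, t j • Y j).det := by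
    intro t
    show MvPolynomial.eval t (∑ j : Fin 3, (MvPolynomial.X j : MvPolynomial (Fin 3) L) •
        (Y j).map (MvPolynomial.C (σ := Fin 3)) :
      M2 (MvPolynomial (Fin 3) L)).det = _
    rw [RingHom.map_det]
    congr 1
    ext i k
    simp [Matrix.sum_apply]
  have hone : ∑ j, c j • Y j = 1 := by
    have h0 := congr_fun hc 0
    have h1 := congr_fun hc 1
    have h2 := congr_fun hc 2
    simp [hV, Matrix.mulVec, dotProduct, Matrix.vandermonde, Fin.sum_univ_three] at h0 h1 h2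
    simp only [Y, X, Fin.sum_univ_three, map_pow, smul_add, smul_smul]
    simp only [Fin.val_zero, Fin.val_one, Fin.val_two, pow_zero, pow_one, mul_one]
    calc _ = (c 0 + c 1 * y + c 2 * y ^ 2) • (1 : M2 L)
          + (c 0 + c 1 * τ.σ y + c 2 * τ.σ y ^ 2) • ε
          + (c 0 + c 1 * τ.σ (τ.σ y) + c 2 * τ.σ (τ.σ y) ^ 2) • (ε * τ.mat ε) := by module
      _ = 1 := by
        rw [show c 0 + c 1 * y + c 2 * y ^ 2 = 1 by linear_combination h0,
          show c 0 + c 1 * τ.σ y + c 2 * τ.σ y ^ 2 = 0 by linear_combination h1,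
          show c 0 + c 1 * τ.σ (τ.σ y) + c 2 * τ.σ (τ.σ y) ^ 2 = 0 by linear_combination h2]
        simp
  obtain ⟨t, ht⟩ : ∃ t : Fin 3 → K, MvPolynomial.eval (fun j => algebraMap K L (t j)) P ≠ 0 := by
    by_contra hne
    simp only [not_exists, not_not] at hne
    have hzero : P = 0 := MvPolynomial.funext_set (fun _ => Set.range (algebraMap K L))
      (fun _ => Set.infinite_range_of_injective (algebraMap K L).injective) fun x hx => by
        choose t ht using fun j => hx j trivial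
        rw [show x = fun j => algebraMap K L (t j) from funext fun j => (ht j).symm, hne, map_zero]
    have := hP c
    rw [hzero, map_zero, hone, det_one] at this
    exact zero_ne_one this
  set z : L := ∑ j, algebraMap K L (t j) * y ^ (j : ℕ) with hz
  have hX : ∑ j, algebraMap K L (t j) • Y j = X z := by
    simp only [Y, X, hz, Fin.sum_univ_three, map_add, map_mul, AlgEquiv.commutes]
    module
  refine ⟨z, τ.σ z, τ.σ (τ.σ z), X z, rfl, ?_, ?_⟩
  · rw [isUnit_iff_ne_zero, ← hX, ← hP]; exact ht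
  · simp only [X, map_add, map_mul, mat_smul, map_one, Matrix.mul_add, Matrix.mul_smul,
      τ.pow_three, Matrix.mul_one]
    rw [show ε * (τ.mat ε * τ.mat (τ.mat ε)) = 1 by rw [← Matrix.mul_assoc]; exact hε]
    abel

theorem exists_eq_div {μ : L} [Infinite K] (h : τ.nm μ = 1) : ∃ x : L, x ≠ 0 ∧ μ * τ.σ x = x := by
  obtain ⟨a, b, c, x, hx, hu, he⟩ := τ.exists_eq_mul_mat (ε := μ • 1) (by
    rw [norm_smul, h, one_smul, norm, map_one, map_one, Matrix.one_mul, Matrix.one_mul])
  have hsc : x = (a + b * μ + c * (μ * τ.σ μ)) • 1 := by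
    rw [hx, mat_smul, map_one, Matrix.smul_mul, Matrix.one_mul, smul_smul, smul_smul, smul_smul]
    module
  set x₀ := a + b * μ + c * (μ * τ.σ μ)
  refine ⟨x₀, fun h0 => ?_, ?_⟩
  · rw [hsc, h0, zero_smul] at hu
    simp at hu
  · rw [hsc, mat_smul, map_one, Matrix.smul_mul, Matrix.one_mul, smul_smul] at he
    simpa using congrArg (fun m : M2 L => m 0 0) he

/-! ### The correspondence of classes -/

theorem nm_ne_zero {c : L} (h : c ≠ 0) : τ.nm c ≠ 0 := by simp [nm, h]

/-- Every twisted class with non-scalar norm contains an element with norm defined over `K`. -/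
theorem exists_norm_base {δ : M2 L} (hδ : δ.det ≠ 0) (hns : NonScalar (τ.norm δ)) :
    ∃ (g h : M2 L) (γ : M2 K), g * h = 1 ∧ NonScalar γ ∧
      τ.norm (g * δ * τ.mat h) = γ.map (algebraMap K L) := by
  have hu : IsUnit δ.det := isUnit_iff_ne_zero.2 hδ
  have hσ : τ.mat (τ.norm δ) = δ⁻¹ * τ.norm δ * δ := by
    rw [Matrix.mul_assoc, ← τ.mul_mat_norm, ← Matrix.mul_assoc, Matrix.nonsing_inv_mul δ hu,
      Matrix.one_mul]
  obtain ⟨d, hd⟩ := τ.fixed (τ.norm δ).det (by rw [det_norm, σ_nm])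
  obtain ⟨t, ht⟩ := τ.fixed (τ.norm δ).trace (by
    have h1 := congrArg Matrix.trace hσ
    rw [Matrix.trace_mul_cycle, Matrix.mul_nonsing_inv δ hu, Matrix.one_mul] at h1
    conv_rhs => rw [← h1]
    simp [Matrix.trace_fin_two])
  obtain ⟨p, q, hpq, he⟩ := exists_companion hns
  refine ⟨q, p, !![0, -d; 1, t], mul_eq_one_comm.1 hpq, fun c hc => ?_, ?_⟩
  · simpa using congrArg (fun m : M2 K => m 1 0) hc
  · rw [τ.norm_conj δ (mul_eq_one_comm.1 hpq), he, ← hd, ← ht]
    ext i j; fin_cases i <;> fin_cases j <;> simp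

variable {δ δ₁ δ₂ : M2 L} {γ γ₁ γ₂ : M2 K} {c c₁ c₂ : L}

/-- An element commutes with its norm when this is defined over `K` up to a scalar. -/
theorem commute_of_norm [CharZero L] (hδ : δ.det ≠ 0)
    (h : τ.norm δ = c • γ.map (algebraMap K L)) :
    Commute δ (γ.map (algebraMap K L)) ∧ τ.σ c = c ∧ c ≠ 0 ∧ γ.det ≠ 0 := by
  set Γ := γ.map (algebraMap K L) with hΓ
  have hdet : c ^ 2 * Γ.det = τ.nm δ.det := by
    rw [← det_norm, h, Matrix.det_smul, Fintype.card_fin]
  have hne : c ^ 2 * Γ.det ≠ 0 := hdet ▸ τ.nm_ne_zero hδ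
  have hc : c ≠ 0 := fun h0 => hne (by simp [h0])
  have hΓd : Γ.det ≠ 0 := fun h0 => hne (by simp [h0])
  have hmul := τ.mul_mat_norm δ
  rw [h, mat_smul, hΓ, mat_base, ← hΓ, Matrix.mul_smul, Matrix.smul_mul] at hmul
  have hd2 := congrArg Matrix.det hmul
  simp only [Matrix.det_smul, det_mul, Fintype.card_fin] at hd2
  have hsq : τ.σ c ^ 2 = c ^ 2 :=
    mul_right_cancel₀ (mul_ne_zero hδ hΓd) (by linear_combination hd2)
  have hσc : τ.σ c = c := by
    refine (sq_eq_sq_iff_eq_or_eq_neg.1 hsq).resolve_right fun hneg => hc ?_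
    have := τ.pow_three c
    simp only [hneg, map_neg, neg_neg] at this
    exact self_eq_neg.1 this.symm
  rw [hσc] at hmul
  refine ⟨smul_right_injective _ hc hmul, hσc, hc, fun h0 => hΓd ?_⟩
  rw [hΓ, show (γ.map (algebraMap K L)).det = algebraMap K L γ.det from
    (RingHom.map_det (algebraMap K L) γ).symm, h0, map_zero]

/-- Twisted conjugate elements have conjugate norms. -/
theorem exists_conj_of_twisted [CharZero L] (h₁ : δ₁.det ≠ 0) (h₂ : δ₂.det ≠ 0)
    (hns₁ : NonScalar γ₁) (e₁ : τ.norm δ₁ = c₁ • γ₁.map (algebraMap K L))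
    (e₂ : τ.norm δ₂ = c₂ • γ₂.map (algebraMap K L)) {g h : M2 L} (hgh : g * h = 1) {μ : L}
    (hμ : μ ≠ 0) (he : δ₂ = μ • (g * δ₁ * τ.mat h)) :
    ∃ (a : K) (k k' : M2 K), a ≠ 0 ∧ k * k' = 1 ∧ γ₂ = a • (k * γ₁ * k') := by
  obtain ⟨-, hs₁, hc₁, -⟩ := τ.commute_of_norm h₁ e₁
  obtain ⟨-, hs₂, hc₂, -⟩ := τ.commute_of_norm h₂ e₂
  obtain ⟨r, hr⟩ := τ.fixed (τ.nm μ * c₁ / c₂) (by rw [map_div₀, map_mul, σ_nm, hs₁, hs₂])
  have hr0 : r ≠ 0 := fun h0 => by
    rw [h0, map_zero] at hr
    exact div_ne_zero (mul_ne_zero (τ.nm_ne_zero hμ) hc₁) hc₂ hr.symm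
  have hγ : γ₂.map (algebraMap K L) = g * (r • γ₁).map (algebraMap K L) * h := by
    have hN : c₂ • γ₂.map (algebraMap K L) = τ.nm μ • c₁ • (g * γ₁.map (algebraMap K L) * h) := by
      rw [← e₂, he, norm_smul, τ.norm_conj δ₁ hgh, e₁, Matrix.mul_smul, Matrix.smul_mul]
    rw [Matrix.map_smul' _ _ _ (map_mul _), hr, Matrix.mul_smul, Matrix.smul_mul]
    apply smul_right_injective _ hc₂
    show c₂ • _ = c₂ • _
    rw [hN, smul_smul, smul_smul, mul_div_cancel₀ _ hc₂]
  have hns : NonScalar (r • γ₁) := fun a ha => hns₁ (r⁻¹ * a) (by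
    rw [← smul_smul, ← ha, smul_smul, inv_mul_cancel₀ hr0, one_smul])
  have hhg : h * g = 1 := mul_eq_one_comm.1 hgh
  have hns₂ : NonScalar γ₂ := by
    intro a ha
    refine (nonScalar_map (L := L)).2 hns (algebraMap K L a) ?_
    have : (a • (1 : M2 K)).map (algebraMap K L) = algebraMap K L a • 1 := by
      ext i j; by_cases hij : i = j <;> simp [hij]
    calc (r • γ₁).map (algebraMap K L) = h * γ₂.map (algebraMap K L) * g := by
          rw [hγ]; simp only [← Matrix.mul_assoc, hhg, Matrix.one_mul]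
          rw [Matrix.mul_assoc, hhg, Matrix.mul_one]
      _ = algebraMap K L a • 1 := by
          rw [ha, this, Matrix.mul_smul, Matrix.smul_mul, Matrix.mul_one, hhg]
  obtain ⟨k, k', hk, hk'⟩ := exists_conj_of_trace_det hns hns₂
    ((algebraMap K L).injective (by
      rw [show algebraMap K L (r • γ₁).trace = ((r • γ₁).map (algebraMap K L)).trace by
          simp [Matrix.trace_fin_two]; ring,
        show algebraMap K L γ₂.trace = (γ₂.map (algebraMap K L)).trace by
          simp [Matrix.trace_fin_two]]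
      show ((r • γ₁).map (algebraMap K L)).trace = (γ₂.map (algebraMap K L)).trace
      rw [hγ, Matrix.trace_mul_cycle, hhg, Matrix.one_mul]))
    ((algebraMap K L).injective (by
      rw [RingHom.map_det, RingHom.map_det]
      show ((r • γ₁).map (algebraMap K L)).det = (γ₂.map (algebraMap K L)).det
      rw [hγ, det_mul, det_mul, mul_right_comm, ← det_mul, hgh, det_one, one_mul]))
  exact ⟨r, k, k', hr0, hk, by rw [hk', Matrix.mul_smul, Matrix.smul_mul]⟩

/-- Elements with the same norm class are twisted conjugate by the centraliser. -/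
theorem exists_twisted_of_norm [CharZero L] [Infinite K] (h₁ : δ₁.det ≠ 0) (h₂ : δ₂.det ≠ 0)
    (hns : NonScalar γ) (e₁ : τ.norm δ₁ = c₁ • γ.map (algebraMap K L))
    (e₂ : τ.norm δ₂ = c₂ • γ.map (algebraMap K L)) :
    ∃ (x x' : M2 L) (μ : L), μ ≠ 0 ∧ x * x' = 1 ∧ Commute x (γ.map (algebraMap K L)) ∧
      δ₂ = μ • (x * δ₁ * τ.mat x') := by
  obtain ⟨k₁, hs₁, hc₁, -⟩ := τ.commute_of_norm h₁ e₁
  obtain ⟨k₂, hs₂, hc₂, -⟩ := τ.commute_of_norm h₂ e₂
  set Γ := γ.map (algebraMap K L) with hΓ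
  have hnsL : NonScalar Γ := (nonScalar_map (L := L)).2 hns
  have hu : IsUnit δ₁.det := isUnit_iff_ne_zero.2 h₁
  have kinv : Commute δ₁⁻¹ Γ := by
    show δ₁⁻¹ * Γ = Γ * δ₁⁻¹
    calc δ₁⁻¹ * Γ = δ₁⁻¹ * (Γ * δ₁) * δ₁⁻¹ := by
          simp only [Matrix.mul_assoc, Matrix.mul_nonsing_inv δ₁ hu, Matrix.mul_one]
      _ = δ₁⁻¹ * δ₁ * Γ * δ₁⁻¹ := by rw [← k₁.eq]; simp only [Matrix.mul_assoc]
      _ = Γ * δ₁⁻¹ := by rw [Matrix.nonsing_inv_mul δ₁ hu, Matrix.one_mul]
  set ε := δ₁⁻¹ * δ₂ with hε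
  have kε : Commute ε Γ := kinv.mul_left k₂
  have hmatΓ : τ.mat Γ = Γ := τ.mat_base γ
  have kσ : ∀ {x : M2 L}, Commute x Γ → Commute (τ.mat x) Γ := fun {x} hx => by
    have := congrArg τ.mat hx.eq
    rw [map_mul, map_mul, hmatΓ] at this
    exact this
  have hδε : δ₁ * ε = δ₂ := by
    rw [hε, ← Matrix.mul_assoc, Matrix.mul_nonsing_inv δ₁ hu, Matrix.one_mul]
  have com : ∀ {a b : M2 L}, Commute a Γ → Commute b Γ → a * b = b * a := fun ha hb =>
    (commute_of_commute hnsL ha hb).eq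
  have hNmul : τ.norm δ₂ = τ.norm δ₁ * τ.norm ε := by
    have f1 := com kε (kσ k₁)
    have f2 := com (kσ kε) (kσ (kσ k₁))
    have f3 := com kε (kσ (kσ k₁))
    rw [← hδε]
    simp only [norm, map_mul]
    calc δ₁ * ε * (τ.mat δ₁ * τ.mat ε) * (τ.mat (τ.mat δ₁) * τ.mat (τ.mat ε))
        = δ₁ * (ε * τ.mat δ₁) * (τ.mat ε * τ.mat (τ.mat δ₁)) * τ.mat (τ.mat ε) := by
          simp only [Matrix.mul_assoc]
      _ = δ₁ * τ.mat δ₁ * (ε * τ.mat (τ.mat δ₁)) * τ.mat ε * τ.mat (τ.mat ε) := by
          rw [f1, f2]; simp only [Matrix.mul_assoc]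
      _ = _ := by rw [f3]; simp only [Matrix.mul_assoc]
  have hΓu : IsUnit Γ.det := by
    refine isUnit_iff_ne_zero.2 fun h0 => τ.nm_ne_zero h₁ ?_
    rw [← det_norm, e₁, Matrix.det_smul, h0, mul_zero]
  set r := c₂ / c₁ with hr
  have hNε : τ.norm ε = r • 1 := by
    rw [e₁, e₂, Matrix.smul_mul] at hNmul
    have := congrArg (fun m => c₁⁻¹ • (Γ⁻¹ * m)) hNmul
    simp only [Matrix.mul_smul, smul_smul, ← Matrix.mul_assoc, Matrix.nonsing_inv_mul Γ hΓu,
      Matrix.one_mul, inv_mul_cancel₀ hc₁, one_smul] at this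
    rw [← this, hr, div_eq_inv_mul]
  have hεd : ε.det ≠ 0 := by
    rw [hε, det_mul]; exact mul_ne_zero (Matrix.isUnit_nonsing_inv_det δ₁ hu).ne_zero h₂
  have hσr : τ.σ r = r := by rw [hr, map_div₀, hs₁, hs₂]
  have hr0 : r ≠ 0 := div_ne_zero hc₂ hc₁
  have hNd : τ.nm ε.det = r ^ 2 := by
    rw [← det_norm, hNε, Matrix.det_smul, det_one, Fintype.card_fin, mul_one]
  set s := ε.det / r with hs
  have hs0 : s ≠ 0 := div_ne_zero hεd hr0
  have hnms : τ.nm s * r = 1 := by
    have h1 : τ.nm s * τ.nm r = τ.nm ε.det := by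
      rw [← nm_mul, hs, div_mul_cancel₀ _ hr0]
    rw [τ.nm_base hσr, hNd] at h1
    exact mul_right_cancel₀ (pow_ne_zero 2 hr0) (by linear_combination h1)
  obtain ⟨a, b, c', x, hx, hxu, hxe⟩ := τ.exists_eq_mul_mat (ε := s • ε) (by
    rw [norm_smul, hNε, smul_smul, hnms, one_smul])
  have kx : Commute x Γ := by
    rw [hx]
    refine (((Commute.one_left Γ).smul_left a).add_left ((kε.smul_left s).smul_left b)).add_left ?_
    exact (((kε.smul_left s).mul_left (kσ (kε.smul_left s)))).smul_left c'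
  refine ⟨x, x⁻¹, s⁻¹, inv_ne_zero hs0, Matrix.mul_nonsing_inv x hxu, kx, ?_⟩
  have hxx : τ.mat x * τ.mat x⁻¹ = 1 := by
    rw [← map_mul, Matrix.mul_nonsing_inv x hxu, map_one]
  have hxe' : s • ε = x * τ.mat x⁻¹ := by
    calc s • ε = s • ε * (τ.mat x * τ.mat x⁻¹) := by rw [hxx, Matrix.mul_one]
      _ = x * τ.mat x⁻¹ := by rw [← Matrix.mul_assoc, hxe]
  rw [com kx k₁, Matrix.mul_assoc, ← hxe', Matrix.mul_smul, hδε, smul_smul,
    inv_mul_cancel₀ hs0, one_smul]

/-- The twisted stabiliser is the centraliser of the norm. -/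
theorem exists_base_of_stab [CharZero L] [Infinite K] (hδ : δ.det ≠ 0) (hns : NonScalar γ)
    (e : τ.norm δ = c • γ.map (algebraMap K L))
    (hsp : γ.trace ≠ 0 ∨ δ = γ.map (algebraMap K L)) {g h : M2 L} (hgh : g * h = 1) {μ : L}
    (hμ : μ ≠ 0) (hst : g * δ * τ.mat h = μ • δ) :
    ∃ (u : L) (g₀ : M2 K) (a : K), u ≠ 0 ∧ a ≠ 0 ∧ g = u • g₀.map (algebraMap K L) ∧
      g₀ * γ = a • (γ * g₀) := by
  obtain ⟨k, hsc, hc, hγd⟩ := τ.commute_of_norm hδ e
  set Γ := γ.map (algebraMap K L) with hΓ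
  have hhg : h * g = 1 := mul_eq_one_comm.1 hgh
  set ν := τ.nm μ with hν
  have hgΓ : g * Γ = ν • (Γ * g) := by
    have h1 := τ.norm_conj δ hgh
    rw [hst, norm_smul, e, Matrix.mul_smul, Matrix.smul_mul, smul_comm] at h1
    have h2 := congrArg (fun m => m * g) (smul_right_injective _ hc h1)
    simp only [Matrix.smul_mul, Matrix.mul_assoc, hhg, Matrix.mul_one] at h2
    exact h2.symm
  have hgd : g.det ≠ 0 := fun h0 => by simpa [h0] using congrArg Matrix.det hgh
  have hΓd : Γ.det ≠ 0 := by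
    rw [hΓ, show (γ.map (algebraMap K L)).det = algebraMap K L γ.det from
      (RingHom.map_det (algebraMap K L) γ).symm]
    simpa using hγd
  have hν2 : ν ^ 2 = 1 := by
    have h1 := congrArg Matrix.det hgΓ
    rw [Matrix.det_smul, det_mul, det_mul, Fintype.card_fin] at h1
    exact mul_right_cancel₀ (mul_ne_zero hgd hΓd) (by linear_combination -h1)
  have hν0 : ν ≠ 0 := fun h0 => by simp [h0] at hν2
  -- `g δ = ν δ g`
  have hgδ : g * δ = ν • (δ * g) := by
    rcases hsp with ht | hd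
    · have hν1 : ν = 1 := by
        have h1 : h * (g * Γ) = ν • (h * (Γ * g)) := by rw [hgΓ, Matrix.mul_smul]
        rw [← Matrix.mul_assoc, hhg, Matrix.one_mul] at h1
        have h2 := congrArg Matrix.trace h1
        rw [Matrix.trace_smul, Matrix.trace_mul_comm, Matrix.mul_assoc, hgh, Matrix.mul_one,
          smul_eq_mul] at h2
        have htL : Γ.trace ≠ 0 := by
          rw [hΓ, show (γ.map (algebraMap K L)).trace = algebraMap K L γ.trace by
            simp [Matrix.trace_fin_two]]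
          show algebraMap K L γ.trace ≠ 0
          simpa using ht
        exact mul_right_cancel₀ htL (by rw [one_mul]; exact h2.symm)
      rw [hν1, one_smul] at hgΓ ⊢
      exact (commute_of_commute ((nonScalar_map (L := L)).2 hns) hgΓ k).eq
    · rw [hd]; exact hgΓ
  have hfix : ν • g = μ • τ.mat g := by
    have h1 : g * δ = μ • (δ * τ.mat g) := by
      rw [← Matrix.smul_mul, ← hst]
      simp only [Matrix.mul_assoc, ← map_mul, hhg, map_one, Matrix.mul_one]
    rw [hgδ, ← Matrix.mul_smul, ← Matrix.mul_smul] at h1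
    have h2 := congrArg (fun m => δ⁻¹ * m) h1
    simpa [← Matrix.mul_assoc, Matrix.nonsing_inv_mul δ (isUnit_iff_ne_zero.2 hδ)] using h2
  obtain ⟨x, hx0, hx⟩ := τ.exists_eq_div (μ := μ / ν) (by
    have h3 : τ.nm (μ / ν) * τ.nm ν = ν := by rw [← nm_mul, div_mul_cancel₀ _ hν0]
    rw [τ.nm_base (τ.σ_nm μ), pow_succ, hν2, one_mul] at h3
    exact mul_right_cancel₀ hν0 (by rw [one_mul]; exact h3))
  obtain ⟨g₀, hg₀⟩ := τ.exists_of_mat_eq (g := x⁻¹ • g) (by
    rw [mat_smul, map_inv₀]
    have hσx : τ.σ x ≠ 0 := (map_ne_zero _).2 hx0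
    have hg : τ.mat g = (ν / μ) • g := by
      rw [div_eq_inv_mul, ← smul_smul, hfix, smul_smul, inv_mul_cancel₀ hμ, one_smul]
    rw [hg, smul_smul]
    congr 1
    field_simp
    field_simp at hx
    linear_combination -hx)
  obtain ⟨a, ha⟩ := τ.fixed ν (τ.σ_nm μ)
  refine ⟨x, g₀, a, hx0, fun h0 => hν0 (by rw [← ha, h0, map_zero]), ?_, ?_⟩
  · rw [hg₀, smul_smul, mul_inv_cancel₀ hx0, one_smul]
  · refine Matrix.map_injective (algebraMap K L).injective ?_
    show (g₀ * γ).map (algebraMap K L) = (a • (γ * g₀)).map (algebraMap K L)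
    rw [Matrix.map_smul' _ _ _ (map_mul _), Matrix.map_mul, Matrix.map_mul, hg₀, ha,
      ← hΓ, Matrix.smul_mul, Matrix.mul_smul, hgΓ, smul_comm]

end CubicAut

end Fermat.Agent.ResidualThree.Orbital
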