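import Fermat.Agent.ResidualThree.Orbital.Kernels

/-!
# Twisted classes of `PGL₂(L)` against classes of `PGL₂(K)`

Regular twisted classes with norm over `K` are matched with the classes of their norms: the class
of the norm determines the twisted class (`GoodRep.orbit_eq_of_conj`), and the twisted stabiliser
is the stabiliser of the norm (`GoodRep.stabilizer_eq`).
-/

noncomputable section

open IsDedekindDomain NumberField Matrix MulAction

namespace Fermat.Agent.ResidualThree.Orbital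

variable {K L : Type} [Field K] [NumberField K] [Field L] [NumberField L] [Algebra K L]

local notation "M2" => Matrix (Fin 2) (Fin 2)

theorem exists_smul_of_mk_eq {F : Type} [Field F] {g g' : GL (Fin 2) F}
    (h : (g : GL (Fin 2) F ⧸ Subgroup.center (GL (Fin 2) F)) = g') :
    ∃ r : F, r ≠ 0 ∧ (g' : M2 F) = r • (g : M2 F) := by
  obtain ⟨s, hs⟩ := (Matrix.GeneralLinearGroup.center_eq_range_scalar (R := F) (n := Fin 2)) ▸
    QuotientGroup.eq.1 h
  refine ⟨s, s.ne_zero, ?_⟩
  rw [show g' = g * Matrix.GeneralLinearGroup.scalar (Fin 2) s by rw [hs, mul_inv_cancel_left],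
    Units.val_mul, Tree.coe_scalar_eq_smul, Matrix.mul_smul, Matrix.mul_one]

theorem mk_eq_of_smul {F : Type} [Field F] {g g' : GL (Fin 2) F} {r : F} (hr : r ≠ 0)
    (h : (g' : M2 F) = r • (g : M2 F)) :
    (g : GL (Fin 2) F ⧸ Subgroup.center (GL (Fin 2) F)) = g' := by
  rw [show g' = g * Matrix.GeneralLinearGroup.scalar (Fin 2) (Units.mk0 r hr) from Units.ext (by
    rw [Units.val_mul, Tree.coe_scalar_eq_smul, Matrix.mul_smul, Matrix.mul_one]; exact h)]
  exact (QuotientGroup.mk_mul_of_mem _ (Tree.scalar_mem_center _)).symm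

/-- Squared trace different from four times the determinant. -/
def RegMat {R : Type} [CommRing R] (g : M2 R) : Prop := g.trace ^ 2 ≠ 4 * g.det

theorem regMat_smul {F : Type} [Field F] {g : M2 F} {r : F} (hr : r ≠ 0) :
    RegMat (r • g) ↔ RegMat g := by
  simp only [RegMat, Matrix.trace_smul, Matrix.det_smul, Fintype.card_fin, smul_eq_mul, mul_pow]
  rw [show (4 : F) * (r ^ 2 * g.det) = r ^ 2 * (4 * g.det) by ring]
  simp [mul_right_inj' (pow_ne_zero 2 hr)]

theorem RegMat.nonScalar {R : Type} [CommRing R] {g : M2 R} (h : RegMat g) :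
    CubicAut.NonScalar g := by
  intro c hc
  refine h ?_
  rw [hc]
  simp
  ring

theorem regMat_map (g : M2 K) : RegMat (g.map (algebraMap K L)) ↔ RegMat g := by
  have e1 : (g.map (algebraMap K L)).trace = algebraMap K L g.trace := by
    simp [Matrix.trace_fin_two]
  have e2 : (g.map (algebraMap K L)).det = algebraMap K L g.det :=
    (RingHom.map_det (algebraMap K L) g).symm
  simp only [RegMat, e1, e2]
  rw [← map_pow, show (4 : L) = algebraMap K L 4 from (map_ofNat (algebraMap K L) 4).symm,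
    ← map_mul, (algebraMap K L).injective.ne_iff]

variable (L) in
/-- The embedding of `GL₂(K)`. -/
def baseGLH : GL (Fin 2) K →* GL (Fin 2) L :=
  Units.map ((algebraMap K L).mapMatrix (m := Fin 2)).toMonoidHom

omit [NumberField K] [NumberField L] in
theorem coe_baseGLH (g : GL (Fin 2) K) :
    (baseGLH L g : M2 L) = (g : M2 K).map (algebraMap K L) := rfl

variable (L) in
/-- The embedding of `PGL₂(K)`. -/
def basePGL : PGLF K →* PGLF L :=
  QuotientGroup.map _ _ (baseGLH L) fun _ hg => map_mem_center (algebraMap K L) hg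

omit [NumberField K] [NumberField L] in
theorem basePGL_mk (g : GL (Fin 2) K) : basePGL L (g : PGLF K) = (baseGLH L g : PGLF L) := rfl

omit [NumberField K] in
theorem basePGL_injective : Function.Injective (basePGL (K := K) L) := by
  refine (injective_iff_map_eq_one _).2 fun x hx => ?_
  induction x using QuotientGroup.induction_on with
  | H g =>
    rw [basePGL_mk] at hx
    obtain ⟨r, hr, e⟩ := exists_smul_of_mk_eq (hx.trans (QuotientGroup.mk_one _).symm)
    have hg : ∀ i j, r * algebraMap K L ((g : M2 K) i j) = (1 : M2 L) i j := fun i j => by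
      rw [← Units.val_one, e]; rfl
    refine (mk_eq_of_smul (F := K) (g := g) (g' := 1) (r := ((g : M2 K) 0 0)⁻¹) ?_ ?_).trans
      (QuotientGroup.mk_one _)
    · intro h0
      rw [inv_eq_zero] at h0
      simpa [h0] using hg 0 0
    · ext i j
      apply (algebraMap K L).injective
      have h00 := hg 0 0
      rw [Matrix.one_apply_eq] at h00
      simp only [Matrix.smul_apply, smul_eq_mul, map_mul, map_inv₀, Units.val_one]
      rw [inv_eq_of_mul_eq_one_left h00, hg i j]
      rcases eq_or_ne i j with rfl | hij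
      · simp
      · rw [Matrix.one_apply_ne hij, Matrix.one_apply_ne hij, map_zero]

variable (τ : CubicAut K L)

/-- A twisted class with regular norm, with the norm defined over `K`. -/
structure GoodRep : Type where
  /-- the element -/
  δ : GL (Fin 2) L
  /-- the norm -/
  γ : GL (Fin 2) K
  regular : IsRegular γ
  exists_norm : ∃ c : L, τ.norm (δ : M2 L) = c • (γ : M2 K).map (algebraMap K L)
  special : (γ : M2 K).trace ≠ 0 ∨ δ = baseGLH L γ

variable {τ}

omit [NumberField K] [NumberField L] in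
theorem GoodRep.regMat (P : GoodRep τ) : RegMat (P.γ : M2 K) := P.regular

/-- The twisted class. -/
def GoodRep.twisted (P : GoodRep τ) : TwistedElt τ := ⟨(P.δ : PGLF L)⟩

/-- The class of the norm. -/
def GoodRep.conj (P : GoodRep τ) : ConjElt K := ⟨(P.γ : PGLF K)⟩

variable (τ) in
omit [NumberField K] [NumberField L] in
theorem norm_baseGLH_of_trace_zero {γ : GL (Fin 2) K} (h : (γ : M2 K).trace = 0) :
    τ.norm (baseGLH L γ : M2 L) =
      algebraMap K L (-(γ : M2 K).det) • (γ : M2 K).map (algebraMap K L) := by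
  rw [coe_baseGLH, CubicAut.norm, τ.mat_base, τ.mat_base, ← Matrix.map_mul, ← Matrix.map_mul,
    ← Matrix.map_smul' _ _ _ (map_mul _)]
  congr 1
  set A := (γ : M2 K)
  rw [Matrix.trace_fin_two] at h
  have h2 : A 1 1 = -A 0 0 := eq_neg_of_add_eq_zero_right h
  ext i j
  fin_cases i <;> fin_cases j <;>
    simp [Matrix.mul_apply, Fin.sum_univ_two, Matrix.det_fin_two, h2] <;> ring

omit [NumberField K] [NumberField L] in
/-- Twisted conjugate matrices give the same class. -/
theorem twisted_mem_orbit {d : GL (Fin 2) L} {δ : GL (Fin 2) L} {x x' : M2 L} {μ : L}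
    (hμ : μ ≠ 0) (hxx' : x * x' = 1) (he : (δ : M2 L) = μ • (x * (d : M2 L) * τ.mat x')) :
    (⟨(δ : PGLF L)⟩ : TwistedElt τ) ∈ orbit (PGLF L) (⟨(d : PGLF L)⟩ : TwistedElt τ) := by
  let X : GL (Fin 2) L := ⟨x, x', hxx', mul_eq_one_comm.1 hxx'⟩
  refine ⟨(X : PGLF L), ?_⟩
  show (⟨(X : PGLF L) * (d : PGLF L) * (autPGL τ (X : PGLF L))⁻¹⟩ : TwistedElt τ) = _
  congr 1
  rw [autPGL_mk, ← QuotientGroup.mk_inv, ← QuotientGroup.mk_mul, ← QuotientGroup.mk_mul]
  refine mk_eq_of_smul hμ ?_
  rw [he, Units.val_mul, Units.val_mul, ← map_inv, coe_autGL]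
  rfl

variable (τ) in
theorem exists_goodRep (d : GL (Fin 2) L) (hd : RegMat (τ.norm (d : M2 L))) :
    ∃ P : GoodRep τ, P.twisted ∈ orbit (PGLF L) (⟨(d : PGLF L)⟩ : TwistedElt τ) := by
  obtain ⟨g, h, γ₀, hgh, hns, hN⟩ := τ.exists_norm_base d.det_ne_zero hd.nonScalar
  have hhg : h * g = 1 := mul_eq_one_comm.1 hgh
  have hN' : γ₀.map (algebraMap K L) = g * τ.norm (d : M2 L) * h := by rw [← hN, τ.norm_conj _ hgh]
  have hreg : RegMat γ₀ := by
    rw [← regMat_map (L := L), hN', RegMat, Matrix.trace_mul_cycle, hhg, Matrix.one_mul,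
      Matrix.det_mul, Matrix.det_mul, mul_right_comm, ← Matrix.det_mul, hgh, Matrix.det_one,
      one_mul]
    exact hd
  have hdet : γ₀.det ≠ 0 := fun h0 => τ.nm_ne_zero d.det_ne_zero (by
    have := congrArg Matrix.det hN'
    rw [← RingHom.mapMatrix_apply, ← RingHom.map_det, h0, map_zero, Matrix.det_mul, Matrix.det_mul,
      mul_right_comm, ← Matrix.det_mul, hgh, Matrix.det_one, one_mul, τ.det_norm] at this
    exact this.symm)
  let γ : GL (Fin 2) K := Matrix.GeneralLinearGroup.mkOfDetNeZero γ₀ hdet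
  let G : GL (Fin 2) L := ⟨g, h, hgh, hhg⟩
  let δ : GL (Fin 2) L := G * d * (autGL τ G)⁻¹
  have hδ : (δ : M2 L) = g * (d : M2 L) * τ.mat h := by
    simp only [δ, Units.val_mul, ← map_inv, coe_autGL]
    rfl
  have hnorm : τ.norm (δ : M2 L) = (1 : L) • (γ : M2 K).map (algebraMap K L) := by
    rw [one_smul, hδ]; exact hN
  by_cases ht : γ₀.trace = 0
  · have hbn := norm_baseGLH_of_trace_zero τ (γ := γ) ht
    obtain ⟨x, x', μ, hμ, hxx', -, he⟩ := τ.exists_twisted_of_norm δ.det_ne_zero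
      (baseGLH L γ).det_ne_zero (γ := (γ : M2 K)) hns hnorm hbn
    refine ⟨⟨baseGLH L γ, γ, hreg, ⟨_, hbn⟩, Or.inr rfl⟩, ?_⟩
    have h1 := twisted_mem_orbit (τ := τ) hμ hxx' he
    have h2 : (⟨(δ : PGLF L)⟩ : TwistedElt τ) ∈ orbit (PGLF L) (⟨(d : PGLF L)⟩ : TwistedElt τ) :=
      twisted_mem_orbit (μ := 1) one_ne_zero hgh (by rw [one_smul, hδ])
    rw [orbit_eq_iff.2 h2] at h1
    exact h1
  · exact ⟨⟨δ, γ, hreg, ⟨1, hnorm⟩, Or.inl ht⟩,
      twisted_mem_orbit (μ := 1) one_ne_zero hgh (by rw [one_smul, hδ])⟩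

/-- Equal norm classes come from equal twisted classes. -/
theorem GoodRep.orbit_eq_of_conj (P Q : GoodRep τ) (h : Q.conj ∈ orbit (PGLF K) P.conj) :
    Q.twisted ∈ orbit (PGLF L) P.twisted := by
  obtain ⟨k, hk⟩ := h
  induction k using QuotientGroup.induction_on with
  | H k =>
    have hk' : ((k * P.γ * k⁻¹ : GL (Fin 2) K) : PGLF K) = (Q.γ : PGLF K) :=
      congrArg ConjElt.val hk
    obtain ⟨r, hr, e⟩ := exists_smul_of_mk_eq hk'
    obtain ⟨c₁, e₁⟩ := P.exists_norm
    obtain ⟨c₂, e₂⟩ := Q.exists_norm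
    set B := baseGLH L k
    have hBB : (B : M2 L) * ((B⁻¹ : GL (Fin 2) L) : M2 L) = 1 := by
      rw [← Units.val_mul, mul_inv_cancel, Units.val_one]
    let δ' : GL (Fin 2) L := B * P.δ * B⁻¹
    have hB : τ.mat ((B⁻¹ : GL (Fin 2) L) : M2 L) = ((B⁻¹ : GL (Fin 2) L) : M2 L) := by
      rw [← map_inv]; exact τ.mat_base _
    have hδ' : (δ' : M2 L) = B * P.δ * τ.mat ((B⁻¹ : GL (Fin 2) L) : M2 L) := by
      rw [hB]; rfl
    have hQ : τ.norm (δ' : M2 L) =
        (c₁ * (algebraMap K L r)⁻¹) • (Q.γ : M2 K).map (algebraMap K L) := by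
      rw [hδ', τ.norm_conj _ hBB, e₁, e, Matrix.map_smul' _ _ _ (map_mul _), smul_smul,
        mul_assoc c₁, inv_mul_cancel₀ (by simpa using hr), mul_one, Matrix.mul_smul,
        Matrix.smul_mul,
        Units.val_mul, Units.val_mul, Matrix.map_mul, Matrix.map_mul]
      rw [show B⁻¹ = baseGLH L k⁻¹ from (map_inv _ _).symm]
      rfl
    obtain ⟨x, x', μ, hμ, hxx', -, he⟩ := τ.exists_twisted_of_norm δ'.det_ne_zero
      Q.δ.det_ne_zero Q.regMat.nonScalar hQ e₂
    have h1 := twisted_mem_orbit (τ := τ) hμ hxx' he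
    have h2 : (⟨(δ' : PGLF L)⟩ : TwistedElt τ) ∈ orbit (PGLF L) P.twisted :=
      twisted_mem_orbit (μ := 1) one_ne_zero hBB (by rw [one_smul, hδ'])
    rw [orbit_eq_iff.2 h2] at h1
    exact h1

omit [NumberField K] in
/-- Twisted conjugate elements have conjugate norms. -/
theorem GoodRep.conj_mem_orbit (P Q : GoodRep τ) (h : Q.twisted ∈ orbit (PGLF L) P.twisted) :
    Q.conj ∈ orbit (PGLF K) P.conj := by
  obtain ⟨g, hg⟩ := h
  induction g using QuotientGroup.induction_on with
  | H g =>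
    have hg' : ((g * P.δ * (autGL τ g)⁻¹ : GL (Fin 2) L) : PGLF L) = (Q.δ : PGLF L) :=
      congrArg TwistedElt.val hg
    obtain ⟨μ, hμ, e⟩ := exists_smul_of_mk_eq hg'
    obtain ⟨c₁, e₁⟩ := P.exists_norm
    obtain ⟨c₂, e₂⟩ := Q.exists_norm
    have hgg : (g : M2 L) * ((g⁻¹ : GL (Fin 2) L) : M2 L) = 1 := by
      rw [← Units.val_mul, mul_inv_cancel, Units.val_one]
    obtain ⟨a, k, k', ha, hkk', he⟩ := τ.exists_conj_of_twisted P.δ.det_ne_zero Q.δ.det_ne_zero
      P.regMat.nonScalar e₁ e₂ hgg hμ (by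
        rw [e, Units.val_mul, Units.val_mul, ← map_inv, coe_autGL])
    let Kk : GL (Fin 2) K := ⟨k, k', hkk', mul_eq_one_comm.1 hkk'⟩
    refine ⟨(Kk : PGLF K), ?_⟩
    show (⟨(Kk : PGLF K) * (P.γ : PGLF K) * (Kk : PGLF K)⁻¹⟩ : ConjElt K) = _
    rw [GoodRep.conj]
    congr 1
    rw [← QuotientGroup.mk_inv, ← QuotientGroup.mk_mul, ← QuotientGroup.mk_mul]
    exact mk_eq_of_smul ha (by rw [he, Units.val_mul, Units.val_mul]; rfl)

/-- The commutant in `PGL₂`. -/
def commSub {F : Type} [Field F] (γ : GL (Fin 2) F) :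
    Subgroup (GL (Fin 2) F ⧸ Subgroup.center (GL (Fin 2) F)) :=
  (Subgroup.centralizer {γ}).map (QuotientGroup.mk' _)

theorem mem_commSub_iff {F : Type} [Field F] (γ g : GL (Fin 2) F) :
    (g : GL (Fin 2) F ⧸ Subgroup.center (GL (Fin 2) F)) ∈ commSub γ ↔ g * γ = γ * g := by
  constructor
  · rintro ⟨h, hh, e⟩
    have hh' : h * γ = γ * h :=
      (Subgroup.mem_centralizer_iff.1 hh γ rfl).symm
    have hz := QuotientGroup.eq.1 (show (h : GL (Fin 2) F ⧸ Subgroup.center _) = g from e)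
    rw [show g = h * (h⁻¹ * g) by group, mul_assoc,
      ← Subgroup.mem_center_iff.1 hz γ, ← mul_assoc, hh', mul_assoc]
  · intro h
    exact ⟨g, Subgroup.mem_centralizer_iff.2 fun x hx => by rw [Set.mem_singleton_iff.1 hx, h], rfl⟩

theorem commSub_le_stabilizer {F : Type} [Field F] (γ : GL (Fin 2) F) :
    commSub γ ≤ stabilizer (GL (Fin 2) F ⧸ Subgroup.center (GL (Fin 2) F))
      (⟨(γ : GL (Fin 2) F ⧸ Subgroup.center _)⟩ : ConjElt F) := by
  intro x hx
  induction x using QuotientGroup.induction_on with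
  | H g =>
    rw [mem_stabilizer_iff]
    show (⟨_⟩ : ConjElt F) = ⟨_⟩
    congr 1
    show ((g * γ * g⁻¹ : GL (Fin 2) F) : GL (Fin 2) F ⧸ Subgroup.center _) = _
    rw [(mem_commSub_iff γ g).1 hx, mul_inv_cancel_right]

theorem finite_stab_quot {F : Type} [Field F] (γ : GL (Fin 2) F) :
    Finite ((stabilizer (GL (Fin 2) F ⧸ Subgroup.center (GL (Fin 2) F))
      (⟨(γ : GL (Fin 2) F ⧸ Subgroup.center _)⟩ : ConjElt F)) ⧸
      (commSub γ).subgroupOf (stabilizer (GL (Fin 2) F ⧸ Subgroup.center (GL (Fin 2) F))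
        (⟨(γ : GL (Fin 2) F ⧸ Subgroup.center _)⟩ : ConjElt F))) := by
  set S := stabilizer (GL (Fin 2) F ⧸ Subgroup.center (GL (Fin 2) F))
      (⟨(γ : GL (Fin 2) F ⧸ Subgroup.center _)⟩ : ConjElt F)
  let V : Set (M2 F) := {(γ : M2 F), -(γ : M2 F)}
  have : Finite V := ((Set.finite_singleton _).insert _).to_subtype
  have hmem : ∀ (g : GL (Fin 2) F), (g : GL (Fin 2) F ⧸ Subgroup.center _) ∈ S →
      ((g * γ * g⁻¹ : GL (Fin 2) F) : M2 F) ∈ V := by
    intro g hg
    obtain ⟨r, -, e⟩ := exists_smul_of_mk_eq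
      (congrArg ConjElt.val (mem_stabilizer_iff.1 hg) :
        ((g * γ * g⁻¹ : GL (Fin 2) F) : GL (Fin 2) F ⧸ Subgroup.center _) = (γ : _))
    have hd := congrArg Matrix.det e
    rw [Matrix.det_smul, Fintype.card_fin, Units.val_mul, Units.val_mul,
      Matrix.det_units_conj] at hd
    have hr2 : r ^ 2 = 1 := mul_right_cancel₀ γ.det_ne_zero (by rw [one_mul]; exact hd.symm)
    rcases sq_eq_one_iff.1 hr2 with hr | hr
    · left; rw [e, hr, one_smul]
    · right; rw [e, hr, neg_one_smul, neg_neg]; rfl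
  let val : S → V := fun x =>
    ⟨((x.1.out * γ * x.1.out⁻¹ : GL (Fin 2) F) : M2 F), hmem _ (by
      rw [QuotientGroup.out_eq']; exact x.2)⟩
  let f : S ⧸ (commSub γ).subgroupOf S → V := fun q => val q.out
  refine Finite.of_injective f fun q q' h => ?_
  rw [← QuotientGroup.out_eq' q, ← QuotientGroup.out_eq' q', QuotientGroup.eq,
    Subgroup.mem_subgroupOf]
  have h' : q.out.1.out * γ * q.out.1.out⁻¹ = q'.out.1.out * γ * q'.out.1.out⁻¹ :=
    Units.ext (congrArg Subtype.val h)
  set a := q.out.1.out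
  set b := q'.out.1.out
  show q.out.1⁻¹ * q'.out.1 ∈ commSub γ
  rw [← QuotientGroup.out_eq' q.out.1, ← QuotientGroup.out_eq' q'.out.1, ← QuotientGroup.mk_inv,
    ← QuotientGroup.mk_mul, mem_commSub_iff]
  calc a⁻¹ * b * γ = a⁻¹ * (b * γ * b⁻¹) * b := by group
    _ = a⁻¹ * (a * γ * a⁻¹) * b := by rw [← h']
    _ = γ * (a⁻¹ * b) := by group

/-- The stabiliser of a twisted class is the stabiliser of its norm. -/
theorem GoodRep.stabilizer_eq (P : GoodRep τ) :
    stabilizer (PGLF L) P.twisted = (stabilizer (PGLF K) P.conj).map (basePGL L) := by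
  obtain ⟨c, e⟩ := P.exists_norm
  ext x
  induction x using QuotientGroup.induction_on with
  | H g =>
    rw [mem_stabilizer_iff]
    constructor
    · intro hst
      have hg' : ((g * P.δ * (autGL τ g)⁻¹ : GL (Fin 2) L) : PGLF L) = (P.δ : PGLF L) :=
        congrArg TwistedElt.val hst
      obtain ⟨μ, hμ, e'⟩ := exists_smul_of_mk_eq hg'
      have hgg : (g : M2 L) * ((g⁻¹ : GL (Fin 2) L) : M2 L) = 1 := by
        rw [← Units.val_mul, mul_inv_cancel, Units.val_one]
      have hst' : (g : M2 L) * (P.δ : M2 L) * τ.mat ((g⁻¹ : GL (Fin 2) L) : M2 L) =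
          μ⁻¹ • (P.δ : M2 L) := by
        rw [eq_inv_smul_iff₀ hμ]
        conv_rhs => rw [e']
        rw [Units.val_mul, Units.val_mul, ← map_inv, coe_autGL]
      obtain ⟨u, g₀, a, hu, ha, hgeq, hg₀⟩ := τ.exists_base_of_stab P.δ.det_ne_zero
        P.regMat.nonScalar e (P.special.imp_right fun h => by rw [h]; rfl) hgg
        (inv_ne_zero hμ) hst'
      have hd0 : g₀.det ≠ 0 := fun h0 => g.det_ne_zero (by
        rw [hgeq, Matrix.det_smul, ← RingHom.mapMatrix_apply, ← RingHom.map_det, h0, map_zero,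
          mul_zero])
      let g₁ : GL (Fin 2) K := Matrix.GeneralLinearGroup.mkOfDetNeZero g₀ hd0
      refine ⟨(g₁ : PGLF K), ?_, (basePGL_mk g₁).trans (mk_eq_of_smul hu hgeq)⟩
      show (g₁ : PGLF K) • P.conj = P.conj
      show (⟨(g₁ : PGLF K) * (P.γ : PGLF K) * (g₁ : PGLF K)⁻¹⟩ : ConjElt K) = ⟨(P.γ : PGLF K)⟩
      congr 1
      rw [← QuotientGroup.mk_inv, ← QuotientGroup.mk_mul, ← QuotientGroup.mk_mul]
      refine mk_eq_of_smul (r := a⁻¹) (inv_ne_zero ha) ?_
      rw [Units.val_mul, Units.val_mul, show (g₁ : M2 K) = g₀ from rfl, hg₀, Matrix.smul_mul,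
        smul_smul, inv_mul_cancel₀ ha, one_smul, Matrix.mul_assoc]
      rw [show g₀ = (g₁ : M2 K) from rfl, ← Units.val_mul, mul_inv_cancel, Units.val_one,
        Matrix.mul_one]
    · rintro ⟨k, hk, hkg⟩
      rw [← hkg]
      clear hkg g
      induction k using QuotientGroup.induction_on with
      | H k =>
        have hk' : ((k * P.γ * k⁻¹ : GL (Fin 2) K) : PGLF K) = (P.γ : PGLF K) :=
          congrArg ConjElt.val (mem_stabilizer_iff.1 hk)
        rw [basePGL_mk]
        show (⟨(baseGLH L k : PGLF L) * (P.δ : PGLF L) *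
          (autPGL τ (baseGLH L k : PGLF L))⁻¹⟩ : TwistedElt τ) = ⟨(P.δ : PGLF L)⟩
        congr 1
        rw [autPGL_mk, show autGL τ (baseGLH L k) = baseGLH L k from Units.ext (τ.mat_base _)]
        obtain ⟨r, hr, er⟩ := exists_smul_of_mk_eq hk'
        rcases P.special with ht | hd
        · have hr1 : r = 1 := by
            have h1 := congrArg Matrix.trace er
            rw [Matrix.trace_smul, Units.val_mul, Units.val_mul, Matrix.trace_mul_cycle,
              ← Units.val_mul k⁻¹, inv_mul_cancel, Units.val_one, Matrix.one_mul, smul_eq_mul] at h1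
            exact mul_right_cancel₀ ht (by rw [one_mul]; exact h1.symm)
          rw [hr1, one_smul] at er
          have hcomm : k * P.γ = P.γ * k := by
            rw [← mul_inv_eq_iff_eq_mul]
            exact Units.ext er.symm
          have hΓ : Commute (baseGLH L k : M2 L) ((P.γ : M2 K).map (algebraMap K L)) := by
            rw [← coe_baseGLH]
            show _ = _
            rw [← Units.val_mul, ← Units.val_mul, ← map_mul, hcomm, map_mul]
          have hδ := (τ.commute_of_norm P.δ.det_ne_zero e).1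
          have hcc : baseGLH L k * P.δ = P.δ * baseGLH L k := Units.ext
            (CubicAut.commute_of_commute ((regMat_map (L := L) _).2 P.regMat).nonScalar hΓ hδ).eq
          rw [← QuotientGroup.mk_mul, hcc, QuotientGroup.mk_mul, mul_inv_cancel_right]
        · rw [hd, ← basePGL_mk, ← basePGL_mk, ← map_inv, ← map_mul, ← map_mul,
            ← QuotientGroup.mk_inv, ← QuotientGroup.mk_mul, ← QuotientGroup.mk_mul, hk']

end Fermat.Agent.ResidualThree.Orbital
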