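import Fermat.Agent.ResidualThree.Automorphic.Approx
import Fermat.Agent.ResidualThree.Orbital.GlobalClasses
import Fermat.Agent.ResidualThree.Tree.AdicInst

/-!
# Almost every place: the unit functions match by the embedding of vertices

Away from finitely many places a fixed vertex family of the places above comes from a vertex of the
base, and a twisted term is non-zero exactly at the embedded vertices where the base term is.
-/

noncomputable section

open IsDedekindDomain NumberField Matrix
open scoped WithZero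

namespace Fermat.Agent.ResidualThree.Orbital

variable {K L : Type} [Field K] [NumberField K] [Field L] [NumberField L] [Algebra K L]

local notation "M2" => Matrix (Fin 2) (Fin 2)

/-! ### Almost every place -/

variable (K) in
theorem eventually_ram_eq_one : ∀ᶠ w : FPlace L in Filter.cofinite, ram K w = 1 := by
  have hne : differentIdeal (𝓞 K) (𝓞 L) ≠ ⊥ := by
    rw [ne_eq, ← FractionalIdeal.coeIdeal_inj (K := L), coeIdeal_differentIdeal (K := K)]
    simp
  refine Filter.eventually_cofinite.2
    ((Ideal.finite_factors (I := differentIdeal (𝓞 K) (𝓞 L)) hne).subset fun w hw => ?_)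
  have : (below K w).asIdeal.IsMaximal := (below K w).isPrime.isMaximal (below K w).ne_bot
  have h := pow_sub_one_dvd_differentIdeal_aux (𝓞 K) K L w.asIdeal (ram_pos w).ne'
    (below K w).ne_bot (e := ram K w) (Ideal.dvd_iff_le.2 Ideal.le_pow_ramificationIdx')
  exact (dvd_pow_self w.asIdeal
    (by have := ram_pos (K := K) w; simp only [Set.mem_ofPred_eq] at hw; omega)).trans h

omit [NumberField K] in
/-- A property of almost all places holds at all places over almost all places. -/
theorem eventually_over {P : FPlace L → Prop} (h : ∀ᶠ w in Filter.cofinite, P w) :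
    ∀ᶠ v : FPlace K in Filter.cofinite, ∀ w : Over L v, P w.1 := by
  refine Filter.eventually_cofinite.2 (((Filter.eventually_cofinite.1 h).image (below K)).subset
    fun v hv => ?_)
  simp only [Set.mem_ofPred_eq, not_forall] at hv
  obtain ⟨w, hw⟩ := hv
  exact ⟨w.1, hw, w.2⟩

/-! ### The maximal subgroup -/

section Max

variable {F : Type} [Field F] [NumberField F] {v : FPlace F}

theorem mem_maxSubgroup_iff {g : GLv v} :
    g ∈ maxSubgroup v ↔
      ∀ i j, valv v ((g : M2 (v.adicCompletion F)) i j) ^ 2 ≤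
        valv v (g : M2 (v.adicCompletion F)).det := by
  constructor
  · intro h i j
    obtain ⟨s, k, hk, rfl⟩ := Tree.mul_mem_vertexSubgroup_iff.1 h
    rw [Units.val_mul, Tree.coe_scalar_eq_smul, Matrix.smul_mul, Matrix.one_mul, Matrix.det_smul,
      Matrix.smul_apply, smul_eq_mul, map_mul, map_mul, Fintype.card_fin, map_pow, hk.2, mul_one,
      mul_pow]
    exact mul_le_of_le_one_right' (pow_le_one₀ zero_le (hk.1 i j))
  · intro h
    refine Tree.cartan_eq_zero_iff.1 (Tree.cartan_eq_iff.2 ?_)
    obtain ⟨i, j, hij⟩ := Tree.exists_nrm_eq (v := valv v) (g : M2 (v.adicCompletion F))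
    have h1 := h i j
    rw [← hij] at h1
    have h2 := Tree.det_le_nrm_sq (v := valv v) (g : M2 (v.adicCompletion F))
    rw [Tree.cartanInt_eq, le_antisymm h2 h1, WithZero.log_pow, nsmul_eq_mul]
    simp

theorem isIntGL_of_mem_max {g : GLv v} (h : g ∈ maxSubgroup v)
    (hd : valv v (g : M2 (v.adicCompletion F)).det = 1) : IsIntGL (valv v) g := by
  refine ⟨fun i j => ?_, hd⟩
  have := mem_maxSubgroup_iff.1 h i j
  rw [hd] at this
  exact (pow_le_one_iff two_ne_zero).1 this

theorem unitFun_ne_zero_iff {g : GLv v} : unitFun v g ≠ 0 ↔ g ∈ maxSubgroup v := by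
  unfold unitFun
  split_ifs with h <;> simp [h]

theorem mem_max_of_center_mul {z g : GLv v} (hz : z ∈ Subgroup.center (GLv v)) :
    z * g ∈ maxSubgroup v ↔ g ∈ maxSubgroup v :=
  Subgroup.mul_mem_cancel_left _ (center_le_maxSubgroup v hz)

end Max

/-! ### Twisting over a place -/

variable {v : FPlace K}

theorem coe_baseGL (w : Over L v) (g : GLv v) :
    (baseGL w.1 w.2 g : M2 (w.1.adicCompletion L)) =
      (g : M2 (v.adicCompletion K)).map (baseHom w.1 w.2) := rfl

theorem valv_det_baseGL (w : Over L v) (g : GLv v) :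
    valv w.1 (baseGL w.1 w.2 g : M2 (w.1.adicCompletion L)).det =
      valv v (g : M2 (v.adicCompletion K)).det ^ ram K w.1 := by
  rw [coe_baseGL, ← RingHom.mapMatrix_apply, ← RingHom.map_det, Tree.valv_baseHom]

theorem baseGL_mem_max_iff (w : Over L v) {g : GLv v} :
    baseGL w.1 w.2 g ∈ maxSubgroup w.1 ↔ g ∈ maxSubgroup v := by
  rw [mem_maxSubgroup_iff, mem_maxSubgroup_iff]
  refine forall₂_congr fun i j => ?_
  rw [valv_det_baseGL, coe_baseGL, Matrix.map_apply, Tree.valv_baseHom, ← pow_mul,
    mul_comm (ram K w.1), pow_mul]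
  exact pow_le_pow_iff_left₀ zero_le zero_le (ram_pos w.1).ne'

variable (σ : L ≃ₐ[K] L)

theorem localAut_baseHom (w : Over L v) (z : v.adicCompletion K) :
    localAut σ.toRingEquiv w.1 (baseHom (comapOver σ w).1 (comapOver σ w).2 z) =
      baseHom w.1 w.2 z := by
  refine congrFun ((HeightOneSpectrum.denseRange_algebraMap (K := K) v).equalizer
    ((continuous_localAut _ _).comp (Tree.continuous_completionHom _ _ _ _))
    (Tree.continuous_completionHom _ _ _ _) (funext fun x => ?_)) z
  show localAut σ.toRingEquiv w.1 (baseHom (comapOver σ w).1 (comapOver σ w).2 (algebraMap K _ x)) =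
    baseHom w.1 w.2 (algebraMap K _ x)
  rw [baseHom_coe, baseHom_coe]
  show localAut σ.toRingEquiv w.1
    (algebraMap L ((comapPlace σ.toRingEquiv w.1).adicCompletion L) _) = _
  rw [localAut_coe]
  exact congrArg _ (σ.commutes x)

theorem autOver_baseOver (g : GLv v) : autOver σ (baseOver L v g) = baseOver L v g :=
  funext fun w => Units.ext (Matrix.ext fun _ _ => localAut_baseHom σ w _)

omit [NumberField K] in
theorem autOver_mem_max {x : Gover L v} (h : ∀ w, x w ∈ maxSubgroup w.1) (w : Over L v) :
    autOver σ x w ∈ maxSubgroup w.1 :=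
  localAutGL_mem_max σ.toRingEquiv w.1 (h (comapOver σ w))

omit [NumberField K] in
theorem autOver_apply (x : Gover L v) (w : Over L v) (i j : Fin 2) :
    (autOver σ x w : M2 (w.1.adicCompletion L)) i j =
      localAut σ.toRingEquiv w.1
        ((x (comapOver σ w) : M2 ((comapOver σ w).1.adicCompletion L)) i j) := rfl

variable (τ : CubicAut K L)

omit [NumberField K] in
theorem comapOver_cube (w : Over L v) : comapOver τ.σ (comapOver τ.σ (comapOver τ.σ w)) = w := by
  refine Subtype.ext (HeightOneSpectrum.ext (Ideal.ext fun x => ?_))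
  show RingOfIntegers.mapRingEquiv τ.σ.toRingEquiv (RingOfIntegers.mapRingEquiv τ.σ.toRingEquiv
    (RingOfIntegers.mapRingEquiv τ.σ.toRingEquiv x)) ∈ w.1.asIdeal ↔ x ∈ w.1.asIdeal
  rw [show RingOfIntegers.mapRingEquiv τ.σ.toRingEquiv (RingOfIntegers.mapRingEquiv τ.σ.toRingEquiv
    (RingOfIntegers.mapRingEquiv τ.σ.toRingEquiv x)) = x from RingOfIntegers.ext (τ.pow_three x.1)]

omit [NumberField K] in
theorem autOver_cube (x : Gover L v) : autOver τ.σ (autOver τ.σ (autOver τ.σ x)) = x := by
  have key : ∀ (w u : Over L v), u = w →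
      ∀ φ : u.1.adicCompletion L → w.1.adicCompletion L, Continuous φ →
      (∀ a : L, φ (algebraMap L _ a) = algebraMap L _ a) →
      ∀ i j, φ ((x u : M2 (u.1.adicCompletion L)) i j) =
        (x w : M2 (w.1.adicCompletion L)) i j := by
    rintro w u rfl φ hφ hc i j
    exact congrFun ((HeightOneSpectrum.denseRange_algebraMap (K := L) u.1).equalizer hφ
      continuous_id (funext fun a => hc a)) _
  refine funext fun w => Units.ext (Matrix.ext fun i j => ?_)
  rw [autOver_apply, autOver_apply, autOver_apply]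
  set f := τ.σ.toRingEquiv
  set w₁ := comapOver τ.σ w
  set w₂ := comapOver τ.σ w₁
  have hc : Continuous fun z : (comapOver τ.σ w₂).1.adicCompletion L =>
      localAut f w.1 (localAut f w₁.1 (localAut f w₂.1 z)) :=
    (continuous_localAut f w.1).comp
      ((continuous_localAut f w₁.1).comp (continuous_localAut f w₂.1))
  have ha : ∀ a : L, localAut f w.1 (localAut f w₁.1 (localAut f w₂.1
      (algebraMap L ((comapOver τ.σ w₂).1.adicCompletion L) a))) = algebraMap L _ a := fun a =>
    ((congrArg (fun z => localAut f w.1 (localAut f w₁.1 z)) (localAut_coe f w₂.1 a)).trans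
      ((congrArg (fun z => localAut f w.1 z) (localAut_coe f w₁.1 (f a))).trans
        (localAut_coe f w.1 (f (f a))))).trans (congrArg _ (τ.pow_three a))
  exact key w _ (comapOver_cube τ w) _ hc ha i j

omit [NumberField K] in
theorem normOver_conj (G δ : Gover L v) :
    normOver τ.σ (G⁻¹ * δ * autOver τ.σ G) = G⁻¹ * normOver τ.σ δ * G := by
  simp only [normOver, map_mul, map_inv, autOver_cube]
  group

omit [NumberField K] in
theorem normOver_diagOver (δ : GL (Fin 2) L) :
    normOver τ.σ (diagOver v δ) = diagOver v (δ * autGL τ δ * autGL τ (autGL τ δ)) := by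
  rw [normOver, autOver_diagOver, autOver_diagOver, map_mul, map_mul]
  rfl

theorem isLocalNorm_diagOver {δ : GL (Fin 2) L} {γ : GL (Fin 2) K} {c : L}
    (e : τ.norm (δ : M2 L) = c • (γ : M2 K).map (algebraMap K L)) :
    IsLocalNorm τ.σ (diagOver v δ) (toLocal v γ) := by
  have hd : (δ : M2 L).det ≠ 0 := δ.det_ne_zero
  obtain ⟨-, -, hc, -⟩ := τ.commute_of_norm hd e
  have hN : δ * autGL τ δ * autGL τ (autGL τ δ) =
      Matrix.GeneralLinearGroup.scalar (Fin 2) (Units.mk0 c hc) * baseGLH L γ := Units.ext (by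
    rw [Units.val_mul (Matrix.GeneralLinearGroup.scalar (Fin 2) _), Tree.coe_scalar_eq_smul,
      Matrix.smul_mul, Matrix.one_mul]
    exact e)
  intro w
  rw [normOver_diagOver, baseOver_toLocal]
  show toLocal w.1 _ * (toLocal w.1 (baseGLH L γ))⁻¹ ∈ _
  rw [hN, map_mul, mul_inv_cancel_right]
  exact toLocal_mem_center _ (Tree.scalar_mem_center _)

theorem exists_comm_coeffs {F : Type} [Field F] {g a : M2 F} (hg : CubicAut.NonScalar g)
    (ha : Commute a g) : ∃ x y : F, a = x • 1 + y • g := by
  have e00 := congrArg (fun m : M2 F => m 0 0) ha.eq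
  have e01 := congrArg (fun m : M2 F => m 0 1) ha.eq
  have e10 := congrArg (fun m : M2 F => m 1 0) ha.eq
  simp [Matrix.mul_apply, Fin.sum_univ_two] at e00 e01 e10
  by_cases h10 : g 1 0 = 0
  · by_cases h01 : g 0 1 = 0
    · have hne : g 0 0 - g 1 1 ≠ 0 := fun h0 => hg (g 0 0) (by
        ext i j; fin_cases i <;> fin_cases j <;> simp [h10, h01, sub_eq_zero.1 h0])
      have a01 : a 0 1 = 0 := by
        have : a 0 1 * (g 0 0 - g 1 1) = 0 := by rw [h01] at e01; linear_combination -e01
        exact (mul_eq_zero.1 this).resolve_right hne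
      have a10 : a 1 0 = 0 := by
        have : a 1 0 * (g 0 0 - g 1 1) = 0 := by rw [h10] at e10; linear_combination e10
        exact (mul_eq_zero.1 this).resolve_right hne
      refine ⟨a 0 0 - (a 0 0 - a 1 1) / (g 0 0 - g 1 1) * g 0 0,
        (a 0 0 - a 1 1) / (g 0 0 - g 1 1), ?_⟩
      ext i j; fin_cases i <;> fin_cases j <;> simp [h10, h01, a01, a10]
      field_simp; ring
    · refine ⟨a 0 0 - a 0 1 / g 0 1 * g 0 0, a 0 1 / g 0 1, ?_⟩
      ext i j; fin_cases i <;> fin_cases j <;> simp <;> field_simp
      · linear_combination -e00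
      · linear_combination -e01
  · refine ⟨a 0 0 - a 1 0 / g 1 0 * g 0 0, a 1 0 / g 1 0, ?_⟩
    ext i j; fin_cases i <;> fin_cases j <;> simp <;> field_simp
    · linear_combination e00
    · linear_combination e10

/-! ### Descent of fixed vertex families -/

include τ in
/-- A function invariant under the automorphism is constant on the places over `v`. -/
theorem eq_of_comapOver_invariant {A : Type*} (m : Over L v → A)
    (hm : ∀ w, m (comapOver τ.σ w) = m w) (w u : Over L v) : m u = m w := by
  classical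
  set w₁ := comapOver τ.σ w
  set w₂ := comapOver τ.σ w₁
  by_cases hu : u = w ∨ u = w₁ ∨ u = w₂
  · rcases hu with rfl | rfl | rfl
    · rfl
    · exact hm w
    · exact (hm w₁).trans (hm w)
  exfalso
  push Not at hu
  obtain ⟨x, hx, hx'⟩ := exists_approx_finset ({u.1, w.1, w₁.1, w₂.1} : Finset (FPlace L))
    (fun z => if z = u.1 then 0 else 1) (fun _ => 1)
  have hlt : (WithZero.exp (-1 : ℤ) : ℤᵐ⁰) < 1 := by
    rw [← WithZero.exp_zero, WithZero.exp_lt_exp]; norm_num
  have hxu : u.1.valuation L x < 1 := by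
    have := hx u.1 (by simp)
    rw [if_pos rfl, sub_zero] at this
    exact this.trans_lt hlt
  have hxz : ∀ z : Over L v, z ≠ u → z.1 ∈ ({u.1, w.1, w₁.1, w₂.1} : Finset (FPlace L)) →
      z.1.valuation L x = 1 := fun z hz hmem => by
    have h1 := hx z.1 hmem
    rw [if_neg fun e => hz (Subtype.ext e)] at h1
    rw [show x = (x - 1) + 1 by ring,
      Valuation.map_add_eq_of_lt_right (z.1.valuation L) (by rw [map_one]; exact h1.trans_lt hlt),
      map_one]
  have e0 := hxz w (Ne.symm hu.1) (by simp)
  have e1 : w.1.valuation L (τ.σ x) = 1 := by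
    rw [← hxz w₁ (Ne.symm hu.2.1) (by simp)]
    exact (valuation_comapPlace τ.σ.toRingEquiv w.1 x).symm
  have e2 : w.1.valuation L (τ.σ (τ.σ x)) = 1 := by
    rw [← hxz w₂ (Ne.symm hu.2.2) (by simp)]
    exact (valuation_comapPlace τ.σ.toRingEquiv w.1 (τ.σ x)).symm.trans
      (valuation_comapPlace τ.σ.toRingEquiv w₁.1 x).symm
  obtain ⟨k, hk⟩ := τ.fixed (τ.nm x) (τ.σ_nm x)
  have hw : w.1.valuation L (algebraMap K L k) = 1 := by
    rw [hk, CubicAut.nm, map_mul, map_mul, e0, e1, e2, one_mul, one_mul]
  rw [valuation_algebraMap_of_below w.1 w.2] at hw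
  replace hw := (pow_left_inj₀ zero_le zero_le (ram_pos w.1).ne').1 (hw.trans (one_pow _).symm)
  have hu' : u.1.valuation L (algebraMap K L k) = 1 := by
    rw [valuation_algebraMap_of_below u.1 u.2, hw, one_pow]
  rw [hk, CubicAut.nm, map_mul, map_mul] at hu'
  have hle : ∀ y : L, (∀ z : FPlace L, z.valuation L y ≤ 1) →
      ∀ z : FPlace L, z.valuation L (τ.σ y) ≤ 1 := fun y hy z =>
    (valuation_comapPlace τ.σ.toRingEquiv z y).symm.trans_le (hy _)
  have hall : ∀ z : FPlace L, z.valuation L x ≤ 1 := by
    intro z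
    by_cases hz : z ∈ ({u.1, w.1, w₁.1, w₂.1} : Finset (FPlace L))
    · have h1 := (hx z hz).trans hlt.le
      by_cases e : z = u.1
      · rwa [if_pos e, sub_zero] at h1
      · rw [if_neg e] at h1
        rw [show x = (x - 1) + 1 by ring]
        exact (z.valuation L).map_add_le h1 (map_one _).le
    · exact hx' z hz
  have h1 := hle x hall
  have h2 := hle (τ.σ x) h1
  refine absurd hu' (ne_of_lt ?_)
  exact ((mul_le_of_le_one_right' (h2 u.1)).trans (mul_le_of_le_one_right' (h1 u.1))).trans_lt hxu

end Fermat.Agent.ResidualThree.Orbital
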