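import Fermat.Agent.ResidualThree.Orbital.UnitPlace

/-!
# The transfer of the unit functions at a good place

At an unramified place prime to three with standard level, functions and integral data, the base
and twisted orbital terms of the unit functions correspond along the embedding of cosets
(`exists_unit_transfer`), giving the transfer at almost all places.
-/

noncomputable section

open IsDedekindDomain NumberField Matrix
open scoped WithZero

namespace Fermat.Agent.ResidualThree.Orbital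

variable {K L : Type} [Field K] [NumberField K] [Field L] [NumberField L] [Algebra K L]
variable {v : FPlace K} (τ : CubicAut K L)

theorem baseOver_toLocal_apply (w : Over L v) (g : GL (Fin 2) K) :
    baseGL w.1 w.2 (toLocal v g) = toLocal w.1 (baseGLH L g) :=
  congrFun (baseOver_toLocal v g) w

local notation "M2" => Matrix (Fin 2) (Fin 2)

/-! ### Descent of a fixed family of vertices -/

/-- Up to the maximal subgroup a matrix is upper triangular, with diagonal `(E k, 1)`. -/
theorem exists_upGL_mem (w : FPlace L) (E : ℤ → (w.adicCompletion L)ˣ)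
    (hE : ∀ k, valv w (E k : w.adicCompletion L) = WithZero.exp (-k)) (g : GLv w) :
    ∃ (k : ℤ) (b : w.adicCompletion L), g⁻¹ * upGL (E k) 1 b ∈ maxSubgroup w := by
  obtain ⟨j, hj, hz⟩ := exists_upper_mul_intGL (valv w) g
  obtain ⟨a, d, t, he⟩ := eq_upGL_of_apply_eq_zero hz
  set k : ℤ := -WithZero.log (valv w ((a / d : (w.adicCompletion L)ˣ) : w.adicCompletion L))
  set u := (a / d) / E k
  have hu : valv w (u : w.adicCompletion L) = 1 := by
    simp only [u, k, Units.val_div_eq_div_val, map_div₀, hE, neg_neg]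
    rw [WithZero.exp_log (by simp), div_self]
    simp
  refine ⟨k, t * ((d⁻¹ : (w.adicCompletion L)ˣ) : w.adicCompletion L), ?_⟩
  have e : g * j = Matrix.GeneralLinearGroup.scalar (Fin 2) d *
      (upGL (E k) 1 (t * ((d⁻¹ : (w.adicCompletion L)ˣ) : w.adicCompletion L)) *
        upGL u 1 0) := by
    rw [he, scalar_eq_upGL, upGL_mul, upGL_mul]
    congr 1
    · simp [u]
    · simp
    · simp only [Units.val_one, mul_one, mul_zero, zero_add, add_zero,
        Units.val_inv_eq_inv_val]
      field_simp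
  set B := upGL (E k) 1 (t * ((d⁻¹ : (w.adicCompletion L)ˣ) : w.adicCompletion L))
  have e' : g⁻¹ * B =
      j * (upGL u 1 0)⁻¹ * (Matrix.GeneralLinearGroup.scalar (Fin 2) d)⁻¹ := by
    have hs : (Matrix.GeneralLinearGroup.scalar (Fin 2) d)⁻¹ * B =
        B * (Matrix.GeneralLinearGroup.scalar (Fin 2) d)⁻¹ := by
      rw [← map_inv]; exact Matrix.GeneralLinearGroup.scalar_commute _ _
    calc g⁻¹ * B = j * (g * j)⁻¹ * B := by rw [_root_.mul_inv_rev, mul_inv_cancel_left]
      _ = j * ((upGL u 1 0)⁻¹ * B⁻¹ * ((Matrix.GeneralLinearGroup.scalar (Fin 2) d)⁻¹ * B)) := by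
        rw [e]; group
      _ = _ := by rw [hs]; group
  rw [e']
  exact mul_mem (mul_mem (intGL_le_maxSubgroup _ hj)
    (inv_mem (upGL_mem_maxSubgroup_iff.2 ⟨hu, by simp⟩)))
    (inv_mem (center_le_maxSubgroup _ (Tree.scalar_mem_center d)))

include τ in
/-- A family of vertices fixed by the automorphism comes from a vertex of the base. -/
theorem exists_base_of_fixed_family (hram : ∀ w : Over L v, ram K w.1 = 1)
    (h3 : ∀ w : Over L v, w.1.valuation L (3 : L) = 1) (G : Gover L v)
    (hG : ∀ w, (G w)⁻¹ * autOver τ.σ G w ∈ maxSubgroup w.1) :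
    ∃ g : GLv v, ∀ w, (G w)⁻¹ * baseGL w.1 w.2 g ∈ maxSubgroup w.1 := by
  classical
  rcases isEmpty_or_nonempty (Over L v) with hE | ⟨⟨w₀⟩⟩
  · exact ⟨1, fun w => (hE.false w).elim⟩
  obtain ⟨π, hπ⟩ := v.valuation_exists_uniformizer K
  have hπ0 : π ≠ 0 := fun h0 => by rw [h0, map_zero] at hπ; exact WithZero.exp_ne_zero hπ.symm
  set P : L := algebraMap K L π
  have hP : ∀ w : Over L v, w.1.valuation L P = WithZero.exp (-1 : ℤ) := fun w => by
    rw [valuation_algebraMap_of_below w.1 w.2, hram, pow_one, hπ]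
  have hP0 : P ≠ 0 := (map_ne_zero _).2 hπ0
  let E : ∀ w : Over L v, ℤ → (w.1.adicCompletion L)ˣ := fun w k =>
    Units.map (algebraMap L (w.1.adicCompletion L)).toMonoidHom (Units.mk0 P hP0 ^ k)
  have hEc : ∀ w k, (E w k : w.1.adicCompletion L) = algebraMap L _ (P ^ k) := fun w k => by
    simp only [E, Units.coe_map, RingHom.toMonoidHom_eq_coe, MonoidHom.coe_coe,
      Units.val_zpow_eq_zpow_val, Units.val_mk0]
  have hEv : ∀ w k, valv w.1 (E w k : w.1.adicCompletion L) = WithZero.exp (-k) := fun w k => by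
    rw [hEc, valv_algebraMap, map_zpow₀, hP, ← WithZero.exp_zsmul, smul_neg, smul_eq_mul, mul_one]
  have hupper : ∀ w : Over L v, ∃ (k : ℤ) (b : w.1.adicCompletion L),
      (G w)⁻¹ * upGL (E w k) 1 b ∈ maxSubgroup w.1 :=
    fun w => exists_upGL_mem w.1 (E w) (hEv w) (G w)
  choose m b hB using hupper
  -- the automorphism compares neighbouring upper triangular representatives
  have hrel : ∀ w, m (comapOver τ.σ w) = m w ∧
      valv w.1 (localAut τ.σ.toRingEquiv w.1 (b (comapOver τ.σ w)) - b w) ≤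
        WithZero.exp (-m w) := by
    intro w
    set u := comapOver τ.σ w
    have hH := autOver_mem_max τ.σ (x := fun z => (G z)⁻¹ * upGL (E z (m z)) 1 (b z)) hB w
    have h1 : (upGL (E w (m w)) 1 (b w))⁻¹ *
        localAutGL τ.σ.toRingEquiv w.1 (upGL (E u (m u)) 1 (b u)) ∈ maxSubgroup w.1 := by
      have h2 := mul_mem (mul_mem (inv_mem (hB w)) (hG w)) hH
      have e : autOver τ.σ (fun z => (G z)⁻¹ * upGL (E z (m z)) 1 (b z)) w =
          (autOver τ.σ G w)⁻¹ * localAutGL τ.σ.toRingEquiv w.1 (upGL (E u (m u)) 1 (b u)) :=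
        (congrFun (map_mul (autOver τ.σ) G⁻¹ (fun z => upGL (E z (m z)) 1 (b z))) w).trans
          (by rw [Pi.mul_apply, map_inv, Pi.inv_apply]; rfl)
      rw [e] at h2
      convert h2 using 1
      group
    have e1 : localAutGL τ.σ.toRingEquiv w.1 (upGL (E u (m u)) 1 (b u)) =
        upGL (E w (m u)) 1 (localAut τ.σ.toRingEquiv w.1 (b u)) := by
      refine Units.ext (Matrix.ext fun i j => ?_)
      show localAut τ.σ.toRingEquiv w.1
        (((upGL (E u (m u)) 1 (b u) : GLv u.1) : M2 (u.1.adicCompletion L)) i j) = _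
      fin_cases i <;> fin_cases j <;> simp
      all_goals first
        | rfl
        | exact map_zero _
        | exact map_one _
        | (rw [hEc, hEc]
           refine (localAut_coe τ.σ.toRingEquiv w.1 _).trans (congrArg _ ?_)
           rw [show P ^ m u = algebraMap K L (π ^ m u) from (map_zpow₀ _ _ _).symm]
           exact τ.σ.commutes _)
    rw [e1, upGL_inv, upGL_mul, inv_one, mul_one, upGL_mem_maxSubgroup_iff] at h1
    obtain ⟨ha, ht⟩ := h1
    have hm : m u = m w := by
      rw [Units.val_mul, map_mul, Units.val_inv_eq_inv_val, map_inv₀, hEv, hEv, ← WithZero.exp_neg,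
        ← WithZero.exp_add, ← WithZero.exp_zero, WithZero.exp_inj] at ha
      omega
    refine ⟨hm, ?_⟩
    simp only [Units.val_one, mul_one, neg_mul, ← sub_eq_add_neg, ← mul_sub] at ht
    rw [
      map_mul, Units.val_inv_eq_inv_val, map_inv₀, hEv,
      inv_mul_le_iff₀ (zero_lt_iff.2 WithZero.exp_ne_zero), mul_one] at ht
    exact ht
  set M := m w₀
  have hM : ∀ w, m w = M := eq_of_comapOver_invariant τ m (fun w => (hrel w).1) w₀
  choose c hc using fun w : Over L v => exists_sub_le_exp w.1 (b w) (-M)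
  obtain ⟨β, hβ, -⟩ := exists_approx_finset (Finset.univ.image fun w : Over L v => w.1)
    (fun z => if hz : below K z = v then c ⟨z, hz⟩ else 0) (fun _ => M)
  have hβb : ∀ w : Over L v, valv w.1 (algebraMap L _ β - b w) ≤ WithZero.exp (-M) := by
    intro w
    have h1 := hβ w.1 (Finset.mem_image.2 ⟨w, Finset.mem_univ _, rfl⟩)
    rw [dif_pos w.2, ← valv_algebraMap, map_sub] at h1
    rw [show algebraMap L (w.1.adicCompletion L) β - b w =
      (algebraMap L _ β - algebraMap L _ (c w)) + (algebraMap L _ (c w) - b w) by ring]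
    exact (valv w.1).map_add_le h1 (hc w)
  have hd : ∀ w : Over L v, w.1.valuation L (τ.σ β - β) ≤ WithZero.exp (-M) := by
    intro w
    rw [← valv_algebraMap, map_sub]
    set u := comapOver τ.σ w
    have h1 : valv w.1 (algebraMap L _ (τ.σ β) - localAut τ.σ.toRingEquiv w.1 (b u)) ≤
        WithZero.exp (-M) := by
      rw [show algebraMap L (w.1.adicCompletion L) (τ.σ β) -
          localAut τ.σ.toRingEquiv w.1 (b u) =
          localAut τ.σ.toRingEquiv w.1 (algebraMap L (u.1.adicCompletion L) β - b u) from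
        ((map_sub (localAut τ.σ.toRingEquiv w.1) _ _).trans
          (congrArg (· - _) (localAut_coe τ.σ.toRingEquiv w.1 β))).symm]
      exact (valv_localAut τ.σ.toRingEquiv w.1 _).trans_le (hβb u)
    rw [show algebraMap L (w.1.adicCompletion L) (τ.σ β) - algebraMap L _ β =
      (algebraMap L _ (τ.σ β) - localAut τ.σ.toRingEquiv w.1 (b u)) +
        (localAut τ.σ.toRingEquiv w.1 (b u) - b w) - (algebraMap L _ β - b w) by ring]
    exact (valv w.1).map_sub_le ((valv w.1).map_add_le h1 ((hrel w).2.trans (by rw [hM]))) (hβb w)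
  obtain ⟨t, ht⟩ := τ.fixed ((β + τ.σ β + τ.σ (τ.σ β)) / 3)
    (by rw [map_div₀, map_ofNat, map_add, map_add, τ.pow_three]; ring)
  have hT : ∀ w : Over L v, w.1.valuation L (algebraMap K L t - β) ≤ WithZero.exp (-M) := by
    intro w
    rw [ht, show (β + τ.σ β + τ.σ (τ.σ β)) / 3 - β =
      ((τ.σ β - β) + ((τ.σ β - β) + τ.σ (τ.σ β - β))) / 3 by rw [map_sub]; ring, map_div₀, h3,
      div_one]
    refine (w.1.valuation L).map_add_le (hd w) ((w.1.valuation L).map_add_le (hd w) ?_)
    exact (valuation_comapPlace τ.σ.toRingEquiv w.1 _).symm.trans_le (hd (comapOver τ.σ w))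
  refine ⟨upGL (Units.map (algebraMap K (v.adicCompletion K)).toMonoidHom (Units.mk0 π hπ0 ^ M)) 1
    (algebraMap K _ t), fun w => ?_⟩
  have e : baseGL w.1 w.2 (upGL (Units.map (algebraMap K (v.adicCompletion K)).toMonoidHom
      (Units.mk0 π hπ0 ^ M)) 1 (algebraMap K _ t)) =
      upGL (E w M) 1 (algebraMap L _ (algebraMap K L t)) := by
    refine Units.ext (Matrix.ext fun i j => ?_)
    rw [coe_baseGL, Matrix.map_apply]
    fin_cases i <;> fin_cases j <;> simp [hEc, P]
  rw [e, show (G w)⁻¹ * upGL (E w M) 1 (algebraMap L _ (algebraMap K L t)) =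
    ((G w)⁻¹ * upGL (E w (m w)) 1 (b w)) * ((upGL (E w (m w)) 1 (b w))⁻¹ *
      upGL (E w M) 1 (algebraMap L _ (algebraMap K L t))) by group]
  refine mul_mem (hB w) ?_
  rw [hM, upGL_inv, upGL_mul, inv_one, mul_one, inv_mul_cancel, upGL_mem_maxSubgroup_iff]
  refine ⟨by simp, ?_⟩
  simp only [Units.val_one, mul_one, neg_mul, ← sub_eq_add_neg, ← mul_sub]
  rw [
    map_mul, Units.val_inv_eq_inv_val, map_inv₀, hEv,
    inv_mul_le_iff₀ (zero_lt_iff.2 WithZero.exp_ne_zero), mul_one,
    show algebraMap L (w.1.adicCompletion L) (algebraMap K L t) - b w =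
      algebraMap L _ (algebraMap K L t - β) + (algebraMap L _ β - b w) by rw [map_sub]; ring]
  exact (valv w.1).map_add_le (by rw [valv_algebraMap]; exact hT w) (hβb w)

/-! ### The conditions at a good place -/

variable (UL : Level L) (UK : Level K) (fL : ∀ w : FPlace L, GLv w → ℂ)
  (fK : ∀ v : FPlace K, GLv v → ℂ)

/-- Levels and functions are the standard ones, the place is unramified and prime to three. -/
structure IsUnitPlace (v : FPlace K) : Prop where
  JK : UK.J v = maxSubgroup v
  fK_eq : fK v = unitFun v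
  JL : ∀ w : Over L v, UL.J w.1 = maxSubgroup w.1
  fL_eq : ∀ w : Over L v, fL w.1 = unitFun w.1
  ram_one : ∀ w : Over L v, ram K w.1 = 1
  three : ∀ w : Over L v, w.1.valuation L (3 : L) = 1

variable {UL UK fL fK}

theorem eventually_isUnitPlace (hL : IsLocalFamily UL fL) (hK : IsLocalFamily UK fK) :
    ∀ᶠ v : FPlace K in Filter.cofinite, IsUnitPlace UL UK fL fK v := by
  have h3 : ∀ᶠ w : FPlace L in Filter.cofinite, w.valuation L (3 : L) = 1 := by
    filter_upwards [eventually_valuation_le_one (3 : L), eventually_valuation_le_one (3 : L)⁻¹]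
      with w h1 h2
    refine le_antisymm h1 ?_
    rw [map_inv₀] at h2
    exact (inv_le_one₀ (zero_lt_iff.mpr ((w.valuation L).ne_zero_iff.mpr three_ne_zero))).mp h2
  filter_upwards [hK.unit, eventually_over (K := K) hL.unit,
    eventually_over (eventually_ram_eq_one (L := L) K),
    eventually_over (K := K) h3] with v h1 h2 h4 h5
  exact ⟨h1.1, h1.2, fun w => (h2 w).1, fun w => (h2 w).2, h4, h5⟩

variable (L) in
/-- The data of `δ, γ` is integral at the places over `v`. -/
structure IsUnitPair (δ : GL (Fin 2) L) (γ : GL (Fin 2) K) (v : FPlace K) : Prop where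
  γ_int : IsIntGL (valv v) (toLocal v γ)
  δ_det : ∀ w : Over L v, w.1.valuation L (δ : M2 L).det = 1
  coeff : ∃ x y : L, (δ : M2 L) = x • 1 + y • (γ : M2 K).map (algebraMap K L) ∧
    ∀ w : Over L v, w.1.valuation L x ≤ 1 ∧ w.1.valuation L y ≤ 1

theorem eventually_isUnitPair {δ : GL (Fin 2) L} {γ : GL (Fin 2) K} {c : L}
    (hns : CubicAut.NonScalar (γ : M2 K))
    (e : τ.norm (δ : M2 L) = c • (γ : M2 K).map (algebraMap K L)) :
    ∀ᶠ v in Filter.cofinite, IsUnitPair L δ γ v := by
  obtain ⟨x, y, hxy⟩ := exists_comm_coeffs ((CubicAut.nonScalar_map (L := L)).2 hns)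
    (τ.commute_of_norm δ.det_ne_zero e).1
  filter_upwards [eventually_isIntGL_toLocal γ,
    eventually_over (K := K) (eventually_isIntGL_toLocal δ),
    eventually_over (K := K) (eventually_valuation_le_one x),
    eventually_over (K := K) (eventually_valuation_le_one y)]
    with v h1 h2 h3 h4
  exact ⟨h1, fun w => (det_toLocal w.1 δ).symm.trans (h2 w).2, x, y, hxy, fun w => ⟨h3 w, h4 w⟩⟩

variable {δ : GL (Fin 2) L} {γ : GL (Fin 2) K}

theorem IsUnitPair.conj_mem (h : IsUnitPair L δ γ v) (w : Over L v) {G : GLv w.1}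
    (hG : G⁻¹ * toLocal w.1 (baseGLH L γ) * G ∈ maxSubgroup w.1) :
    G⁻¹ * toLocal w.1 δ * G ∈ maxSubgroup w.1 := by
  obtain ⟨x, y, he, hxy⟩ := h.coeff
  have hdet : ∀ a : GLv w.1, ((G⁻¹ * a * G : GLv w.1) : M2 (w.1.adicCompletion L)).det =
      (a : M2 (w.1.adicCompletion L)).det := fun a => by
    rw [Units.val_mul, Units.val_mul, Matrix.det_units_conj']
  have hΓ := isIntGL_of_mem_max hG (by
    rw [hdet, ← baseOver_toLocal_apply, valv_det_baseGL, h.γ_int.2, one_pow])
  refine intGL_le_maxSubgroup _ ⟨fun i j => ?_, ?_⟩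
  · have e : ((G⁻¹ * toLocal w.1 δ * G : GLv w.1) : M2 (w.1.adicCompletion L)) =
        algebraMap L (w.1.adicCompletion L) x • (1 : M2 (w.1.adicCompletion L)) +
          algebraMap L (w.1.adicCompletion L) y •
          ((G⁻¹ * toLocal w.1 (baseGLH L γ) * G : GLv w.1) : M2 (w.1.adicCompletion L)) := by
      have e' : (toLocal w.1 δ : M2 (w.1.adicCompletion L)) =
          algebraMap L (w.1.adicCompletion L) x • (1 : M2 (w.1.adicCompletion L)) +
          algebraMap L (w.1.adicCompletion L) y •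
            (toLocal w.1 (baseGLH L γ) : M2 (w.1.adicCompletion L)) := by
        show (δ : M2 L).map (algebraMap L _) = _
        rw [he, Matrix.map_add _ (map_add _), Matrix.map_smul' _ _ _ (map_mul _),
          Matrix.map_smul' _ _ _ (map_mul _), Matrix.map_one _ (map_zero _) (map_one _)]
        rfl
      rw [Units.val_mul, Units.val_mul, Units.val_mul, Units.val_mul, e', Matrix.mul_add,
        Matrix.add_mul, Matrix.mul_smul, Matrix.mul_smul, Matrix.smul_mul, Matrix.smul_mul,
        Matrix.mul_one, ← Units.val_mul, inv_mul_cancel, Units.val_one]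
    rw [e, Matrix.add_apply, Matrix.smul_apply, Matrix.smul_apply, smul_eq_mul, smul_eq_mul]
    refine (valv w.1).map_add_le ?_ ?_ <;> rw [map_mul]
    · refine mul_le_one' (by rw [valv_algebraMap]; exact (hxy w).1) ?_
      rw [Matrix.one_apply]
      split_ifs <;> simp
    · exact mul_le_one' (by rw [valv_algebraMap]; exact (hxy w).2) (hΓ.1 i j)
  · rw [hdet, det_toLocal]
    exact h.δ_det w

theorem IsUnitPair.mem_of_twist (h : IsUnitPair L δ γ v)
    (hN : IsLocalNorm τ.σ (diagOver v δ) (toLocal v γ)) {G : Gover L v}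
    (hG : ∀ w, (G w)⁻¹ * toLocal w.1 δ * autOver τ.σ G w ∈ maxSubgroup w.1) (w : Over L v) :
    (G w)⁻¹ * toLocal w.1 (baseGLH L γ) * G w ∈ maxSubgroup w.1 ∧
      (G w)⁻¹ * autOver τ.σ G w ∈ maxSubgroup w.1 := by
  set H : Gover L v := G⁻¹ * diagOver v δ * autOver τ.σ G with hH
  have hmem : ∀ z, H z ∈ maxSubgroup z.1 := hG
  have h1 : normOver τ.σ H w ∈ maxSubgroup w.1 :=
    mul_mem (mul_mem (hmem w) (autOver_mem_max τ.σ hmem w))
      (autOver_mem_max τ.σ (autOver_mem_max τ.σ hmem) w)
  rw [hH, normOver_conj] at h1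
  obtain ⟨z, hz, hzN⟩ : ∃ z ∈ Subgroup.center (GLv w.1),
      normOver τ.σ (diagOver v δ) w = z * toLocal w.1 (baseGLH L γ) := by
    refine ⟨_, hN w, ?_⟩
    rw [baseOver_toLocal]
    exact (inv_mul_cancel_right (normOver τ.σ (diagOver v δ) w) (toLocal w.1 (baseGLH L γ))).symm
  have h2 : (G w)⁻¹ * toLocal w.1 (baseGLH L γ) * G w ∈ maxSubgroup w.1 := by
    rw [← mem_max_of_center_mul hz]
    have e : (G⁻¹ * normOver τ.σ (diagOver v δ) * G) w =
        z * ((G w)⁻¹ * toLocal w.1 (baseGLH L γ) * G w) := by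
      show (G w)⁻¹ * normOver τ.σ (diagOver v δ) w * G w = _
      rw [hzN, ← mul_assoc, (Subgroup.mem_center_iff.1 hz (G w)⁻¹), mul_assoc z, mul_assoc z]
    rwa [e] at h1
  refine ⟨h2, ?_⟩
  have h3 := h.conj_mem w h2
  have e : (G w)⁻¹ * autOver τ.σ G w =
      ((G w)⁻¹ * toLocal w.1 δ * G w)⁻¹ * ((G w)⁻¹ * toLocal w.1 δ * autOver τ.σ G w) := by group
  rw [e]
  exact mul_mem (inv_mem h3) (hG w)

/-! ### Projections -/

variable (UL UK) in
/-- The embedded coset. -/
def embCoset (v : FPlace K) (q : GLv v ⧸ UK.J v) : Ωover UL v :=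
  fun w => QuotientGroup.mk (baseGL w.1 w.2 q.out)

theorem embCoset_mk (hp : IsUnitPlace UL UK fL fK v) (g : GLv v) :
    embCoset UL UK v (g : GLv v ⧸ UK.J v) =
      fun w : Over L v => (QuotientGroup.mk (baseGL w.1 w.2 g) : GLv w.1 ⧸ UL.J w.1) := by
  funext w
  obtain ⟨j, hj⟩ := QuotientGroup.mk_out_eq_mul (UK.J v) g
  rw [embCoset, hj, map_mul]
  refine QuotientGroup.mk_mul_of_mem _ ?_
  rw [hp.JL, baseGL_mem_max_iff]
  exact UK.le_max v j.2

theorem embCoset_injective (hp : IsUnitPlace UL UK fL fK v) (w : Over L v) :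
    Function.Injective (embCoset UL UK v) := by
  intro a b hab
  rw [← QuotientGroup.out_eq' a, ← QuotientGroup.out_eq' b, QuotientGroup.eq]
  refine (SetLike.ext_iff.1 hp.JK _).2 ((baseGL_mem_max_iff w).1 ?_)
  rw [map_mul, map_inv]
  exact (SetLike.ext_iff.1 (hp.JL w) _).1 (QuotientGroup.eq.1 (congrFun hab w))

theorem embCoset_smul (hp : IsUnitPlace UL UK fL fK v) (g : GLv v) (q : GLv v ⧸ UK.J v) :
    embCoset UL UK v (g • q) = fun w => baseOver L v g w • embCoset UL UK v q w := by
  induction q using QuotientGroup.induction_on with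
  | H a =>
    rw [show g • (a : GLv v ⧸ UK.J v) = ((g * a : GLv v) : GLv v ⧸ UK.J v) from rfl,
      embCoset_mk hp, embCoset_mk hp]
    funext w
    rw [map_mul]
    rfl

open Classical in
/-- The identity projection. -/
def unitProj (f : GLv v → ℂ) (γ : GLv v) (S : Set (GLv v)) : LocalProj UK v f γ S where
  proj y := {y}
  smul _ _ _ := (Finset.image_singleton _ _).symm
  nonempty _ _ := Finset.singleton_nonempty _
  finite q := (Set.finite_singleton q).subset fun _ hy => (Finset.mem_singleton.1 hy.2).symm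

/-- The base coset is the only one over the base coset. -/
def LocalProj.IsBase {fK : GLv v → ℂ} {γ : GLv v} {S : Set (GLv v)}
    (P : LocalProj UK v fK γ S) : Prop :=
  P.proj (QuotientGroup.mk 1) = {QuotientGroup.mk 1} ∧
    baseTerm UK v fK γ (QuotientGroup.mk 1) = 1 ∧
    ∀ y, baseTerm UK v fK γ y ≠ 0 → QuotientGroup.mk 1 ∈ P.proj y → y = QuotientGroup.mk 1

variable {τ} in
/-- The base coset is the only one over the base coset, on both sides. -/
def LocalTransfer.IsBase {fK : GLv v → ℂ} {δ : Gover L v} {γ : GLv v}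
    (P : LocalTransfer τ UL UK v fL fK δ γ) : Prop :=
  P.toLocalProj.IsBase ∧ P.projL (fun _ => QuotientGroup.mk 1) = {QuotientGroup.mk 1} ∧
    twistTerm τ UL v fL δ (fun _ => QuotientGroup.mk 1) = 1 ∧
    ∀ X, twistTerm τ UL v fL δ X ≠ 0 → QuotientGroup.mk 1 ∈ P.projL X →
      X = fun _ => QuotientGroup.mk 1

theorem baseTerm_eq_unit (hp : IsUnitPlace UL UK fL fK v) (g γ : GLv v) :
    baseTerm UK v (fK v) γ (g : GLv v ⧸ UK.J v) = unitFun v (g⁻¹ * γ * g) := by
  obtain ⟨j, hj⟩ := QuotientGroup.mk_out_eq_mul (UK.J v) g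
  have hjm := UK.le_max v j.2
  rw [baseTerm, hp.fK_eq, hj]
  simp only [unitFun]
  congr 1
  rw [eq_iff_iff,
    show (g * (j : GLv v))⁻¹ * γ * (g * j) = (j : GLv v)⁻¹ * (g⁻¹ * γ * g) * j by group,
    Subgroup.mul_mem_cancel_right _ hjm, Subgroup.mul_mem_cancel_left _ (inv_mem hjm)]

theorem isBase_unitProj (hp : IsUnitPlace UL UK fL fK v) (hγ : IsIntGL (valv v) (toLocal v γ))
    (S : Set (GLv v)) : (unitProj (UK := UK) (fK v) (toLocal v γ) S).IsBase := by
  refine ⟨rfl, ?_, fun y _ hy => (Finset.mem_singleton.1 hy).symm⟩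
  rw [baseTerm_eq_unit hp, inv_one, one_mul, mul_one, unitFun,
    if_pos (intGL_le_maxSubgroup v hγ)]

theorem twistTerm_ne_zero_iff (hp : IsUnitPlace UL UK fL fK v) (G : Gover L v) :
    twistTerm τ UL v fL (diagOver v δ) (fun w => QuotientGroup.mk (G w)) ≠ 0 ↔
      ∀ w, (G w)⁻¹ * toLocal w.1 δ * autOver τ.σ G w ∈ maxSubgroup w.1 := by
  set O : Gover L v := fun w => (QuotientGroup.mk (G w) : GLv w.1 ⧸ UL.J w.1).out
  set J : Gover L v := G⁻¹ * O
  have hJ : ∀ w, J w ∈ maxSubgroup w.1 := fun w => by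
    obtain ⟨j, hj⟩ := QuotientGroup.mk_out_eq_mul (UL.J w.1) (G w)
    show (G w)⁻¹ * O w ∈ _
    rw [show O w = G w * j from hj, inv_mul_cancel_left]
    exact UL.le_max _ j.2
  rw [twistTerm, Finset.prod_ne_zero_iff]
  have hiff : ∀ w : Over L v, fL w.1 ((O w)⁻¹ * toLocal w.1 δ * autOver τ.σ O w) ≠ 0 ↔
      (G w)⁻¹ * toLocal w.1 δ * autOver τ.σ G w ∈ maxSubgroup w.1 := fun w => by
    have e : (O w)⁻¹ * toLocal w.1 δ * autOver τ.σ O w =
        (J w)⁻¹ * ((G w)⁻¹ * toLocal w.1 δ * autOver τ.σ G w) * autOver τ.σ J w := by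
      rw [show O = G * J from (mul_inv_cancel_left G O).symm, map_mul, Pi.mul_apply, Pi.mul_apply]
      group
    rw [hp.fL_eq, unitFun_ne_zero_iff, e,
      Subgroup.mul_mem_cancel_right _ (autOver_mem_max τ.σ hJ w),
      Subgroup.mul_mem_cancel_left _ (inv_mem (hJ w))]
  exact ⟨fun h w => (hiff w).1 (h w (Finset.mem_univ _)), fun h w _ => (hiff w).2 (h w)⟩

theorem twistTerm_eq_one (hp : IsUnitPlace UL UK fL fK v) {X : Ωover UL v} {δ : Gover L v}
    (h : twistTerm τ UL v fL δ X ≠ 0) : twistTerm τ UL v fL δ X = 1 := by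
  rw [twistTerm, Finset.prod_ne_zero_iff] at h
  refine Finset.prod_eq_one fun w _ => ?_
  have h' := h w (Finset.mem_univ _)
  rw [hp.fL_eq] at h' ⊢
  exact if_pos (unitFun_ne_zero_iff.1 h')

/-- At a unit place a unit pair has a transfer fixing the base coset. -/
theorem exists_unit_transfer (hp : IsUnitPlace UL UK fL fK v) (h : IsUnitPair L δ γ v)
    (hN : IsLocalNorm τ.σ (diagOver v δ) (toLocal v γ)) (w₀ : Over L v) :
    ∃ P : LocalTransfer τ UL UK v fL (fK v) (diagOver v δ) (toLocal v γ), P.IsBase := by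
  classical
  have hterm : ∀ g : GLv v,
      twistTerm τ UL v fL (diagOver v δ) (embCoset UL UK v (g : GLv v ⧸ UK.J v)) =
        baseTerm UK v (fK v) (toLocal v γ) (g : GLv v ⧸ UK.J v) := by
    intro g
    rw [embCoset_mk hp, baseTerm_eq_unit hp]
    have hiff : g⁻¹ * toLocal v γ * g ∈ maxSubgroup v ↔
        twistTerm τ UL v fL (diagOver v δ) (fun w => QuotientGroup.mk (baseOver L v g w)) ≠ 0 := by
      rw [twistTerm_ne_zero_iff τ hp]
      have e : ∀ w : Over L v, baseGL w.1 w.2 (g⁻¹ * toLocal v γ * g) =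
          (baseOver L v g w)⁻¹ * toLocal w.1 (baseGLH L γ) * baseOver L v g w := fun w => by
        rw [map_mul, map_mul, map_inv, baseOver_toLocal_apply]; rfl
      refine ⟨fun hg w => ?_, fun hg => ?_⟩
      · rw [autOver_baseOver]
        refine h.conj_mem w ?_
        rw [← e, baseGL_mem_max_iff]; exact hg
      · rw [← baseGL_mem_max_iff w₀, e]
        exact (h.mem_of_twist τ hN hg w₀).1
    by_cases hg : g⁻¹ * toLocal v γ * g ∈ maxSubgroup v
    · rw [unitFun, if_pos hg]
      exact twistTerm_eq_one τ hp (hiff.1 hg)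
    · rw [unitFun, if_neg hg]
      exact not_not.1 fun h0 => hg (hiff.2 h0)
  let projL : Ωover UL v → Finset (GLv v ⧸ UK.J v) := fun X =>
    (Set.Subsingleton.finite (s := {q | embCoset UL UK v q = X})
      fun _ ha _ hb => embCoset_injective hp w₀ (ha.trans hb.symm)).toFinset
  have hmem : ∀ X q, q ∈ projL X ↔ embCoset UL UK v q = X := fun X q => Set.Finite.mem_toFinset _
  have hsingle : ∀ q, projL (embCoset UL UK v q) = {q} := fun q => Finset.ext fun a => by
    rw [hmem, Finset.mem_singleton]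
    exact ⟨fun e => embCoset_injective hp w₀ e, congrArg _⟩
  have hbase : embCoset UL UK v (QuotientGroup.mk 1) = fun _ => QuotientGroup.mk 1 := by
    rw [embCoset_mk hp]; funext w; rw [map_one]
  refine ⟨{
    toLocalProj := unitProj (fK v) (toLocal v γ) _
    projL := projL
    smulL := fun g _ X => ?_
    nonemptyL := fun X hX => ?_
    finiteL := fun q => (Set.finite_singleton (embCoset UL UK v q)).subset
      fun X hX => ((hmem X q).1 hX.2).symm
    sum_eq := fun q => ?_ }, ?_⟩
  · ext q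
    rw [hmem, Finset.mem_image]
    constructor
    · intro e
      refine ⟨g⁻¹ • q, (hmem _ _).2 ?_, smul_inv_smul g q⟩
      rw [embCoset_smul hp, e]
      funext w
      rw [map_inv, Pi.inv_apply, inv_smul_smul]
    · rintro ⟨a, ha, rfl⟩
      rw [embCoset_smul hp, (hmem _ _).1 ha]
  · set G : Gover L v := fun w => (X w).out
    have hXG : (fun w => QuotientGroup.mk (G w)) = X := funext fun w => QuotientGroup.out_eq' (X w)
    rw [← hXG, twistTerm_ne_zero_iff τ hp] at hX
    obtain ⟨g, hg⟩ := exists_base_of_fixed_family τ hp.ram_one hp.three G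
      fun w => (h.mem_of_twist τ hN hX w).2
    refine ⟨g, (hmem _ _).2 ?_⟩
    rw [embCoset_mk hp, ← hXG]
    funext w
    rw [QuotientGroup.eq, hp.JL, ← inv_mem_iff, _root_.mul_inv_rev, inv_inv]
    exact hg w
  · rw [LocalProj.push, show {X | q ∈ projL X} = {embCoset UL UK v q} from
        Set.ext fun X => (hmem X q).trans eq_comm,
      show {y | q ∈ (unitProj (UK := UK) (fK v) (toLocal v γ) _).proj y} = {q} from
        Set.ext fun y => Finset.mem_singleton.trans eq_comm,
      finsum_mem_singleton, finsum_mem_singleton, hsingle]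
    show _ = _ / ((({q} : Finset (GLv v ⧸ UK.J v)).card : ℂ))
    obtain ⟨g, rfl⟩ := QuotientGroup.mk_surjective q
    rw [hterm]
  · refine ⟨isBase_unitProj hp h.γ_int _, ?_, ?_, fun X _ hX => ?_⟩
    · show projL _ = _
      rw [← hbase, hsingle]
    · rw [← hbase, hterm, (isBase_unitProj hp h.γ_int Set.univ).2.1]
    · exact ((hmem X _).1 hX).symm.trans hbase

end Fermat.Agent.ResidualThree.Orbital
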