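import Fermat.Agent.ResidualThree.Orbital.Pushforward
import Fermat.Agent.ResidualThree.Orbital.UnitTransfer

/-!
# The transfer of finite adelic orbital sums from the local ones

A finite sum over a restricted product is the product of the local sums, so local projections
with equal fibre sums give global ones: a twisted class with norm `γ` has a transfer, and an
element which is not a norm has a projection with vanishing sums.
-/

noncomputable section

open IsDedekindDomain NumberField Matrix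
open scoped WithZero

namespace Fermat.Agent.ResidualThree.Orbital

/-- A finite sum over a restricted product is the product of the local sums. -/
theorem finsum_restricted {ι X : Type*} {A : ι → Type*} (ev : ∀ i, X → A i)
    (hext : ∀ x y, (∀ i, ev i x = ev i y) → x = y) (base : ∀ i, A i)
    (hev : ∀ x, ∀ᶠ i in Filter.cofinite, ev i x = base i)
    (hsurj : ∀ a : ∀ i, A i, (∀ᶠ i in Filter.cofinite, a i = base i) → ∃ x, ∀ i, ev i x = a i)
    (f : ∀ i, A i → ℂ) (hfin : ∀ i, {a | f i a ≠ 0}.Finite)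
    (hbase : ∀ᶠ i in Filter.cofinite, f i (base i) = 1 ∧ ∀ a, f i a ≠ 0 → a = base i) :
    {x | ∀ i, f i (ev i x) ≠ 0}.Finite ∧ (fun i => ∑ᶠ a, f i a).HasFiniteMulSupport ∧
      (∀ x, (fun i => f i (ev i x)).HasFiniteMulSupport) ∧
      ∑ᶠ x, ∏ᶠ i, f i (ev i x) = ∏ᶠ i, ∑ᶠ a, f i a := by
  classical
  set S := (Filter.eventually_cofinite.1 hbase).toFinset
  have hS : ∀ i ∉ S, f i (base i) = 1 ∧ ∀ a, f i a ≠ 0 → a = base i := fun i hi => by
    simpa [S] using hi
  have hsum : ∀ i ∉ S, ∑ᶠ a, f i a = 1 := fun i hi => by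
    rw [finsum_eq_single _ (base i) fun a ha => not_not.1 fun h => ha ((hS i hi).2 a h),
      (hS i hi).1]
  have hms : ∀ x, (fun i => f i (ev i x)).HasFiniteMulSupport := fun x =>
    Filter.eventually_cofinite.1 ((hev x).and hbase |>.mono fun i h => by
      show f i (ev i x) = 1
      rw [h.1, h.2.1])
  have key : ∀ p : ∀ i : S, (hfin i).toFinset,
      ∃ x, ∀ i, ev i x = if h : i ∈ S then (p ⟨i, h⟩ : A i) else base i := fun p =>
    hsurj _ (Filter.mem_of_superset (Finset.finite_toSet S).compl_mem_cofinite fun i hi => by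
      simp [show i ∉ S from hi])
  choose Φ hΦ using key
  have hΦS : ∀ p (i : S), ev i.1 (Φ p) = (p i : A i.1) := fun p i => by rw [hΦ, dif_pos i.2]
  have hΦinj : Function.Injective Φ := fun p p' h => funext fun i => Subtype.ext (by
    rw [← hΦS p, ← hΦS p', h])
  have hrange : ∀ x, (∀ i, f i (ev i x) ≠ 0) → x ∈ Finset.univ.image Φ := fun x hx => by
    refine Finset.mem_image.2 ⟨fun i => ⟨ev i.1 x, (hfin i).mem_toFinset.2 (hx i)⟩,
      Finset.mem_univ _, hext _ _ fun i => ?_⟩
    rw [hΦ]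
    split_ifs with h
    · rfl
    · exact ((hS i h).2 _ (hx i)).symm
  have hprod : ∀ p, ∏ᶠ i, f i (ev i (Φ p)) = ∏ i : S, f i (p i : A i) := fun p => by
    rw [finprod_eq_prod_of_mulSupport_subset _ (s := S) ?_, ← Finset.prod_coe_sort]
    · exact Finset.prod_congr rfl fun i _ => by rw [hΦS]
    · intro i hi
      by_contra hc
      exact hi (by
        show f i (ev i (Φ p)) = 1; rw [hΦ, dif_neg (show i ∉ S from hc)]; exact (hS i hc).1)
  have hmS : (fun i => ∑ᶠ a, f i a).HasFiniteMulSupport :=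
    (Finset.finite_toSet S).subset fun i hi => not_not.1 fun h => hi (hsum i h)
  refine ⟨(Finset.finite_toSet _).subset hrange, hmS, hms, ?_⟩
  rw [finsum_eq_sum_of_support_subset _ (s := Finset.univ.image Φ) fun x hx => hrange x fun i hi =>
      hx (finprod_eq_zero _ i hi (hms x)),
    Finset.sum_image hΦinj.injOn, finprod_eq_prod_of_mulSupport_subset _ (s := S)
      (fun i hi => not_not.1 fun h => hi (hsum i h)), ← Finset.prod_coe_sort]
  simp only [hprod]
  rw [← Fintype.prod_sum fun (i : S) (a : (hfin i).toFinset) => f i (a : A i)]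
  refine Finset.prod_congr rfl fun i _ => ?_
  rw [Finset.sum_coe_sort (hfin i).toFinset (f i),
    finsum_eq_sum_of_support_subset (f i) (s := (hfin i).toFinset) fun a ha =>
      (hfin i).mem_toFinset.2 ha]

variable {K L : Type} [Field K] [NumberField K] [Field L] [NumberField L] [Algebra K L]
variable (τ : CubicAut K L) {UL : Level L} {UK : Level K}
variable (fL : ∀ w : FPlace L, GLv w → ℂ) (fK : ∀ v : FPlace K, GLv v → ℂ)

local notation "M2" => Matrix (Fin 2) (Fin 2)

/-! ### The summands -/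

/-- The finite part of a term of the diagonal. -/
def baseG (γ : GL (Fin 2) K) (y : Ωf UK) : ℂ := globalFun fK (y.out⁻¹ * diag K γ * y.out)

/-- The finite part of a term of the twisted diagonal. -/
def twG (δ : GL (Fin 2) L) (X : Ωf UL) : ℂ :=
  globalFun fL (X.out⁻¹ * diag L δ * autGf τ.σ.toRingEquiv X.out)

/-- The components over a place. -/
def qOver (X : Ωf UL) (v : FPlace K) : Ωover UL v := fun w => qAt X w.1

theorem qOver_smul (g : GL (Fin 2) K) (X : Ωf UL) (v : FPlace K) :
    qOver (baseGLH L g • X) v = fun w => baseOver L v (toLocal v g) w • qOver X v w := by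
  funext w
  rw [qOver, qAt_smul, ← baseOver_toLocal_apply]
  rfl

omit [NumberField K] in
theorem eventually_qOver_eq_one (X : Ωf UL) :
    ∀ᶠ v : FPlace K in Filter.cofinite, qOver X v = fun _ => QuotientGroup.mk 1 :=
  (eventually_over (eventually_qAt_eq_one UL X)).mono fun _ h => funext h

omit [NumberField K] in
theorem qOver_ext {X X' : Ωf UL} (h : ∀ v : FPlace K, qOver X v = qOver X' v) : X = X' :=
  qAt_ext fun w => congrFun (h (below K w)) ⟨w, rfl⟩

theorem exists_qAt_eq (a : ∀ v, GLv v ⧸ UK.J v)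
    (ha : ∀ᶠ v in Filter.cofinite, a v = QuotientGroup.mk 1) :
    ∃ y : Ωf UK, ∀ v, qAt y v = a v := by
  refine ⟨((⟨fun v => (a v).out, ha.mono fun v h => ?_⟩ : Gf K) : Ωf UK), fun v => ?_⟩
  · obtain ⟨j, hj⟩ := QuotientGroup.mk_out_eq_mul (UK.J v) (1 : GLv v)
    show (a v).out ∈ _
    rw [h, hj, one_mul]
    exact UK.le_max v j.2
  · rw [qAt_mk]
    exact QuotientGroup.out_eq' _

theorem exists_qOver_eq (a : ∀ v : FPlace K, Ωover UL v)
    (ha : ∀ᶠ v in Filter.cofinite, a v = fun _ => QuotientGroup.mk 1) :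
    ∃ X : Ωf UL, ∀ v, qOver X v = a v := by
  have he : ∀ᶠ w : FPlace L in Filter.cofinite, a (below K w) ⟨w, rfl⟩ = QuotientGroup.mk 1 := by
    rw [Filter.eventually_cofinite] at ha ⊢
    refine ((ha.biUnion fun v _ => Set.finite_range (fun w : Over L v => w.1))).subset
      fun w hw => ?_
    refine Set.mem_biUnion (x := below K w) (fun h => hw ?_) ⟨⟨w, rfl⟩, rfl⟩
    exact congrFun h ⟨w, rfl⟩
  obtain ⟨X, hX⟩ := exists_qAt_eq (UK := UL) (fun w => a (below K w) ⟨w, rfl⟩) he
  refine ⟨X, fun v => funext ?_⟩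
  rintro ⟨w, rfl⟩
  exact hX w

variable {fL fK}

theorem baseG_eq (hK : IsLocalFamily UK fK) (γ : GL (Fin 2) K) (y : Ωf UK) :
    baseG fK γ y = ∏ᶠ v, baseTerm UK v (fK v) (toLocal v γ) (qAt y v) := by
  refine finprod_congr fun v => ?_
  obtain ⟨j, hj⟩ := QuotientGroup.mk_out_eq_mul (UK.J v) ((y.out : ∀ v, GLv v) v)
  rw [baseTerm, qAt, hj]
  refine Eq.trans ?_ (congrArg (fK v) (show (j : GLv v)⁻¹ * (((y.out : ∀ v, GLv v) v)⁻¹ *
    toLocal v γ * (y.out : ∀ v, GLv v) v) * j = _ by group))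
  exact (hK.bi v _ (inv_mem j.2) _ j.2 _).symm

theorem twG_eq (hL : IsLocalFamily UL fL) (hU : IsStableLevel τ.σ.toRingEquiv UL)
    (δ : GL (Fin 2) L) (X : Ωf UL) :
    twG τ fL δ X = ∏ᶠ v : FPlace K, twistTerm τ UL v fL (diagOver v δ) (qOver X v) := by
  classical
  set Y := X.out⁻¹ * diag L δ * autGf τ.σ.toRingEquiv X.out
  have hfin : (fun w => fL w ((Y : ∀ w, GLv w) w)).HasFiniteMulSupport := hL.hasFiniteMulSupport Y
  set S : Finset (FPlace K) := (hfin.image (below K)).toFinset
  have hlocal : ∀ v, twistTerm τ UL v fL (diagOver v δ) (qOver X v) =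
      ∏ w : Over L v, fL w.1 ((Y : ∀ w, GLv w) w.1) := fun v => by
    refine Finset.prod_congr rfl fun w _ => ?_
    set O : Gover L v := fun z => (X.out : ∀ z, GLv z) z.1
    set J : Gover L v := fun z => (O z)⁻¹ * (qOver X v z).out
    have hJ : ∀ z, J z ∈ UL.J z.1 := fun z => by
      obtain ⟨j, hj⟩ := QuotientGroup.mk_out_eq_mul (UL.J z.1) ((X.out : ∀ z, GLv z) z.1)
      show (O z)⁻¹ * _ ∈ _
      rw [qOver, qAt, hj, inv_mul_cancel_left]
      exact j.2
    have hOJ : (fun z => (qOver X v z).out : Gover L v) = O * J :=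
      funext fun z => (mul_inv_cancel_left (O z) _).symm
    rw [hOJ, map_mul, Pi.mul_apply, congrFun hOJ w, Pi.mul_apply]
    refine Eq.trans (congrArg (fL w.1) (show _ = (J w)⁻¹ * ((O w)⁻¹ * diagOver v δ w *
      autOver τ.σ O w) * autOver τ.σ J w by group)) ?_
    exact hL.bi w.1 _ (inv_mem (hJ w)) _ (hU w.1 _ (hJ (comapOver τ.σ w))) _
  simp only [hlocal]
  let e : (Σ v : FPlace K, Over L v) ≃ FPlace L := Equiv.sigmaFiberEquiv (below K)
  rw [twG, globalFun, finprod_eq_prod_of_mulSupport_subset _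
      (s := (S.sigma fun _ => Finset.univ).map e.toEmbedding) ?_,
    finprod_eq_prod_of_mulSupport_subset _ (s := S) ?_, Finset.prod_map, Finset.prod_sigma]
  · rfl
  · intro v hv
    obtain ⟨w, -, hw⟩ := Finset.exists_ne_one_of_prod_ne_one hv
    exact (Set.Finite.mem_toFinset _).2 ⟨w.1, hw, w.2⟩
  · intro w hw
    refine Finset.mem_coe.2 (Finset.mem_map.2 ⟨⟨below K w, w, rfl⟩, Finset.mem_sigma.2
      ⟨(Set.Finite.mem_toFinset _).2 ⟨w, hw, rfl⟩, Finset.mem_univ _⟩, rfl⟩)

/-! ### Transfers -/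

variable (UK fK) in
/-- An equivariant projection of the finite cosets of the base. -/
structure GlobalProj (γ : GL (Fin 2) K) : Type where
  /-- the projection -/
  proj : Ωf UK → Finset (Ωf UK)
  smul : ∀ g, Commute g γ → ∀ y q, q ∈ proj (g • y) ↔ g⁻¹ • q ∈ proj y
  nonempty : ∀ y, baseG fK γ y ≠ 0 → (proj y).Nonempty
  finite : ∀ q, {y | baseG fK γ y ≠ 0 ∧ q ∈ proj y}.Finite

variable (UL UK fL fK) in
/-- Equivariant projections with equal fibre sums. -/
structure GlobalTransfer (δ : GL (Fin 2) L) (γ : GL (Fin 2) K) : Type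
    extends GlobalProj UK fK γ where
  /-- the projection of the twisted cosets -/
  projL : Ωf UL → Finset (Ωf UK)
  smulL : ∀ g, Commute g γ → ∀ X q, q ∈ projL (baseGLH L g • X) ↔ g⁻¹ • q ∈ projL X
  nonemptyL : ∀ X, twG τ fL δ X ≠ 0 → (projL X).Nonempty
  finiteL : ∀ q, {X | twG τ fL δ X ≠ 0 ∧ q ∈ projL X}.Finite
  sum_eq : ∀ q, pushFin projL (twG τ fL δ) q = pushFin proj (baseG fK γ) q

/-! ### Products of projections -/

variable (UK) in
/-- Local projections, product over the places. -/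
structure ProdData (A : FPlace K → Type) (X : Type) where
  /-- the components -/
  ev : ∀ v, X → A v
  ext : ∀ x x', (∀ v, ev v x = ev v x') → x = x'
  /-- the base points -/
  base : ∀ v, A v
  ev_base : ∀ x, ∀ᶠ v in Filter.cofinite, ev v x = base v
  surj : ∀ a : ∀ v, A v, (∀ᶠ v in Filter.cofinite, a v = base v) → ∃ x, ∀ v, ev v x = a v
  /-- the local projections -/
  proj : ∀ v, A v → Finset (GLv v ⧸ UK.J v)
  /-- the local summands -/
  term : ∀ v, A v → ℂ
  finite : ∀ v q, {a | term v a ≠ 0 ∧ q ∈ proj v a}.Finite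
  nonempty : ∀ v a, term v a ≠ 0 → (proj v a).Nonempty
  isBase : ∀ᶠ v in Filter.cofinite, proj v (base v) = {QuotientGroup.mk 1} ∧ term v (base v) = 1 ∧
    ∀ a, term v a ≠ 0 → QuotientGroup.mk 1 ∈ proj v a → a = base v

namespace ProdData

variable {A : FPlace K → Type} {X : Type} (D : ProdData UK A X)

open Classical in
theorem finite_image (x : X) : {q : Ωf UK | ∀ v, qAt q v ∈ D.proj v (D.ev v x)}.Finite ∧
    (fun v => ((D.proj v (D.ev v x)).card : ℂ)).HasFiniteMulSupport ∧
    (({q : Ωf UK | ∀ v, qAt q v ∈ D.proj v (D.ev v x)}.ncard : ℕ) : ℂ) =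
      ∏ᶠ v, ((D.proj v (D.ev v x)).card : ℂ) := by
  have hb : ∀ᶠ v in Filter.cofinite,
      (D.proj v (D.ev v x)) = {QuotientGroup.mk 1} := by
    filter_upwards [D.ev_base x, D.isBase] with v h1 h2
    rw [h1, h2.1]
  obtain ⟨h1, h2, h3, h4⟩ := finsum_restricted (fun v (q : Ωf UK) => qAt q v)
    (fun q q' h => qAt_ext h) (fun v => QuotientGroup.mk 1) (eventually_qAt_eq_one UK) exists_qAt_eq
    (fun v q => if q ∈ D.proj v (D.ev v x) then (1 : ℂ) else 0)
    (fun v => (D.proj v (D.ev v x)).finite_toSet.subset fun q hq => by simpa using hq)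
    (hb.mono fun v h => by simp [h])
  have hs : ∀ v, ∑ᶠ a, (if a ∈ D.proj v (D.ev v x) then (1 : ℂ) else 0) =
      ((D.proj v (D.ev v x)).card : ℂ) := fun v => by
    rw [finsum_eq_sum_of_support_subset _ (s := D.proj v (D.ev v x)) fun a ha => by simpa using ha]
    simp
  simp only [hs] at h2 h4
  have hfin : {q : Ωf UK | ∀ v, qAt q v ∈ D.proj v (D.ev v x)}.Finite :=
    h1.subset fun q hq v => by simp [hq v]
  refine ⟨hfin, h2, h4.symm ▸ ?_⟩
  rw [finsum_eq_sum_of_support_subset _ (s := hfin.toFinset) fun q hq => ?_,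
    Set.ncard_eq_toFinset_card _ hfin]
  · rw [Finset.card_eq_sum_ones, Nat.cast_sum, Nat.cast_one]
    refine Finset.sum_congr rfl fun q hq => (finprod_eq_one_of_forall_eq_one fun v => ?_).symm
    rw [if_pos ((hfin.mem_toFinset.1 hq) v)]
  · refine hfin.mem_toFinset.2 fun v => not_not.1 fun hv => hq ?_
    exact finprod_eq_zero _ v (if_neg hv) (h3 q)

/-- The product projection. -/
def image (x : X) : Finset (Ωf UK) := (D.finite_image x).1.toFinset

theorem mem_image {x : X} {q : Ωf UK} : q ∈ D.image x ↔ ∀ v, qAt q v ∈ D.proj v (D.ev v x) :=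
  Set.Finite.mem_toFinset _

theorem card_image (x : X) :
    ((D.image x).card : ℂ) = ∏ᶠ v, ((D.proj v (D.ev v x)).card : ℂ) := by
  rw [← (D.finite_image x).2.2, Set.ncard_eq_toFinset_card _ (D.finite_image x).1]
  rfl

theorem hasFiniteMulSupport_term (x : X) :
    (fun v => D.term v (D.ev v x)).HasFiniteMulSupport :=
  Filter.eventually_cofinite.1 ((D.ev_base x).and D.isBase |>.mono fun v h => by
    show D.term v (D.ev v x) = 1
    rw [h.1, h.2.2.1])

theorem term_ne_zero {x : X} (h : ∏ᶠ v, D.term v (D.ev v x) ≠ 0) (v : FPlace K) :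
    D.term v (D.ev v x) ≠ 0 := fun h0 => h (finprod_eq_zero _ v h0 (D.hasFiniteMulSupport_term x))

theorem image_nonempty {x : X} (h : ∏ᶠ v, D.term v (D.ev v x) ≠ 0) : (D.image x).Nonempty := by
  classical
  choose a ha using fun v => D.nonempty v _ (D.term_ne_zero h v)
  obtain ⟨q, hq⟩ := exists_qAt_eq a (((D.ev_base x).and D.isBase).mono fun v hv => by
    have := ha v
    rw [hv.1, hv.2.1] at this
    exact Finset.mem_singleton.1 this)
  exact ⟨q, D.mem_image.2 fun v => (hq v).symm ▸ ha v⟩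

open Classical in
/-- The fibre sums of the product. -/
theorem push_eq (q : Ωf UK) :
    {x | (∏ᶠ v, D.term v (D.ev v x)) ≠ 0 ∧ q ∈ D.image x}.Finite ∧
      (fun v => pushFin (D.proj v) (D.term v) (qAt q v)).HasFiniteMulSupport ∧
      pushFin D.image (fun x => ∏ᶠ v, D.term v (D.ev v x)) q =
        ∏ᶠ v, pushFin (D.proj v) (D.term v) (qAt q v) := by
  set f : ∀ v, A v → ℂ := fun v a =>
    if qAt q v ∈ D.proj v a then D.term v a / ((D.proj v a).card : ℂ) else 0
  have hf : ∀ v a, f v a ≠ 0 → D.term v a ≠ 0 ∧ qAt q v ∈ D.proj v a := fun v a h => by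
    by_cases hq : qAt q v ∈ D.proj v a
    · simp only [f, if_pos hq] at h
      exact ⟨left_ne_zero_of_mul (by rwa [div_eq_mul_inv] at h), hq⟩
    · simp only [f, if_neg hq] at h
      exact absurd rfl h
  obtain ⟨h1, h2, h3, h4⟩ := finsum_restricted D.ev D.ext D.base D.ev_base D.surj f
    (fun v => (D.finite v (qAt q v)).subset fun a ha => hf v a ha)
    (((eventually_qAt_eq_one UK q).and D.isBase).mono fun v h => by
      refine ⟨?_, fun a ha => ?_⟩
      · simp [f, h.1, h.2.1, h.2.2.1]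
      · obtain ⟨ha1, ha2⟩ := hf v a ha
        exact h.2.2.2 a ha1 (h.1 ▸ ha2))
  have hl : ∀ v, pushFin (D.proj v) (D.term v) (qAt q v) = ∑ᶠ a, f v a := fun v => by
    rw [pushFin, finsum_mem_def]
    exact finsum_congr fun a => by simp [f, Set.indicator_apply]
  have hprod : ∀ x, ∏ᶠ v, f v (D.ev v x) =
      if q ∈ D.image x then (∏ᶠ v, D.term v (D.ev v x)) / ((D.image x).card : ℂ) else 0 := by
    intro x
    split_ifs with hq
    · rw [D.card_image, ← finprod_div_distrib (D.hasFiniteMulSupport_term x) (D.finite_image x).2.1]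
      exact finprod_congr fun v => if_pos (D.mem_image.1 hq v)
    · obtain ⟨v, hv⟩ := not_forall.1 (mt D.mem_image.2 hq)
      exact finprod_eq_zero _ v (if_neg hv) (h3 x)
  refine ⟨h1.subset fun x hx v => ?_, by simpa only [hl] using h2, ?_⟩
  · have hq := D.mem_image.1 hx.2 v
    simp only [f, if_pos hq]
    exact div_ne_zero (D.term_ne_zero hx.1 v)
      (Nat.cast_ne_zero.2 (Finset.card_ne_zero.2 ⟨_, hq⟩))
  · simp only [hl, ← h4, hprod]
    rw [pushFin, finsum_mem_def]
    exact finsum_congr fun x => by simp [Set.indicator_apply]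

end ProdData

/-! ### Existence -/

theorem nonempty_over (L : Type) [Field L] [NumberField L] [Algebra K L] (v : FPlace K) :
    Nonempty (Over L v) := by
  have : v.asIdeal.IsMaximal := v.isPrime.isMaximal v.ne_bot
  obtain ⟨P, hP, hPv⟩ := Ideal.exists_maximal_ideal_liesOver_of_isIntegral (S := 𝓞 L) v.asIdeal
  exact ⟨⟨⟨P, hP.isPrime, Ideal.ne_bot_of_liesOver_of_ne_bot v.ne_bot P⟩,
    HeightOneSpectrum.ext hPv.over.symm⟩⟩

variable {τ}

/-- The product of local projections of the base. -/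
def baseData {γ : GL (Fin 2) K} {S : ∀ v : FPlace K, Set (GLv v)}
    (P : ∀ v, LocalProj UK v (fK v) (toLocal v γ) (S v))
    (hP : ∀ᶠ v in Filter.cofinite, (P v).IsBase) :
    ProdData UK (fun v => GLv v ⧸ UK.J v) (Ωf UK) where
  ev v y := qAt y v
  ext _ _ h := qAt_ext h
  base _ := QuotientGroup.mk 1
  ev_base := eventually_qAt_eq_one UK
  surj := exists_qAt_eq
  proj v := (P v).proj
  term v := baseTerm UK v (fK v) (toLocal v γ)
  finite v := (P v).finite
  nonempty v := (P v).nonempty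
  isBase := hP

/-- The global projection from local ones. -/
def globalProjOf (hK : IsLocalFamily UK fK) {γ : GL (Fin 2) K}
    (P : ∀ v, LocalProj UK v (fK v) (toLocal v γ) {g | Commute g (toLocal v γ)})
    (hP : ∀ᶠ v in Filter.cofinite, (P v).IsBase) : GlobalProj UK fK γ where
  proj := (baseData P hP).image
  smul g hg y q := by
    classical
    rw [ProdData.mem_image, ProdData.mem_image]
    refine forall_congr' fun v => ?_
    show qAt q v ∈ (P v).proj (qAt (g • y) v) ↔ qAt (g⁻¹ • q) v ∈ (P v).proj (qAt y v)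
    rw [qAt_smul, qAt_smul, (P v).smul _ (hg.map (toLocal v)), Finset.mem_image, map_inv]
    exact ⟨fun ⟨a, ha, e⟩ => by rw [← e, inv_smul_smul]; exact ha,
      fun h => ⟨_, h, smul_inv_smul _ _⟩⟩
  nonempty y hy := (baseData P hP).image_nonempty (by rwa [baseG_eq hK] at hy)
  finite q := ((baseData P hP).push_eq q).1.subset fun y hy => ⟨baseG_eq hK γ y ▸ hy.1, hy.2⟩

theorem push_globalProjOf (hK : IsLocalFamily UK fK) {γ : GL (Fin 2) K}
    (P : ∀ v, LocalProj UK v (fK v) (toLocal v γ) {g | Commute g (toLocal v γ)})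
    (hP : ∀ᶠ v in Filter.cofinite, (P v).IsBase) (q : Ωf UK) :
    (fun v => (P v).push UK v (fK v) (qAt q v)).HasFiniteMulSupport ∧
      pushFin (globalProjOf hK P hP).proj (baseG fK γ) q =
        ∏ᶠ v, (P v).push UK v (fK v) (qAt q v) := by
  obtain ⟨-, h2, h3⟩ := (baseData P hP).push_eq q
  refine ⟨h2, Eq.trans ?_ h3⟩
  exact congrArg (fun c => pushFin (baseData P hP).image c q) (funext (baseG_eq hK γ))

/-- The product of local projections of the twisted cosets. -/
def twData {δ : GL (Fin 2) L} {γ : GL (Fin 2) K}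
    (P : ∀ v, LocalTransfer τ UL UK v fL (fK v) (diagOver v δ) (toLocal v γ))
    (hP : ∀ᶠ v in Filter.cofinite, (P v).IsBase) :
    ProdData UK (Ωover UL) (Ωf UL) where
  ev v X := qOver X v
  ext _ _ h := qOver_ext h
  base _ _ := QuotientGroup.mk 1
  ev_base := eventually_qOver_eq_one
  surj := exists_qOver_eq
  proj v := (P v).projL
  term v := twistTerm τ UL v fL (diagOver v δ)
  finite v := (P v).finiteL
  nonempty v := (P v).nonemptyL
  isBase := hP.mono fun _ h => h.2

/-- The global transfer from local ones. -/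
def globalTransferOf (hL : IsLocalFamily UL fL) (hU : IsStableLevel τ.σ.toRingEquiv UL)
    (hK : IsLocalFamily UK fK) {δ : GL (Fin 2) L} {γ : GL (Fin 2) K}
    (P : ∀ v, LocalTransfer τ UL UK v fL (fK v) (diagOver v δ) (toLocal v γ))
    (hP : ∀ᶠ v in Filter.cofinite, (P v).IsBase) : GlobalTransfer τ UL UK fL fK δ γ where
  toGlobalProj := globalProjOf hK (fun v => (P v).toLocalProj) (hP.mono fun _ h => h.1)
  projL := (twData P hP).image
  smulL g hg X q := by
    classical
    rw [ProdData.mem_image, ProdData.mem_image]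
    refine forall_congr' fun v => ?_
    show qAt q v ∈ (P v).projL (qOver (baseGLH L g • X) v) ↔
      qAt (g⁻¹ • q) v ∈ (P v).projL (qOver X v)
    rw [qOver_smul, qAt_smul, (P v).smulL _ (hg.map (toLocal v)), Finset.mem_image, map_inv]
    exact ⟨fun ⟨a, ha, e⟩ => by rw [← e, inv_smul_smul]; exact ha,
      fun h => ⟨_, h, smul_inv_smul _ _⟩⟩
  nonemptyL X hX := (twData P hP).image_nonempty (by rwa [twG_eq τ hL hU] at hX)
  finiteL q := ((twData P hP).push_eq q).1.subset fun X hX => ⟨twG_eq τ hL hU δ X ▸ hX.1, hX.2⟩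
  sum_eq q := by
    rw [(push_globalProjOf hK _ _ q).2,
      show pushFin (twData P hP).image (twG τ fL δ) q =
        pushFin (twData P hP).image
          (fun X => ∏ᶠ v, twistTerm τ UL v fL (diagOver v δ) (qOver X v)) q
        from congrArg (fun c => pushFin (twData P hP).image c q) (funext (twG_eq τ hL hU δ))]
    refine ((twData P hP).push_eq q).2.2.trans (finprod_congr fun v => ?_)
    exact (P v).sum_eq _

theorem trace_toLocal (γ : GL (Fin 2) K) (v : FPlace K) :
    (toLocal v γ : M2 (v.adicCompletion K)).trace =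
      algebraMap K (v.adicCompletion K) (γ : M2 K).trace := by
  simp [toLocal, Matrix.trace_fin_two]

theorem isRegular_toLocal {γ : GL (Fin 2) K} (h : IsRegular γ) (v : FPlace K) :
    IsRegular (toLocal v γ) := by
  have e2 : (toLocal v γ : M2 (v.adicCompletion K)).det =
      algebraMap K (v.adicCompletion K) (γ : M2 K).det := (RingHom.map_det _ _).symm
  rw [IsRegular, trace_toLocal, e2, ← map_pow,
    show (4 : v.adicCompletion K) = algebraMap K (v.adicCompletion K) 4 from (map_ofNat _ 4).symm,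
    ← map_mul]
  exact (algebraMap K (v.adicCompletion K)).injective.ne h

theorem trace_toLocal_ne_zero {γ : GL (Fin 2) K} (h : (γ : M2 K).trace ≠ 0) (v : FPlace K) :
    (toLocal v γ : M2 (v.adicCompletion K)).trace ≠ 0 := by
  rw [trace_toLocal]
  exact (map_ne_zero _).2 h

/-- A twisted class with norm `γ` has a transfer. -/
theorem GoodRep.exists_globalTransfer (hL : IsLocalFamily UL fL)
    (hU : IsStableLevel τ.σ.toRingEquiv UL) (hK : IsLocalFamily UK fK)
    (hm : ∀ v, LocalMatch τ UL UK v fL (fK v)) (P : GoodRep τ) :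
    Nonempty (GlobalTransfer τ UL UK fL fK P.δ P.γ) := by
  obtain ⟨c, hc⟩ := P.exists_norm
  have hN := fun v => isLocalNorm_diagOver (v := v) τ hc
  have h : ∀ v, ∃ T : LocalTransfer τ UL UK v fL (fK v) (diagOver v P.δ) (toLocal v P.γ),
      IsUnitPlace UL UK fL fK v → IsUnitPair L P.δ P.γ v → T.IsBase := by
    intro v
    by_cases hg : IsUnitPlace UL UK fL fK v ∧ IsUnitPair L P.δ P.γ v
    · obtain ⟨w₀⟩ := nonempty_over L v
      obtain ⟨T, hT⟩ := exists_unit_transfer τ hg.1 hg.2 (hN v) w₀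
      exact ⟨T, fun _ _ => hT⟩
    · obtain ⟨T⟩ := (hm v _ (isRegular_toLocal P.regular v)).1 _ (hN v)
        (P.special.imp (fun ht => trace_toLocal_ne_zero ht v)
          fun hd => by rw [hd]; exact (baseOver_toLocal v P.γ).symm)
      exact ⟨T, fun h1 h2 => absurd ⟨h1, h2⟩ hg⟩
  choose T hT using h
  exact ⟨globalTransferOf hL hU hK T (((eventually_isUnitPlace hL hK).and
    (eventually_isUnitPair τ P.regMat.nonScalar hc)).mono fun v hv => hT v hv.1 hv.2)⟩

/-- A regular element which is not a norm has an equivariant projection with vanishing sums. -/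
theorem exists_globalProj_zero (hnp : NormPrinciple τ) (hL : IsLocalFamily UL fL)
    (hK : IsLocalFamily UK fK) (hm : ∀ v, LocalMatch τ UL UK v fL (fK v)) {γ : GL (Fin 2) K}
    (hreg : IsRegular γ) (htr : (γ : M2 K).trace ≠ 0)
    (hno : ¬ ∃ (δ : GL (Fin 2) L) (c : L),
      τ.norm (δ : M2 L) = c • (γ : M2 K).map (algebraMap K L)) :
    ∃ P : GlobalProj UK fK γ, ∀ q, pushFin P.proj (baseG fK γ) q = 0 := by
  obtain ⟨v₀, hv₀⟩ := not_forall.1 (mt (hnp γ hreg htr) hno)
  have h : ∀ v, ∃ T : LocalProj UK v (fK v) (toLocal v γ) {g | Commute g (toLocal v γ)},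
      (v = v₀ → ∀ q, T.push UK v (fK v) q = 0) ∧
      (v ≠ v₀ → IsUnitPlace UL UK fL fK v → IsIntGL (valv v) (toLocal v γ) → T.IsBase) := by
    intro v
    by_cases hv : v = v₀
    · subst hv
      obtain ⟨T, hT⟩ := (hm v _ (isRegular_toLocal hreg v)).2 hv₀ (trace_toLocal_ne_zero htr v)
      exact ⟨T, fun _ => hT, fun h => absurd rfl h⟩
    by_cases hg : IsUnitPlace UL UK fL fK v ∧ IsIntGL (valv v) (toLocal v γ)
    · exact ⟨unitProj (fK v) (toLocal v γ) _, fun h => absurd h hv,
        fun _ _ _ => isBase_unitProj hg.1 hg.2 _⟩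
    · obtain ⟨h1, h2⟩ := hm v _ (isRegular_toLocal hreg v)
      by_cases hloc : ∃ δ : Gover L v, IsLocalNorm τ.σ δ (toLocal v γ)
      · obtain ⟨δ, hδ⟩ := hloc
        obtain ⟨T⟩ := h1 δ hδ (Or.inl (trace_toLocal_ne_zero htr v))
        exact ⟨T.toLocalProj, fun h => absurd h hv, fun _ ha hb => absurd ⟨ha, hb⟩ hg⟩
      · obtain ⟨T, -⟩ := h2 hloc (trace_toLocal_ne_zero htr v)
        exact ⟨T, fun h => absurd h hv, fun _ ha hb => absurd ⟨ha, hb⟩ hg⟩
  choose T hT0 hT using h
  have hev : ∀ᶠ v in Filter.cofinite, (T v).IsBase := by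
    filter_upwards [eventually_isUnitPlace hL hK, eventually_isIntGL_toLocal γ,
      Filter.eventually_cofinite_ne v₀] with v h1 h2 h3
    exact hT v h3 h1 h2
  refine ⟨globalProjOf hK T hev, fun q => ?_⟩
  obtain ⟨hms, e⟩ := push_globalProjOf hK T hev q
  rw [e]
  exact finprod_eq_zero _ v₀ (hT0 v₀ rfl _) hms

end Fermat.Agent.ResidualThree.Orbital
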