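import Fermat.Agent.CFT.Inequalities
import Fermat.Agent.ResidualThree.Orbital.GlobalTransfer
import Fermat.Agent.ResidualThree.Orbital.Target
import Fermat.Agent.ResidualThree.Tree.TransferBase

/-!
# The norm principle for regular classes of non-zero trace

An element commuting with `γ` is `a + bγ`; its norm is `p + qγ`. The class of `γ` is a norm when
the quotient of the eigenvalues is a norm from the extension of the field of eigenvalues, which
follows from the Hasse norm theorem for this cyclic cubic extension.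
-/

noncomputable section

open IsDedekindDomain NumberField Matrix Polynomial
open scoped WithZero Topology

namespace Fermat.Agent.ResidualThree.Orbital

/-! ### Pairs of coefficients -/

/-- The product of `a + b x` and `a' + b' x` when `x ^ 2 = t x - d`. -/
def quadMul {R : Type*} [CommRing R] (t d : R) (u u' : R × R) : R × R :=
  (u.1 * u'.1 - u.2 * u'.2 * d, u.1 * u'.2 + u.2 * u'.1 + u.2 * u'.2 * t)

theorem smul_lin_mul {R A : Type*} [CommRing R] [Ring A] [Algebra R A] {t d : R} {x : A}
    (hx : x * x = t • x - d • 1) (u u' : R × R) :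
    (u.1 • (1 : A) + u.2 • x) * (u'.1 • 1 + u'.2 • x) =
      (quadMul t d u u').1 • 1 + (quadMul t d u u').2 • x := by
  simp only [quadMul, add_mul, mul_add, smul_mul_assoc, mul_smul_comm, one_mul, mul_one, hx,
    smul_sub, smul_smul]
  module

theorem continuous_quadMul {R X : Type*} [CommRing R] [TopologicalSpace R] [IsTopologicalRing R]
    [TopologicalSpace X] (t d : R) {f g : X → R × R} (hf : Continuous f) (hg : Continuous g) :
    Continuous fun x => quadMul t d (f x) (g x) := by
  unfold quadMul; fun_prop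

variable {K L : Type} [Field K] [NumberField K] [Field L] [NumberField L] [Algebra K L]
  (τ : CubicAut K L)

local notation "M2" => Matrix (Fin 2) (Fin 2)

/-- The coefficients of the norm of `a + b x`. -/
def quadNorm (t d : K) (u : L × L) : L × L :=
  quadMul (algebraMap K L t) (algebraMap K L d)
    (quadMul (algebraMap K L t) (algebraMap K L d) u (τ.σ u.1, τ.σ u.2))
    (τ.σ (τ.σ u.1), τ.σ (τ.σ u.2))

omit [NumberField K] in
theorem σ_quadNorm (t d : K) (u : L × L) :
    τ.σ (quadNorm τ t d u).1 = (quadNorm τ t d u).1 ∧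
      τ.σ (quadNorm τ t d u).2 = (quadNorm τ t d u).2 := by
  constructor <;>
    simp only [quadNorm, quadMul, map_sub, map_add, map_mul, AlgEquiv.commutes, τ.pow_three] <;>
    ring

omit [NumberField K] in
theorem exists_quadNorm_eq (t d : K) (u : L × L) :
    ∃ p q : K, quadNorm τ t d u = (algebraMap K L p, algebraMap K L q) := by
  obtain ⟨p, hp⟩ := τ.fixed _ (σ_quadNorm τ t d u).1
  obtain ⟨q, hq⟩ := τ.fixed _ (σ_quadNorm τ t d u).2
  exact ⟨p, q, Prod.ext hp.symm hq.symm⟩

omit [NumberField K] [NumberField L] in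
/-- If `s` extends the automorphism and fixes a root `ε` of `x ^ 2 - t x + d`, the product of the
conjugates of `a + b ε` is the value at `ε` of the coefficients `quadNorm`. -/
theorem prod_lin_eq {N : Type*} [CommRing N] [Algebra L N] (s : N →+* N)
    (hs : ∀ x, s (algebraMap L N x) = algebraMap L N (τ.σ x)) {t d : K} {ε : N} (hsε : s ε = ε)
    (hε : ε * ε = algebraMap K L t • ε - algebraMap K L d • 1) (u : L × L) :
    (u.1 • (1 : N) + u.2 • ε) * s (u.1 • 1 + u.2 • ε) * s (s (u.1 • 1 + u.2 • ε)) =
      (quadNorm τ t d u).1 • 1 + (quadNorm τ t d u).2 • ε := by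
  have hmap : ∀ w : L × L, s (w.1 • (1 : N) + w.2 • ε) =
      τ.σ w.1 • (1 : N) + τ.σ w.2 • ε := fun w => by
    simp only [Algebra.smul_def, map_add, map_mul, hs, hsε, map_one]
  rw [hmap u, hmap (τ.σ u.1, τ.σ u.2), smul_lin_mul hε u (τ.σ u.1, τ.σ u.2),
    smul_lin_mul hε _ (τ.σ (τ.σ u.1), τ.σ (τ.σ u.2))]
  rfl

/-! ### The global step -/

/-- A field containing the cube roots of unity is totally complex. -/
theorem isTotallyComplex_of_cubeRoot {F : Type} [Field F] {ζ : F}
    (hζ : IsPrimitiveRoot ζ 3) : IsTotallyComplex F := by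
  refine ⟨fun w => ?_⟩
  rw [← InfinitePlace.not_isReal_iff_isComplex]
  intro hw
  have hz : IsPrimitiveRoot (InfinitePlace.embedding_of_isReal hw ζ) 3 :=
    hζ.map_of_injective (InfinitePlace.embedding_of_isReal hw).injective
  set r := InfinitePlace.embedding_of_isReal hw ζ
  have h1 : r ≠ 1 := hz.ne_one (by norm_num)
  have h3 : r ^ 3 = 1 := hz.pow_eq_one
  have h0 : (r - 1) * (r * r + r + 1) = 0 := by linear_combination h3
  nlinarith [(mul_eq_zero.1 h0).resolve_left (sub_ne_zero.2 h1), sq_nonneg (2 * r + 1)]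

/-- A degree three extension with an automorphism of order three: the norm is the product. -/
theorem norm_eq_three {E N : Type} [Field E] [Field N] [Algebra E N] [FiniteDimensional E N]
    (hdeg : Module.finrank E N = 3) (s : N ≃ₐ[E] N) (hs3 : ∀ x, s (s (s x)) = x)
    (hne : s ≠ 1) :
    IsGalois E N ∧ ∀ z, algebraMap E N (Algebra.norm E z) = z * s z * s (s z) := by
  classical
  have hss : s * s ≠ 1 := fun h => hne (AlgEquiv.ext fun x => by
    have h1 := AlgEquiv.congr_fun h (s x)
    simp only [AlgEquiv.mul_apply, AlgEquiv.one_apply] at h1 ⊢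
    rw [← h1, hs3])
  have hsne : s * s ≠ s := fun h => hne (mul_left_cancel (a := s) (by rw [h, mul_one]))
  have hle : Fintype.card (N ≃ₐ[E] N) ≤ 3 := by
    rw [← hdeg]; exact AlgEquiv.card_le
  have hcard : ({1, s, s * s} : Finset (N ≃ₐ[E] N)).card = 3 := by
    rw [Finset.card_insert_of_notMem (by simp [Ne.symm hne, Ne.symm hss]),
      Finset.card_insert_of_notMem (by simpa using Ne.symm hsne), Finset.card_singleton]
  have huniv : ({1, s, s * s} : Finset (N ≃ₐ[E] N)) = Finset.univ :=
    Finset.eq_univ_of_card _ (le_antisymm (Finset.card_le_univ _) (hcard.symm ▸ hle))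
  have : IsGalois E N := IsGalois.of_card_aut_eq_finrank E N (by
    rw [Nat.card_eq_fintype_card, ← Finset.card_univ, ← huniv, hcard, hdeg])
  refine ⟨this, fun z => ?_⟩
  rw [Algebra.norm_eq_prod_automorphisms, ← huniv,
    Finset.prod_insert (by simp [Ne.symm hne, Ne.symm hss]),
    Finset.prod_insert (by simpa using Ne.symm hsne), Finset.prod_singleton, ← mul_assoc]
  rfl

omit [NumberField L] in
/-- If the coefficient equation can be solved approximately at every place, the ratio of the roots
is a norm, by the Hasse norm theorem. -/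
theorem exists_norm_eq_ratio {E N : Type} [Field E] [NumberField E] [Algebra K E] [Field N]
    [NumberField N] [Algebra L N] [Algebra E N] [Algebra K N] [IsScalarTower K L N]
    [IsScalarTower K E N] (hdeg : Module.finrank E N = 3) (s : N ≃ₐ[E] N)
    (hs : ∀ x, s (algebraMap L N x) = algebraMap L N (τ.σ x)) (hs3 : ∀ x, s (s (s x)) = x)
    {ζ : K} (hζ : IsPrimitiveRoot ζ 3) {t d : K} {ε ε' : E}
    (ht : algebraMap K E t = ε + ε') (hd : algebraMap K E d = ε * ε') (hd0 : d ≠ 0)
    (happ : ∀ (v : FPlace K) (M : ℕ), ∃ (u : L × L) (p q : K),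
      quadNorm τ t d u = (algebraMap K L p, algebraMap K L q) ∧ q ≠ 0 ∧
        v.valuation K (p / q) ≤ WithZero.exp (-(M : ℤ))) :
    ∃ y : N, y * s y * s (s y) = algebraMap E N (ε / ε') := by
  have : Fact (Nat.Prime 3) := ⟨Nat.prime_three⟩
  obtain ⟨x₀, hx₀⟩ := τ.ne_id
  have hsne : s ≠ 1 := fun h => hx₀ ((algebraMap L N).injective (by
    rw [← hs, h, AlgEquiv.one_apply]))
  have : FiniteDimensional E N := Module.finite_of_finrank_eq_succ (n := 2) hdeg
  obtain ⟨hgal, hnorm⟩ := norm_eq_three hdeg s hs3 hsne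
  have hζE := hζ.map_of_injective (algebraMap K E).injective
  have := isTotallyComplex_of_cubeRoot hζE
  have hε0 : ε ≠ 0 ∧ ε' ≠ 0 := mul_ne_zero_iff.1 (hd ▸ (_root_.map_ne_zero _).2 hd0)
  set r : Eˣ := Units.mk0 (ε / ε') (div_ne_zero hε0.1 hε0.2)
  obtain ⟨y, hy⟩ := CFT.exists_norm_eq_of_valuation_le hζE hdeg r fun u m => by
    set v := below K u
    set A := u.valuation E ε'
    set B := u.valuation E ε
    have hA : A ≠ 0 := (Valuation.ne_zero_iff _).2 hε0.2
    have hB : B ≠ 0 := (Valuation.ne_zero_iff _).2 hε0.1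
    obtain ⟨M, hMA, hMB⟩ : ∃ M : ℕ, WithZero.exp (-(M : ℤ)) < A ∧
        WithZero.exp (-(M : ℤ)) * max A B ≤ WithZero.exp (-(m : ℤ)) * (A * B) := by
      refine ⟨m + (-WithZero.log A).toNat + (-WithZero.log B).toNat +
        (WithZero.log A).toNat + (WithZero.log B).toNat + 1, ?_, ?_⟩
      · conv_rhs => rw [← WithZero.exp_log hA]
        rw [WithZero.exp_lt_exp]; push_cast
        have := Int.self_le_toNat (-WithZero.log A); omega
      · have hmax : max A B ≤
          WithZero.exp (((WithZero.log A).toNat + (WithZero.log B).toNat : ℕ) : ℤ) := by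
          refine max_le ?_ ?_
          · conv_lhs => rw [← WithZero.exp_log hA]
            rw [WithZero.exp_le_exp]; push_cast
            have := Int.self_le_toNat (WithZero.log A); omega
          · conv_lhs => rw [← WithZero.exp_log hB]
            rw [WithZero.exp_le_exp]; push_cast
            have := Int.self_le_toNat (WithZero.log B); omega
        refine (mul_le_mul' le_rfl hmax).trans ?_
        conv_rhs => rw [← WithZero.exp_log hA, ← WithZero.exp_log hB]
        rw [← WithZero.exp_add, ← WithZero.exp_add, ← WithZero.exp_add, WithZero.exp_le_exp]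
        push_cast
        have := Int.self_le_toNat (-WithZero.log A); have := Int.self_le_toNat (-WithZero.log B)
        omega
    obtain ⟨w, p, q, hw, hq, hpq⟩ := happ v M
    set P := algebraMap K E p
    set Q := algebraMap K E q
    set T := algebraMap K E (p / q)
    have hT : u.valuation E T ≤ WithZero.exp (-(M : ℤ)) := by
      rw [valuation_algebraMap_below u]
      refine (pow_le_of_le_one zero_le (hpq.trans ?_) (ram_pos u).ne').trans hpq
      rw [← WithZero.exp_zero, WithZero.exp_le_exp]; omega
    have hQ : Q ≠ 0 := (_root_.map_ne_zero _).2 hq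
    have hPQ : ∀ e : E, P + Q * e = Q * (T + e) := fun e => by
      rw [mul_add, show Q * T = P by
        simp only [Q, T, P, map_div₀]
        exact mul_div_cancel₀ _ hQ]
    have hlt : u.valuation E T < A := hT.trans_lt hMA
    have hTe : u.valuation E (T + ε') = A := by
      rw [add_comm]; exact (u.valuation E).map_add_eq_of_lt_left hlt
    have hTe0 : T + ε' ≠ 0 := fun h0 => hA (by rw [← hTe, h0, map_zero])
    set lin : E → N := fun e => w.1 • (1 : N) + w.2 • algebraMap E N e with hlin
    have hlinN : ∀ e : E, e * e = algebraMap K E t * e - algebraMap K E d →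
        Algebra.norm E (lin e) = P + Q * e := by
      intro e he
      apply (algebraMap E N).injective
      rw [hnorm]
      have hKN : ∀ k : K, algebraMap E N (algebraMap K E k) = algebraMap L N (algebraMap K L k) :=
        fun k => by rw [← IsScalarTower.algebraMap_apply, ← IsScalarTower.algebraMap_apply]
      have := prod_lin_eq τ (s : N →+* N) hs (s.commutes e) (by
        rw [← map_mul, he, map_sub, map_mul, Algebra.smul_def, Algebra.smul_def, mul_one, hKN,
          hKN]) w
      refine this.trans ?_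
      rw [hw, Algebra.smul_def, Algebra.smul_def, mul_one, map_add, map_mul, hKN, hKN]
    refine ⟨lin ε / lin ε', ?_⟩
    have hn' : Algebra.norm E (lin ε') ≠ 0 := by
      rw [hlinN ε' (by rw [ht, hd]; ring), hPQ]; exact mul_ne_zero hQ hTe0
    have hl0 : lin ε' ≠ 0 := fun h => hn' (by rw [h, Algebra.norm_zero])
    rw [show Algebra.norm E (lin ε / lin ε') = Algebra.norm E (lin ε) / Algebra.norm E (lin ε') by
        rw [eq_div_iff hn', ← map_mul, div_mul_cancel₀ _ hl0],
      hlinN ε (by rw [ht, hd]; ring), hlinN ε' (by rw [ht, hd]; ring),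
      hPQ, hPQ, mul_div_mul_left _ _ hQ]
    have h01 := hε0.1
    have h02 := hε0.2
    rw [show (T + ε) / (T + ε') / (r : E) - 1 = T * (ε' - ε) / ((T + ε') * ε) by
      simp only [r, Units.val_mk0]
      rw [div_div_div_eq, div_sub_one (mul_ne_zero hTe0 h01)]
      congr 1
      ring, map_div₀, map_mul, map_mul, hTe,
      div_le_iff₀ (zero_lt_iff.2 (mul_ne_zero hA hB))]
    exact (mul_le_mul' hT ((u.valuation E).map_sub _ _)).trans hMB
  refine ⟨y, ?_⟩
  rw [← hnorm, hy]
  rfl

/-- The coefficients of a solution, when the roots lie in the base. -/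
theorem exists_quadNorm_of_root (hdeg : Module.finrank K L = 3) {ζ : K}
    (hζ : IsPrimitiveRoot ζ 3) (t d : K) (hd : d ≠ 0) (hD : t ^ 2 ≠ 4 * d)
    (happ : ∀ (v : FPlace K) (M : ℕ), ∃ (u : L × L) (p q : K),
      quadNorm τ t d u = (algebraMap K L p, algebraMap K L q) ∧ q ≠ 0 ∧
        v.valuation K (p / q) ≤ WithZero.exp (-(M : ℤ)))
    {x : L} (hx : x * x = algebraMap K L t * x - algebraMap K L d) :
    ∃ (u : L × L) (c : L), c ≠ 0 ∧ quadNorm τ t d u = (0, c) := by
  classical
  set t' := algebraMap K L t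
  set d' := algebraMap K L d
  have hd' : d' ≠ 0 := (_root_.map_ne_zero _).2 hd
  have hfix : τ.σ x = x := by
    have hσx : τ.σ x * τ.σ x = t' * τ.σ x - d' := by
      simpa [t', d'] using congrArg τ.σ hx
    rcases mul_eq_zero.1 (show (τ.σ x - x) * (τ.σ x + x - t') = 0 by
      linear_combination hσx - hx) with h | h
    · exact sub_eq_zero.1 h
    · have h2 : τ.σ x = t' - x := by linear_combination h
      have h3 := τ.pow_three x
      simp only [h2, map_sub, show τ.σ t' = t' from τ.σ.commutes t, sub_sub_cancel] at h3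
      exact h2.trans h3
  obtain ⟨ε, rfl⟩ := τ.fixed x hfix
  set ε' := t - ε with hε'
  have hεε : ε * ε = t * ε - d := by
    apply (algebraMap K L).injective
    simpa [t', d'] using hx
  have hne : ε ≠ ε' := fun h => hD (by
    have : t = 2 * ε := by rw [hε'] at h; linear_combination -h
    linear_combination (-4 : K) * hεε + (t - 2 * ε) * this)
  have hde : d = ε * ε' := by rw [hε']; linear_combination hεε
  obtain ⟨y, hy⟩ := exists_norm_eq_ratio τ (E := K) (N := L) hdeg τ.σ (fun _ => rfl) τ.pow_three
    hζ (t := t) (d := d) (ε := ε) (ε' := ε') (by simp [hε']) (by simpa using hde) hd happ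
  have h0 : ε ≠ 0 ∧ ε' ≠ 0 := mul_ne_zero_iff.1 (hde ▸ hd)
  set e := algebraMap K L ε
  set e' := algebraMap K L ε'
  have he0 : e ≠ 0 := (_root_.map_ne_zero _).2 h0.1
  have he0' : e' ≠ 0 := (_root_.map_ne_zero _).2 h0.2
  have hy' : y * τ.σ y * τ.σ (τ.σ y) = e / e' := by rw [hy, map_div₀]
  have hy0 : y ≠ 0 := fun h => div_ne_zero he0 he0' (by rw [← hy', h, zero_mul, zero_mul])
  have hee : e - e' ≠ 0 := sub_ne_zero.2 fun h => hne ((algebraMap K L).injective h)
  have hde' : d' = e * e' := by simp [d', e, e', hde]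
  set b := (e / y - e' * y) / (e - e')
  set a := e / y - b * e
  have hb : b * (e - e') = e / y - e' * y := div_mul_cancel₀ _ hee
  have ha : a • (1 : L) + b • e = e / y ∧ a • (1 : L) + b • e' = e' * y := by
    simp only [smul_eq_mul, a]
    exact ⟨by ring, by linear_combination -hb⟩
  have hsig : ∀ (z : K), τ.σ (algebraMap K L z) = algebraMap K L z := τ.σ.commutes
  have heq : ∀ z : K, z * z = t * z - d → algebraMap K L z * algebraMap K L z =
      t' • algebraMap K L z - d' • (1 : L) := fun z hz => by
    rw [← map_mul, hz, map_sub, map_mul, smul_eq_mul, smul_eq_mul, mul_one]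
  have h1 := prod_lin_eq τ (τ.σ : L →+* L) (fun _ => rfl) (hsig ε) (heq ε hεε) (a, b)
  have h2 := prod_lin_eq τ (τ.σ : L →+* L) (fun _ => rfl) (hsig ε')
    (heq ε' (by rw [hε']; linear_combination hεε)) (a, b)
  dsimp only at h1 h2
  rw [ha.1] at h1
  rw [ha.2] at h2
  simp only [RingHom.coe_coe, smul_eq_mul, mul_one] at h1 h2
  rw [map_div₀, map_div₀, show τ.σ e = e from hsig ε, show τ.σ e = e from hsig ε] at h1
  rw [map_mul, map_mul, show τ.σ e' = e' from hsig ε', show τ.σ e' = e' from hsig ε'] at h2
  obtain ⟨P, Q⟩ : ((quadNorm τ t d (a, b)).1 + (quadNorm τ t d (a, b)).2 * e = d' * e) ∧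
      ((quadNorm τ t d (a, b)).1 + (quadNorm τ t d (a, b)).2 * e' = d' * e') := by
    refine ⟨h1.symm.trans ?_, h2.symm.trans ?_⟩
    · rw [div_mul_div_comm, div_mul_div_comm, hy', hde']
      field_simp
    · rw [show e' * y * (e' * τ.σ y) * (e' * τ.σ (τ.σ y)) =
        e' ^ 3 * (y * τ.σ y * τ.σ (τ.σ y)) by ring, hy', hde']
      field_simp
  have hq : (quadNorm τ t d (a, b)).2 = d' :=
    mul_right_cancel₀ hee (by linear_combination P - Q)
  rw [hq] at P
  exact ⟨(a, b), d', hd', Prod.ext (by linear_combination P) hq⟩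

/-- The elements adjoined by a monic quadratic are `a + b ε`. -/
theorem exists_coords_adjoinRoot {F : Type*} [Field F] {f : F[X]} (hf : f.Monic)
    (hdeg : f.natDegree = 2) (z : AdjoinRoot f) :
    ∃ u : F × F, u.1 • (1 : AdjoinRoot f) + u.2 • AdjoinRoot.root f = z := by
  obtain ⟨P, rfl⟩ := AdjoinRoot.mk_surjective z
  set R := P %ₘ f
  have hRdeg : R.natDegree ≤ 1 := by
    have := natDegree_modByMonic_lt P hf (by intro h; simp [h] at hdeg)
    show (P %ₘ f).natDegree ≤ 1
    omega
  refine ⟨(R.coeff 0, R.coeff 1), ?_⟩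
  rw [show AdjoinRoot.mk f P = AdjoinRoot.mk f R from
    AdjoinRoot.mk_eq_mk.2 ⟨P /ₘ f, by linear_combination -(modByMonic_add_div P f)⟩]
  conv_rhs => rw [eq_X_add_C_of_natDegree_le_one hRdeg]
  simp [Algebra.smul_def]
  ring

/-- The coefficients of a solution of the norm equation. -/
theorem exists_quadNorm_of_approx (hdeg : Module.finrank K L = 3) {ζ : K}
    (hζ : IsPrimitiveRoot ζ 3) (t d : K) (hd : d ≠ 0) (hD : t ^ 2 ≠ 4 * d)
    (happ : ∀ (v : FPlace K) (M : ℕ), ∃ (u : L × L) (p q : K),
      quadNorm τ t d u = (algebraMap K L p, algebraMap K L q) ∧ q ≠ 0 ∧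
        v.valuation K (p / q) ≤ WithZero.exp (-(M : ℤ))) :
    ∃ (u : L × L) (c : L), c ≠ 0 ∧ quadNorm τ t d u = (0, c) := by
  classical
  set t' := algebraMap K L t
  set d' := algebraMap K L d
  have hd' : d' ≠ 0 := (_root_.map_ne_zero _).2 hd
  by_cases hroot : ∃ x : L, x * x = t' * x - d'
  · -- both roots lie in the base
    obtain ⟨x, hx⟩ := hroot
    exact exists_quadNorm_of_root τ hdeg hζ t d hd hD happ hx
  · -- the roots generate a quadratic extension
    set fK : K[X] := X ^ 2 - C t * X + C d with hfK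
    set fL : L[X] := fK.map (algebraMap K L) with hfL
    have hdegK : fK.natDegree = 2 := by rw [hfK]; compute_degree!
    have hmonK : fK.Monic := by rw [hfK]; monicity!
    have hdegL : fL.natDegree = 2 := by rw [hfL, natDegree_map, hdegK]
    have hmonL : fL.Monic := hmonK.map _
    have hirrL : Irreducible fL := by
      rw [Monic.irreducible_iff_roots_eq_zero_of_degree_le_three hmonL (by omega) (by omega),
        Multiset.eq_zero_iff_forall_notMem]
      intro x hx
      rw [mem_roots hmonL.ne_zero] at hx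
      refine hroot ⟨x, ?_⟩
      simp [hfL, hfK] at hx
      linear_combination hx
    have hirrK : Irreducible fK := hmonK.irreducible_of_irreducible_map (algebraMap K L) fK hirrL
    have : Fact (Irreducible fK) := ⟨hirrK⟩
    have : Fact (Irreducible fL) := ⟨hirrL⟩
    let E := AdjoinRoot fK
    let N := AdjoinRoot fL
    have : FiniteDimensional K E := (AdjoinRoot.powerBasis hirrK.ne_zero).finite
    have : FiniteDimensional L N := (AdjoinRoot.powerBasis hirrL.ne_zero).finite
    have : NumberField E := NumberField.of_module_finite K E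
    have : NumberField N := NumberField.of_module_finite L N
    set εN : N := AdjoinRoot.root fL
    have hrootN : εN * εN = t' • εN - d' • (1 : N) := by
      have := AdjoinRoot.eval₂_root fL
      simp [hfL, hfK] at this
      simp only [Algebra.smul_def, mul_one, t', d']
      show εN * εN = AdjoinRoot.of fL (algebraMap K L t) * εN - AdjoinRoot.of fL (algebraMap K L d)
      linear_combination this
    have hev : fK.eval₂ (algebraMap K N) εN = 0 := by
      rw [IsScalarTower.algebraMap_eq K L N, ← eval₂_map]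
      exact AdjoinRoot.eval₂_root fL
    let : Algebra E N := (AdjoinRoot.lift (algebraMap K N) εN hev).toAlgebra
    have : IsScalarTower K E N := IsScalarTower.of_algebraMap_eq fun z =>
      (AdjoinRoot.lift_of hev).symm
    have hεN : algebraMap E N (AdjoinRoot.root fK) = εN := AdjoinRoot.lift_root hev
    have hσev : fL.eval₂ ((algebraMap L N).comp (τ.σ : L →+* L)) εN = 0 := by
      refine (eval₂_map (p := fK) (algebraMap K L) _ εN).trans ?_
      rw [RingHom.comp_assoc,
        show (τ.σ : L →+* L).comp (algebraMap K L) = algebraMap K L from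
          RingHom.ext τ.σ.commutes, ← IsScalarTower.algebraMap_eq]
      exact hev
    let φ : N →+* N := AdjoinRoot.lift ((algebraMap L N).comp (τ.σ : L →+* L)) εN hσev
    have hφL : ∀ z : L, φ (algebraMap L N z) = algebraMap L N (τ.σ z) := fun z =>
      AdjoinRoot.lift_of hσev
    have hφε : φ εN = εN := AdjoinRoot.lift_root hσev
    have hφE : ∀ z : E, φ (algebraMap E N z) = algebraMap E N z := by
      refine fun z => RingHom.congr_fun (f := φ.comp (algebraMap E N)) (g := algebraMap E N) ?_ z
      refine AdjoinRoot.ringHom_ext (RingHom.ext fun k => ?_) ?_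
      · show φ (algebraMap E N (algebraMap K E k)) = algebraMap E N (algebraMap K E k)
        rw [← IsScalarTower.algebraMap_apply, IsScalarTower.algebraMap_apply K L N, hφL,
          τ.σ.commutes]
      · show φ (algebraMap E N (AdjoinRoot.root fK)) = _
        rw [hεN]; exact hφε
    have hdegN : Module.finrank E N = 3 := by
      have h1 := Module.finrank_mul_finrank K E N
      rw [← Module.finrank_mul_finrank K L N, hdeg,
        (AdjoinRoot.powerBasis hirrK.ne_zero).finrank,
        (AdjoinRoot.powerBasis hirrL.ne_zero).finrank,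
        AdjoinRoot.powerBasis_dim, AdjoinRoot.powerBasis_dim, hdegK, hdegL] at h1
      omega
    have : FiniteDimensional E N := Module.finite_of_finrank_eq_succ (n := 2) hdegN
    let s : N ≃ₐ[E] N := AlgEquiv.ofBijective ({ φ with commutes' := hφE } : N →ₐ[E] N)
      (Algebra.IsAlgebraic.algHom_bijective _)
    have hsL : ∀ z, s (algebraMap L N z) = algebraMap L N (τ.σ z) := hφL
    have hs3 : ∀ z, s (s (s z)) = z := by
      refine fun z => RingHom.congr_fun (f := φ.comp (φ.comp φ)) (g := RingHom.id N) ?_ z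
      refine AdjoinRoot.ringHom_ext (RingHom.ext fun k => ?_) ?_
      · show φ (φ (φ (algebraMap L N k))) = algebraMap L N k
        rw [hφL, hφL, hφL, τ.pow_three]
      · show φ (φ (φ εN)) = εN
        rw [hφε, hφε, hφε]
    set εE := AdjoinRoot.root fK
    have hE2 : εE * εE = algebraMap K E t * εE - algebraMap K E d := by
      have := AdjoinRoot.eval₂_root fK
      simp [hfK] at this
      rw [AdjoinRoot.algebraMap_eq]
      linear_combination this
    have hde : algebraMap K E d = εE * (algebraMap K E t - εE) := by linear_combination hE2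
    obtain ⟨y, hy⟩ := exists_norm_eq_ratio τ hdegN s hsL hs3 hζ (ε := εE)
      (ε' := algebraMap K E t - εE) (by ring) hde hd happ
    have h0 : εE ≠ 0 ∧ algebraMap K E t - εE ≠ 0 :=
      mul_ne_zero_iff.1 (hde ▸ (_root_.map_ne_zero _).2 hd)
    set e := algebraMap E N εE
    set e' := algebraMap E N (algebraMap K E t - εE)
    have he0 : e ≠ 0 := (_root_.map_ne_zero _).2 h0.1
    have he0' : e' ≠ 0 := (_root_.map_ne_zero _).2 h0.2
    rw [map_div₀] at hy
    have hy0 : y ≠ 0 := fun h => div_ne_zero he0 he0' (by rw [← hy, h, zero_mul, zero_mul])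
    obtain ⟨u, hrep⟩ := exists_coords_adjoinRoot hmonL hdegL (e / y : N)
    rw [show AdjoinRoot.root fL = e from hεN.symm] at hrep
    have h1 := prod_lin_eq τ (s : N →+* N) hsL (show s e = e from s.commutes εE) (t := t) (d := d)
      (by rw [show e = εN from hεN]; exact hrootN) u
    simp only [hrep, RingHom.coe_coe] at h1
    rw [map_div₀, map_div₀, show s e = e from s.commutes εE, show s e = e from s.commutes εE,
      div_mul_div_comm, div_mul_div_comm, hy,
      show e * e * e / (e / e') = algebraMap L N d' * e by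
        rw [show algebraMap L N d' = e * e' by
          rw [← map_mul, ← hde, ← IsScalarTower.algebraMap_apply,
            ← IsScalarTower.algebraMap_apply]]
        rw [div_div_eq_mul_div, eq_comm, eq_div_iff he0]
        ring] at h1
    set p := (quadNorm τ t d u).1
    set q := (quadNorm τ t d u).2
    have hq : q = d' := by
      by_contra hqd
      have hd'' : d' - q ≠ 0 := sub_ne_zero.2 (Ne.symm hqd)
      have hpe : e = algebraMap L N (p / (d' - q)) := by
        rw [map_div₀, eq_div_iff ((_root_.map_ne_zero _).2 hd''), map_sub]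
        rw [Algebra.smul_def, Algebra.smul_def, mul_one] at h1
        linear_combination h1
      refine hroot ⟨p / (d' - q), (algebraMap L N).injective ?_⟩
      have := hrootN
      rw [← show e = εN from hεN, hpe] at this
      simpa [Algebra.smul_def] using this
    refine ⟨u, d', hd', Prod.ext ?_ hq⟩
    apply (algebraMap L N).injective
    rw [show (quadNorm τ t d u).1 = p from rfl, map_zero]
    rw [hq, Algebra.smul_def, Algebra.smul_def, mul_one] at h1
    linear_combination -h1

/-! ### The local step -/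

theorem map_lin {R S : Type*} [CommRing R] [CommRing S] (f : R →+* S) (x y : R) (A : M2 R) :
    (x • (1 : M2 R) + y • A).map f = f x • 1 + f y • A.map f := by
  ext i j
  fin_cases i <;> fin_cases j <;> simp

theorem map_quadMul {R R' : Type*} [CommRing R] [CommRing R'] (f : R →+* R') (t d : R)
    (u u' : R × R) : Prod.map f f (quadMul t d u u') =
      quadMul (f t) (f d) (Prod.map f f u) (Prod.map f f u') := by
  simp [quadMul]

/-- A convergent family is eventually within `exp (-N)` of its limit. -/
theorem eventually_valv_sub_le {F : Type} [Field F] [NumberField F] (v : FPlace F)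
    (z : v.adicCompletion F) {ι : Type*} {l : Filter ι} {x : ι → v.adicCompletion F}
    (hx : Filter.Tendsto x l (𝓝 z)) (N : ℕ) :
    ∀ᶠ n in l, valv v (x n - z) ≤ WithZero.exp (-(N : ℤ)) := by
  have := (hx.sub_const z)
  rw [sub_self] at this
  exact this.eventually (setOf_le_mem_nhds_zero v N)

/-- Families at the places over `v` are approximated by elements of `L`. -/
theorem exists_approx_over {v : FPlace K} (f : ∀ w : Over L v, w.1.adicCompletion L) (n : ℕ) :
    ∃ x : L, ∀ w : Over L v,
      valv w.1 (f w - algebraMap L _ x) ≤ WithZero.exp (-(n : ℤ)) := by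
  classical
  have hfin : ∀ᶠ w : FPlace L in Filter.cofinite, below K w ≠ v := by
    rw [Filter.eventually_cofinite]
    refine (Set.finite_range fun w : Over L v => w.1).subset fun w hw => ?_
    exact ⟨⟨w, not_not.1 hw⟩, rfl⟩
  obtain ⟨x, hx⟩ := exists_algebraMap_approx
    (fun w => if h : below K w = v then f ⟨w, h⟩ else 0)
    (hfin.mono fun w hw => by simp [hw]) (fun w => if below K w = v then (n : ℤ) else 0)
    (hfin.mono fun w hw => by simp [hw])
  refine ⟨x, fun w => ?_⟩
  have := hx w.1
  rwa [dif_pos w.2, if_pos w.2] at this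

section LocalStep

variable {γ : GL (Fin 2) K} {v : FPlace K} {δ : Gover L v}
  {cu : ∀ w : Over L v, (w.1.adicCompletion L)ˣ}

/-- A family whose norm is a central multiple of `γ` commutes with `γ` when its trace is
non-zero. -/
theorem commute_of_normOver_eq (htr : (γ : M2 K).trace ≠ 0)
    (hN : normOver τ.σ δ =
      (fun w => Matrix.GeneralLinearGroup.scalar (Fin 2) (cu w)) * baseOver L v (toLocal v γ))
    (w : Over L v) :
    (δ w : M2 (w.1.adicCompletion L)) * (γ : M2 K).map (algebraMap K (w.1.adicCompletion L)) =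
      (γ : M2 K).map (algebraMap K (w.1.adicCompletion L)) * (δ w : M2 _) := by
  classical
  set t := (γ : M2 K).trace
  set C : Gover L v := fun w => Matrix.GeneralLinearGroup.scalar (Fin 2) (cu w)
  set G : Gover L v := baseOver L v (toLocal v γ) with hG
  set Γ : ∀ w : Over L v, M2 (w.1.adicCompletion L) := fun w =>
    (γ : M2 K).map (algebraMap K (w.1.adicCompletion L)) with hΓ
  have hGw : ∀ w : Over L v, ((G w : GLv w.1) : M2 (w.1.adicCompletion L)) = Γ w := fun w => by
    rw [hG, baseOver_toLocal]
    ext i j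
    simp [diagOver, toLocal, hΓ, IsScalarTower.algebraMap_apply K L (w.1.adicCompletion L)]
  show (δ w : M2 (w.1.adicCompletion L)) * Γ w = Γ w * (δ w : M2 _)
  have hfix : autOver τ.σ G = G := by
    rw [hG, baseOver_toLocal, autOver_diagOver]
    congr 1
    ext i j
    simp [τ.σ.commutes]
  have hmul : δ * autOver τ.σ (normOver τ.σ δ) = normOver τ.σ δ * δ := by
    have h3 : ∀ x : Gover L v, autOver τ.σ (autOver τ.σ (autOver τ.σ x)) = x := fun x =>
      autOver_cube τ x
    simp only [normOver, map_mul, h3, mul_assoc]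
  rw [hN, map_mul, hfix] at hmul
  have hw := congrArg (fun g : GLv w.1 => (g : M2 (w.1.adicCompletion L))) (congrFun hmul w)
  set k : w.1.adicCompletion L :=
    localAut τ.σ.toRingEquiv w.1 (cu (comapOver τ.σ w) : (comapOver τ.σ w).1.adicCompletion L)
  have hC : ((autOver τ.σ C w : GLv w.1) : M2 (w.1.adicCompletion L)) = k • 1 := by
    refine Matrix.ext fun i j => ?_
    show localAut τ.σ.toRingEquiv w.1
      ((C (comapOver τ.σ w) : GLv (comapOver τ.σ w).1).val i j) = _
    fin_cases i <;> fin_cases j <;> simp [C, k]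
    all_goals rfl
  simp only [Pi.mul_apply, Units.val_mul, hC, hGw, Matrix.smul_mul, Matrix.one_mul,
    Matrix.mul_smul, C, Tree.coe_scalar_eq_smul] at hw
  set c := (cu w : w.1.adicCompletion L)
  -- comparing the traces of `Γ` and of its conjugate
  have htr' : k = c := by
    have h1 := congrArg (fun m => ((δ w)⁻¹ : GLv w.1).val * m) hw
    simp only [Matrix.mul_smul, ← Matrix.mul_assoc, ← Units.val_mul, inv_mul_cancel,
      Units.val_one, Matrix.one_mul] at h1
    have h2 := congrArg Matrix.trace h1
    rw [Matrix.trace_smul, Matrix.trace_smul, Matrix.trace_mul_cycle, ← Units.val_mul,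
      mul_inv_cancel, Units.val_one, Matrix.one_mul] at h2
    refine mul_right_cancel₀ (b := (Γ w).trace) ?_ (by simpa [smul_eq_mul] using h2)
    rw [show (Γ w).trace = algebraMap K (w.1.adicCompletion L) t by
      simp [hΓ, t, Matrix.trace_fin_two]]
    exact (_root_.map_ne_zero _).2 htr
  rw [htr'] at hw
  exact smul_right_injective _ (cu w).ne_zero hw

/-- The product over `w₀` of the conjugates of a family of pairs of coefficients. -/
def localQuadNorm (t d : K) (w₀ : Over L v)
    (x : ∀ w : Over L v, w.1.adicCompletion L × w.1.adicCompletion L) :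
    w₀.1.adicCompletion L × w₀.1.adicCompletion L :=
  quadMul (algebraMap K _ t) (algebraMap K _ d)
    (quadMul (algebraMap K _ t) (algebraMap K _ d) (x w₀)
      (localAut τ.σ.toRingEquiv w₀.1 (x (comapOver τ.σ w₀)).1,
        localAut τ.σ.toRingEquiv w₀.1 (x (comapOver τ.σ w₀)).2))
    (localAut τ.σ.toRingEquiv w₀.1 (localAut τ.σ.toRingEquiv (comapOver τ.σ w₀).1
        (x (comapOver τ.σ (comapOver τ.σ w₀))).1),
      localAut τ.σ.toRingEquiv w₀.1 (localAut τ.σ.toRingEquiv (comapOver τ.σ w₀).1
        (x (comapOver τ.σ (comapOver τ.σ w₀))).2))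

/-- The coefficients of a local norm: `p + qγ` is the norm of a family `a + bγ` with `p = 0`. -/
theorem exists_coords_of_isLocalNorm (hγ : IsRegular γ) (htr : (γ : M2 K).trace ≠ 0)
    (hδ : IsLocalNorm τ.σ δ (toLocal v γ)) (w₀ : Over L v) :
    ∃ (ab : ∀ w : Over L v, w.1.adicCompletion L × w.1.adicCompletion L)
      (c : w₀.1.adicCompletion L), c ≠ 0 ∧
        localQuadNorm τ (γ : M2 K).trace (γ : M2 K).det w₀ ab = (0, c) := by
  classical
  set t := (γ : M2 K).trace
  set d := (γ : M2 K).det
  have hns : CubicAut.NonScalar (γ : M2 K) := fun c hc => hγ (by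
    rw [hc]; simp; ring)
  -- the central factors
  choose cu hcu using fun w : Over L v => Tree.mem_center_iff_scalar.1 (hδ w)
  set C : Gover L v := fun w => Matrix.GeneralLinearGroup.scalar (Fin 2) (cu w)
  set G : Gover L v := baseOver L v (toLocal v γ) with hG
  have hN : normOver τ.σ δ = C * G := funext fun w => by
    have := hcu w
    rw [Pi.mul_apply, Pi.inv_apply, mul_inv_eq_iff_eq_mul] at this
    exact this
  set Γ : ∀ w : Over L v, M2 (w.1.adicCompletion L) := fun w =>
    (γ : M2 K).map (algebraMap K (w.1.adicCompletion L)) with hΓ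
  have hGw : ∀ w : Over L v, ((G w : GLv w.1) : M2 (w.1.adicCompletion L)) = Γ w := fun w => by
    rw [hG, baseOver_toLocal]
    ext i j
    simp [diagOver, toLocal, hΓ, IsScalarTower.algebraMap_apply K L (w.1.adicCompletion L)]
  choose a b hab using fun w : Over L v => exists_comm_coeffs
    ((CubicAut.nonScalar_map (L := w.1.adicCompletion L)).2 hns)
    (commute_of_normOver_eq τ htr hN w)
  refine ⟨fun w => (a w, b w), cu w₀, (cu w₀).ne_zero, ?_⟩
  set w₁ := comapOver τ.σ w₀
  set w₂ := comapOver τ.σ w₁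
  set T := algebraMap K (w₀.1.adicCompletion L) t
  set D := algebraMap K (w₀.1.adicCompletion L) d
  set loc := localQuadNorm τ t d w₀
  set F := localAut τ.σ.toRingEquiv w₀.1
  set F' := localAut τ.σ.toRingEquiv w₁.1
  have hΓF : ∀ u : Over L v, (Γ (comapOver τ.σ u)).map (localAut τ.σ.toRingEquiv u.1) = Γ u := by
    intro u
    refine Matrix.ext fun i j => ?_
    show localAut τ.σ.toRingEquiv u.1 (algebraMap K _ _) = algebraMap K _ _
    rw [IsScalarTower.algebraMap_apply K L (u.1.adicCompletion L),
      IsScalarTower.algebraMap_apply K L ((comapPlace τ.σ.toRingEquiv u.1).adicCompletion L)]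
    exact (localAut_coe τ.σ.toRingEquiv u.1 _).trans (congrArg _ (τ.σ.commutes _))
  have hlin : ∀ (u : Over L v) (x y : (comapOver τ.σ u).1.adicCompletion L),
      (x • (1 : M2 ((comapOver τ.σ u).1.adicCompletion L)) + y • Γ (comapOver τ.σ u)).map
          (localAut τ.σ.toRingEquiv u.1) =
        localAut τ.σ.toRingEquiv u.1 x • 1 + localAut τ.σ.toRingEquiv u.1 y • Γ u := by
    intro u x y
    rw [← hΓF u]
    exact map_lin (localAut τ.σ.toRingEquiv u.1) x y (Γ (comapOver τ.σ u))
  have h1 : ((autOver τ.σ δ w₀ : GLv w₀.1) : M2 (w₀.1.adicCompletion L)) =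
      F (a w₁) • 1 + F (b w₁) • Γ w₀ := by
    rw [← hlin w₀, ← hab w₁]
    rfl
  have h2 : ((autOver τ.σ (autOver τ.σ δ) w₀ : GLv w₀.1) : M2 (w₀.1.adicCompletion L)) =
      F (F' (a w₂)) • 1 + F (F' (b w₂)) • Γ w₀ := by
    rw [← hlin w₀, ← hlin w₁, ← hab w₂]
    rfl
  have hsq : Γ w₀ * Γ w₀ = T • Γ w₀ - D • (1 : M2 (w₀.1.adicCompletion L)) := by
    rw [Tree.sq_eq_trace_det, neg_smul, ← sub_eq_add_neg]
    congr 2
    · simp [hΓ, T, t, Matrix.trace_fin_two]
    · show ((γ : M2 K).map (algebraMap K (w₀.1.adicCompletion L))).det = D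
      rw [← RingHom.mapMatrix_apply, ← RingHom.map_det]
  have h0 := congrArg (fun g : GLv w₀.1 => (g : M2 (w₀.1.adicCompletion L))) (congrFun hN w₀)
  simp only [normOver, Pi.mul_apply, Units.val_mul, hGw, C, Tree.coe_scalar_eq_smul,
    Matrix.smul_mul, Matrix.one_mul, h1, h2] at h0
  rw [hab w₀, smul_lin_mul hsq (a w₀, b w₀) (F (a w₁), F (b w₁)),
    smul_lin_mul hsq _ (F (F' (a w₂)), F (F' (b w₂)))] at h0
  change (loc fun w => (a w, b w)).1 • (1 : M2 (w₀.1.adicCompletion L)) +
    (loc fun w => (a w, b w)).2 • Γ w₀ = _ at h0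
  set P := loc fun w => (a w, b w)
  have hzero : P.1 • (1 : M2 (w₀.1.adicCompletion L)) +
      (P.2 - (cu w₀ : w₀.1.adicCompletion L)) • Γ w₀ = 0 := by
    rw [sub_smul, ← h0]; abel
  have hq : P.2 = (cu w₀ : w₀.1.adicCompletion L) := by
    by_contra hne
    refine (CubicAut.nonScalar_map (L := w₀.1.adicCompletion L)).2 hns
      (-(P.1 / (P.2 - (cu w₀ : w₀.1.adicCompletion L)))) ?_
    have hne' := sub_ne_zero.2 hne
    apply smul_right_injective _ hne'
    dsimp only
    rw [smul_smul, mul_neg, mul_div_cancel₀ _ hne', neg_smul]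
    exact eq_neg_of_add_eq_zero_right hzero
  refine Prod.ext ?_ hq
  have := congrFun (congrFun hzero 0) 0
  simpa [hq] using this

/-- Approximate solutions from a value of the local norm form. -/
theorem exists_approx_of_localQuadNorm (t d : K) {w₀ : Over L v}
    {ab : ∀ w : Over L v, w.1.adicCompletion L × w.1.adicCompletion L}
    {c : w₀.1.adicCompletion L} (hc : c ≠ 0) (hval : localQuadNorm τ t d w₀ ab = (0, c)) (M : ℕ) :
    ∃ (u : L × L) (p q : K),
      quadNorm τ t d u = (algebraMap K L p, algebraMap K L q) ∧ q ≠ 0 ∧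
        v.valuation K (p / q) ≤ WithZero.exp (-(M : ℤ)) := by
  classical
  let w₁ := comapOver τ.σ w₀
  let w₂ := comapOver τ.σ w₁
  let T := algebraMap K (w₀.1.adicCompletion L) t
  let D := algebraMap K (w₀.1.adicCompletion L) d
  let loc := localQuadNorm τ t d w₀
  obtain ⟨a, b, rfl⟩ : ∃ a b : ∀ w : Over L v, w.1.adicCompletion L, ab = fun w => (a w, b w) :=
    ⟨fun w => (ab w).1, fun w => (ab w).2, rfl⟩
  have happ : ∀ n : ℕ, ∃ x y : L, ∀ w : Over L v,
      valv w.1 (a w - algebraMap L _ x) ≤ WithZero.exp (-(n : ℤ)) ∧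
      valv w.1 (b w - algebraMap L _ y) ≤ WithZero.exp (-(n : ℤ)) := by
    intro n
    obtain ⟨x, hx⟩ := exists_approx_over a n
    obtain ⟨y, hy⟩ := exists_approx_over b n
    exact ⟨x, y, fun w => ⟨hx w, hy w⟩⟩
  choose x y hxy using happ
  let ap : ℕ → ∀ w : Over L v, w.1.adicCompletion L × w.1.adicCompletion L := fun n w =>
    (algebraMap L _ (x n), algebraMap L _ (y n))
  have hap : Filter.Tendsto ap Filter.atTop (𝓝 fun w => (a w, b w)) := by
    refine tendsto_pi_nhds.2 fun w => ?_
    have key : ∀ (z : w.1.adicCompletion L) (g : ℕ → L),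
        (∀ n, valv w.1 (z - algebraMap L _ (g n)) ≤ WithZero.exp (-(n : ℤ))) →
        Filter.Tendsto (fun n => algebraMap L (w.1.adicCompletion L) (g n)) Filter.atTop (𝓝 z) := by
      intro z g hg
      rw [← tendsto_sub_nhds_zero_iff]
      intro s hs
      obtain ⟨N, hN⟩ := mem_nhds_zero_of_exp w.1 hs
      refine Filter.eventually_atTop.2 ⟨N, fun n hn => hN _ ?_⟩
      rw [Valuation.map_sub_swap]
      exact (hg n).trans (Tree.exp_antitone hn)
    exact (key _ _ fun n => (hxy n w).1).prodMk_nhds (key _ _ fun n => (hxy n w).2)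
  have hcont : Continuous loc := by
    have hF : ∀ u : Over L v, Continuous (localAut τ.σ.toRingEquiv u.1) := fun u =>
      continuous_localAut _ _
    have h0 : ∀ u : Over L v, Continuous fun x : (∀ w : Over L v,
        w.1.adicCompletion L × w.1.adicCompletion L) => x u := fun u => continuous_apply u
    exact continuous_quadMul T D
      (continuous_quadMul T D (h0 w₀)
        (((hF w₀).comp (h0 w₁).fst).prodMk ((hF w₀).comp (h0 w₁).snd)))
      (((hF w₀).comp ((hF w₁).comp (h0 w₂).fst)).prodMk
        ((hF w₀).comp ((hF w₁).comp (h0 w₂).snd)))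
  have hlim := (hcont.tendsto _).comp hap
  rw [show loc (fun w => (a w, b w)) = (0, c) from hval] at hlim
  have hc0 : valv w₀.1 c ≠ 0 := (Valuation.ne_zero_iff _).2 hc
  set e := ram K w₀.1
  set Nc : ℕ := (-WithZero.log (valv w₀.1 c)).toNat + 1
  have hsmall : WithZero.exp (-(Nc : ℤ)) < valv w₀.1 c := by
    conv_rhs => rw [← WithZero.exp_log hc0]
    rw [WithZero.exp_lt_exp]
    have := Int.self_le_toNat (-WithZero.log (valv w₀.1 c))
    simp only [Nc]; push_cast; omega
  obtain ⟨n, hn1, hn2⟩ := ((eventually_valv_sub_le w₀.1 0 hlim.fst_nhds (e * M + Nc)).and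
    (eventually_valv_sub_le w₀.1 c hlim.snd_nhds Nc)).exists
  obtain ⟨p, q, hpq⟩ := exists_quadNorm_eq τ t d (x n, y n)
  have hloc : loc (ap n) = (algebraMap K _ p, algebraMap K _ q) := by
    have key := congrArg (Prod.map (algebraMap L (w₀.1.adicCompletion L))
      (algebraMap L (w₀.1.adicCompletion L))) hpq
    rw [quadNorm, map_quadMul, map_quadMul] at key
    simp only [Prod.map_apply] at key
    rw [IsScalarTower.algebraMap_apply K L (w₀.1.adicCompletion L) p,
      IsScalarTower.algebraMap_apply K L (w₀.1.adicCompletion L) q, ← key]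
    simp only [loc, localQuadNorm, ap, IsScalarTower.algebraMap_apply K L (w₀.1.adicCompletion L)]
    have e1 : ∀ (u : Over L v) (z : L), localAut τ.σ.toRingEquiv u.1
        (algebraMap L ((comapOver τ.σ u).1.adicCompletion L) z) = algebraMap L _ (τ.σ z) :=
      fun u z =>
      localAut_coe τ.σ.toRingEquiv u.1 z
    simp only [e1]
  simp only [Function.comp_apply, hloc, sub_zero] at hn1 hn2
  have hq1 : valv w₀.1 (algebraMap K (w₀.1.adicCompletion L) q) = valv w₀.1 c := by
    have := (valv w₀.1).map_add_eq_of_lt_left (x := c)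
      (y := algebraMap K (w₀.1.adicCompletion L) q - c) (hn2.trans_lt hsmall)
    rwa [add_sub_cancel] at this
  have hq0 : q ≠ 0 := fun h => hc0 (by rw [← hq1, h, map_zero, map_zero])
  refine ⟨(x n, y n), p, q, hpq, hq0, ?_⟩
  have hpq' : valv w₀.1 (algebraMap K (w₀.1.adicCompletion L) (p / q)) ≤
      WithZero.exp (-((e * M : ℕ) : ℤ)) := by
    rw [map_div₀, map_div₀, hq1, div_le_iff₀ (zero_lt_iff.2 hc0)]
    refine hn1.trans (le_trans ?_ (mul_le_mul' le_rfl hsmall.le))
    rw [← WithZero.exp_add, WithZero.exp_le_exp]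
    push_cast; omega
  rw [IsScalarTower.algebraMap_apply K L (w₀.1.adicCompletion L), valv_algebraMap,
    valuation_algebraMap_of_below w₀.1 w₀.2] at hpq'
  refine (pow_le_pow_iff_left₀ zero_le zero_le (ram_pos w₀.1).ne').1 (hpq'.trans_eq ?_)
  rw [← WithZero.exp_nsmul]
  simp [e]

end LocalStep

/-- Approximate solutions from a local norm. -/
theorem exists_approx_of_isLocalNorm {γ : GL (Fin 2) K} (hγ : IsRegular γ)
    (htr : (γ : M2 K).trace ≠ 0) (v : FPlace K) {δ : Gover L v}
    (hδ : IsLocalNorm τ.σ δ (toLocal v γ)) (M : ℕ) :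
    ∃ (u : L × L) (p q : K),
      quadNorm τ (γ : M2 K).trace (γ : M2 K).det u = (algebraMap K L p, algebraMap K L q) ∧ q ≠ 0 ∧
        v.valuation K (p / q) ≤ WithZero.exp (-(M : ℤ)) := by
  obtain ⟨w₀⟩ := nonempty_over L v
  obtain ⟨ab, c, hc, hval⟩ := exists_coords_of_isLocalNorm τ hγ htr hδ w₀
  exact exists_approx_of_localQuadNorm τ _ _ hc hval M

/-- **The norm principle.** -/
theorem normPrinciple (hdeg : Module.finrank K L = 3) {ζ : K} (hζ : IsPrimitiveRoot ζ 3) :
    NormPrinciple τ := by
  intro γ hγ htr hloc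
  have hd : (γ : M2 K).det ≠ 0 := γ.det_ne_zero
  obtain ⟨⟨a, b⟩, c, hc, habc⟩ := exists_quadNorm_of_approx τ hdeg hζ _ _ hd hγ fun v M => by
    obtain ⟨δ, hδ⟩ := hloc v
    exact exists_approx_of_isLocalNorm τ hγ htr v hδ M
  set Γ := (γ : M2 K).map (algebraMap K L) with hΓ
  set Δ : M2 L := a • 1 + b • Γ
  have hsq : Γ * Γ = algebraMap K L (γ : M2 K).trace • Γ -
      algebraMap K L (γ : M2 K).det • (1 : M2 L) := by
    rw [Tree.sq_eq_trace_det, neg_smul, ← sub_eq_add_neg]
    congr 2
    · simp [hΓ, Matrix.trace_fin_two]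
    · rw [hΓ, ← RingHom.mapMatrix_apply, ← RingHom.map_det]
  have hmat : ∀ x y : L, τ.mat (x • 1 + y • Γ) = τ.σ x • 1 + τ.σ y • Γ := fun x y => by
    rw [map_add, τ.mat_smul, τ.mat_smul, map_one, hΓ, τ.mat_base]
  have hN : τ.norm Δ = c • Γ := by
    rw [CubicAut.norm, hmat, hmat, smul_lin_mul hsq (a, b) (τ.σ a, τ.σ b),
      smul_lin_mul hsq _ (τ.σ (τ.σ a), τ.σ (τ.σ b))]
    change (quadNorm τ _ _ (a, b)).1 • (1 : M2 L) + (quadNorm τ _ _ (a, b)).2 • Γ = _
    rw [habc, zero_smul, zero_add]
  have hΔ : Δ.det ≠ 0 := fun h0 => by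
    have h1 := τ.det_norm Δ
    rw [hN, h0, CubicAut.nm, zero_mul, zero_mul, Matrix.det_smul, mul_eq_zero, hΓ,
      ← RingHom.mapMatrix_apply, ← RingHom.map_det, map_eq_zero] at h1
    exact h1.elim (pow_ne_zero _ hc) hd
  exact ⟨Matrix.GeneralLinearGroup.mkOfDetNeZero Δ hΔ, c, hN⟩

end Fermat.Agent.ResidualThree.Orbital
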