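import Fermat.Agent.ResidualThree.CubicDescent.PushPlaces
import Fermat.Agent.ResidualThree.Tree.AdicInst

/-!
# The transfer at a split place

With three places above the twisted cosets are triples of cosets of the base; summing over the last
two of them gives the convolution of the three functions. Every element is a norm.
-/

noncomputable section

open IsDedekindDomain NumberField
open scoped WithZero

namespace Fermat.Agent.ResidualThree.Orbital

variable {K L : Type} [Field K] [NumberField K] [Field L] [NumberField L] [Algebra K L]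
  (τ : CubicAut K L) {v : FPlace K}

include τ in
/-- At a split place the completion above is the completion of the base. -/
theorem baseHom_bijective (hv : Nat.card (Over L v) ≠ 1) (w : Over L v) :
    Function.Bijective (baseHom w.1 w.2) := by
  classical
  refine ⟨(baseHom w.1 w.2).injective, fun z => ?_⟩
  set e := ram K w.1
  have he : 0 < e := ram_pos w.1
  have hstep : ∀ n : ℕ, ∃ y : v.adicCompletion K,
      valv w.1 (baseHom w.1 w.2 y - z) ≤ WithZero.exp (-((e * n : ℕ) : ℤ)) := by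
    intro n
    have hfin : ∀ᶠ u : FPlace L in Filter.cofinite, below K u ≠ v := by
      rw [Filter.eventually_cofinite]
      exact (Set.finite_range fun u : Over L v => u.1).subset fun u hu => ⟨⟨u, not_not.1 hu⟩, rfl⟩
    let tgt : ∀ u : FPlace L, u.adicCompletion L := Function.update (fun _ => 0) w.1 z
    obtain ⟨x, hx⟩ := exists_algebraMap_approx tgt
      (hfin.mono fun u hu => by
        have : u ≠ w.1 := fun h => hu (h ▸ w.2)
        simp [tgt, this])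
      (fun u => if below K u = v then ((e * n : ℕ) : ℤ) else 0) (hfin.mono fun u hu => by simp [hu])
    have hw : valv w.1 (algebraMap L _ x - z) ≤ WithZero.exp (-((e * n : ℕ) : ℤ)) := by
      have := hx w.1
      rw [if_pos w.2, show tgt w.1 = z from Function.update_self _ _ _,
        Valuation.map_sub_swap] at this
      exact this
    have hoth : ∀ u : Over L v, u ≠ w → u.1.valuation L x ≤ WithZero.exp (-((e * n : ℕ) : ℤ)) := by
      intro u hu
      have := hx u.1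
      rw [if_pos u.2, show tgt u.1 = 0 from
        Function.update_of_ne (fun h => hu (Subtype.ext h)) _ _, zero_sub, Valuation.map_neg,
        valv_algebraMap] at this
      exact this
    obtain ⟨y, hy⟩ := τ.fixed (x + τ.σ x + τ.σ (τ.σ x)) (by
      rw [map_add, map_add, τ.pow_three]; ring)
    refine ⟨algebraMap K _ y, ?_⟩
    rw [baseHom_coe, hy, map_add, map_add,
      show algebraMap L (w.1.adicCompletion L) x + algebraMap L _ (τ.σ x) +
          algebraMap L _ (τ.σ (τ.σ x)) - z =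
        (algebraMap L (w.1.adicCompletion L) x - z) + algebraMap L _ (τ.σ x) +
          algebraMap L _ (τ.σ (τ.σ x)) by ring]
    refine (valv w.1).map_add_le ((valv w.1).map_add_le hw ?_) ?_
    · rw [valv_algebraMap]
      exact ((valuation_comapPlace τ.σ.toRingEquiv w.1 x).symm).trans_le
        (hoth (comapOver τ.σ w) (comapOver_ne τ hv w))
    · rw [valv_algebraMap]
      have h1 := valuation_comapPlace τ.σ.toRingEquiv w.1 (τ.σ x)
      have h2 := valuation_comapPlace τ.σ.toRingEquiv (comapOver τ.σ w).1 x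
      exact (h1.symm.trans h2.symm).trans_le
        (hoth (comapOver τ.σ (comapOver τ.σ w)) (comapOver_comapOver_ne τ hv w))
  choose y hy using hstep
  have hsteps : ∀ n, valv v (y (n + 1) - y n) ≤ WithZero.exp (-(n : ℤ)) := fun n => by
    refine (pow_le_pow_iff_left₀ zero_le zero_le he.ne').1 ?_
    rw [← Tree.valv_baseHom w.1 w.2, ← WithZero.exp_nsmul, map_sub,
      show baseHom w.1 w.2 (y (n + 1)) - baseHom w.1 w.2 (y n) =
        (baseHom w.1 w.2 (y (n + 1)) - z) - (baseHom w.1 w.2 (y n) - z) by ring]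
    refine (valv w.1).map_sub_le ((hy (n + 1)).trans ?_) ((hy n).trans ?_) <;>
      rw [WithZero.exp_le_exp] <;> simp only [nsmul_eq_mul] <;> push_cast <;> nlinarith
  obtain ⟨Y, hY⟩ := exists_limit_of_steps v y hsteps
  refine ⟨Y, sub_eq_zero.1 (Tree.eq_zero_of_forall_le (v := valv w.1) fun n => ?_)⟩
  rw [show baseHom w.1 w.2 Y - z = baseHom w.1 w.2 (Y - y n) + (baseHom w.1 w.2 (y n) - z) by
    rw [map_sub]; ring]
  refine (valv w.1).map_add_le ?_ ((hy n).trans (Tree.exp_antitone (Nat.le_mul_of_pos_left n he)))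
  rw [Tree.valv_baseHom]
  refine (pow_le_pow_left₀ zero_le (hY n) e).trans ?_
  rw [← WithZero.exp_nsmul, WithZero.exp_le_exp]
  simp only [nsmul_eq_mul]
  nlinarith

include τ in
theorem baseGL_bijective (hv : Nat.card (Over L v) ≠ 1) (w : Over L v) :
    Function.Bijective (baseGL w.1 w.2) :=
  (Units.mapEquiv ((RingEquiv.ofBijective (baseHom w.1 w.2)
    (baseHom_bijective τ hv w)).mapMatrix (m := Fin 2)).toMulEquiv).bijective

/-! ### The convolution of three functions -/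

variable (UK : Level K) (v) in
/-- The convolution of three functions on the cosets of a level. -/
def conv3 (g₀ g₁ g₂ : GLv v → ℂ) (x : GLv v) : ℂ :=
  ∑ᶠ p : (GLv v ⧸ UK.J v) × (GLv v ⧸ UK.J v),
    g₀ p.1.out * g₁ (p.1.out⁻¹ * p.2.out) * g₂ (p.2.out⁻¹ * x)

section Functions

variable {UK : Level K}

/-- A function bi-invariant under the level is constant on double cosets. -/
theorem apply_out_mul {g : GLv v → ℂ}
    (hbi : ∀ j₁ ∈ UK.J v, ∀ j₂ ∈ UK.J v, ∀ x, g (j₁ * x * j₂) = g x) (a b : GLv v) :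
    g ((QuotientGroup.mk a : GLv v ⧸ UK.J v).out⁻¹ * b) = g (a⁻¹ * b) := by
  obtain ⟨k, hk⟩ := QuotientGroup.mk_out_eq_mul (UK.J v) a
  rw [hk, _root_.mul_inv_rev, mul_assoc,
    ← hbi _ (inv_mem k.2) 1 (one_mem _) (a⁻¹ * b), mul_one]

theorem apply_mul_out {g : GLv v → ℂ}
    (hbi : ∀ j₁ ∈ UK.J v, ∀ j₂ ∈ UK.J v, ∀ x, g (j₁ * x * j₂) = g x) (a b : GLv v) :
    g (b * (QuotientGroup.mk a : GLv v ⧸ UK.J v).out) = g (b * a) := by
  obtain ⟨k, hk⟩ := QuotientGroup.mk_out_eq_mul (UK.J v) a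
  rw [hk, ← hbi 1 (one_mem _) _ k.2 (b * a), one_mul, mul_assoc]

/-- The cosets meeting a translate of the support are finitely many. -/
theorem finite_translate {g : GLv v → ℂ}
    (hbi : ∀ j₁ ∈ UK.J v, ∀ j₂ ∈ UK.J v, ∀ x, g (j₁ * x * j₂) = g x)
    (hfin : {q : GLv v ⧸ UK.J v | g q.out ≠ 0}.Finite) (b : GLv v) :
    {q : GLv v ⧸ UK.J v | g (b * q.out) ≠ 0}.Finite := by
  refine (hfin.image fun q => b⁻¹ • q).subset fun q hq => ⟨b • q, ?_, inv_smul_smul b q⟩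
  show g (b • q).out ≠ 0
  rw [← QuotientGroup.out_eq' q, MulAction.Quotient.smul_mk, smul_eq_mul]
  have := apply_mul_out hbi (b * q.out) 1
  rw [one_mul, one_mul] at this
  rw [this]
  exact hq

variable {g₀ g₁ g₂ : GLv v → ℂ}
  (h0 : ∀ j₁ ∈ UK.J v, ∀ j₂ ∈ UK.J v, ∀ x, g₀ (j₁ * x * j₂) = g₀ x)
  (h1 : ∀ j₁ ∈ UK.J v, ∀ j₂ ∈ UK.J v, ∀ x, g₁ (j₁ * x * j₂) = g₁ x)
  (h2 : ∀ j₁ ∈ UK.J v, ∀ j₂ ∈ UK.J v, ∀ x, g₂ (j₁ * x * j₂) = g₂ x)

include h0 h1 h2 in
theorem conv3_biinvariant {j₁ j₂ : GLv v} (hj₁ : j₁ ∈ UK.J v) (hj₂ : j₂ ∈ UK.J v) (x : GLv v) :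
    conv3 v UK g₀ g₁ g₂ (j₁ * x * j₂) = conv3 v UK g₀ g₁ g₂ x := by
  rw [conv3, conv3]
  refine finsum_eq_of_bijective (fun p : (GLv v ⧸ UK.J v) × (GLv v ⧸ UK.J v) =>
    (j₁⁻¹ • p.1, j₁⁻¹ • p.2))
    ((MulAction.bijective j₁⁻¹).prodMap (MulAction.bijective j₁⁻¹)) fun p => ?_
  obtain ⟨a, ha⟩ : ∃ a : GLv v, p.1.out = a := ⟨_, rfl⟩
  obtain ⟨b, hb⟩ : ∃ b : GLv v, p.2.out = b := ⟨_, rfl⟩
  have e1 : j₁⁻¹ • p.1 = QuotientGroup.mk (j₁⁻¹ * a) := by
    rw [← QuotientGroup.out_eq' p.1, ha]; rfl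
  have e2 : j₁⁻¹ • p.2 = QuotientGroup.mk (j₁⁻¹ * b) := by
    rw [← QuotientGroup.out_eq' p.2, hb]; rfl
  simp only [e1, e2]
  have f0 := apply_mul_out h0 (j₁⁻¹ * a) 1
  rw [one_mul, one_mul] at f0
  rw [f0, apply_out_mul h1, apply_mul_out h1, apply_out_mul h2, ha, hb,
    show (j₁⁻¹ * a)⁻¹ * (j₁⁻¹ * b) = a⁻¹ * b by group,
    show (j₁⁻¹ * b)⁻¹ * x = b⁻¹ * j₁ * x by group,
    show b⁻¹ * (j₁ * x * j₂) = 1 * (b⁻¹ * j₁ * x) * j₂ by group, h2 1 (one_mem _) j₂ hj₂,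
    show g₀ (j₁⁻¹ * a) = g₀ a by
      rw [← h0 _ (inv_mem hj₁) 1 (one_mem _) a, mul_one]]

include h1 h2 in
theorem conv3_finite_support (hf0 : {q : GLv v ⧸ UK.J v | g₀ q.out ≠ 0}.Finite)
    (hf1 : {q : GLv v ⧸ UK.J v | g₁ q.out ≠ 0}.Finite)
    (hf2 : {q : GLv v ⧸ UK.J v | g₂ q.out ≠ 0}.Finite) :
    {q : GLv v ⧸ UK.J v | conv3 v UK g₀ g₁ g₂ q.out ≠ 0}.Finite := by
  refine (hf0.biUnion fun a _ => (finite_translate h1 hf1 a.out⁻¹).biUnion fun b _ =>
    finite_translate h2 hf2 b.out⁻¹).subset fun q hq => ?_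
  obtain ⟨p, hp⟩ : ∃ p : (GLv v ⧸ UK.J v) × (GLv v ⧸ UK.J v),
      g₀ p.1.out * g₁ (p.1.out⁻¹ * p.2.out) * g₂ (p.2.out⁻¹ * q.out) ≠ 0 := by
    by_contra hcon
    push Not at hcon
    exact hq (finsum_eq_zero_of_forall_eq_zero hcon)
  simp only [mul_ne_zero_iff] at hp
  simp only [Set.mem_iUnion, Set.mem_ofPred_eq]
  exact ⟨p.1, hp.1.1, p.2, hp.1.2, hp.2⟩

end Functions

/-! ### The matching -/

variable (UL : Level L) (UK : Level K) (fL : ∀ w : FPlace L, GLv w → ℂ) (fK : GLv v → ℂ)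

/-- At a split place every element is the norm of a family. -/
theorem exists_normOver_eq (hv1 : Nat.card (Over L v) ≠ 1) (w₀ : Over L v) (γ : GLv v) :
    ∃ δ : Gover L v, ∀ w, normOver τ.σ δ w = baseGL w.1 w.2 γ := by
  classical
  refine ⟨Function.update 1 w₀ (baseGL w₀.1 w₀.2 γ), fun w => ?_⟩
  have haut : ∀ (x : GLv v) (w : Over L v),
      localAutGL τ.σ.toRingEquiv w.1 (baseGL (comapOver τ.σ w).1 (comapOver τ.σ w).2 x) =
        baseGL w.1 w.2 x := fun x w => congrFun (autOver_baseOver τ.σ x) w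
  set δ : Gover L v := Function.update 1 w₀ (baseGL w₀.1 w₀.2 γ) with hδdef
  have hD : ∀ u : Over L v, δ u = baseGL u.1 u.2 (if u = w₀ then γ else 1) := fun u => by
    by_cases hu : u = w₀
    · subst hu; rw [if_pos rfl]; exact Function.update_self _ _ _
    · rw [if_neg hu, map_one]
      exact Function.update_of_ne hu _ _
  show δ w * localAutGL τ.σ.toRingEquiv w.1 (δ (comapOver τ.σ w)) *
    localAutGL τ.σ.toRingEquiv w.1 (localAutGL τ.σ.toRingEquiv (comapOver τ.σ w).1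
      (δ (comapOver τ.σ (comapOver τ.σ w)))) = _
  rw [hD, hD, hD, haut, haut, haut, ← map_mul, ← map_mul]
  congr 1
  rcases eq_or_eq_or_eq_over τ w₀ w with rfl | rfl | rfl
  · rw [if_pos rfl, if_neg (comapOver_ne τ hv1 w), if_neg (comapOver_comapOver_ne τ hv1 w),
      mul_one, mul_one]
  · rw [if_neg (comapOver_ne τ hv1 w₀), if_neg (comapOver_comapOver_ne τ hv1 w₀),
      comapOver_cube, if_pos rfl, one_mul, one_mul]
  · rw [if_neg (comapOver_comapOver_ne τ hv1 w₀), comapOver_cube, if_pos rfl,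
      if_neg (comapOver_ne τ hv1 w₀), one_mul, mul_one]

variable {UL UK fL} in
/-- A factor of the twisted term in the coordinates of the base. -/
theorem fL_twistFactor (hbij : ∀ w : Over L v, Function.Bijective (baseGL w.1 w.2))
    (hJ : ∀ (w : Over L v) (x : GLv v), baseGL w.1 w.2 x ∈ UL.J w.1 ↔ x ∈ UK.J v)
    {δ : Gover L v} {d : Over L v → GLv v} (hd : ∀ w, baseGL w.1 w.2 (d w) = δ w)
    {Y : Over L v → GLv v ⧸ UK.J v} {Z : Ωover UL v}
    (hZ : ∀ u, Z u = QuotientGroup.mk (baseGL u.1 u.2 (Y u).out)) (w : Over L v)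
    {g : GLv v → ℂ} (hg : ∀ x, fL w.1 (baseGL w.1 w.2 x) = g x)
    (hbi : ∀ j₁ ∈ UK.J v, ∀ j₂ ∈ UK.J v, ∀ x, g (j₁ * x * j₂) = g x) :
    fL w.1 (((Z w).out)⁻¹ * δ w * autOver τ.σ (fun u => (Z u).out : Gover L v) w) =
      g ((Y w).out⁻¹ * d w * (Y (comapOver τ.σ w)).out) := by
  have haut : ∀ (x : GLv v) (w : Over L v),
      localAutGL τ.σ.toRingEquiv w.1 (baseGL (comapOver τ.σ w).1 (comapOver τ.σ w).2 x) =
        baseGL w.1 w.2 x := fun x w => congrFun (autOver_baseOver τ.σ x) w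
  have hk : ∀ u : Over L v, ∃ k ∈ UK.J v, (Z u).out = baseGL u.1 u.2 ((Y u).out * k) := by
    intro u
    obtain ⟨j, hj⟩ := QuotientGroup.mk_out_eq_mul (UL.J u.1) (baseGL u.1 u.2 (Y u).out)
    obtain ⟨k, hk⟩ := (hbij u).2 j.1
    exact ⟨k, (hJ u k).1 (hk ▸ j.2), by rw [map_mul, hk, hZ]; exact hj⟩
  obtain ⟨k, hk1, hk2⟩ := hk w
  obtain ⟨k', hk1', hk2'⟩ := hk (comapOver τ.σ w)
  show fL w.1 (((Z w).out)⁻¹ * δ w *
    localAutGL τ.σ.toRingEquiv w.1 ((Z (comapOver τ.σ w)).out)) = _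
  rw [hk2, hk2', ← hd w, haut, ← map_inv, ← map_mul, ← map_mul, hg,
    show ((Y w).out * k)⁻¹ * d w * ((Y (comapOver τ.σ w)).out * k') =
      k⁻¹ * ((Y w).out⁻¹ * d w * (Y (comapOver τ.σ w)).out) * k' by group,
    hbi _ (inv_mem hk1) _ hk1']

variable {UK} in
/-- A term of the convolution at `q⁻¹γq` in the coordinates of the twisted term, the product of
the three factors being a central multiple of `γ`. -/
theorem conv3_term {g₀ g₁ g₂ : GLv v → ℂ}
    (hbi₀ : ∀ j₁ ∈ UK.J v, ∀ j₂ ∈ UK.J v, ∀ x, g₀ (j₁ * x * j₂) = g₀ x)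
    (hbi₁ : ∀ j₁ ∈ UK.J v, ∀ j₂ ∈ UK.J v, ∀ x, g₁ (j₁ * x * j₂) = g₁ x)
    (hbi₂ : ∀ j₁ ∈ UK.J v, ∀ j₂ ∈ UK.J v, ∀ x, g₂ (j₁ * x * j₂) = g₂ x)
    {d₀ d₁ d₂ k γ : GLv v} (hk : k ∈ Subgroup.center (GLv v)) (hprod : d₀ * d₁ * d₂ = k * γ)
    (q y z : GLv v ⧸ UK.J v) :
    g₀ (q.out⁻¹ * d₀ * y.out) * g₁ (y.out⁻¹ * d₁ * z.out) * g₂ (z.out⁻¹ * d₂ * q.out) =
      g₀ ((q.out⁻¹ * d₀) • y).out *
        g₁ (((q.out⁻¹ * d₀) • y).out⁻¹ * ((q.out⁻¹ * d₀ * d₁) • z).out) *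
        g₂ (((q.out⁻¹ * d₀ * d₁) • z).out⁻¹ * (q.out⁻¹ * γ * q.out)) := by
  classical
  have e1 : (q.out⁻¹ * d₀) • y = QuotientGroup.mk (q.out⁻¹ * d₀ * y.out) := by
    conv_lhs => rw [← QuotientGroup.out_eq' y]
    rfl
  have e2 : (q.out⁻¹ * d₀ * d₁) • z = QuotientGroup.mk (q.out⁻¹ * d₀ * d₁ * z.out) := by
    conv_lhs => rw [← QuotientGroup.out_eq' z]
    rfl
  have f0 := apply_mul_out hbi₀ (q.out⁻¹ * d₀ * y.out) 1
  rw [one_mul, one_mul] at f0
  rw [e1, e2, f0, apply_out_mul hbi₁, apply_mul_out hbi₁, apply_out_mul hbi₂]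
  rw [show (q.out⁻¹ * d₀ * y.out)⁻¹ * (q.out⁻¹ * d₀ * d₁ * z.out) =
      y.out⁻¹ * d₁ * z.out by group,
    show (q.out⁻¹ * d₀ * d₁ * z.out)⁻¹ * (q.out⁻¹ * γ * q.out) =
      z.out⁻¹ * d₂ * ((d₀ * d₁ * d₂)⁻¹ * γ) * q.out by group,
    hprod, _root_.mul_inv_rev, mul_assoc γ⁻¹ k⁻¹ γ,
    ← Subgroup.mem_center_iff.1 (inv_mem hk) γ, inv_mul_cancel_left,
    mul_assoc (z.out⁻¹ * d₂) k⁻¹, ← Subgroup.mem_center_iff.1 (inv_mem hk) q.out,
    ← mul_assoc, show z.out⁻¹ * d₂ * q.out * k⁻¹ = 1 * (z.out⁻¹ * d₂ * q.out) * k⁻¹ by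
      rw [one_mul], hbi₂ 1 (one_mem _) _ (UK.center_le v (inv_mem hk))]

variable {UK} in
/-- The pairs of cosets meeting two translated supports are finitely many. -/
theorem finite_translate_pairs {g₀ g₁ : GLv v → ℂ}
    (hbi₀ : ∀ j₁ ∈ UK.J v, ∀ j₂ ∈ UK.J v, ∀ x, g₀ (j₁ * x * j₂) = g₀ x)
    (hbi₁ : ∀ j₁ ∈ UK.J v, ∀ j₂ ∈ UK.J v, ∀ x, g₁ (j₁ * x * j₂) = g₁ x)
    (hfin₀ : {q : GLv v ⧸ UK.J v | g₀ q.out ≠ 0}.Finite)
    (hfin₁ : {q : GLv v ⧸ UK.J v | g₁ q.out ≠ 0}.Finite) (a b : GLv v) :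
    ({p : (GLv v ⧸ UK.J v) × (GLv v ⧸ UK.J v) |
      g₀ (a * p.1.out) ≠ 0 ∧ g₁ (p.1.out⁻¹ * b * p.2.out) ≠ 0}).Finite := by
  classical
  refine ((finite_translate hbi₀ hfin₀ a).biUnion fun y _ =>
    ((finite_translate hbi₁ hfin₁ (y.out⁻¹ * b)).image fun z => (y, z))).subset ?_
  rintro ⟨y, z⟩ ⟨hy, hz⟩
  simp only [Set.mem_iUnion, Set.mem_image]
  exact ⟨y, hy, z, hz, rfl⟩

/-- **The transfer at a split place**: three functions moved to the places above match their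
convolution. -/
theorem localMatch_split (hv : Nat.card (Over L v) = 3) (w₀ : Over L v) (g₀ g₁ g₂ : GLv v → ℂ)
    (hJ : ∀ (w : Over L v) (x : GLv v), baseGL w.1 w.2 x ∈ UL.J w.1 ↔ x ∈ UK.J v)
    (hbi₀ : ∀ j₁ ∈ UK.J v, ∀ j₂ ∈ UK.J v, ∀ x, g₀ (j₁ * x * j₂) = g₀ x)
    (hbi₁ : ∀ j₁ ∈ UK.J v, ∀ j₂ ∈ UK.J v, ∀ x, g₁ (j₁ * x * j₂) = g₁ x)
    (hbi₂ : ∀ j₁ ∈ UK.J v, ∀ j₂ ∈ UK.J v, ∀ x, g₂ (j₁ * x * j₂) = g₂ x)
    (hfin₀ : {q : GLv v ⧸ UK.J v | g₀ q.out ≠ 0}.Finite)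
    (hfin₁ : {q : GLv v ⧸ UK.J v | g₁ q.out ≠ 0}.Finite)
    (hf₀ : ∀ x, fL w₀.1 (baseGL w₀.1 w₀.2 x) = g₀ x)
    (hf₁ : ∀ x, fL (comapOver τ.σ w₀).1
      (baseGL (comapOver τ.σ w₀).1 (comapOver τ.σ w₀).2 x) = g₁ x)
    (hf₂ : ∀ x, fL (comapOver τ.σ (comapOver τ.σ w₀)).1
      (baseGL (comapOver τ.σ (comapOver τ.σ w₀)).1 (comapOver τ.σ (comapOver τ.σ w₀)).2 x) = g₂ x)
    (hfK : ∀ x, fK x = conv3 v UK g₀ g₁ g₂ x) :
    LocalMatch τ UL UK v fL fK := by
  classical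
  have hv1 : Nat.card (Over L v) ≠ 1 := by omega
  have hbij := baseGL_bijective τ hv1
  set w₁ := comapOver τ.σ w₀
  set w₂ := comapOver τ.σ w₁
  have hw20 : comapOver τ.σ w₂ = w₀ := comapOver_cube τ w₀
  have haut : ∀ (x : GLv v) (w : Over L v),
      localAutGL τ.σ.toRingEquiv w.1 (baseGL (comapOver τ.σ w).1 (comapOver τ.σ w).2 x) =
        baseGL w.1 w.2 x := fun x w => congrFun (autOver_baseOver τ.σ x) w
  -- the cosets above as cosets of the base
  let ew : ∀ w : Over L v, GLv v ⧸ UK.J v → GLv w.1 ⧸ UL.J w.1 := fun w q =>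
    QuotientGroup.mk (baseGL w.1 w.2 q.out)
  have hemk : ∀ (w : Over L v) (a : GLv v), ew w (QuotientGroup.mk a) =
      QuotientGroup.mk (baseGL w.1 w.2 a) := fun w a => by
    obtain ⟨k, hk⟩ := QuotientGroup.mk_out_eq_mul (UK.J v) a
    show QuotientGroup.mk _ = _
    rw [hk, map_mul]
    exact QuotientGroup.mk_mul_of_mem _ ((hJ w _).2 k.2)
  have hebij : ∀ w, Function.Bijective (ew w) := fun w => by
    refine ⟨fun p q h => ?_, fun X => ?_⟩
    · rw [← QuotientGroup.out_eq' p, ← QuotientGroup.out_eq' q, QuotientGroup.eq, ← hJ w, map_mul,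
        map_inv]
      exact QuotientGroup.eq.1 h
    · induction X using QuotientGroup.induction_on with
      | H x =>
        obtain ⟨a, rfl⟩ := (hbij w).2 x
        exact ⟨QuotientGroup.mk a, hemk w a⟩
  let E : (∀ _ : Over L v, GLv v ⧸ UK.J v) ≃ Ωover UL v :=
    Equiv.piCongrRight fun w => Equiv.ofBijective (ew w) (hebij w)
  intro γ hγ
  refine ⟨fun δ hδ _ => ?_, fun hno _ => ?_⟩
  swap
  · -- every element is a norm
    obtain ⟨δ, hδ⟩ := exists_normOver_eq τ hv1 w₀ γ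
    refine (hno ⟨δ, fun w => ?_⟩).elim
    rw [Pi.mul_apply, Pi.inv_apply, hδ w]
    show baseGL w.1 w.2 γ * (baseGL w.1 w.2 γ)⁻¹ ∈ _
    rw [mul_inv_cancel]
    exact one_mem _
  -- the twisted term in the coordinates of the base
  choose d hd using fun w : Over L v => (hbij w).2 (δ w)
  have hterm : ∀ Y : Over L v → GLv v ⧸ UK.J v, twistTerm τ UL v fL δ (E Y) =
      g₀ ((Y w₀).out⁻¹ * d w₀ * (Y w₁).out) * g₁ ((Y w₁).out⁻¹ * d w₁ * (Y w₂).out) *
        g₂ ((Y w₂).out⁻¹ * d w₂ * (Y w₀).out) := fun Y => by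
    have key := fun w {g} =>
      fL_twistFactor τ (fL := fL) hbij hJ hd (Y := Y) (Z := E Y) (fun _ => rfl) w (g := g)
    rw [twistTerm, prod_over_eq τ hv1 w₀, key w₀ hf₀ hbi₀, key w₁ hf₁ hbi₁, key w₂ hf₂ hbi₂, hw20]
  -- the norm downstairs
  obtain ⟨k, hk, hprod⟩ : ∃ k ∈ Subgroup.center (GLv v), d w₀ * d w₁ * d w₂ = k * γ := by
    have hN : normOver τ.σ δ w₀ = baseGL w₀.1 w₀.2 (d w₀ * d w₁ * d w₂) := by
      show δ w₀ * localAutGL τ.σ.toRingEquiv w₀.1 (δ w₁) *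
        localAutGL τ.σ.toRingEquiv w₀.1 (localAutGL τ.σ.toRingEquiv w₁.1 (δ w₂)) = _
      rw [← hd w₀, ← hd w₁, ← hd w₂, haut, haut, haut, ← map_mul, ← map_mul]
    refine ⟨d w₀ * d w₁ * d w₂ * γ⁻¹, Subgroup.mem_center_iff.2 fun x => (hbij w₀).1 ?_,
      (inv_mul_cancel_right _ _).symm⟩
    have hc : baseGL w₀.1 w₀.2 (d w₀ * d w₁ * d w₂ * γ⁻¹) ∈ Subgroup.center (GLv w₀.1) := by
      rw [map_mul, map_inv, ← hN]; exact hδ w₀
    rw [map_mul (baseGL w₀.1 w₀.2) x, map_mul (baseGL w₀.1 w₀.2) _ x]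
    exact Subgroup.mem_center_iff.1 hc (baseGL w₀.1 w₀.2 x)
  -- the two projections
  let P : LocalProj UK v fK γ {g | Commute g γ} :=
    { proj := fun y => {y}
      smul := fun g _ y => (Finset.image_singleton _ _).symm
      nonempty := fun y _ => Finset.singleton_nonempty y
      finite := fun q => (Set.finite_singleton q).subset fun y hy =>
        (Finset.mem_singleton.1 hy.2).symm }
  have hpush : ∀ q, P.push UK v fK q = baseTerm UK v fK γ q := fun q => by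
    rw [LocalProj.push, show {y | q ∈ P.proj y} = {q} by
      ext y; exact Finset.mem_singleton.trans eq_comm, finsum_mem_singleton]
    simp [P]
  have hE : ∀ X w, ew w (E.symm X w) = X w := fun X w => congrFun (E.apply_symm_apply X) w
  refine ⟨{
    toLocalProj := P
    projL := fun X => {E.symm X w₀}
    smulL := fun g _ X => ?_
    nonemptyL := fun X _ => Finset.singleton_nonempty _
    finiteL := fun q => ?_
    sum_eq := fun q => ?_ }⟩
  · rw [Finset.image_singleton]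
    refine congrArg _ ((hebij w₀).1 ?_)
    rw [hE]
    conv_rhs => rw [← QuotientGroup.out_eq' (E.symm X w₀)]
    rw [MulAction.Quotient.smul_mk, smul_eq_mul, hemk, map_mul]
    show baseOver L v g w₀ • X w₀ = _
    rw [← hE X w₀]
    rfl
  · have hAB := finite_translate_pairs hbi₀ hbi₁ hfin₀ hfin₁ (q.out⁻¹ * d w₀) (d w₁)
    refine Set.Finite.of_finite_image (f := fun X => (E.symm X w₁, E.symm X w₂))
      (hAB.subset ?_) ?_
    · rintro _ ⟨X, ⟨hX, hq⟩, rfl⟩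
      rw [← E.apply_symm_apply X, hterm, mul_ne_zero_iff, mul_ne_zero_iff,
        ← Finset.mem_singleton.1 hq] at hX
      exact ⟨hX.1.1, hX.1.2⟩
    · intro X hX X' hX' h
      refine E.symm.injective (funext fun u => ?_)
      rcases eq_or_eq_or_eq_over τ w₀ u with rfl | rfl | rfl
      · exact (Finset.mem_singleton.1 hX.2).symm.trans (Finset.mem_singleton.1 hX'.2)
      · exact congrArg Prod.fst h
      · exact congrArg Prod.snd h
  · rw [hpush, baseTerm, hfK, conv3]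
    set a₁ := q.out⁻¹ * d w₀
    set a₂ := q.out⁻¹ * d w₀ * d w₁
    -- a triple with first coordinate `q` is a pair of translated cosets
    let Φ : Ωover UL v → (GLv v ⧸ UK.J v) × (GLv v ⧸ UK.J v) := fun X =>
      (a₁ • E.symm X w₁, a₂ • E.symm X w₂)
    rw [← finsum_mem_univ fun p : (GLv v ⧸ UK.J v) × (GLv v ⧸ UK.J v) => _]
    refine finsum_mem_eq_of_bijOn Φ ⟨fun X _ => trivial, fun X hX X' hX' h => ?_, fun p _ => ?_⟩
      fun X hX => ?_
    · refine E.symm.injective (funext fun u => ?_)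
      rcases eq_or_eq_or_eq_over τ w₀ u with rfl | rfl | rfl
      · exact (Finset.mem_singleton.1 hX).symm.trans (Finset.mem_singleton.1 hX')
      · exact MulAction.injective a₁ (congrArg Prod.fst h)
      · exact MulAction.injective a₂ (congrArg Prod.snd h)
    · have hne1 : w₁ ≠ w₀ := comapOver_ne τ hv1 w₀
      have hne2 : w₂ ≠ w₀ := comapOver_comapOver_ne τ hv1 w₀
      have hne12 : w₂ ≠ w₁ := comapOver_ne τ hv1 w₁
      let Y : Over L v → GLv v ⧸ UK.J v :=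
        fun u => if u = w₀ then q else if u = w₁ then a₁⁻¹ • p.1 else a₂⁻¹ • p.2
      refine ⟨E Y, ?_, ?_⟩
      · show q ∈ ({E.symm (E Y) w₀} : Finset _)
        rw [E.symm_apply_apply, Finset.mem_singleton]
        simp [Y]
      · show (a₁ • E.symm (E Y) w₁, a₂ • E.symm (E Y) w₂) = p
        rw [E.symm_apply_apply]
        simp [Y, hne1, hne2, hne12]
    · have hq : q = E.symm X w₀ := Finset.mem_singleton.1 hX
      show twistTerm τ UL v fL δ X / ((({E.symm X w₀} : Finset (GLv v ⧸ UK.J v)).card : ℂ)) = _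
      rw [Finset.card_singleton, Nat.cast_one, div_one]
      conv_lhs => rw [← E.apply_symm_apply X, hterm, ← hq]
      exact conv3_term hbi₀ hbi₁ hbi₂ hk hprod _ _ _

end Fermat.Agent.ResidualThree.Orbital
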