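import Mathlib

/-!
# Uniqueness for absolutely summable sums of `cos` and `cosh`

If `∑ b cos (t x) + ∑ c cosh (μ x)`, all `μ ≠ 0`, vanishes on a half-line then the total coefficient
of the frequency `t = 0` vanishes.
-/

noncomputable section

open Filter Topology Complex

namespace Fermat.Agent.ResidualThree.Orbital

variable {ι : Type*} [Countable ι]

/-- Absolutely summable trigonometric sums have mean equal to the constant coefficient. -/
theorem tendsto_mean_cos (b : ι → ℂ) (t : ι → ℝ) (hb : Summable fun i => ‖b i‖) (C : ℝ) :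
    Tendsto (fun n : ℕ => ((n : ℂ) + 1)⁻¹ *
      ∫ x in C..(C + (n + 1)), ∑' i, b i * (Real.cos (t i * x) : ℂ)) atTop
      (𝓝 (∑' i, if t i = 0 then b i else 0)) := by
  let f : ι → C(ℝ, ℂ) := fun i => ⟨fun x => b i * (Real.cos (t i * x) : ℂ), by fun_prop⟩
  have hle : ∀ i x, ‖f i x‖ ≤ ‖b i‖ := fun i x => by
    simp only [f, ContinuousMap.coe_mk, norm_mul, Complex.norm_real, Real.norm_eq_abs]
    exact mul_le_of_le_one_right (norm_nonneg _) (Real.abs_cos_le_one _)
  have hswap : ∀ n : ℕ, ∫ x in C..(C + (n + 1)), ∑' i, b i * (Real.cos (t i * x) : ℂ) =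
      ∑' i, b i * ((∫ x in C..(C + (n + 1)), Real.cos (t i * x) : ℝ) : ℂ) := by
    intro n
    have h := intervalIntegral.tsum_intervalIntegral_eq_of_summable_norm (f := f) (a := C)
      (b := C + (n + 1)) (hb.of_nonneg_of_le (fun _ => norm_nonneg _) fun i =>
        (ContinuousMap.norm_le _ (norm_nonneg _)).2 fun x => hle i x)
    simp only [f, ContinuousMap.coe_mk] at h
    rw [← h]
    refine tsum_congr fun i => ?_
    rw [← intervalIntegral.integral_ofReal, intervalIntegral.integral_const_mul]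
  simp only [hswap, ← tsum_mul_left]
  refine tendsto_tsum_of_dominated_convergence (bound := fun i => ‖b i‖) hb (fun i => ?_)
    (Eventually.of_forall fun n i => ?_)
  · by_cases hi : t i = 0
    · simp only [hi, if_true, zero_mul, Real.cos_zero, intervalIntegral.integral_const,
        smul_eq_mul, mul_one, add_sub_cancel_left]
      refine tendsto_const_nhds.congr fun n => ?_
      have : ((n : ℂ) + 1) ≠ 0 := by exact_mod_cast n.succ_ne_zero
      push_cast
      field_simp
    · simp only [hi, if_false]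
      rw [tendsto_zero_iff_norm_tendsto_zero]
      refine squeeze_zero (fun _ => norm_nonneg _) (fun n => ?_)
        (by simpa using (tendsto_one_div_add_atTop_nhds_zero_nat.const_mul (‖b i‖ * (2 / |t i|))))
      rw [norm_mul, norm_mul, norm_inv, Complex.norm_real, Real.norm_eq_abs,
        show ‖((n : ℂ) + 1)‖ = (n : ℝ) + 1 by
          rw [← Nat.cast_one, ← Nat.cast_add, Complex.norm_natCast]; push_cast; ring,
        intervalIntegral.integral_comp_mul_left _ hi, integral_cos, smul_eq_mul, abs_mul, abs_inv]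
      have h1 := abs_sub (Real.sin (t i * (C + (n + 1)))) (Real.sin (t i * C))
      have h2 := Real.abs_sin_le_one (t i * (C + (n + 1)))
      have h3 := Real.abs_sin_le_one (t i * C)
      calc ((n : ℝ) + 1)⁻¹ * (‖b i‖ * (|t i|⁻¹ *
            |Real.sin (t i * (C + (n + 1))) - Real.sin (t i * C)|))
          ≤ ((n : ℝ) + 1)⁻¹ * (‖b i‖ * (|t i|⁻¹ * 2)) := by gcongr; linarith
        _ = ‖b i‖ * (2 / |t i|) * ((n : ℝ) + 1)⁻¹ := by ring
  · rw [norm_mul, norm_mul, norm_inv, Complex.norm_real, Real.norm_eq_abs,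
      show ‖((n : ℂ) + 1)‖ = (n : ℝ) + 1 by
        rw [← Nat.cast_one, ← Nat.cast_add, Complex.norm_natCast]; push_cast; ring]
    have h := intervalIntegral.norm_integral_le_of_norm_le_const (C := 1) (a := C)
      (b := C + (n + 1)) (f := fun x => Real.cos (t i * x)) fun x _ => Real.abs_cos_le_one _
    rw [Real.norm_eq_abs, one_mul, add_sub_cancel_left,
      abs_of_nonneg (show (0 : ℝ) ≤ (n : ℝ) + 1 by positivity)] at h
    calc ((n : ℝ) + 1)⁻¹ * (‖b i‖ * |∫ x in C..(C + (n + 1)), Real.cos (t i * x)|)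
        ≤ ((n : ℝ) + 1)⁻¹ * (‖b i‖ * ((n : ℝ) + 1)) := by gcongr
      _ = ‖b i‖ := by field_simp

theorem norm_cosh_le (w : ℂ) : ‖Complex.cosh w‖ ≤ Real.exp |w.re| := by
  rw [Complex.cosh, norm_div]
  have h : ‖Complex.exp w + Complex.exp (-w)‖ ≤ Real.exp |w.re| + Real.exp |w.re| := by
    refine (norm_add_le _ _).trans (add_le_add ?_ ?_) <;>
      rw [Complex.norm_exp] <;> refine Real.exp_le_exp.2 ?_
    · exact le_abs_self _
    · rw [Complex.neg_re]; exact neg_le_abs _
  norm_num
  linarith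

section Cosh

variable {κ : Type*} (c : κ → ℂ) (μ : κ → ℝ)

/-- The entire function `∑ c cosh (μ z)`. -/
def coshSum (z : ℂ) : ℂ := ∑' j, c j * Complex.cosh ((μ j : ℂ) * z)

variable {c μ}

theorem norm_coshSum_le (hc : Summable fun j => ‖c j‖) (hμ : ∀ j, |μ j| ≤ 1) (z : ℂ) :
    ‖coshSum c μ z‖ ≤ (∑' j, ‖c j‖) * Real.exp |z.re| := by
  rw [← tsum_mul_right]
  refine tsum_of_norm_bounded (hc.mul_right _).hasSum fun j => ?_
  rw [norm_mul]
  refine mul_le_mul_of_nonneg_left ((norm_cosh_le _).trans (Real.exp_le_exp.2 ?_)) (norm_nonneg _)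
  rw [Complex.re_ofReal_mul, abs_mul]
  exact mul_le_of_le_one_left (abs_nonneg _) (hμ j)

theorem differentiable_coshSum (hc : Summable fun j => ‖c j‖) (hμ : ∀ j, |μ j| ≤ 1) :
    Differentiable ℂ (coshSum c μ) := by
  intro z
  have hU : IsOpen {w : ℂ | |w.re| < |z.re| + 1} :=
    isOpen_lt (by fun_prop) continuous_const
  refine (Complex.differentiableOn_tsum_of_summable_norm (hc.mul_right (Real.exp (|z.re| + 1)))
    (fun j => by fun_prop) hU fun j w hw => ?_).differentiableAt (hU.mem_nhds (by simp))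
  rw [norm_mul]
  refine mul_le_mul_of_nonneg_left ((norm_cosh_le _).trans (Real.exp_le_exp.2 ?_)) (norm_nonneg _)
  rw [Complex.re_ofReal_mul, abs_mul]
  exact (mul_le_of_le_one_left (abs_nonneg _) (hμ j)).trans (le_of_lt hw)

theorem coshSum_neg (z : ℂ) : coshSum c μ (-z) = coshSum c μ z := by
  simp only [coshSum, mul_neg, Complex.cosh_neg]

theorem coshSum_ofReal (x : ℝ) :
    coshSum c μ (x : ℂ) = ∑' j, c j * (Real.cosh (μ j * x) : ℂ) := by
  simp [coshSum, Complex.ofReal_cosh, Complex.ofReal_mul]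

theorem coshSum_mul_I (y : ℝ) :
    coshSum c μ ((y : ℂ) * I) = ∑' j, c j * (Real.cos (μ j * y) : ℂ) := by
  simp [coshSum, ← mul_assoc, Complex.cosh_mul_I, Complex.ofReal_cos, Complex.ofReal_mul]

end Cosh

/-- If `∑ b cos (t x) + ∑ c cosh (μ x)` vanishes for large `x`, with all `μ` non-zero and at most
one in absolute value, then the coefficient of the zero frequency vanishes. -/
theorem tsum_zero_freq_eq_zero {κ : Type*} [Countable κ] (b : ι → ℂ) (t : ι → ℝ) (c : κ → ℂ)
    (μ : κ → ℝ) (hb : Summable fun i => ‖b i‖) (hc : Summable fun j => ‖c j‖)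
    (hμ : ∀ j, |μ j| ≤ 1) (hμ0 : ∀ j, μ j ≠ 0) (C : ℝ)
    (h : ∀ x : ℝ, C ≤ x →
      (∑' i, b i * (Real.cos (t i * x) : ℂ)) + ∑' j, c j * (Real.cosh (μ j * x) : ℂ) = 0) :
    ∑' i, (if t i = 0 then b i else 0) = 0 := by
  set Q := coshSum c μ with hQ
  set S := ∑' j, ‖c j‖ with hS
  have hS0 : 0 ≤ S := tsum_nonneg fun _ => norm_nonneg _
  have hd := differentiable_coshSum hc hμ
  set M := max (∑' i, ‖b i‖) (S * Real.exp |C|) with hM
  have hreal : ∀ x : ℝ, ‖Q x‖ ≤ M := by
    suffices hp : ∀ x : ℝ, 0 ≤ x → ‖Q x‖ ≤ M by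
      intro x
      rcases le_total 0 x with hx | hx
      · exact hp x hx
      · have := hp (-x) (by linarith)
        rwa [Complex.ofReal_neg, hQ, coshSum_neg] at this
    intro x hx0
    rcases le_total C x with hCx | hCx
    · have e := h x hCx
      rw [hQ, coshSum_ofReal, eq_neg_of_add_eq_zero_right e, norm_neg]
      refine (tsum_of_norm_bounded hb.hasSum fun i => ?_).trans (le_max_left _ _)
      rw [norm_mul, Complex.norm_real, Real.norm_eq_abs]
      exact mul_le_of_le_one_right (norm_nonneg _) (Real.abs_cos_le_one _)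
    · refine ((norm_coshSum_le hc hμ _).trans ?_).trans (le_max_right _ _)
      refine mul_le_mul_of_nonneg_left (Real.exp_le_exp.2 ?_) hS0
      rw [Complex.ofReal_re, abs_of_nonneg hx0]
      exact hCx.trans (le_abs_self C)
  have himag : ∀ y : ℝ, ‖Q (y * I)‖ ≤ M := fun y => by
    refine ((norm_coshSum_le hc hμ _).trans ?_).trans (le_max_right _ _)
    exact mul_le_mul_of_nonneg_left (Real.exp_le_exp.2 (by simp)) hS0
  have hB : ∀ (U : Set ℂ), ∃ a < (2 : ℝ), ∃ B,
      Q =O[Bornology.cobounded ℂ ⊓ 𝓟 U] fun z => Real.exp (B * ‖z‖ ^ a) := by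
    intro U
    refine ⟨1, one_lt_two, 1, Asymptotics.IsBigO.of_bound S ?_⟩
    refine Eventually.of_forall fun z => (norm_coshSum_le hc hμ z).trans ?_
    rw [Real.norm_eq_abs, Real.abs_exp, one_mul, Real.rpow_one]
    exact mul_le_mul_of_nonneg_left (Real.exp_le_exp.2 (Complex.abs_re_le_norm z)) hS0
  have hbdd : ∀ z, ‖Q z‖ ≤ M := by
    suffices hup : ∀ z : ℂ, 0 ≤ z.im → ‖Q z‖ ≤ M by
      intro z
      rcases le_total 0 z.im with hz | hz
      · exact hup z hz
      · rw [hQ, ← coshSum_neg]; exact hup (-z) (by simpa using hz)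
    intro z hz
    rcases le_total 0 z.re with hr | hr
    · exact PhragmenLindelof.quadrant_I hd.diffContOnCl (hB _) (fun x _ => hreal x)
        (fun y _ => himag y) hr hz
    · exact PhragmenLindelof.quadrant_II hd.diffContOnCl (hB _) (fun x _ => hreal x)
        (fun y _ => himag y) hr hz
  have hconst : ∀ z, Q z = Q 0 := fun z => hd.apply_eq_apply_of_bounded
    (isBounded_iff_forall_norm_le.2 ⟨M, by rintro _ ⟨w, rfl⟩; exact hbdd w⟩) z 0
  have hQ0 : Q 0 = 0 := by
    have h1 := tendsto_mean_cos c μ hc 0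
    simp only [hμ0, if_false, tsum_zero] at h1
    refine tendsto_nhds_unique ?_ h1
    refine tendsto_const_nhds.congr fun n => ?_
    rw [intervalIntegral.integral_congr (g := fun _ => Q 0) (fun y _ => by
      rw [← hconst ((y : ℂ) * I), hQ, coshSum_mul_I]), intervalIntegral.integral_const,
      zero_add, sub_zero, Complex.real_smul]
    have : ((n : ℂ) + 1) ≠ 0 := by exact_mod_cast n.succ_ne_zero
    push_cast
    field_simp
  refine tendsto_nhds_unique (tendsto_mean_cos b t hb C) (tendsto_const_nhds.congr fun n => ?_)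
  rw [intervalIntegral.integral_congr (g := fun _ => (0 : ℂ)) (fun x hx => ?_),
    intervalIntegral.integral_zero, mul_zero]
  rw [Set.uIcc_of_le (by linarith [show (0 : ℝ) ≤ n from Nat.cast_nonneg n])] at hx
  have e := h x hx.1
  rwa [← coshSum_ofReal, ← hQ, hconst, hQ0, add_zero] at e

end Fermat.Agent.ResidualThree.Orbital
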