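import Fermat.Agent.ResidualThree.Automorphic.Weight
import Fermat.Agent.ResidualThree.Kernel.Quotient
import Fermat.Agent.ResidualThree.Orbital.FinPart

/-!
# Product kernels, their twisted diagonals, truncation

The diagonal and twisted diagonal of a product kernel as sums over classes, and the truncated
space: the conjugation actions, equivariance and measurability of the terms, and the height
comparison at two points related by a kernel.
-/

noncomputable section

open IsDedekindDomain NumberField MeasureTheory
open scoped WithZero ENNReal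

namespace Fermat.Agent.ResidualThree.Orbital

section Field

variable {F : Type} [Field F] [NumberField F]

variable {U : Level F} {f : ∀ v : FPlace F, GLv v → ℂ} (k : InfinitePlace F → ℝ → ℂ)

theorem IsLocalFamily.globalFun_rel (hf : IsLocalFamily U f) {x x' y y' : Gf F}
    (hx : (x : Ωf U) = (x' : Ωf U)) (hy : (y : Ωf U) = (y' : Ωf U)) :
    globalFun f (x⁻¹ * y) = globalFun f (x'⁻¹ * y') := by
  rw [QuotientGroup.eq] at hx hy
  rw [← hf.globalFun_biinv (inv_mem hx) hy (x⁻¹ * y)]
  congr 1
  group

theorem prodKernel_mk (hf : IsLocalFamily U f) (x y : Gf F) (p q : Hyp F) :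
    prodKernel f k (((x : Ωf U), p) : Spc U) (((y : Ωf U), q) : Spc U) =
      globalFun f (x⁻¹ * y) * ∏ w, k w (H3.coshDist (p w) (q w)) := by
  rw [prodKernel, hf.globalFun_rel (QuotientGroup.out_eq' (x : Ωf U))
    (QuotientGroup.out_eq' (y : Ωf U))]

theorem prodKernel_smul (hf : IsLocalFamily U f) (g : GL (Fin 2) F) (s t : Spc U) :
    prodKernel f k (g • s) (g • t) = prodKernel f k s t := by
  obtain ⟨ω, p⟩ := s
  obtain ⟨ω', q⟩ := t
  induction ω using QuotientGroup.induction_on with
  | H x =>
    induction ω' using QuotientGroup.induction_on with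
    | H y =>
      show prodKernel f k ((((diag F g * x : Gf F) : Ωf U), g • p) : Spc U)
        ((((diag F g * y : Gf F) : Ωf U), g • q) : Spc U) = _
      rw [prodKernel_mk k hf, prodKernel_mk k hf]
      congr 1
      · congr 1; group
      · exact Finset.prod_congr rfl fun w _ => by
          rw [show H3.coshDist ((g • p) w) ((g • q) w) = H3.coshDist (p w) (q w) from
            H3.coshDist_smul _ _ _]

theorem prodKernel_smul_pgl (hf : IsLocalFamily U f) (g : PGLF F) (s t : Spc U) :
    prodKernel f k (g • s) (g • t) = prodKernel f k s t := by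
  rw [Kernel.pgl_smul_eq, Kernel.pgl_smul_eq, prodKernel_smul k hf]

/-- A product kernel vanishes unless the finite parts and the infinite parts are close. -/
theorem exists_near_of_prodKernel_ne_zero (hf : IsLocalFamily U f)
    (hk : ∀ w, H3.IsKernel (k w)) :
    ∃ M R : ℝ, 1 ≤ M ∧ 1 ≤ R ∧ ∀ s t : Spc U, prodKernel f k s t ≠ 0 →
      gfSize (s.1.out⁻¹ * t.1.out) ≤ M ∧ ∀ w, H3.coshDist (s.2 w) (t.2 w) ≤ R := by
  obtain ⟨M, hM1, hM⟩ := hf.exists_size_bound
  choose R hR1 hR using fun w => (hk w).exists_radius
  refine ⟨M, 1 + ∑ w, R w, hM1, le_add_of_nonneg_right (Finset.sum_nonneg fun w _ =>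
    zero_le_one.trans (hR1 w)), fun s t h => ⟨hM _ (left_ne_zero_of_mul h), fun w => ?_⟩⟩
  refine le_trans (not_lt.1 fun hlt => h ?_) (le_add_of_nonneg_of_le zero_le_one
    (Finset.single_le_sum (fun w _ => zero_le_one.trans (hR1 w)) (Finset.mem_univ w)))
  rw [prodKernel, Finset.prod_eq_zero (Finset.mem_univ w) (hR w _ hlt), mul_zero]

/-- The heights at two points related by a product kernel are comparable. -/
theorem exists_height_ratio (hf : IsLocalFamily U f) (hk : ∀ w, H3.IsKernel (k w)) :
    ∃ D : ℝ, 1 ≤ D ∧ ∀ s t : Spc U, prodKernel f k s t ≠ 0 → ∀ e : Fin 2 → F, e ≠ 0 →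
      spcHeight e t ≤ D * spcHeight e s ∧ spcHeight e s ≤ D * spcHeight e t := by
  obtain ⟨M, R, hM1, hR1, h⟩ := exists_near_of_prodKernel_ne_zero k hf hk
  refine ⟨M * (2 * R) ^ (2 * Fintype.card (InfinitePlace F)),
    one_le_mul_of_one_le_of_one_le hM1 (one_le_pow₀ (by linarith)), fun s t hst e he => ?_⟩
  obtain ⟨hc, hd⟩ := h s t hst
  refine ⟨?_, ?_⟩
  · have := height_le_of_near he (x := s.1.out) (c := s.1.out⁻¹ * t.1.out) hc hd
    rwa [mul_inv_cancel_left] at this
  · have hc' : gfSize (t.1.out⁻¹ * s.1.out) ≤ M := by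
      rw [← gfSize_inv, mul_inv_rev, inv_inv]
      exact hc
    have := height_le_of_near he (x := t.1.out) (c := t.1.out⁻¹ * s.1.out) (p := t.2) (q := s.2) hc'
      (fun w => by rw [H3.coshDist_comm]; exact hd w)
    rwa [mul_inv_cancel_left] at this

theorem measurable_prodKernel (hk : ∀ w, Continuous (k w)) {A : Spc U → Spc U}
    (hA : Measurable A) : Measurable fun s => prodKernel f k s (A s) := by
  refine Measurable.mul ?_ ?_
  · generalize hF : globalFun f = G
    have h2 : Measurable fun s : Spc U => (s.1, (A s).1) :=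
      measurable_fst.prodMk (measurable_fst.comp hA)
    have h1 : Measurable (Function.uncurry fun x y : Ωf U => G (x.out⁻¹ * y.out)) :=
      measurable_of_countable _
    have h3 := h1.comp h2
    exact h3
  · refine Finset.measurable_prod _ fun w _ => ?_
    have h1 : Measurable fun x : H3 × H3 => k w (H3.coshDist x.1 x.2) :=
      ((hk w).comp H3.continuous_coshDist).measurable
    have h2 : Measurable fun s : Spc U => (s.2 w, (A s).2 w) :=
      ((measurable_pi_apply w).comp measurable_snd).prodMk
        ((measurable_pi_apply w).comp (measurable_snd.comp hA))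
    have h3 := h1.comp h2
    exact h3

theorem mem_truncated_iff {T : ℝ} {s : Spc U} :
    s ∈ truncated U T ↔ ∀ e : Fin 2 → F, e ≠ 0 → spcHeight e s ≤ T := Iff.rfl

theorem measurable_spcHeight (e : Fin 2 → F) : Measurable fun s : Spc U => spcHeight e s := by
  refine measurable_from_prod_countable_right fun ω => ?_
  simp only [spcHeight, height]
  refine measurable_const.mul (Finset.measurable_prod _ fun w _ => ?_)
  have hz : Measurable fun p : Hyp F => (p w).z :=
    H3.continuous_z.measurable.comp (measurable_pi_apply w)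
  have hy : Measurable fun p : Hyp F => (p w).y :=
    H3.continuous_y.measurable.comp (measurable_pi_apply w)
  fun_prop

theorem measurableSet_truncated (U : Level F) (T : ℝ) : MeasurableSet (truncated U T) := by
  have : Countable F := Kernel.countable_numberField F
  rw [show truncated U T = ⋂ e : {e : Fin 2 → F // e ≠ 0}, {s | spcHeight e.1 s ≤ T} by
    ext s; simp [mem_truncated_iff]]
  exact MeasurableSet.iInter fun e => measurableSet_le (measurable_spcHeight e.1) measurable_const

omit [NumberField F] in
theorem eq_smul_of_dependent {e e' : Fin 2 → F} (he' : e' ≠ 0) (h : e 0 * e' 1 = e 1 * e' 0) :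
    ∃ l : F, e = l • e' := by
  by_cases h0 : e' 0 = 0
  · have h1 : e' 1 ≠ 0 := fun h1 => he' (funext fun i => by fin_cases i <;> assumption)
    refine ⟨e 1 / e' 1, funext fun i => ?_⟩
    fin_cases i
    · simp only [h0, mul_zero, mul_eq_zero] at h
      simp [h0, h.resolve_right h1]
    · simp [h1]
  · refine ⟨e 0 / e' 0, funext fun i => ?_⟩
    fin_cases i
    · simp [h0]
    · simp only [Fin.mk_one, Pi.smul_apply, smul_eq_mul, Fin.isValue]
      field_simp
      linear_combination -h

variable [IsTotallyComplex F]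

theorem smul_mem_truncated_iff (g : GL (Fin 2) F) {T : ℝ} {s : Spc U} :
    g • s ∈ truncated U T ↔ s ∈ truncated U T := by
  have key : ∀ (g : GL (Fin 2) F) (s : Spc U), s ∈ truncated U T → g • s ∈ truncated U T :=
    fun g s h e he => by
      rw [← spcHeight, spcHeight_smul he]
      exact h _ (vecMul_ne_zero he g)
  exact ⟨fun h => by simpa using key g⁻¹ _ h, key g s⟩

theorem smul_mem_truncated_iff_pgl (g : PGLF F) {T : ℝ} {s : Spc U} :
    g • s ∈ truncated U T ↔ s ∈ truncated U T := by
  rw [Kernel.pgl_smul_eq, smul_mem_truncated_iff]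

theorem exists_mem_truncated (s : Spc U) : ∃ T : ℝ, s ∈ truncated U T := by
  by_cases h : ∃ e₀ : Fin 2 → F, e₀ ≠ 0 ∧ 1 < spcHeight e₀ s
  · obtain ⟨e₀, he₀, h₀⟩ := h
    refine ⟨spcHeight e₀ s, fun e he => ?_⟩
    rcases le_or_gt (spcHeight e s) 1 with h1 | h1
    · exact h1.trans h₀.le
    · obtain ⟨l, rfl⟩ := eq_smul_of_dependent he₀ (line_unique_of_one_lt_height h1 h₀)
      have hl : l ≠ 0 := by rintro rfl; simp at he
      exact (height_smul he₀ hl _ _).le
  · push Not at h
    exact ⟨1, fun e he => h e he⟩

omit [IsTotallyComplex F] in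
theorem truncated_mono {T T' : ℝ} (h : T ≤ T') : truncated U T ⊆ truncated U T' :=
  fun _ hs e he => (hs e he).trans h

end Field

section Twisted

variable {K L : Type} [Field K] [NumberField K] [Field L] [NumberField L] [Algebra K L]
variable (τ : CubicAut K L)

/-- The automorphism on `GL₂`. -/
def autGL : GL (Fin 2) L →* GL (Fin 2) L :=
  Units.map ((τ.σ.toRingEquiv : L →+* L).mapMatrix (m := Fin 2)).toMonoidHom

omit [NumberField K] [NumberField L] in
theorem coe_autGL (g : GL (Fin 2) L) :
    (autGL τ g : Matrix (Fin 2) (Fin 2) L) = τ.mat (g : Matrix (Fin 2) (Fin 2) L) := rfl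

/-- The automorphism on `PGL₂`. -/
def autPGL : PGLF L →* PGLF L :=
  QuotientGroup.map _ _ (autGL τ) fun _ hg => map_mem_center (τ.σ.toRingEquiv : L →+* L) hg

omit [NumberField K] [NumberField L] in
theorem autPGL_mk (g : GL (Fin 2) L) : autPGL τ (g : PGLF L) = (autGL τ g : PGLF L) := rfl

variable {UL : Level L} (hU : IsStableLevel τ.σ.toRingEquiv UL)

omit [NumberField K] in
theorem autSpc_smul (g : GL (Fin 2) L) (s : Spc UL) :
    autSpc τ hU (g • s) = autGL τ g • autSpc τ hU s :=
  Prod.ext (autΩ_smul _ _ hU g s.1) (autHyp_smul _ g s.2)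

omit [NumberField K] in
theorem autSpc_smul_pgl (g : PGLF L) (s : Spc UL) :
    autSpc τ hU (g • s) = autPGL τ g • autSpc τ hU s := by
  induction g using QuotientGroup.induction_on with
  | H g => exact autSpc_smul τ hU g s

omit [NumberField K] in
theorem measurable_autSpc : Measurable (autSpc τ hU) :=
  (measurable_from_top.comp measurable_fst).prodMk
    ((continuous_autHyp _).measurable.comp measurable_snd)

/-- Elements of `PGL₂(L)` with twisted conjugation. -/
structure TwistedElt (τ : CubicAut K L) : Type where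
  /-- the element -/
  val : PGLF L

instance : MulAction (PGLF L) (TwistedElt τ) where
  smul g d := ⟨g * d.val * (autPGL τ g)⁻¹⟩
  one_smul d := by
    show (⟨1 * d.val * (autPGL τ 1)⁻¹⟩ : TwistedElt τ) = d
    simp
  mul_smul g h d := by
    show (⟨g * h * d.val * (autPGL τ (g * h))⁻¹⟩ : TwistedElt τ) =
      ⟨g * (h * d.val * (autPGL τ h)⁻¹) * (autPGL τ g)⁻¹⟩
    rw [map_mul, mul_inv_rev]
    simp only [mul_assoc]

omit [NumberField K] [NumberField L] in
theorem TwistedElt.smul_val (g : PGLF L) (d : TwistedElt τ) :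
    (g • d).val = g * d.val * (autPGL τ g)⁻¹ := rfl

/-- The equivalence with the underlying group. -/
def TwistedElt.equiv : TwistedElt τ ≃ PGLF L where
  toFun := TwistedElt.val
  invFun := TwistedElt.mk

instance : Countable (TwistedElt τ) := (TwistedElt.equiv τ).injective.countable

/-- Elements of `PGL₂` with conjugation. -/
structure ConjElt (F : Type) [Field F] : Type where
  /-- the element -/
  val : GL (Fin 2) F ⧸ Subgroup.center (GL (Fin 2) F)

instance {F : Type} [Field F] :
    MulAction (GL (Fin 2) F ⧸ Subgroup.center (GL (Fin 2) F)) (ConjElt F) where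
  smul g d := ⟨g * d.val * g⁻¹⟩
  one_smul d := by
    show (⟨1 * d.val * 1⁻¹⟩ : ConjElt F) = d
    simp
  mul_smul g h d := by
    show (⟨g * h * d.val * (g * h)⁻¹⟩ : ConjElt F) = ⟨g * (h * d.val * h⁻¹) * g⁻¹⟩
    rw [mul_inv_rev]
    simp only [mul_assoc]

theorem ConjElt.smul_val {F : Type} [Field F] (g : GL (Fin 2) F ⧸ Subgroup.center (GL (Fin 2) F))
    (d : ConjElt F) : (g • d).val = g * d.val * g⁻¹ := rfl

/-- The equivalence with the underlying group. -/
def ConjElt.equiv (F : Type) [Field F] :
    ConjElt F ≃ GL (Fin 2) F ⧸ Subgroup.center (GL (Fin 2) F) where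
  toFun := ConjElt.val
  invFun := ConjElt.mk

instance : Countable (ConjElt K) := (ConjElt.equiv K).injective.countable

variable (fL : ∀ w : FPlace L, GLv w → ℂ) (kL : InfinitePlace L → ℝ → ℂ)

/-- The twisted diagonal of a kernel. -/
def twTerm (d : TwistedElt τ) (s : Spc UL) : ℂ := prodKernel fL kL s (d.val • autSpc τ hU s)

omit [NumberField K] in
theorem twTerm_smul (hf : IsLocalFamily UL fL) (g : PGLF L) (d : TwistedElt τ) (s : Spc UL) :
    twTerm τ hU fL kL (g • d) (g • s) = twTerm τ hU fL kL d s := by
  rw [twTerm, twTerm, TwistedElt.smul_val, autSpc_smul_pgl, mul_smul, inv_smul_smul, mul_smul,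
    prodKernel_smul_pgl kL hf]

omit [NumberField K] in
theorem measurable_twTerm (hk : ∀ w, Continuous (kL w)) (d : TwistedElt τ) :
    Measurable (twTerm τ hU fL kL d) :=
  measurable_prodKernel kL hk ((measurable_const_smul d.val).comp (measurable_autSpc τ hU))

variable {UK : Level K} (fK : ∀ v : FPlace K, GLv v → ℂ) (kK : InfinitePlace K → ℝ → ℂ)

/-- The diagonal of a kernel. -/
def baseTwTerm (d : ConjElt K) (s : Spc UK) : ℂ := prodKernel fK kK s (d.val • s)

theorem baseTwTerm_smul (hf : IsLocalFamily UK fK) (g : PGLF K) (d : ConjElt K) (s : Spc UK) :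
    baseTwTerm fK kK (g • d) (g • s) = baseTwTerm fK kK d s := by
  rw [baseTwTerm, baseTwTerm, ConjElt.smul_val, mul_smul, inv_smul_smul, mul_smul,
    prodKernel_smul_pgl kK hf]

theorem measurable_baseTwTerm (hk : ∀ w, Continuous (kK w)) (d : ConjElt K) :
    Measurable (baseTwTerm (UK := UK) fK kK d) :=
  measurable_prodKernel kK hk (measurable_const_smul d.val)

end Twisted

end Fermat.Agent.ResidualThree.Orbital
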