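import Fermat.Agent.ResidualThree.Orbital.Weight

/-!
# Weighted periodised sums: linearity and exhaustion

A truncated periodised weighted integral is linear in the summand, and truncated integrals tend
to the full one along an exhaustion.
-/

noncomputable section

open MeasureTheory Filter
open scoped ENNReal NNReal Topology

namespace Fermat.Agent.ResidualThree.Orbital

variable {X D : Type*} [MeasurableSpace X] [Countable D] {μ : Measure X}

theorem integrableOn_weight_tsum {w : X → ℝ≥0} (hw : Measurable w) {f : D → X → ℂ}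
    (hf : ∀ d, Measurable (f d)) {S : Set X}
    (hfin : ∫⁻ x in S, (w x : ℝ≥0∞) * ∑' d, ‖f d x‖ₑ ∂μ ≠ ⊤) :
    IntegrableOn (fun x => (w x : ℂ) * ∑' d, f d x) S μ ∧
      ∀ᵐ x ∂μ.restrict S, (w x : ℂ) ≠ 0 → Summable fun d => f d x := by
  have hm : Measurable fun x => (w x : ℝ≥0∞) * ∑' d, ‖f d x‖ₑ :=
    (measurable_coe_nnreal_ennreal.comp hw).mul (Measurable.tsum fun d => (hf d).enorm)
  have hae : ∀ᵐ x ∂μ.restrict S, (w x : ℂ) ≠ 0 → Summable fun d => f d x := by
    filter_upwards [ae_lt_top hm hfin] with x hx hw0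
    have h0 : (w x : ℝ≥0∞) ≠ 0 := by simpa using hw0
    have : ∑' d, ‖f d x‖ₑ ≠ ⊤ := fun h => by
      rw [h, ENNReal.mul_top h0] at hx
      exact lt_irrefl _ hx
    exact Summable.of_norm (tsum_enorm_ne_top_iff_summable_norm.1 this)
  refine ⟨⟨?_, ?_⟩, hae⟩
  · have hwc : Measurable fun x => (w x : ℂ) :=
      Complex.measurable_ofReal.comp (measurable_coe_nnreal_real.comp hw)
    refine aestronglyMeasurable_of_tendsto_ae (atTop : Filter (Finset D))
      (f := fun t x => (w x : ℂ) * ∑ d ∈ t, f d x)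
      (fun t => (hwc.mul (Finset.measurable_fun_sum _ fun d _ => hf d)).aestronglyMeasurable) ?_
    filter_upwards [hae] with x hx
    by_cases h0 : (w x : ℂ) = 0
    · simp [h0]
    · exact (hx h0).hasSum.const_mul _
  · refine lt_of_le_of_lt (lintegral_mono fun x => ?_) hfin.lt_top
    rw [enorm_mul]
    refine mul_le_mul' (le_of_eq (by simp [enorm])) ?_
    by_cases h : ∑' d, ‖f d x‖ₑ = ⊤
    · rw [h]; exact le_top
    · exact enorm_tsum_le_tsum_enorm

/-- Linearity of truncated periodised integrals. -/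
theorem integral_indicator_weight_tsum {ι : Type*} [Fintype ι] {w : X → ℝ≥0} (hw : Measurable w)
    {f : ι → D → X → ℂ} (hf : ∀ i d, Measurable (f i d)) (c : ι → ℂ) {S : Set X}
    (hS : MeasurableSet S)
    (hfin : ∀ i, ∫⁻ x in S, (w x : ℝ≥0∞) * ∑' d, ‖f i d x‖ₑ ∂μ ≠ ⊤) :
    ∫ x, S.indicator (fun x => (w x : ℂ) * ∑' d, ∑ i, c i * f i d x) x ∂μ =
      ∑ i, c i * ∫ x in S, (w x : ℂ) * ∑' d, f i d x ∂μ := by
  rw [integral_indicator hS]
  simp only [← integral_const_mul]
  rw [← integral_finsetSum _ fun i _ => (integrableOn_weight_tsum hw (hf i) (hfin i)).1.const_mul _]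
  refine integral_congr_ae ?_
  filter_upwards [ae_all_iff.2 fun i => (integrableOn_weight_tsum hw (hf i) (hfin i)).2] with x hx
  by_cases h0 : (w x : ℂ) = 0
  · simp [h0]
  · rw [Summable.tsum_finsetSum fun i _ => (hx i h0).mul_left _, Finset.mul_sum]
    exact Finset.sum_congr rfl fun i _ => by rw [(hx i h0).tsum_mul_left]; ring

/-- Exhaustion by an increasing family of sets. -/
theorem tendsto_integral_indicator {g : X → ℂ} (hg : Integrable g μ) {S : ℝ → Set X}
    (hS : ∀ T, MeasurableSet (S T)) (hmono : ∀ {T T' : ℝ}, T ≤ T' → S T ⊆ S T')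
    (hex : ∀ x, ∃ T, x ∈ S T) :
    Tendsto (fun T => ∫ x, (S T).indicator g x ∂μ) atTop (𝓝 (∫ x, g x ∂μ)) := by
  refine tendsto_integral_filter_of_dominated_convergence (fun x => ‖g x‖)
    (Eventually.of_forall fun T => hg.aestronglyMeasurable.indicator (hS T))
    (Eventually.of_forall fun T => Eventually.of_forall fun x => norm_indicator_le_norm_self _ _)
    hg.norm (Eventually.of_forall fun x => ?_)
  obtain ⟨T₀, hT₀⟩ := hex x
  refine tendsto_const_nhds.congr' ?_
  filter_upwards [eventually_ge_atTop T₀] with T hT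
  rw [Set.indicator_of_mem (hmono hT hT₀)]

end Fermat.Agent.ResidualThree.Orbital
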