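import Fermat.Agent.ResidualThree.Orbital.ClassValues
import Fermat.Agent.ResidualThree.Orbital.Split

/-!
# The twisted trace identity

For a matching pair of finite parts and radial functions, the integral over the quotient of the
twisted diagonal of the kernel on the cubic extension is that of the diagonal on the base
(`twistedTraceIdentity`): the class values agree for large truncation, then let it go to infinity.
-/

noncomputable section

open IsDedekindDomain NumberField MeasureTheory MulAction Matrix Filter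
open scoped ENNReal NNReal Topology

namespace Fermat.Agent.ResidualThree.Orbital

variable {K L : Type} [Field K] [NumberField K] [Field L] [NumberField L] [Algebra K L]
  {τ : CubicAut K L} {UL : Level L} {UK : Level K} [IsTotallyComplex K] [IsTotallyComplex L]
  [IsPrincipalIdealRing (𝓞 K)]

local notation "M2" => Matrix (Fin 2) (Fin 2)

namespace Monomial

variable {r : FPlace K} {hU : IsStableLevel τ.σ.toRingEquiv UL} (M : Monomial τ UL UK r hU)

/-- For large truncation every twisted class has the value of the class of its norm, and the regular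
classes which are not norms have value zero. -/
theorem exists_all_eq (hnp : NormPrinciple τ) (hf : M.TruncFinite) (A : Finset Kˣ) (B : Kˣ → ℝ)
    (hA : ∀ a : Kˣ, (a : K) ≠ 1 →
      (∀ y : Ωf UK, baseG M.F.fK (diagOne a) y ≠ 0 →
        a ∈ A ∧ |Real.log (finH eFst y.out) + Real.log (finH eSnd y.out)| ≤ B a) ∧
      ∀ (δ : GL (Fin 2) L) (c : L),
        τ.norm (δ : M2 L) = c • (diagOne a : M2 K).map (algebraMap K L) →
        ∀ X : Ωf UL, twG τ M.F.fL δ X ≠ 0 →
          a ∈ A ∧ |Real.log (finH eFst X.out) + Real.log (finH eSnd X.out)| ≤ B a)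
    (h0 : ∀ a ∈ A, abelTransform M.kK (Real.log ‖M.A.w₀.embedding a‖) = 0) :
    ∀ᶠ T in atTop, (∀ Q : GoodRep τ, M.valL T Q.twisted = M.valK T Q.conj) ∧
      ∀ γ : GL (Fin 2) K, RegMat (γ : M2 K) →
        (¬ ∃ Q : GoodRep τ, Q.conj ∈ orbit (PGLF K) (⟨(γ : PGLF K)⟩ : ConjElt K)) →
        M.valK T ⟨(γ : PGLF K)⟩ = 0 := by
  classical
  obtain ⟨T₁, hT₁⟩ := M.exists_elliptic_eq hnp hf
  have hhyp : ∀ a : Kˣ, ∀ᶠ T in atTop, (a : K) ≠ 1 → a ∈ A →
      (∀ Q : GoodRep τ, Q.γ = diagOne a → M.valL T Q.twisted = M.valK T Q.conj) ∧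
      ((¬ ∃ Q : GoodRep τ, Q.γ = diagOne a) → M.valK T ⟨(diagOne a : PGLF K)⟩ = 0) := fun a => by
    by_cases ha : (a : K) ≠ 1 ∧ a ∈ A
    · obtain ⟨T₀, hT₀⟩ := M.exists_hyperbolic_eq hnp hf ha.1 (h0 a ha.2) (B a)
        (fun y hy => ((hA a ha.1).1 y hy).2) fun δ c hc X hX => ((hA a ha.1).2 δ c hc X hX).2
      exact eventually_atTop.2 ⟨T₀, fun T hT _ _ => hT₀ T hT⟩
    · exact Eventually.of_forall fun T h1 h2 => absurd ⟨h1, h2⟩ ha
  filter_upwards [eventually_ge_atTop T₁, (Finset.eventually_all A).2 fun a _ => hhyp a]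
    with T hT hTA
  have hdiag : ∀ a : Kˣ, (a : K) ≠ 1 →
      (∀ Q : GoodRep τ, Q.γ = diagOne a → M.valL T Q.twisted = M.valK T Q.conj) ∧
      ((¬ ∃ Q : GoodRep τ, Q.γ = diagOne a) → M.valK T ⟨(diagOne a : PGLF K)⟩ = 0) := by
    intro a ha
    by_cases hmem : a ∈ A
    · exact hTA a hmem ha hmem
    have hK0 : ∀ y : Ωf UK, baseG M.F.fK (diagOne a) y = 0 := fun y => by
      by_contra hy; exact hmem ((hA a ha).1 y hy).1
    refine ⟨fun Q hQ => ?_, fun _ => M.valK_eq_zero T _ hK0⟩
    obtain ⟨c, hc⟩ := Q.exists_norm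
    rw [hQ] at hc
    rw [M.valL_eq_zero T Q fun X => by by_contra hX; exact hmem ((hA a ha).2 _ c hc X hX).1,
      show Q.conj = (⟨(diagOne a : PGLF K)⟩ : ConjElt K) by rw [GoodRep.conj, hQ],
      M.valK_eq_zero T _ hK0]
  refine ⟨fun P => ?_, fun γ hreg hno => ?_⟩
  · by_cases hsq : IsSquare (disc (P.γ : M2 K))
    · obtain ⟨a, ha, horb⟩ := exists_diagOne_mem_orbit P.regMat hsq
      obtain ⟨Q, hQ⟩ := exists_goodRep_conj P horb
      have hconj : Q.conj ∈ orbit (PGLF K) P.conj := by
        show (⟨(Q.γ : PGLF K)⟩ : ConjElt K) ∈ _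
        rw [hQ]; exact horb
      rw [← M.valL_smul hf T (P.orbit_eq_of_conj Q hconj), ← M.valK_smul hf T hconj]
      exact (hdiag a ha).1 Q hQ
    · exact (hT₁ T hT).1 P hsq
  · by_cases hsq : IsSquare (disc (γ : M2 K))
    · obtain ⟨a, ha, horb⟩ := exists_diagOne_mem_orbit hreg hsq
      rw [← M.valK_smul hf T horb]
      refine (hdiag a ha).2 fun ⟨Q, hQ⟩ => hno ⟨Q, ?_⟩
      rw [GoodRep.conj, hQ]; exact horb
    · exact (hT₁ T hT).2 γ hreg hsq fun ⟨Q, hQ⟩ => hno ⟨Q, by
        rw [GoodRep.conj, hQ]; exact mem_orbit_self _⟩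

omit [IsPrincipalIdealRing (𝓞 K)] in
/-- If twisted classes have the values of the classes of their norms and the other regular classes
have value zero, the sums over all classes agree. -/
theorem tsum_classes_eq (hf : M.TruncFinite) {T : ℝ}
    (h1 : ∀ Q : GoodRep τ, M.valL T Q.twisted = M.valK T Q.conj)
    (h2 : ∀ γ : GL (Fin 2) K, RegMat (γ : M2 K) →
      (¬ ∃ Q : GoodRep τ, Q.conj ∈ orbit (PGLF K) (⟨(γ : PGLF K)⟩ : ConjElt K)) →
      M.valK T ⟨(γ : PGLF K)⟩ = 0) :
    ∑' ω : orbitRel.Quotient (PGLF L) (TwistedElt τ), M.valL T ω.out =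
      ∑' ω : orbitRel.Quotient (PGLF K) (ConjElt K), M.valK T ω.out := by
  classical
  set f := fun ω : orbitRel.Quotient (PGLF L) (TwistedElt τ) => M.valL T ω.out
  set g := fun ω : orbitRel.Quotient (PGLF K) (ConjElt K) => M.valK T ω.out
  have outL : ∀ d : TwistedElt τ,
      (Quotient.mk (orbitRel (PGLF L) (TwistedElt τ)) d).out ∈ orbit (PGLF L) d := fun d =>
    orbitRel_apply.1 (Quotient.mk_out d)
  have outK : ∀ d : ConjElt K,
      (Quotient.mk (orbitRel (PGLF K) (ConjElt K)) d).out ∈ orbit (PGLF K) d := fun d =>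
    orbitRel_apply.1 (Quotient.mk_out d)
  have hrep : ∀ ω : Function.support g,
      ∃ Q : GoodRep τ, Q.conj ∈ orbit (PGLF K) ω.1.out := by
    rintro ⟨ω, hω⟩
    obtain ⟨γ, hγ⟩ := QuotientGroup.mk_surjective ω.out.val
    have e : ω.out = (⟨(γ : PGLF K)⟩ : ConjElt K) := by rw [hγ]
    rw [Function.mem_support] at hω
    simp only [g, e] at hω
    by_cases hreg : RegMat (γ : M2 K)
    · show ∃ Q : GoodRep τ, Q.conj ∈ orbit (PGLF K) ω.out
      rw [e]
      by_contra hno
      exact hω (h2 γ hreg hno)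
    · exact absurd (M.valK_singular T hreg) hω
  choose Q hQ using hrep
  refine tsum_eq_tsum_of_ne_zero_bij
    (fun ω => Quotient.mk (orbitRel (PGLF L) (TwistedElt τ)) (Q ω).twisted) ?_ ?_ fun ω => ?_
  · intro ω ω' h
    have h' : (Q ω).twisted ∈ orbit (PGLF L) (Q ω').twisted := orbitRel_apply.1 (Quotient.exact h)
    have h3 := (Q ω').conj_mem_orbit (Q ω) h'
    have h4 : ω.1.out ∈ orbit (PGLF K) ω'.1.out := by
      rw [← orbit_eq_iff] at h3 ⊢
      rw [← orbit_eq_iff.2 (hQ ω), h3, orbit_eq_iff.2 (hQ ω')]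
    apply Subtype.ext
    rw [← Quotient.out_eq ω.1, ← Quotient.out_eq ω'.1]
    exact Quotient.sound (orbitRel_apply.2 h4)
  · intro ω hω
    obtain ⟨δ, hδ⟩ := QuotientGroup.mk_surjective ω.out.val
    have e : ω.out = (⟨(δ : PGLF L)⟩ : TwistedElt τ) := by rw [hδ]
    rw [Function.mem_support] at hω
    simp only [e] at hω
    by_cases hreg : RegMat (τ.norm (δ : M2 L))
    · obtain ⟨P, hP⟩ := exists_goodRep τ δ hreg
      have hv : M.valK T P.conj ≠ 0 := by rwa [← h1, M.valL_smul hf T hP]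
      set ω₀ := Quotient.mk (orbitRel (PGLF K) (ConjElt K)) P.conj
      have hg : g ω₀ ≠ 0 := by
        show M.valK T ω₀.out ≠ 0
        rwa [M.valK_smul hf T (outK P.conj)]
      refine ⟨⟨ω₀, hg⟩, ?_⟩
      show Quotient.mk _ (Q ⟨ω₀, hg⟩).twisted = ω
      rw [← Quotient.out_eq ω]
      refine Quotient.sound (orbitRel_apply.2 ?_)
      rw [e]
      have hc : (Q ⟨ω₀, hg⟩).conj ∈ orbit (PGLF K) P.conj := by
        rw [← orbit_eq_iff.2 (outK P.conj)]
        exact hQ ⟨ω₀, hg⟩
      rw [← orbit_eq_iff.2 hP]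
      exact P.orbit_eq_of_conj _ hc
    · exact absurd (M.valL_singular T hreg) hω
  · show M.valL T _ = M.valK T _
    rw [M.valL_smul hf T (outL _), h1, M.valK_smul hf T (hQ ω)]

omit [IsTotallyComplex K] [IsTotallyComplex L] [IsPrincipalIdealRing (𝓞 K)] in
/-- The twisted diagonal of the product kernel as a sum over the twisted elements. -/
theorem tsum_twTerm (s : Spc UL) :
    ∑' δ : PGLF L, prodKernel M.F.fL M.kL s (δ • autSpc τ hU s) =
      ∑' d, twTerm τ hU M.F.fL M.kL d s :=
  ((TwistedElt.equiv τ).tsum_eq fun δ => prodKernel M.F.fL M.kL s (δ • autSpc τ hU s)).symm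

omit [IsTotallyComplex K] [IsTotallyComplex L] [IsPrincipalIdealRing (𝓞 K)] in
/-- The diagonal of the product kernel as a sum over the elements of the base. -/
theorem tsum_baseTwTerm (s : Spc UK) :
    ∑' γ : PGLF K, prodKernel M.F.fK (fun _ => M.kK) s (γ • s) =
      ∑' d, baseTwTerm M.F.fK (fun _ => M.kK) d s :=
  ((ConjElt.equiv K).tsum_eq fun γ => prodKernel M.F.fK (fun _ => M.kK) s (γ • s)).symm

omit [IsTotallyComplex K] [IsTotallyComplex L] [IsPrincipalIdealRing (𝓞 K)] in
/-- Absolute convergence of the truncated integrals of the two diagonals gives `TruncFinite`. -/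
theorem truncFinite
    (hL : ∀ T, ∫⁻ s in truncated UL T, (M.wL.w s : ℝ≥0∞) * ∑' δ : PGLF L,
      ‖prodKernel M.F.fL M.kL s (δ • autSpc τ hU s)‖ₑ ∂volSpc UL ≠ ⊤)
    (hK : ∀ T, ∫⁻ s in truncated UK T, (M.wK.w s : ℝ≥0∞) * ∑' γ : PGLF K,
      ‖prodKernel M.F.fK (fun _ => M.kK) s (γ • s)‖ₑ ∂volSpc UK ≠ ⊤) :
    M.TruncFinite := by
  classical
  intro T
  refine ⟨fun h => hL T ?_, fun h => hK T ?_⟩
  · rw [← h, ← lintegral_indicator (measurableSet_truncated UL T)]
    refine lintegral_congr fun s => ?_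
    rw [weightL, ← (TwistedElt.equiv τ).symm.tsum_eq (fun d => ‖trTw τ hU M.F.fL M.kL T d s‖ₑ)]
    by_cases hs : s ∈ truncated UL T
    · simp only [trTw, Set.indicator_of_mem hs]; rfl
    · simp [trTw, Set.indicator_of_notMem hs]
  · rw [← h, ← lintegral_indicator (measurableSet_truncated UK T)]
    refine lintegral_congr fun s => ?_
    rw [weightK, ← (ConjElt.equiv K).symm.tsum_eq (fun d => ‖trBase M.F.fK M.kK T d s‖ₑ)]
    by_cases hs : s ∈ truncated UK T
    · simp only [trBase, Set.indicator_of_mem hs]; rfl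
    · simp [trBase, Set.indicator_of_notMem hs]

omit [IsPrincipalIdealRing (𝓞 K)] in
/-- The truncated integrals of the two diagonals are the sums of the values of the classes. -/
theorem setIntegral_eq_tsum (hf : M.TruncFinite) (T : ℝ) :
    ∫ s in truncated UL T, (M.wL.w s : ℂ) * ∑' δ : PGLF L,
        prodKernel M.F.fL M.kL s (δ • autSpc τ hU s) ∂volSpc UL =
      ∑' ω : orbitRel.Quotient (PGLF L) (TwistedElt τ), M.valL T ω.out ∧
    ∫ s in truncated UK T, (M.wK.w s : ℂ) * ∑' γ : PGLF K,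
        prodKernel M.F.fK (fun _ => M.kK) s (γ • s) ∂volSpc UK =
      ∑' ω : orbitRel.Quotient (PGLF K) (ConjElt K), M.valK T ω.out := by
  classical
  constructor
  · have h := integral_tsum_orbits (μ := volSpc UL) (G := PGLF L)
      (measurable_trTw τ hU (fL := M.F.fL) (kL := M.kL) (fun w => (M.kernel w).cont) T)
      (trTw_smul τ hU M.localL T) M.measurable_weightL M.wL.sum_eq (hf T).1
    refine Eq.trans ?_ h.tsum_eq.symm
    rw [← integral_indicator (measurableSet_truncated UL T)]
    refine integral_congr_ae (Eventually.of_forall fun s => ?_)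
    by_cases hs : s ∈ truncated UL T
    · simp only [trTw, Set.indicator_of_mem hs, M.tsum_twTerm, weightL, ENNReal.coe_toReal]
    · simp [trTw, Set.indicator_of_notMem hs]
  · have h := integral_tsum_orbits (μ := volSpc UK) (G := PGLF K)
      (measurable_trBase (fK := M.F.fK) M.kernelK.cont T)
      (trBase_smul M.localK T) M.measurable_weightK M.wK.sum_eq (hf T).2
    refine Eq.trans ?_ h.tsum_eq.symm
    rw [← integral_indicator (measurableSet_truncated UK T)]
    refine integral_congr_ae (Eventually.of_forall fun s => ?_)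
    by_cases hs : s ∈ truncated UK T
    · simp only [trBase, Set.indicator_of_mem hs, M.tsum_baseTwTerm, weightK, ENNReal.coe_toReal]
    · simp [trBase, Set.indicator_of_notMem hs]

end Monomial

/-- The twisted trace identity holds. -/
theorem twistedTraceIdentity (hK2 : Module.finrank ℚ K = 2) (hL3 : Module.finrank K L = 3)
    (τ : CubicAut K L) (UL : Level L) (UK : Level K) (hU : IsStableLevel τ.σ.toRingEquiv UL) :
    TwistedTraceIdentity τ UL UK hU := by
  classical
  intro hnp r _ ι _ P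
  have hcard : Fintype.card (InfinitePlace K) = 1 := by
    have h := InfinitePlace.sum_mult_eq (K := K)
    simp [IsTotallyComplex.mult_eq, hK2] at h
    omega
  obtain ⟨w₀, hw₀⟩ := Fintype.card_eq_one_iff.1 hcard
  choose A B hAB using fun i => exists_hyp_bounds w₀ hw₀ τ
    (IsLocalFamily.of_finPair_left (P i)) (IsLocalFamily.of_finPair_right (P i))
  set C : ℝ := ∑ i, ∑ a ∈ A i, |Real.log ‖w₀.embedding (a : K)‖| with hC
  refine ⟨C, fun c kL kK hker htr hab wL wK hfL hfK hintL hintK => ?_⟩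
  have hframe : ∀ i, ∃ M : Monomial τ UL UK r hU,
      M.F = P i ∧ M.kL = kL i ∧ M.kK = kK i ∧ M.wL = wL ∧ M.wK = wK := fun i => by
    obtain ⟨Af, hAf⟩ := exists_archFrame hK2 τ hL3 (htr i)
    exact ⟨⟨P i, Af, kL i, hker i, wL, wK⟩, rfl, rfl, hAf.symm, rfl, rfl⟩
  choose M hMF hMk hMK hMwL hMwK using hframe
  have hfin : ∀ i, (M i).TruncFinite := fun i => (M i).truncFinite
    (fun T => by rw [hMF, hMk, hMwL]; exact hfL i T)
    (fun T => by rw [hMF, hMK, hMwK]; exact hfK i T)
  have hev : ∀ i, ∀ᶠ T in atTop,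
      ∫ s in truncated UL T, (wL.w s : ℂ) * ∑' δ : PGLF L,
          prodKernel (P i).fL (kL i) s (δ • autSpc τ hU s) ∂volSpc UL =
        ∫ s in truncated UK T, (wK.w s : ℂ) * ∑' γ : PGLF K,
          prodKernel (P i).fK (fun _ => kK i) s (γ • s) ∂volSpc UK := fun i => by
    filter_upwards [(M i).exists_all_eq hnp (hfin i) (A i) (B i)
      (by rw [hMF]; exact hAB i) fun a ha => by
        rw [hMK, hw₀ (M i).A.w₀]
        refine hab i _ (le_trans ?_ (Finset.single_le_sum (f := fun i => ∑ a ∈ A i,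
          |Real.log ‖w₀.embedding (a : K)‖|) (fun j _ => Finset.sum_nonneg fun b _ => abs_nonneg _)
          (Finset.mem_univ i)))
        exact Finset.single_le_sum (f := fun a : Kˣ => |Real.log ‖w₀.embedding (a : K)‖|)
          (fun b _ => abs_nonneg _) ha] with T hT
    obtain ⟨e1, e2⟩ := (M i).setIntegral_eq_tsum (hfin i) T
    rw [hMF, hMk, hMwL] at e1
    rw [hMF, hMK, hMwK] at e2
    rw [e1, e2]
    exact (M i).tsum_classes_eq (hfin i) hT.1 hT.2
  have hmL : ∀ i (δ : PGLF L),
      Measurable fun s : Spc UL => prodKernel (P i).fL (kL i) s (δ • autSpc τ hU s) := fun i δ =>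
    measurable_twTerm τ hU (P i).fL (kL i) (fun w => (hker i w).cont) ⟨δ⟩
  have hmK : ∀ i (γ : PGLF K),
      Measurable fun s : Spc UK => prodKernel (P i).fK (fun _ => kK i) s (γ • s) := fun i γ =>
    measurable_baseTwTerm (P i).fK (fun _ => kK i)
      (fun _ => (hMK i ▸ (M i).kernelK).cont) ⟨γ⟩
  refine tendsto_nhds_unique_of_eventuallyEq
    (tendsto_integral_indicator hintL (measurableSet_truncated UL) truncated_mono
      exists_mem_truncated)
    (tendsto_integral_indicator hintK (measurableSet_truncated UK) truncated_mono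
      exists_mem_truncated)
    ?_
  filter_upwards [eventually_all.2 hev] with T hT
  rw [integral_indicator_weight_tsum wL.measurable hmL c (measurableSet_truncated UL T)
      fun i => hfL i T,
    integral_indicator_weight_tsum wK.measurable hmK c (measurableSet_truncated UK T)
      fun i => hfK i T]
  exact Finset.sum_congr rfl fun i _ => by rw [hT i]

end Fermat.Agent.ResidualThree.Orbital
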