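import Fermat.Agent.ResidualThree.Orbital.ArchChain
import Fermat.Agent.ResidualThree.Orbital.GlobalTransfer

/-!
# Coordinates at infinity adapted to a twisted trace

`K` has one infinite place `w₀`, `φ` is an embedding of `L` above it, and the three embeddings
`φ`, `φσ`, `φσσ` give the three infinite places of `L`.
-/

noncomputable section

open IsDedekindDomain NumberField MeasureTheory Matrix
open scoped ComplexConjugate ENNReal

namespace Fermat.Agent.ResidualThree.Orbital

theorem coshDist_conjH3 (p q : H3) : H3.coshDist (conjH3 p) (conjH3 q) = H3.coshDist p q := by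
  simp only [H3.coshDist, conjH3, ← map_sub, Complex.normSq_conj]

/-- Conjugation as a continuous linear map of the upper half space. -/
def conjPair : ℂ × ℝ →L[ℝ] ℂ × ℝ :=
  (Complex.conjCLE : ℂ →L[ℝ] ℂ).prodMap (ContinuousLinearMap.id ℝ ℝ)

theorem abs_det_conjPair : |conjPair.det| = 1 := by
  have hsq : conjPair * conjPair = 1 := by
    refine ContinuousLinearMap.ext fun q => Prod.ext ?_ rfl
    simp [conjPair]
  have h2 : conjPair.det * conjPair.det = 1 := by
    have := congrArg ContinuousLinearMap.det hsq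
    simpa [ContinuousLinearMap.det] using this
  rcases mul_self_eq_one_iff.mp h2 with h | h <;> simp [h]

theorem measurePreserving_conjH3 : MeasurePreserving conjH3 H3.vol H3.vol := by
  refine H3.measurePreserving_of_jacobian ⟨conjH3, conjH3, conjH3_conjH3, conjH3_conjH3⟩
    continuous_conjH3.measurable (fun q => conjPair q) (fun p => rfl) (fun _ => conjPair)
    H3.measurableSet_upperSet le_rfl (by simp) (fun q _ => conjPair.hasFDerivAt.hasFDerivWithinAt)
    ?_ fun q _ => by rw [abs_det_conjPair, one_mul]; rfl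
  ext q
  constructor
  · rintro ⟨r, hr, rfl⟩
    simpa [H3.mem_upperSet, conjPair] using hr
  · intro hq
    exact ⟨conjPair q, by simpa [H3.mem_upperSet, conjPair] using hq,
      Prod.ext (by simp [conjPair]) rfl⟩

variable {K L : Type} [Field K] [NumberField K] [Field L] [NumberField L] [Algebra K L]

/-- The fields, the infinite place of the base and an embedding above it. -/
structure ArchFrame (τ : CubicAut K L) : Type where
  /-- the place of `K` -/
  w₀ : InfinitePlace K
  unique : ∀ w : InfinitePlace K, w = w₀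
  /-- the embedding of `L` -/
  φ : L →+* ℂ
  extends_emb : φ.comp (algebraMap K L) = w₀.embedding
  bij : Function.Bijective ![InfinitePlace.mk φ,
    InfinitePlace.mk (φ.comp (τ.σ.toRingEquiv : L →+* L)),
    InfinitePlace.mk ((φ.comp (τ.σ.toRingEquiv : L →+* L)).comp (τ.σ.toRingEquiv : L →+* L))]

namespace ArchFrame

variable {τ : CubicAut K L} (A : ArchFrame τ)

/-- The embeddings `φ`, `φσ`, `φσσ`. -/
def emb : Fin 3 → L →+* ℂ :=
  ![A.φ, A.φ.comp (τ.σ.toRingEquiv : L →+* L),
    (A.φ.comp (τ.σ.toRingEquiv : L →+* L)).comp (τ.σ.toRingEquiv : L →+* L)]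

/-- The three places. -/
def placeEquiv : Fin 3 ≃ InfinitePlace L :=
  Equiv.ofBijective (fun i => InfinitePlace.mk (A.emb i)) (by
    convert A.bij using 1
    funext i
    fin_cases i <;> rfl)

omit [NumberField K] [NumberField L] in
theorem placeEquiv_apply (i : Fin 3) : A.placeEquiv i = InfinitePlace.mk (A.emb i) := rfl

omit [NumberField K] [NumberField L] in
theorem comp_algebraMap_sigma (ψ : L →+* ℂ) :
    (ψ.comp (τ.σ.toRingEquiv : L →+* L)).comp (algebraMap K L) = ψ.comp (algebraMap K L) :=
  RingHom.ext fun x => congrArg ψ (τ.σ.commutes x)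

omit [NumberField K] [NumberField L] in
theorem emb_sigma_cube :
    ((A.φ.comp (τ.σ.toRingEquiv : L →+* L)).comp (τ.σ.toRingEquiv : L →+* L)).comp
      (τ.σ.toRingEquiv : L →+* L) = A.φ :=
  RingHom.ext fun x => congrArg A.φ (τ.pow_three x)

/-- The coordinates of a point. -/
def coords (p : Hyp L) : Trip := (coord (A.emb 0) p, coord (A.emb 1) p, coord (A.emb 2) p)

/-- The point of the base below the first coordinate. -/
def proj (p : Hyp L) : Hyp K := fun _ => coord A.φ p

omit [NumberField K] in
theorem measurable_proj : Measurable A.proj :=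
  measurable_pi_lambda _ fun _ => (continuous_coord _).measurable

omit [NumberField L] [NumberField K] in
theorem proj_smul (g : GL (Fin 2) K) (p : Hyp L) : A.proj (baseGLH L g • p) = g • A.proj p := by
  funext w
  show coord A.φ (baseGLH L g • p) = toComplex w g • coord A.φ p
  rw [coord_smul]
  congr 1
  ext i j
  show A.φ (algebraMap K L ((g : Matrix (Fin 2) (Fin 2) K) i j)) = w.embedding _
  rw [A.unique w, ← A.extends_emb]
  rfl

omit [NumberField K] in
theorem measurePreserving_coords :
    MeasurePreserving A.coords (Measure.pi fun _ : InfinitePlace L => H3.vol) volTrip := by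
  classical
  have h1 : MeasurePreserving (MeasurableEquiv.piCongrLeft (fun _ => H3) A.placeEquiv).symm
      (Measure.pi fun _ : InfinitePlace L => H3.vol) (Measure.pi fun _ : Fin 3 => H3.vol) :=
    (measurePreserving_piCongrLeft (fun _ : InfinitePlace L => H3.vol) A.placeEquiv).symm _
  have h2 : MeasurePreserving (fun f : Fin 3 → H3 => (f 0, f 1, f 2))
      (Measure.pi fun _ : Fin 3 => H3.vol) volTrip := by
    have a := measurePreserving_piFinSuccAbove (fun _ : Fin 3 => H3.vol) 0
    have b := measurePreserving_piFinTwo (fun _ : Fin 2 => H3.vol)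
    exact ((MeasurePreserving.id H3.vol).prod b).comp a
  let c : Fin 3 → H3 → H3 := fun i =>
    if (InfinitePlace.mk (A.emb i)).embedding = A.emb i then id else conjH3
  have hc : ∀ i, MeasurePreserving (c i) H3.vol H3.vol := fun i => by
    simp only [c]
    split_ifs
    · exact MeasurePreserving.id _
    · exact measurePreserving_conjH3
  have h3 := (hc 0).prod ((hc 1).prod (hc 2))
  have e : A.coords = (Prod.map (c 0) (Prod.map (c 1) (c 2))) ∘
      (fun f : Fin 3 → H3 => (f 0, f 1, f 2)) ∘
        (MeasurableEquiv.piCongrLeft (fun _ => H3) A.placeEquiv).symm := by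
    funext p
    have hp : ∀ i, (MeasurableEquiv.piCongrLeft (fun _ => H3) A.placeEquiv).symm p i =
        p (InfinitePlace.mk (A.emb i)) := fun i => rfl
    simp only [coords, Function.comp_apply, hp, Prod.map_apply, c, coord,
      ite_apply, id]
  rw [e]
  exact h3.comp (h2.comp h1)

omit [NumberField L] in
theorem measurePreserving_base :
    MeasurePreserving (fun p : Hyp K => p A.w₀) (Measure.pi fun _ : InfinitePlace K => H3.vol)
      H3.vol := by
  let : Unique (InfinitePlace K) := ⟨⟨A.w₀⟩, A.unique⟩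
  convert measurePreserving_funUnique H3.vol (InfinitePlace K)
  rfl

omit [NumberField K] [NumberField L] in
theorem coshDist_place (w : InfinitePlace L) (i : Fin 3) (h : A.placeEquiv i = w) (p r : Hyp L) :
    H3.coshDist (p w) (r w) = H3.coshDist (coord (A.emb i) p) (coord (A.emb i) r) := by
  subst h
  rw [placeEquiv_apply]
  by_cases he : (InfinitePlace.mk (A.emb i)).embedding = A.emb i
  · simp [coord, he]
  · simp [coord, he, coshDist_conjH3]

/-- The images of `δ` under the three embeddings. -/
def cmat (δ : GL (Fin 2) L) (i : Fin 3) : GL (Fin 2) ℂ :=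
  Units.map (A.emb i).mapMatrix.toMonoidHom δ

/-- The complex matrix of an element of the base. -/
def bmat (γ : GL (Fin 2) K) : GL (Fin 2) ℂ := toComplex A.w₀ γ

variable [IsTotallyComplex L]

omit [NumberField K] in
/-- The infinite part of a term of the twisted diagonal is a chain. -/
theorem prod_kernel_eq (kL : InfinitePlace L → ℝ → ℂ) (δ : GL (Fin 2) L) (p : Hyp L) :
    ∏ w, kL w (H3.coshDist (p w) ((δ • autHyp τ.σ.toRingEquiv p) w)) =
      twistChain (kL (A.placeEquiv 0)) (kL (A.placeEquiv 1)) (kL (A.placeEquiv 2))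
        (A.cmat δ 0) (A.cmat δ 1) (A.cmat δ 2) (A.coords p) := by
  rw [← A.placeEquiv.prod_comp, Fin.prod_univ_three, A.coshDist_place _ 0 rfl,
    A.coshDist_place _ 1 rfl, A.coshDist_place _ 2 rfl]
  simp only [coord_smul, coord_autHyp, twistChain, coords, cmat]
  congr 4
  · rw [show (A.emb 2).comp (τ.σ.toRingEquiv : L →+* L) = A.emb 0 from A.emb_sigma_cube]

omit [NumberField K] [NumberField L] [IsTotallyComplex L] in
theorem cmat_prod {δ : GL (Fin 2) L} {γ : GL (Fin 2) K} {c : L}
    (e : τ.norm (δ : Matrix (Fin 2) (Fin 2) L) =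
      c • (γ : Matrix (Fin 2) (Fin 2) K).map (algebraMap K L)) :
    ((A.cmat δ 0 * A.cmat δ 1 * A.cmat δ 2 : GL (Fin 2) ℂ) : Matrix (Fin 2) (Fin 2) ℂ) =
      A.φ c • (A.bmat γ : Matrix (Fin 2) (Fin 2) ℂ) := by
  have h : ((A.cmat δ 0 * A.cmat δ 1 * A.cmat δ 2 : GL (Fin 2) ℂ) : Matrix (Fin 2) (Fin 2) ℂ) =
      A.φ.mapMatrix (τ.norm (δ : Matrix (Fin 2) (Fin 2) L)) := by
    rw [CubicAut.norm, map_mul, map_mul]
    rfl
  rw [h, e]
  ext i j
  simp only [RingHom.mapMatrix_apply, Matrix.map_apply, Matrix.smul_apply, smul_eq_mul, map_mul]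
  congr 1
  exact congrArg (fun f : K →+* ℂ => f ((γ : Matrix (Fin 2) (Fin 2) K) i j)) A.extends_emb

omit [NumberField K] [IsTotallyComplex L] in
theorem smul_cmat_prod {δ : GL (Fin 2) L} {γ : GL (Fin 2) K} {c : L}
    (e : τ.norm (δ : Matrix (Fin 2) (Fin 2) L) =
      c • (γ : Matrix (Fin 2) (Fin 2) K).map (algebraMap K L)) (q : H3) :
    (A.cmat δ 0 * A.cmat δ 1 * A.cmat δ 2) • q = A.bmat γ • q := by
  have hc : A.φ c ≠ 0 := (map_ne_zero _).2 (τ.commute_of_norm δ.det_ne_zero e).2.2.1
  set s := Matrix.GeneralLinearGroup.scalar (Fin 2) (Units.mk0 _ hc)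
  rw [show A.cmat δ 0 * A.cmat δ 1 * A.cmat δ 2 = s * A.bmat γ from Units.ext (by
      rw [A.cmat_prod e, Units.val_mul, Tree.coe_scalar_eq_smul, Matrix.smul_mul,
        Matrix.one_mul]; rfl), mul_smul]
  exact H3.smul_of_scalar (c := A.φ c) (by
    rw [Tree.coe_scalar_eq_smul]; rfl) _

end ArchFrame

/-- A frame in which the transfer of radial functions is the composition of the three kernels. -/
theorem exists_archFrame [IsTotallyComplex K] [IsTotallyComplex L]
    (hK : Module.finrank ℚ K = 2) (τ : CubicAut K L) (hL : Module.finrank K L = 3)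
    {kL : InfinitePlace L → ℝ → ℂ} {kK : ℝ → ℂ} (h : IsArchTransfer τ kL kK) :
    ∃ A : ArchFrame τ, kK = H3.compKernel
      (H3.compKernel (kL (A.placeEquiv 0)) (kL (A.placeEquiv 1))) (kL (A.placeEquiv 2)) := by
  classical
  have hcard : ∀ (F : Type) [Field F] [NumberField F] [IsTotallyComplex F],
      Fintype.card (InfinitePlace F) * 2 = Module.finrank ℚ F := fun F _ _ _ => by
    rw [← InfinitePlace.sum_mult_eq (K := F)]
    simp [IsTotallyComplex.mult_eq]
  have hc1 : Fintype.card (InfinitePlace K) = 1 := by have := hcard K; omega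
  have hc3 : Fintype.card (InfinitePlace L) = 3 := by
    have h6 : Module.finrank ℚ L = 6 := by
      rw [← Module.finrank_mul_finrank ℚ K L, hK, hL]
    have := hcard L; omega
  obtain ⟨w₀, hw₀⟩ := Fintype.card_eq_one_iff.1 hc1
  obtain ⟨φ₁, hφ₁⟩ := h
  set φ : L →+* ℂ := if φ₁.comp (algebraMap K L) = w₀.embedding then φ₁
    else ComplexEmbedding.conjugate φ₁ with hφdef
  have hmk : ∀ ψ : L →+* L, InfinitePlace.mk (φ.comp ψ) = InfinitePlace.mk (φ₁.comp ψ) := by
    intro ψ
    simp only [hφdef]
    split_ifs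
    · rfl
    · exact InfinitePlace.mk_conjugate_eq (φ₁.comp ψ)
  have hext : φ.comp (algebraMap K L) = w₀.embedding := by
    simp only [hφdef]
    split_ifs with hh
    · exact hh
    · have e : InfinitePlace.mk (φ₁.comp (algebraMap K L)) = w₀ := hw₀ _
      rcases InfinitePlace.embedding_mk_eq (φ₁.comp (algebraMap K L)) with h' | h'
      · rw [e] at h'; exact absurd h'.symm hh
      · rw [e] at h'; rw [h']; rfl
  set s : L →+* L := (τ.σ.toRingEquiv : L →+* L)
  have hσ : ∀ ψ : L →+* ℂ, ψ.comp (algebraMap K L) = w₀.embedding →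
      InfinitePlace.mk ψ ≠ InfinitePlace.mk (ψ.comp s) ∧
        InfinitePlace.mk ψ ≠ InfinitePlace.mk ((ψ.comp s).comp s) := by
    intro ψ hψ
    obtain ⟨x, hx⟩ := τ.ne_id
    have key : ∀ (t : L →+* L), (∀ k, t (algebraMap K L k) = algebraMap K L k) → t x ≠ x →
        InfinitePlace.mk ψ ≠ InfinitePlace.mk (ψ.comp t) := by
      intro t ht htx he
      rcases InfinitePlace.mk_eq_iff.1 he with h1 | h1
      · exact htx (ψ.injective (RingHom.congr_fun h1 x).symm)
      · refine InfinitePlace.not_isReal_iff_isComplex.2 (IsTotallyComplex.isComplex w₀) ?_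
        refine InfinitePlace.isReal_iff.2 (RingHom.ext fun k => ?_)
        have h2 := RingHom.congr_fun h1 (algebraMap K L k)
        rw [RingHom.comp_apply, ht] at h2
        rw [← hψ]
        exact h2
    refine ⟨key s (fun k => τ.σ.commutes k) hx, ?_⟩
    rw [RingHom.comp_assoc]
    refine key _ (fun k => ?_) fun h2 => hx ?_
    · show τ.σ (τ.σ (algebraMap K L k)) = _
      rw [τ.σ.commutes, τ.σ.commutes]
    · have h3 : τ.σ (τ.σ x) = x := h2
      conv_rhs => rw [← τ.pow_three x, h3]
  have hinj : Function.Injective ![InfinitePlace.mk φ, InfinitePlace.mk (φ.comp s),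
      InfinitePlace.mk ((φ.comp s).comp s)] := by
    have h0 := hσ φ hext
    have h1 := (hσ (φ.comp s) (by rw [ArchFrame.comp_algebraMap_sigma, hext])).1
    intro i j hij
    fin_cases i <;> fin_cases j <;>
      first
        | rfl
        | exact absurd hij h0.1
        | exact absurd hij.symm h0.1
        | exact absurd hij h0.2
        | exact absurd hij.symm h0.2
        | exact absurd hij h1
        | exact absurd hij.symm h1
  have hbij := (Fintype.bijective_iff_injective_and_card _).2
    ⟨hinj, by rw [Fintype.card_fin, hc3]⟩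
  refine ⟨⟨w₀, hw₀, φ, hext, hbij⟩, hφ₁.trans ?_⟩
  have e0 := hmk (RingHom.id L)
  rw [RingHom.comp_id, RingHom.comp_id] at e0
  show _ = H3.compKernel (H3.compKernel (kL (InfinitePlace.mk φ))
    (kL (InfinitePlace.mk (φ.comp s)))) (kL (InfinitePlace.mk ((φ.comp s).comp s)))
  rw [e0, hmk s, show (φ.comp s).comp s = φ.comp (s.comp s) from rfl,
    hmk (s.comp s)]
  rfl

end Fermat.Agent.ResidualThree.Orbital
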