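import Fermat.Agent.ResidualThree.Orbital.Dilation
import Fermat.Agent.ResidualThree.Spherical.Radial

/-!
# Logarithmic heights of the two fixed cusps of a diagonal matrix on hyperbolic space

The heights `b1`, `b2` of the cusps `∞` and `0` on upper half space are equivariant for diagonal
matrices; their sum is invariant under the dilations and bounded where a diagonal matrix moves a
point a bounded distance. These are the inputs of the truncated orbital integrals of the diagonal
classes at infinity.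
-/

noncomputable section

open Matrix MeasureTheory
open scoped ComplexConjugate

namespace Fermat.Agent.ResidualThree.Orbital

/-- The matrix is diagonal. -/
def IsDiagMat (g : GL (Fin 2) ℂ) : Prop :=
  (g : Matrix (Fin 2) (Fin 2) ℂ) 0 1 = 0 ∧ (g : Matrix (Fin 2) (Fin 2) ℂ) 1 0 = 0

/-- The quotient of the diagonal entries. -/
def diagRatio (g : GL (Fin 2) ℂ) : ℂ :=
  (g : Matrix (Fin 2) (Fin 2) ℂ) 0 0 / (g : Matrix (Fin 2) (Fin 2) ℂ) 1 1

theorem IsDiagMat.ratio_ne_zero {g : GL (Fin 2) ℂ} (hg : IsDiagMat g) : diagRatio g ≠ 0 := by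
  have h : (g : Matrix (Fin 2) (Fin 2) ℂ).det ≠ 0 :=
    ((Matrix.isUnit_iff_isUnit_det _).mp g.isUnit).ne_zero
  rw [Matrix.det_fin_two, hg.1, zero_mul, sub_zero, mul_ne_zero_iff] at h
  exact div_ne_zero h.1 h.2

theorem IsDiagMat.smul_z {g : GL (Fin 2) ℂ} (hg : IsDiagMat g) (p : H3) :
    (g • p).z = diagRatio g * p.z := by
  rw [H3.smul_z_of_upper hg.2, hg.1, add_zero, diagRatio]
  ring

theorem IsDiagMat.smul_y {g : GL (Fin 2) ℂ} (hg : IsDiagMat g) (p : H3) :
    (g • p).y = ‖diagRatio g‖ * p.y := by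
  rw [H3.smul_y_of_upper hg.2, diagRatio, norm_div]

theorem IsDiagMat.smul_comm {g h : GL (Fin 2) ℂ} (hg : IsDiagMat g) (hh : IsDiagMat h) (p : H3) :
    g • h • p = h • g • p :=
  H3.ext (by rw [hg.smul_z, hh.smul_z, hh.smul_z, hg.smul_z]; ring)
    (by rw [hg.smul_y, hh.smul_y, hh.smul_y, hg.smul_y]; ring)

/-- The log-height of the cusp at infinity, halved. -/
def b1 (p : H3) : ℝ := Real.log p.y

/-- The log-height of the cusp at zero, halved. -/
def b2 (p : H3) : ℝ := Real.log (p.y / (Complex.normSq p.z + p.y ^ 2))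

/-- The sum of the two log-heights. -/
def ell (p : H3) : ℝ := b1 p + b2 p

theorem normSq_add_sq_pos (p : H3) : 0 < Complex.normSq p.z + p.y ^ 2 :=
  add_pos_of_nonneg_of_pos (Complex.normSq_nonneg _) (pow_pos p.y_pos 2)

theorem continuous_b1 : Continuous b1 := H3.continuous_y.log fun p => p.y_pos.ne'

theorem continuous_b2 : Continuous b2 :=
  (H3.continuous_y.div ((Complex.continuous_normSq.comp H3.continuous_z).add
    (H3.continuous_y.pow 2)) fun p => (normSq_add_sq_pos p).ne').log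
    fun p => (div_pos p.y_pos (normSq_add_sq_pos p)).ne'

theorem continuous_ell : Continuous ell := continuous_b1.add continuous_b2

theorem IsDiagMat.b1_smul {g : GL (Fin 2) ℂ} (hg : IsDiagMat g) (p : H3) :
    b1 (g • p) = b1 p + Real.log ‖diagRatio g‖ := by
  rw [b1, b1, hg.smul_y, Real.log_mul (norm_ne_zero_iff.2 hg.ratio_ne_zero) p.y_pos.ne', add_comm]

theorem IsDiagMat.b2_smul {g : GL (Fin 2) ℂ} (hg : IsDiagMat g) (p : H3) :
    b2 (g • p) = b2 p - Real.log ‖diagRatio g‖ := by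
  have hα : ‖diagRatio g‖ ≠ 0 := norm_ne_zero_iff.2 hg.ratio_ne_zero
  have hn := (normSq_add_sq_pos p).ne'
  rw [b2, b2, hg.smul_z, hg.smul_y, ← Real.log_div (div_pos p.y_pos (normSq_add_sq_pos p)).ne' hα]
  congr 1
  rw [Complex.normSq_mul, Complex.normSq_eq_norm_sq (diagRatio g)]
  field_simp

theorem IsDiagMat.ell_smul {g : GL (Fin 2) ℂ} (hg : IsDiagMat g) (p : H3) :
    ell (g • p) = ell p := by
  rw [ell, ell, hg.b1_smul, hg.b2_smul]
  ring

/-- The dilation by `exp t`. -/
def dilGL (t : ℝ) : GL (Fin 2) ℂ :=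
  Matrix.GeneralLinearGroup.mkOfDetNeZero !![((Real.exp t : ℝ) : ℂ), 0; 0, 1]
    (by rw [Matrix.det_fin_two_of]; simp)

theorem isDiagMat_dilGL (t : ℝ) : IsDiagMat (dilGL t) := by
  simp [IsDiagMat, dilGL, Matrix.GeneralLinearGroup.mkOfDetNeZero]

theorem diagRatio_dilGL (t : ℝ) : diagRatio (dilGL t) = ((Real.exp t : ℝ) : ℂ) := by
  simp [diagRatio, dilGL, Matrix.GeneralLinearGroup.mkOfDetNeZero]

theorem log_norm_ratio_dilGL (t : ℝ) : Real.log ‖diagRatio (dilGL t)‖ = t := by
  rw [diagRatio_dilGL, Complex.norm_real, Real.norm_eq_abs, abs_of_pos (Real.exp_pos t),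
    Real.log_exp]

/-- The action of the dilation by `exp t` on upper half space. -/
def dil (t : ℝ) (p : H3) : H3 := dilGL t • p

theorem dil_z (t : ℝ) (p : H3) : (dil t p).z = (Real.exp t : ℂ) * p.z := by
  rw [dil, (isDiagMat_dilGL t).smul_z, diagRatio_dilGL]

theorem dil_y (t : ℝ) (p : H3) : (dil t p).y = Real.exp t * p.y := by
  rw [dil, (isDiagMat_dilGL t).smul_y, diagRatio_dilGL, Complex.norm_real, Real.norm_eq_abs,
    abs_of_pos (Real.exp_pos t)]

theorem dil_zero (p : H3) : dil 0 p = p :=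
  H3.ext (by simp [dil_z]) (by simp [dil_y])

theorem dil_add (s t : ℝ) (p : H3) : dil (s + t) p = dil s (dil t p) :=
  H3.ext (by simp [dil_z, Real.exp_add]; ring) (by simp [dil_y, Real.exp_add]; ring)

theorem continuous_dil : Continuous fun x : ℝ × H3 => dil x.1 x.2 := by
  refine H3.continuous_iff.2 ⟨?_, ?_⟩
  · simp only [dil_z]
    exact (Complex.continuous_ofReal.comp (Real.continuous_exp.comp continuous_fst)).mul
      (H3.continuous_z.comp continuous_snd)
  · simp only [dil_y]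
    exact (Real.continuous_exp.comp continuous_fst).mul (H3.continuous_y.comp continuous_snd)

theorem b1_dil (t : ℝ) (p : H3) : b1 (dil t p) = b1 p + t := by
  rw [dil, (isDiagMat_dilGL t).b1_smul, log_norm_ratio_dilGL]

theorem b2_dil (t : ℝ) (p : H3) : b2 (dil t p) = b2 p - t := by
  rw [dil, (isDiagMat_dilGL t).b2_smul, log_norm_ratio_dilGL]

theorem ell_dil (t : ℝ) (p : H3) : ell (dil t p) = ell p := (isDiagMat_dilGL t).ell_smul p

theorem IsDiagMat.smul_dil {g : GL (Fin 2) ℂ} (hg : IsDiagMat g) (t : ℝ) (p : H3) :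
    g • dil t p = dil t (g • p) :=
  hg.smul_comm (isDiagMat_dilGL t) p

theorem coshDist_dil (t : ℝ) (p q : H3) : H3.coshDist (dil t p) (dil t q) = H3.coshDist p q :=
  H3.coshDist_smul _ _ _

/-- The triangle inequality for `coshDist`, with a factor two. -/
theorem coshDist_triangle (p q r : H3) :
    H3.coshDist p r ≤ 2 * H3.coshDist p q * H3.coshDist q r := by
  obtain ⟨g, hq, hp⟩ := H3.exists_smul_axis q p
  rw [← H3.coshDist_smul g p r, ← H3.coshDist_smul g p q, ← H3.coshDist_smul g q r, hq, hp,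
    H3.coshDist_comm (H3.ofLog _) H3.base, H3.coshDist_base_axis, H3.coshDist_base]
  generalize g • r = x
  generalize Real.arcosh (H3.coshDist q p) = s
  simp only [H3.coshDist, H3.ofLog_z, H3.ofLog_y, zero_sub, Complex.normSq_neg]
  have hx := x.y_pos
  have hn := Complex.normSq_nonneg x.z
  rw [Real.cosh_eq, Real.exp_neg]
  set e := Real.exp s
  have he : 0 < e := Real.exp_pos s
  field_simp
  nlinarith [mul_nonneg (sq_nonneg e) hn]

theorem coshDist_diag {g : GL (Fin 2) ℂ} (hg : IsDiagMat g) (p : H3) :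
    H3.coshDist p (g • p) =
      (Complex.normSq (1 - diagRatio g) * Complex.normSq p.z +
        p.y ^ 2 * (1 + ‖diagRatio g‖ ^ 2)) / (2 * ‖diagRatio g‖ * p.y ^ 2) := by
  rw [H3.coshDist, hg.smul_z, hg.smul_y,
    show p.z - diagRatio g * p.z = (1 - diagRatio g) * p.z by ring, Complex.normSq_mul]
  congr 1 <;> ring

/-- The sum of the heights is bounded on points moved a bounded distance. -/
theorem exists_abs_ell_le {g : GL (Fin 2) ℂ} (hg : IsDiagMat g) (h1 : diagRatio g ≠ 1) (R : ℝ) :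
    ∃ B : ℝ, ∀ p, H3.coshDist p (g • p) ≤ R →
      |ell p| ≤ B ∧ Complex.normSq p.z ≤ B * p.y ^ 2 := by
  set a := ‖diagRatio g‖
  set d := Complex.normSq (1 - diagRatio g) with hd
  have ha : 0 < a := norm_pos_iff.2 hg.ratio_ne_zero
  have hd0 : 0 < d := Complex.normSq_pos.2 (sub_ne_zero.2 (Ne.symm h1))
  set M := 2 * a * |R| / d
  have hM : 0 ≤ M := by positivity
  refine ⟨M + Real.log (1 + M), fun p hp => ?_⟩
  have hy := p.y_pos
  have hn := Complex.normSq_nonneg p.z
  have hl : 0 ≤ Real.log (1 + M) := Real.log_nonneg (by linarith)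
  rw [coshDist_diag hg, div_le_iff₀ (by positivity)] at hp
  have hz : Complex.normSq p.z ≤ M * p.y ^ 2 := by
    rw [div_mul_eq_mul_div, le_div_iff₀ hd0]
    nlinarith [le_abs_self R, mul_nonneg ha.le (sq_nonneg p.y), sq_nonneg (p.y * a)]
  refine ⟨?_, hz.trans (by nlinarith)⟩
  have hell : ell p = Real.log (p.y ^ 2 / (Complex.normSq p.z + p.y ^ 2)) := by
    rw [ell, b1, b2, ← Real.log_mul hy.ne' (div_pos hy (normSq_add_sq_pos p)).ne']
    congr 1
    ring
  have hq : 1 ≤ (Complex.normSq p.z + p.y ^ 2) / p.y ^ 2 := by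
    rw [le_div_iff₀ (by positivity)]; linarith
  have hq' : (Complex.normSq p.z + p.y ^ 2) / p.y ^ 2 ≤ 1 + M := by
    rw [div_le_iff₀ (by positivity)]; linarith
  rw [hell, ← inv_div, Real.log_inv, abs_neg, abs_of_nonneg (Real.log_nonneg hq)]
  have := Real.log_le_log (zero_lt_one.trans_le hq) hq'
  linarith

/-- A slice of the points moved a bounded distance is relatively compact. -/
theorem exists_compact_slice {g : GL (Fin 2) ℂ} (hg : IsDiagMat g) (h1 : diagRatio g ≠ 1)
    (R : ℝ) : ∃ S : Set H3, IsCompact S ∧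
      ∀ p, H3.coshDist p (g • p) ≤ R → b1 p ∈ Set.Ico (0 : ℝ) 1 → p ∈ S := by
  obtain ⟨B, hB⟩ := exists_abs_ell_le hg h1 R
  refine ⟨H3.ofLog '' (Metric.closedBall (0 : ℂ) (Real.sqrt (|B| * Real.exp 1 ^ 2)) ×ˢ
    Set.Icc (0 : ℝ) 1), (IsCompact.prod (isCompact_closedBall _ _) isCompact_Icc).image
      H3.continuous_ofLog, fun p hp hb => ?_⟩
  refine ⟨(p.z, b1 p), ⟨?_, hb.1, hb.2.le⟩, H3.ext rfl (Real.exp_log p.y_pos)⟩
  rw [mem_closedBall_zero_iff]
  refine Real.le_sqrt_of_sq_le ?_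
  rw [← Complex.normSq_eq_norm_sq]
  have hy : p.y ≤ Real.exp 1 := (Real.log_le_iff_le_exp p.y_pos).1 hb.2.le
  calc Complex.normSq p.z ≤ B * p.y ^ 2 := (hB p hp).2
    _ ≤ |B| * p.y ^ 2 := by gcongr; exact le_abs_self B
    _ ≤ _ := by gcongr; exact p.y_pos.le

end Fermat.Agent.ResidualThree.Orbital
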