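import Fermat.Agent.ResidualThree.Orbital.ArchMoment

/-!
# Chains of three radial kernels

The integral of a chain `k₀ k₁ k₂` closed up by a diagonal matrix, truncated by the heights of the
two cusps, is computed through the composed kernel (`chain_truncated`, and `twistChain_truncated`
with translations between the points). This compares the two sides of the trace identity at
infinity.
-/

noncomputable section

open Matrix MeasureTheory
open scoped ComplexConjugate

namespace Fermat.Agent.ResidualThree.Orbital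

/-- Triples of points. -/
abbrev Trip : Type := H3 × H3 × H3

/-- The measure on triples. -/
abbrev volTrip : Measure Trip := H3.vol.prod (H3.vol.prod H3.vol)

theorem continuous_coshDist_of {X : Type*} [TopologicalSpace X] {f g : X → H3} (hf : Continuous f)
    (hg : Continuous g) : Continuous fun x => H3.coshDist (f x) (g x) :=
  H3.continuous_coshDist.comp (hf.prodMk hg)

theorem integrable_pair {k₀ k₁ k₂ : ℝ → ℂ} (h₀ : H3.IsKernel k₀) (h₁ : H3.IsKernel k₁)
    (h₂ : H3.IsKernel k₂) (p x : H3) :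
    Integrable (fun r : H3 × H3 => k₀ (H3.coshDist p r.1) * k₁ (H3.coshDist r.1 r.2) *
      k₂ (H3.coshDist r.2 x)) (H3.vol.prod H3.vol) := by
  obtain ⟨R₀, -, hR₀⟩ := h₀.exists_radius
  obtain ⟨R₂, -, hR₂⟩ := h₂.exists_radius
  refine Continuous.integrable_of_hasCompactSupport
    (((h₀.cont.comp (continuous_coshDist_of continuous_const continuous_fst)).mul
      (h₁.cont.comp (continuous_coshDist_of continuous_fst continuous_snd))).mul
      (h₂.cont.comp (continuous_coshDist_of continuous_snd continuous_const))) ?_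
  refine HasCompactSupport.intro ((H3.isCompact_ball p R₀).prod (H3.isCompact_ball x R₂))
    fun r hr => ?_
  simp only [Set.mem_prod, H3.ball, Set.mem_ofPred_eq, not_and_or, not_le] at hr
  rcases hr with hr | hr
  · simp [hR₀ _ hr]
  · simp [hR₂ _ (by rwa [H3.coshDist_comm] : R₂ < H3.coshDist r.2 x)]

/-- Two inner integrations of a chain. -/
theorem integral_pair {k₀ k₁ k₂ : ℝ → ℂ} (h₀ : H3.IsKernel k₀) (h₁ : H3.IsKernel k₁)
    (h₂ : H3.IsKernel k₂) (p x : H3) :
    ∫ r : H3 × H3, k₀ (H3.coshDist p r.1) * k₁ (H3.coshDist r.1 r.2) *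
        k₂ (H3.coshDist r.2 x) ∂H3.vol.prod H3.vol =
      H3.compKernel (H3.compKernel k₀ k₁) k₂ (H3.coshDist p x) := by
  refine (integral_prod_symm _ (integrable_pair h₀ h₁ h₂ p x)).trans ?_
  simp only [integral_mul_const, H3.integral_kernel_comp]

theorem compKernel_assoc {k₀ k₁ k₂ : ℝ → ℂ} (h₀ : H3.IsKernel k₀) (h₁ : H3.IsKernel k₁)
    (h₂ : H3.IsKernel k₂) :
    H3.compKernel (H3.compKernel k₀ k₁) k₂ = H3.compKernel k₀ (H3.compKernel k₁ k₂) := by
  refine compKernel_ext fun c hc => ?_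
  obtain ⟨p, x, rfl⟩ := exists_coshDist_eq hc
  rw [← integral_pair h₀ h₁ h₂ p x, integral_prod _ (integrable_pair h₀ h₁ h₂ p x)]
  simp only [mul_assoc, integral_const_mul, H3.integral_kernel_comp]

theorem compKernel_cycle {k₀ k₁ k₂ : ℝ → ℂ} (h₀ : H3.IsKernel k₀) (h₁ : H3.IsKernel k₁)
    (h₂ : H3.IsKernel k₂) :
    H3.compKernel (H3.compKernel k₁ k₂) k₀ = H3.compKernel (H3.compKernel k₀ k₁) k₂ := by
  rw [compKernel_comm, compKernel_assoc h₀ h₁ h₂]

/-- A chain of three kernels closed up by `g`. -/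
def chain (k₀ k₁ k₂ : ℝ → ℂ) (g : GL (Fin 2) ℂ) (r : Trip) : ℂ :=
  k₀ (H3.coshDist r.1 r.2.1) * k₁ (H3.coshDist r.2.1 r.2.2) *
    k₂ (H3.coshDist r.2.2 (g • r.1))

theorem continuous_chain {k₀ k₁ k₂ : ℝ → ℂ} (h₀ : H3.IsKernel k₀) (h₁ : H3.IsKernel k₁)
    (h₂ : H3.IsKernel k₂) (g : GL (Fin 2) ℂ) : Continuous (chain k₀ k₁ k₂ g) :=
  ((h₀.cont.comp (continuous_coshDist_of continuous_fst (continuous_fst.comp continuous_snd))).mul
    (h₁.cont.comp (continuous_coshDist_of (continuous_fst.comp continuous_snd)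
      (continuous_snd.comp continuous_snd)))).mul
    (h₂.cont.comp (continuous_coshDist_of (continuous_snd.comp continuous_snd)
      ((H3.continuous_smul_gl g).comp continuous_fst)))

/-- The dilations of triples. -/
def dilTrip : Flow volTrip where
  d t r := (dil t r.1, dil t r.2.1, dil t r.2.2)
  measurable :=
    ((continuous_dil.comp (continuous_fst.prodMk (continuous_fst.comp continuous_snd))).prodMk
      ((continuous_dil.comp (continuous_fst.prodMk
        (continuous_fst.comp (continuous_snd.comp continuous_snd)))).prodMk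
      (continuous_dil.comp (continuous_fst.prodMk
        (continuous_snd.comp (continuous_snd.comp continuous_snd)))))).measurable
  preserves t := (H3.measurePreserving_smul (dilGL t)).prod
    ((H3.measurePreserving_smul (dilGL t)).prod (H3.measurePreserving_smul (dilGL t)))
  d_zero r := by simp [dil_zero]
  d_add s t r := by simp [dil_add]

theorem chain_dil {g : GL (Fin 2) ℂ} (hg : IsDiagMat g) (k₀ k₁ k₂ : ℝ → ℂ) (t : ℝ) (r : Trip) :
    chain k₀ k₁ k₂ g (dilTrip.d t r) = chain k₀ k₁ k₂ g r := by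
  simp [chain, dilTrip, hg.smul_dil, coshDist_dil]

/-- The rotation of a chain. -/
def rotTrip (g : GL (Fin 2) ℂ) (r : Trip) : Trip := (r.2.1, r.2.2, g • r.1)

theorem measurePreserving_rotTrip (g : GL (Fin 2) ℂ) :
    MeasurePreserving (rotTrip g) volTrip volTrip :=
  ((MeasurePreserving.id H3.vol).prod
    ((MeasurePreserving.id H3.vol).prod (H3.measurePreserving_smul g))).comp
    ((measurePreserving_prodAssoc H3.vol H3.vol H3.vol).comp
      (Measure.measurePreserving_swap (μ := H3.vol) (ν := H3.vol.prod H3.vol)))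

theorem chain_rot (k₀ k₁ k₂ : ℝ → ℂ) (g : GL (Fin 2) ℂ) (r : Trip) :
    chain k₁ k₂ k₀ g (rotTrip g r) = chain k₀ k₁ k₂ g r := by
  simp only [chain, rotTrip, H3.coshDist_smul]
  ring

theorem integral_rotTrip (g : GL (Fin 2) ℂ) {f : Trip → ℂ} (hf : Integrable f volTrip) :
    ∫ r, f (rotTrip g r) ∂volTrip = ∫ r, f r ∂volTrip := by
  rw [← integral_map (measurePreserving_rotTrip g).aemeasurable
    (by rw [(measurePreserving_rotTrip g).map_eq]; exact hf.aestronglyMeasurable),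
    (measurePreserving_rotTrip g).map_eq]

theorem integrable_comp_rotTrip (g : GL (Fin 2) ℂ) {f : Trip → ℂ} (hf : Integrable f volTrip) :
    Integrable (fun r => f (rotTrip g r)) volTrip :=
  ((measurePreserving_rotTrip g).integrable_comp hf.aestronglyMeasurable).2 hf

theorem chain_bound {k₀ k₁ k₂ : ℝ → ℂ} {R₀ R₁ R₂ : ℝ} (hR₀ : ∀ c, R₀ < c → k₀ c = 0)
    (hR₁ : ∀ c, R₁ < c → k₁ c = 0) (hR₂ : ∀ c, R₂ < c → k₂ c = 0) {g : GL (Fin 2) ℂ} {r : Trip}
    (hr : chain k₀ k₁ k₂ g r ≠ 0) :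
    H3.coshDist r.1 r.2.1 ≤ R₀ ∧ H3.coshDist r.2.1 r.2.2 ≤ R₁ ∧
      H3.coshDist r.2.2 (g • r.1) ≤ R₂ ∧
      H3.coshDist r.1 (g • r.1) ≤ 4 * R₀ * R₁ * R₂ := by
  simp only [chain, ne_eq, mul_eq_zero, not_or] at hr
  have h0 : H3.coshDist r.1 r.2.1 ≤ R₀ := not_lt.1 fun h => hr.1.1 (hR₀ _ h)
  have h1 : H3.coshDist r.2.1 r.2.2 ≤ R₁ := not_lt.1 fun h => hr.1.2 (hR₁ _ h)
  have h2 : H3.coshDist r.2.2 (g • r.1) ≤ R₂ := not_lt.1 fun h => hr.2 (hR₂ _ h)
  refine ⟨h0, h1, h2, ?_⟩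
  have e1 := coshDist_triangle r.1 r.2.1 (g • r.1)
  have e2 := coshDist_triangle r.2.1 r.2.2 (g • r.1)
  have p0 := H3.one_le_coshDist r.1 r.2.1
  have p1 := H3.one_le_coshDist r.2.1 r.2.2
  have p2 := H3.one_le_coshDist r.2.2 (g • r.1)
  have p3 := H3.one_le_coshDist r.2.1 (g • r.1)
  calc H3.coshDist r.1 (g • r.1) ≤ 2 * H3.coshDist r.1 r.2.1 * H3.coshDist r.2.1 (g • r.1) := e1
    _ ≤ 2 * R₀ * (2 * R₁ * R₂) := by
        refine mul_le_mul (by linarith) (e2.trans ?_) (by linarith) (by linarith)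
        exact mul_le_mul (by linarith) h2 (by linarith) (by linarith)
    _ = _ := by ring

theorem integrable_chain_eta {k₀ k₁ k₂ : ℝ → ℂ} (h₀ : H3.IsKernel k₀) (h₁ : H3.IsKernel k₁)
    (h₂ : H3.IsKernel k₂) {g : GL (Fin 2) ℂ} (hg : IsDiagMat g) (h1 : diagRatio g ≠ 1)
    {φ : Trip → ℂ} (hφ : Continuous φ) :
    Integrable (fun r => chain k₀ k₁ k₂ g r * φ r * (eta (b1 r.1) : ℂ)) volTrip := by
  obtain ⟨R₀, -, hR₀⟩ := h₀.exists_radius
  obtain ⟨R₁, -, hR₁⟩ := h₁.exists_radius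
  obtain ⟨R₂, -, hR₂⟩ := h₂.exists_radius
  obtain ⟨S₀, hS₀, hm₀⟩ := exists_compact_slice hg h1 (4 * R₀ * R₁ * R₂)
  obtain ⟨S₁, hS₁, hm₁⟩ := exists_compact_nbhd hS₀ R₀
  obtain ⟨S₂, hS₂, hm₂⟩ := exists_compact_nbhd hS₁ R₁
  refine integrable_mul_eta ((continuous_chain h₀ h₁ h₂ g).mul hφ)
    (continuous_b1.comp continuous_fst).measurable (hS₀.prod (hS₁.prod hS₂)) fun r hr hb => ?_
  obtain ⟨e0, e1, -, e⟩ := chain_bound hR₀ hR₁ hR₂ (left_ne_zero_of_mul hr)
  have m0 := hm₀ _ e hb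
  have m1 := hm₁ _ m0 _ e0
  exact ⟨m0, m1, hm₂ _ m1 _ e1⟩

/-- A function of the first point integrates against the composed kernel. -/
theorem integral_chain_first {k₀ k₁ k₂ : ℝ → ℂ} (h₀ : H3.IsKernel k₀) (h₁ : H3.IsKernel k₁)
    (h₂ : H3.IsKernel k₂) {g : GL (Fin 2) ℂ} (hg : IsDiagMat g) (h1 : diagRatio g ≠ 1)
    {φ : H3 → ℂ} (hφ : Continuous φ) :
    ∫ r, chain k₀ k₁ k₂ g r * φ r.1 * (eta (b1 r.1) : ℂ) ∂volTrip =
      ∫ p, orbFun (H3.compKernel (H3.compKernel k₀ k₁) k₂) g p * φ p * (eta (b1 p) : ℂ)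
        ∂H3.vol := by
  have hi : Integrable (fun r : Trip => chain k₀ k₁ k₂ g r * φ r.1 * (eta (b1 r.1) : ℂ)) volTrip :=
    integrable_chain_eta h₀ h₁ h₂ hg h1 (hφ.comp continuous_fst)
  rw [integral_prod _ hi]
  refine integral_congr_ae (Filter.Eventually.of_forall fun p => ?_)
  simp only [chain, integral_mul_const, integral_pair h₀ h₁ h₂, orbFun]

/-- All three points give the moment of the composed kernel. -/
theorem integral_chain_moments {k₀ k₁ k₂ : ℝ → ℂ} (h₀ : H3.IsKernel k₀) (h₁ : H3.IsKernel k₁)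
    (h₂ : H3.IsKernel k₂) {g : GL (Fin 2) ℂ} (hg : IsDiagMat g) (h1 : diagRatio g ≠ 1) :
    (∫ r, chain k₀ k₁ k₂ g r * (ell r.1 : ℂ) * (eta (b1 r.1) : ℂ) ∂volTrip =
        -archCoeff (H3.compKernel (H3.compKernel k₀ k₁) k₂) g) ∧
      (∫ r, chain k₀ k₁ k₂ g r * (ell r.2.1 : ℂ) * (eta (b1 r.1) : ℂ) ∂volTrip =
        -archCoeff (H3.compKernel (H3.compKernel k₀ k₁) k₂) g) ∧
      (∫ r, chain k₀ k₁ k₂ g r * (ell r.2.2 : ℂ) * (eta (b1 r.1) : ℂ) ∂volTrip =
        -archCoeff (H3.compKernel (H3.compKernel k₀ k₁) k₂) g) := by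
  have hl : Continuous fun p => (ell p : ℂ) := Complex.continuous_ofReal.comp continuous_ell
  have first : ∀ {a b c : ℝ → ℂ}, H3.IsKernel a → H3.IsKernel b → H3.IsKernel c →
      ∫ r, chain a b c g r * (ell r.1 : ℂ) * (eta (b1 r.1) : ℂ) ∂volTrip =
        -archCoeff (H3.compKernel (H3.compKernel a b) c) g := fun ha hb hc => by
    rw [integral_chain_first ha hb hc hg h1 hl, archCoeff, neg_neg]
  have second : ∀ {a b c : ℝ → ℂ}, H3.IsKernel a → H3.IsKernel b → H3.IsKernel c →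
      ∫ r, chain a b c g r * (ell r.2.1 : ℂ) * (eta (b1 r.1) : ℂ) ∂volTrip =
        -archCoeff (H3.compKernel (H3.compKernel a b) c) g := fun {a b c} ha hb hc => by
    have hcont : Continuous fun r : Trip => (ell r.2.1 : ℂ) :=
      hl.comp (continuous_fst.comp continuous_snd)
    rw [← (dilTrip.integral_slice_congr (u := fun r => b1 r.1) (u' := fun r => b1 r.2.1)
      (continuous_b1.comp continuous_fst).measurable
      (continuous_b1.comp (continuous_fst.comp continuous_snd)).measurable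
      (fun t r => b1_dil t r.1) (fun t r => b1_dil t r.2.1)
      (G := fun r => chain a b c g r * (ell r.2.1 : ℂ))
      ((continuous_chain ha hb hc g).mul hcont).measurable
      (fun t r => by simp only [chain_dil hg]; simp [dilTrip, ell_dil])
      (integrable_chain_eta ha hb hc hg h1 hcont)).2]
    have hi : Integrable (fun r : Trip => chain b c a g r * (ell r.1 : ℂ) * (eta (b1 r.1) : ℂ))
        volTrip := integrable_chain_eta hb hc ha hg h1 (hl.comp continuous_fst)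
    rw [← compKernel_cycle ha hb hc, ← first hb hc ha, ← integral_rotTrip g hi]
    refine integral_congr_ae (Filter.Eventually.of_forall fun r => ?_)
    simp only [rotTrip]
    rw [← chain_rot a b c g r]
    rfl
  refine ⟨first h₀ h₁ h₂, second h₀ h₁ h₂, ?_⟩
  have hcont : Continuous fun r : Trip => (ell r.2.2 : ℂ) :=
    hl.comp (continuous_snd.comp continuous_snd)
  rw [← (dilTrip.integral_slice_congr (u := fun r => b1 r.1) (u' := fun r => b1 r.2.2)
    (continuous_b1.comp continuous_fst).measurable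
    (continuous_b1.comp (continuous_snd.comp continuous_snd)).measurable
    (fun t r => b1_dil t r.1) (fun t r => b1_dil t r.2.2)
    (G := fun r => chain k₀ k₁ k₂ g r * (ell r.2.2 : ℂ))
    ((continuous_chain h₀ h₁ h₂ g).mul hcont).measurable
    (fun t r => by simp only [chain_dil hg]; simp [dilTrip, ell_dil])
    (integrable_chain_eta h₀ h₁ h₂ hg h1 hcont)).2]
  rw [← compKernel_cycle h₀ h₁ h₂, ← compKernel_cycle h₁ h₂ h₀, ← first h₂ h₀ h₁]
  have hi : Integrable (fun r : Trip => chain k₂ k₀ k₁ g r * (ell r.1 : ℂ) * (eta (b1 r.1) : ℂ))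
      volTrip := integrable_chain_eta h₂ h₀ h₁ hg h1 (hl.comp continuous_fst)
  rw [← integral_rotTrip g hi, ← integral_rotTrip g (integrable_comp_rotTrip g hi)]
  refine integral_congr_ae (Filter.Eventually.of_forall fun r => ?_)
  simp only [chain_rot]
  rfl

theorem integral_chain_eq_zero {k₀ k₁ k₂ : ℝ → ℂ} (h₀ : H3.IsKernel k₀) (h₁ : H3.IsKernel k₁)
    (h₂ : H3.IsKernel k₂) {g : GL (Fin 2) ℂ} (hg : IsDiagMat g) (h1 : diagRatio g ≠ 1)
    (h0 : abelTransform (H3.compKernel (H3.compKernel k₀ k₁) k₂)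
      (Real.log ‖diagRatio g‖) = 0) :
    ∫ r, chain k₀ k₁ k₂ g r * (eta (b1 r.1) : ℂ) ∂volTrip = 0 := by
  have h := integral_chain_first h₀ h₁ h₂ hg h1 (continuous_const (y := (1 : ℂ)))
  simp only [mul_one] at h
  rw [h, integral_orb_eq_zero ((h₀.comp h₁).comp h₂) hg h1 h0]

/-- The truncated integral of a normalised chain. -/
theorem chain_truncated {k₀ k₁ k₂ : ℝ → ℂ} (h₀ : H3.IsKernel k₀) (h₁ : H3.IsKernel k₁)
    (h₂ : H3.IsKernel k₂) {g : GL (Fin 2) ℂ} (hg : IsDiagMat g) (h1 : diagRatio g ≠ 1)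
    (h0 : abelTransform (H3.compKernel (H3.compKernel k₀ k₁) k₂)
      (Real.log ‖diagRatio g‖) = 0) :
    ∃ B : ℝ, ∀ f₁ f₂ T : ℝ, B + |f₁ + f₂| ≤ 2 * T →
      ∫ r, {r : Trip | f₁ + 2 * (b1 r.1 + b1 r.2.1 + b1 r.2.2) ≤ T ∧
          f₂ + 2 * (b2 r.1 + b2 r.2.1 + b2 r.2.2) ≤ T}.indicator (chain k₀ k₁ k₂ g) r ∂volTrip =
        archCoeff (H3.compKernel (H3.compKernel k₀ k₁) k₂) g := by
  obtain ⟨R₀, -, hR₀⟩ := h₀.exists_radius
  obtain ⟨R₁, -, hR₁⟩ := h₁.exists_radius
  obtain ⟨R₂, -, hR₂⟩ := h₂.exists_radius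
  obtain ⟨B, hB⟩ := exists_abs_ell_le hg h1 (4 * R₀ * R₁ * R₂)
  refine ⟨6 * B, fun f₁ f₂ T hT => ?_⟩
  have c0 : Continuous fun r : Trip => r.1 := continuous_fst
  have c1 : Continuous fun r : Trip => r.2.1 := continuous_fst.comp continuous_snd
  have c2 : Continuous fun r : Trip => r.2.2 := continuous_snd.comp continuous_snd
  have hgi : Integrable (fun r => chain k₀ k₁ k₂ g r * (eta (b1 r.1) : ℂ)) volTrip := by
    simpa using integrable_chain_eta h₀ h₁ h₂ hg h1 (continuous_const (y := (1 : ℂ)))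
  rw [dilTrip.integral_truncated (u := fun r => b1 r.1)
    (u₁ := fun r => f₁ + 2 * (b1 r.1 + b1 r.2.1 + b1 r.2.2))
    (u₂ := fun r => f₂ + 2 * (b2 r.1 + b2 r.2.1 + b2 r.2.2)) (κ := 6)
    (C := 6 * B + |f₁ + f₂|) (T := T)
    (continuous_b1.comp c0).measurable
    (continuous_const.add (continuous_const.mul (((continuous_b1.comp c0).add
      (continuous_b1.comp c1)).add (continuous_b1.comp c2)))).measurable
    (continuous_const.add (continuous_const.mul (((continuous_b2.comp c0).add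
      (continuous_b2.comp c1)).add (continuous_b2.comp c2)))).measurable
    (fun t r => b1_dil t r.1) (by norm_num)
    (fun t r => by simp only [dilTrip, b1_dil]; ring)
    (fun t r => by simp only [dilTrip, b2_dil]; ring)
    (continuous_chain h₀ h₁ h₂ g).measurable (chain_dil hg k₀ k₁ k₂) hgi ?_ hT]
  · have hl : Continuous fun p => (ell p : ℂ) := Complex.continuous_ofReal.comp continuous_ell
    have i0 := integrable_chain_eta h₀ h₁ h₂ hg h1 (φ := fun r => (ell r.1 : ℂ)) (hl.comp c0)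
    have i1 := integrable_chain_eta h₀ h₁ h₂ hg h1 (φ := fun r => (ell r.2.1 : ℂ)) (hl.comp c1)
    have i2 := integrable_chain_eta h₀ h₁ h₂ hg h1 (φ := fun r => (ell r.2.2 : ℂ)) (hl.comp c2)
    obtain ⟨m0, m1, m2⟩ := integral_chain_moments h₀ h₁ h₂ hg h1
    have e : ∀ r : Trip, chain k₀ k₁ k₂ g r * (eta (b1 r.1) : ℂ) *
        (((2 * T - (f₁ + 2 * (b1 r.1 + b1 r.2.1 + b1 r.2.2) +
          (f₂ + 2 * (b2 r.1 + b2 r.2.1 + b2 r.2.2)))) / 6 : ℝ) : ℂ) =
        (((2 * T - (f₁ + f₂)) / 6 : ℝ) : ℂ) * (chain k₀ k₁ k₂ g r * (eta (b1 r.1) : ℂ)) -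
          (1 / 3 : ℂ) * (chain k₀ k₁ k₂ g r * (ell r.1 : ℂ) * (eta (b1 r.1) : ℂ) +
            chain k₀ k₁ k₂ g r * (ell r.2.1 : ℂ) * (eta (b1 r.1) : ℂ) +
            chain k₀ k₁ k₂ g r * (ell r.2.2 : ℂ) * (eta (b1 r.1) : ℂ)) := fun r => by
      simp only [ell]
      push_cast
      ring
    simp only [e]
    rw [integral_sub (hgi.const_mul _) (Integrable.const_mul ?_ (1 / 3 : ℂ)),
      integral_const_mul, integral_const_mul, integral_add ?_ i2, integral_add i0 i1,
      integral_chain_eq_zero h₀ h₁ h₂ hg h1 h0, m0, m1, m2]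
    · ring
    · exact i0.add i1
    · exact (i0.add i1).add i2
  · intro r hr
    obtain ⟨-, -, -, e0⟩ := chain_bound hR₀ hR₁ hR₂ hr
    have e1 : H3.coshDist r.2.1 (g • r.2.1) ≤ 4 * R₁ * R₂ * R₀ :=
      (chain_bound hR₁ hR₂ hR₀ (r := rotTrip g r) (by rw [chain_rot]; exact hr)).2.2.2
    have e2 : H3.coshDist r.2.2 (g • r.2.2) ≤ 4 * R₂ * R₀ * R₁ :=
      (chain_bound hR₂ hR₀ hR₁ (r := rotTrip g (rotTrip g r))
        (by rw [chain_rot, chain_rot]; exact hr)).2.2.2
    have b0 := abs_le.1 (hB _ e0).1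
    have b1' := abs_le.1 (hB _ (e1.trans_eq (by ring))).1
    have b2' := abs_le.1 (hB _ (e2.trans_eq (by ring))).1
    simp only [ell] at b0 b1' b2'
    have := abs_le.1 (le_refl |f₁ + f₂|)
    rw [abs_le]
    constructor <;> linarith

/-- A chain with translations between the points. -/
def twistChain (k₀ k₁ k₂ : ℝ → ℂ) (δ₀ δ₁ δ₂ : GL (Fin 2) ℂ) (q : Trip) : ℂ :=
  k₀ (H3.coshDist q.1 (δ₀ • q.2.1)) * k₁ (H3.coshDist q.2.1 (δ₁ • q.2.2)) *
    k₂ (H3.coshDist q.2.2 (δ₂ • q.1))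

theorem twistChain_eq_chain (k₀ k₁ k₂ : ℝ → ℂ) (δ₀ δ₁ δ₂ : GL (Fin 2) ℂ) (q : Trip) :
    twistChain k₀ k₁ k₂ δ₀ δ₁ δ₂ q =
      chain k₀ k₁ k₂ (δ₀ * δ₁ * δ₂) (q.1, δ₀ • q.2.1, (δ₀ * δ₁) • q.2.2) := by
  simp only [twistChain, chain, mul_smul, H3.coshDist_smul]

/-- The truncated integral of a chain with diagonal translations. -/
theorem twistChain_truncated {k₀ k₁ k₂ : ℝ → ℂ} (h₀ : H3.IsKernel k₀) (h₁ : H3.IsKernel k₁)
    (h₂ : H3.IsKernel k₂) {δ₀ δ₁ δ₂ : GL (Fin 2) ℂ} (d₀ : IsDiagMat δ₀) (d₁ : IsDiagMat δ₁)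
    (d₂ : IsDiagMat δ₂) (h1 : diagRatio (δ₀ * δ₁ * δ₂) ≠ 1)
    (h0 : abelTransform (H3.compKernel (H3.compKernel k₀ k₁) k₂)
      (Real.log ‖diagRatio (δ₀ * δ₁ * δ₂)‖) = 0) :
    ∃ B : ℝ, ∀ f₁ f₂ T : ℝ, B + |f₁ + f₂| ≤ 2 * T →
      ∫ r, {r : Trip | f₁ + 2 * (b1 r.1 + b1 r.2.1 + b1 r.2.2) ≤ T ∧
          f₂ + 2 * (b2 r.1 + b2 r.2.1 + b2 r.2.2) ≤ T}.indicator
          (twistChain k₀ k₁ k₂ δ₀ δ₁ δ₂) r ∂volTrip =
        archCoeff (H3.compKernel (H3.compKernel k₀ k₁) k₂) (δ₀ * δ₁ * δ₂) := by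
  have hd : IsDiagMat (δ₀ * δ₁ * δ₂) := by
    constructor <;>
      simp [Matrix.mul_apply, Fin.sum_univ_two, d₀.1, d₀.2, d₁.1, d₁.2, d₂.1, d₂.2]
  obtain ⟨B, hB⟩ := chain_truncated h₀ h₁ h₂ hd h1 h0
  refine ⟨B, fun f₁ f₂ T hT => ?_⟩
  set c := Real.log ‖diagRatio δ₀‖ + (Real.log ‖diagRatio δ₀‖ + Real.log ‖diagRatio δ₁‖) with hc
  rw [← hB (f₁ - 2 * c) (f₂ + 2 * c) T
    (by rwa [show f₁ - 2 * c + (f₂ + 2 * c) = f₁ + f₂ by ring])]
  have hN : MeasurePreserving (fun q : Trip => (q.1, δ₀ • q.2.1, (δ₀ * δ₁) • q.2.2))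
      volTrip volTrip :=
    (MeasurePreserving.id H3.vol).prod
      ((H3.measurePreserving_smul δ₀).prod (H3.measurePreserving_smul (δ₀ * δ₁)))
  conv_rhs => rw [← hN.map_eq]
  rw [integral_map hN.aemeasurable]
  · refine integral_congr_ae (Filter.Eventually.of_forall fun q => ?_)
    simp only [Set.indicator_apply]
    rw [← twistChain_eq_chain]
    refine ite_congr (propext ?_) (fun _ => rfl) (fun _ => rfl)
    simp only [Set.mem_ofPred_eq, mul_smul, d₀.b1_smul, d₁.b1_smul, d₀.b2_smul, d₁.b2_smul]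
    constructor <;> rintro ⟨a, b⟩ <;> constructor <;> linarith
  · refine ((continuous_chain h₀ h₁ h₂ _).measurable.indicator ?_).aestronglyMeasurable
    exact (measurableSet_le (continuous_const.add (continuous_const.mul
        (((continuous_b1.comp continuous_fst).add
          (continuous_b1.comp (continuous_fst.comp continuous_snd))).add
          (continuous_b1.comp (continuous_snd.comp continuous_snd))))).measurable
        measurable_const).inter
      (measurableSet_le (continuous_const.add (continuous_const.mul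
        (((continuous_b2.comp continuous_fst).add
          (continuous_b2.comp (continuous_fst.comp continuous_snd))).add
          (continuous_b2.comp (continuous_snd.comp continuous_snd))))).measurable
        measurable_const)

end Fermat.Agent.ResidualThree.Orbital
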