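import Fermat.Agent.ResidualThree.Orbital.Arch

/-!
# Truncated orbital integrals of hyperbolic classes at infinity

For a diagonal matrix `g` with vanishing horospherical transform, the truncated integral of a
radial kernel is minus the moment of the sum of the two log-heights.  For a chain of three kernels
it is the same number at the composed kernel: compositions of radial kernels commute.
-/

noncomputable section

open Matrix MeasureTheory
open scoped ComplexConjugate

namespace Fermat.Agent.ResidualThree.Orbital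

theorem compKernel_cut (a b : ℝ → ℂ) (c : ℝ) :
    H3.compKernel a b c = ((max 0 (min c 1) : ℝ) : ℂ) * H3.compKernel a b (max c 1) := by
  have h : max 0 (min (max c 1) 1) = (1 : ℝ) := by simp
  rw [H3.compKernel, H3.compKernel, h, max_eq_left (le_max_right c 1), Complex.ofReal_one, one_mul]

theorem compKernel_ext {a b a' b' : ℝ → ℂ}
    (h : ∀ c : ℝ, 1 ≤ c → H3.compKernel a b c = H3.compKernel a' b' c) :
    H3.compKernel a b = H3.compKernel a' b' :=
  funext fun c => by rw [compKernel_cut a b, compKernel_cut a' b', h _ (le_max_right c 1)]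

theorem exists_coshDist_eq {c : ℝ} (hc : 1 ≤ c) : ∃ p q : H3, H3.coshDist p q = c :=
  ⟨H3.base, H3.ofLog (0, Real.arcosh c), by rw [H3.coshDist_base_axis, Real.cosh_arcosh hc]⟩

theorem compKernel_comm (a b : ℝ → ℂ) : H3.compKernel a b = H3.compKernel b a := by
  refine compKernel_ext fun c hc => ?_
  obtain ⟨p, q, rfl⟩ := exists_coshDist_eq hc
  rw [← H3.integral_kernel_comp, H3.coshDist_comm p q, ← H3.integral_kernel_comp]
  refine integral_congr_ae (Filter.Eventually.of_forall fun x => ?_)
  simp only [H3.coshDist_comm p x, H3.coshDist_comm x q, mul_comm]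

theorem eta_eq_zero {s : ℝ} (h : s ∉ Set.Ico (0 : ℝ) 1) : eta s = 0 :=
  Set.indicator_of_notMem h _

theorem norm_eta_le (s : ℝ) : ‖((eta s : ℝ) : ℂ)‖ ≤ 1 := by
  rw [Complex.norm_real, Real.norm_of_nonneg (eta_nonneg s)]
  exact Set.indicator_le_self' (fun _ _ => zero_le_one) s

theorem exists_compact_nbhd {S : Set H3} (hS : IsCompact S) (R : ℝ) :
    ∃ S' : Set H3, IsCompact S' ∧ ∀ p ∈ S, ∀ q, H3.coshDist p q ≤ R → q ∈ S' := by
  refine ⟨(fun x : H3 × H3 => H3.upTo x.1 • x.2) '' (S ×ˢ H3.ball H3.base R),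
    (hS.prod (H3.isCompact_ball_base R)).image ?_,
    fun p hp q hq => ⟨(p, (H3.upTo p)⁻¹ • q), ⟨hp, ?_⟩, smul_inv_smul _ _⟩⟩
  · rw [H3.continuous_iff]
    simp only [H3.upTo_smul_z, H3.upTo_smul_y]
    have h1 : Continuous fun x : H3 × H3 => x.1.z := H3.continuous_z.comp continuous_fst
    have h2 : Continuous fun x : H3 × H3 => x.2.z := H3.continuous_z.comp continuous_snd
    have h3 : Continuous fun x : H3 × H3 => x.1.y := H3.continuous_y.comp continuous_fst
    have h4 : Continuous fun x : H3 × H3 => x.2.y := H3.continuous_y.comp continuous_snd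
    exact ⟨((Complex.continuous_ofReal.comp h3).mul h2).add h1, h3.mul h4⟩
  · show H3.coshDist H3.base _ ≤ R
    rw [← H3.coshDist_smul (H3.upTo p), smul_inv_smul, H3.upTo_smul_base]
    exact hq

theorem integrable_mul_eta {X : Type*} [TopologicalSpace X] [T2Space X] [MeasurableSpace X]
    [OpensMeasurableSpace X] {μ : Measure X}
    [IsFiniteMeasureOnCompacts μ] {F : X → ℂ} (hF : Continuous F) {u : X → ℝ} (hu : Measurable u)
    {S : Set X} (hS : IsCompact S) (h : ∀ x, F x ≠ 0 → u x ∈ Set.Ico (0 : ℝ) 1 → x ∈ S) :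
    Integrable (fun x => F x * (eta (u x) : ℂ)) μ := by
  have h1 : IntegrableOn F S μ := hF.continuousOn.integrableOn_compact hS
  have hm : Measurable fun x => ((eta (u x) : ℝ) : ℂ) :=
    Complex.measurable_ofReal.comp (measurable_eta.comp hu)
  have h2 : IntegrableOn (fun x => ((eta (u x) : ℝ) : ℂ) * F x) S μ :=
    h1.bdd_mul hm.aestronglyMeasurable (Filter.Eventually.of_forall fun x => norm_eta_le (u x))
  refine ((integrable_indicator_iff hS.measurableSet).2 h2).congr
    (Filter.Eventually.of_forall fun x => ?_)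
  by_cases hx : x ∈ S
  · rw [Set.indicator_of_mem hx]; exact mul_comm _ _
  · rw [Set.indicator_of_notMem hx]
    by_cases h0 : F x = 0
    · simp [h0]
    · simp only [eta_eq_zero fun hh => hx (h x h0 hh), Complex.ofReal_zero, mul_zero]

/-! ### One point -/

/-- The orbital integrand. -/
def orbFun (k : ℝ → ℂ) (g : GL (Fin 2) ℂ) (p : H3) : ℂ := k (H3.coshDist p (g • p))

theorem continuous_orbFun {k : ℝ → ℂ} (hk : Continuous k) (g : GL (Fin 2) ℂ) :
    Continuous (orbFun k g) :=
  hk.comp (H3.continuous_coshDist.comp (continuous_id.prodMk (H3.continuous_smul_gl g)))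

theorem orbFun_dil {g : GL (Fin 2) ℂ} (hg : IsDiagMat g) (k : ℝ → ℂ) (t : ℝ) (p : H3) :
    orbFun k g (dil t p) = orbFun k g p := by
  rw [orbFun, orbFun, hg.smul_dil, coshDist_dil]

/-- Minus the moment of the sum of the two log-heights. -/
def archCoeff (k : ℝ → ℂ) (g : GL (Fin 2) ℂ) : ℂ :=
  -∫ p, orbFun k g p * (ell p : ℂ) * (eta (b1 p) : ℂ) ∂H3.vol

theorem integrable_orb_eta {k : ℝ → ℂ} (hk : H3.IsKernel k) {g : GL (Fin 2) ℂ} (hg : IsDiagMat g)
    (h1 : diagRatio g ≠ 1) {φ : H3 → ℂ} (hφ : Continuous φ) :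
    Integrable (fun p => orbFun k g p * φ p * (eta (b1 p) : ℂ)) H3.vol := by
  obtain ⟨R, -, hR⟩ := hk.exists_radius
  obtain ⟨S, hS, hSm⟩ := exists_compact_slice hg h1 R
  refine integrable_mul_eta ((continuous_orbFun hk.cont g).mul hφ) continuous_b1.measurable hS
    fun p hp hb => hSm p (not_lt.1 fun hlt => hp ?_) hb
  simp [orbFun, hR _ hlt]

/-- The orbital integral vanishes with the horospherical transform. -/
theorem integral_orb_eq_zero {k : ℝ → ℂ} (hk : H3.IsKernel k) {g : GL (Fin 2) ℂ}
    (hg : IsDiagMat g) (h1 : diagRatio g ≠ 1)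
    (h0 : abelTransform k (Real.log ‖diagRatio g‖) = 0) :
    ∫ p, orbFun k g p * (eta (b1 p) : ℂ) ∂H3.vol = 0 := by
  have hi : Integrable (fun p => orbFun k g p * (eta (b1 p) : ℂ)) H3.vol := by
    simpa using integrable_orb_eta hk hg h1 (continuous_const (y := (1 : ℂ)))
  have hI : ∫ x in Set.Ioi (Real.cosh (Real.log ‖diagRatio g‖)), k x = 0 := by
    rw [abelTransform] at h0
    simpa [Real.pi_ne_zero] using h0
  rw [H3.integral_slices hi]
  refine integral_eq_zero_of_ae (Filter.Eventually.of_forall fun s => ?_)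
  have ha : 0 < ‖diagRatio g‖ := norm_pos_iff.2 hg.ratio_ne_zero
  set a := ‖diagRatio g‖
  set d := Complex.normSq (1 - diagRatio g)
  have hd : 0 < d := Complex.normSq_pos.2 (sub_ne_zero.2 (Ne.symm h1))
  set c := d / (2 * a * Real.exp s ^ 2) with hc
  have hc0 : 0 < c := by positivity
  have he : ∀ z : ℂ, orbFun k g (H3.ofLog (z, s)) * (eta (b1 (H3.ofLog (z, s))) : ℂ) =
      k (Real.cosh (Real.log a) + c * Complex.normSq z) * (eta s : ℂ) := fun z => by
    rw [orbFun, coshDist_diag hg, b1, H3.ofLog_y, Real.log_exp, H3.ofLog_z]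
    congr 2
    have hn : ‖diagRatio g‖ ≠ 0 := ha.ne'
    rw [Real.cosh_eq, Real.exp_neg, Real.exp_log ha, hc, show a = ‖diagRatio g‖ from rfl,
      show d = Complex.normSq (1 - diagRatio g) from rfl]
    field_simp
    ring
  simp only [he, Pi.zero_apply]
  rw [integral_mul_const, H3.integral_normSq (fun t => k (Real.cosh (Real.log a) + c * t)),
    integral_comp_mul_left_Ioi (fun t => k (Real.cosh (Real.log a) + t)) 0 hc0, mul_zero]
  have h2 : ∫ x in Set.Ioi (0 : ℝ), k (Real.cosh (Real.log a) + x) = 0 := by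
    rw [← hI, ← integral_indicator measurableSet_Ioi, ← integral_indicator measurableSet_Ioi,
      ← integral_add_left_eq_self
        (fun x => (Set.Ioi (Real.cosh (Real.log a))).indicator k x) (Real.cosh (Real.log a))]
    congr 1
    ext x
    simp [Set.indicator_apply]
  simp [h2]

/-- The dilations as a flow. -/
def dilFlow : Flow H3.vol where
  d := dil
  measurable := continuous_dil.measurable
  preserves t := H3.measurePreserving_smul (dilGL t)
  d_zero := dil_zero
  d_add := dil_add

/-- For large truncation the truncated orbital integral is `archCoeff`. -/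
theorem orb_truncated {k : ℝ → ℂ} (hk : H3.IsKernel k) {g : GL (Fin 2) ℂ} (hg : IsDiagMat g)
    (h1 : diagRatio g ≠ 1) (h0 : abelTransform k (Real.log ‖diagRatio g‖) = 0) :
    ∃ B : ℝ, ∀ f₁ f₂ T : ℝ, B + |f₁ + f₂| ≤ 2 * T →
      ∫ p, {p | f₁ + 2 * b1 p ≤ T ∧ f₂ + 2 * b2 p ≤ T}.indicator (orbFun k g) p ∂H3.vol =
        archCoeff k g := by
  obtain ⟨R, -, hR⟩ := hk.exists_radius
  obtain ⟨B, hB⟩ := exists_abs_ell_le hg h1 R
  refine ⟨2 * B, fun f₁ f₂ T hT => ?_⟩
  have hgi : Integrable (fun p => orbFun k g p * (eta (b1 p) : ℂ)) H3.vol := by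
    simpa using integrable_orb_eta hk hg h1 (continuous_const (y := (1 : ℂ)))
  rw [dilFlow.integral_truncated (u := b1) (u₁ := fun p => f₁ + 2 * b1 p)
    (u₂ := fun p => f₂ + 2 * b2 p) (κ := 2) (C := 2 * B + |f₁ + f₂|) (T := T)
    continuous_b1.measurable (continuous_const.add (continuous_const.mul continuous_b1)).measurable
    (continuous_const.add (continuous_const.mul continuous_b2)).measurable b1_dil two_pos
    (fun t p => by show f₁ + 2 * b1 (dil t p) = _; rw [b1_dil]; ring)
    (fun t p => by show f₂ + 2 * b2 (dil t p) = _; rw [b2_dil]; ring)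
    (continuous_orbFun hk.cont g).measurable (orbFun_dil hg k) hgi ?_ hT]
  · have hm := integrable_orb_eta hk hg h1 (φ := fun p => (ell p : ℂ))
      (Complex.continuous_ofReal.comp continuous_ell)
    have e : ∀ p, orbFun k g p * (eta (b1 p) : ℂ) *
        (((2 * T - (f₁ + 2 * b1 p + (f₂ + 2 * b2 p))) / 2 : ℝ) : ℂ) =
        (((2 * T - (f₁ + f₂)) / 2 : ℝ) : ℂ) * (orbFun k g p * (eta (b1 p) : ℂ)) -
          orbFun k g p * (ell p : ℂ) * (eta (b1 p) : ℂ) := fun p => by
      simp only [ell]
      push_cast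
      ring
    simp only [e]
    rw [integral_sub (hgi.const_mul _) hm, integral_const_mul,
      integral_orb_eq_zero hk hg h1 h0, mul_zero, zero_sub, archCoeff]
  · intro p hp
    have h := (hB p (not_lt.1 fun hlt => hp (by simp [orbFun, hR _ hlt]))).1
    rw [ell] at h
    have := abs_le.1 h
    rw [abs_le]
    constructor <;> linarith [abs_le.1 (le_refl |f₁ + f₂|)]

end Fermat.Agent.ResidualThree.Orbital
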