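import Fermat.Agent.ResidualThree.Orbital.Coord
import Fermat.Agent.ResidualThree.Orbital.GlobalTransfer

/-!
# One class: weights pulled back along the projections, passage to the commutant

The integral of a class does not depend on the weight or the representative, so it can be computed
with a weight pulled back along the projections to the places, for the commutant in place of the
stabiliser (`reduce_base`, `GoodRep.reduce_twisted`).
-/

noncomputable section

open IsDedekindDomain NumberField MeasureTheory MulAction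
open scoped ENNReal

namespace Fermat.Agent.ResidualThree.Orbital

section Master

variable {Ω Q P : Type*} [Countable Ω] [Countable Q] [MeasurableSpace Ω]
  [MeasurableSingletonClass Ω] [MeasurableSpace P] {μ : Measure P} [SFinite μ]

omit [Countable Q] in
theorem measurable_avgFin (Φ : Ω → Finset Q) {W : Q → P → ℝ≥0∞} (hW : ∀ q, Measurable (W q)) :
    Measurable fun z : Ω × P => avgFin Φ (fun q => W q z.2) z.1 :=
  measurable_from_prod_countable_right fun x => by
    show Measurable fun p => (∑ q ∈ Φ x, W q p) * ((Φ x).card : ℝ≥0∞)⁻¹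
    exact (Finset.measurable_fun_sum _ fun q _ => hW q).mul_const _

omit [Countable Q] in
/-- A fibred integral against an averaged weight is the sum against the fibre sums. -/
theorem integral_avg_eq (Φ : Ω → Finset Q) (c : Ω → ℂ) {W : Q → P → ℝ≥0∞}
    (hW : ∀ q, Measurable (W q)) (hW1 : ∀ q p, W q p ≤ 1) {g : Ω → P → ℂ}
    (hg : ∀ x, Measurable (g x)) (Ψ : Q → ℂ) (hfin : ∀ q, {x | c x ≠ 0 ∧ q ∈ Φ x}.Finite)
    (hint : ∫⁻ z : Ω × P, avgFin Φ (fun q => W q z.2) z.1 * ‖c z.1 * g z.1 z.2‖ₑ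
      ∂(Measure.count : Measure Ω).prod μ ≠ ⊤)
    (hΨ : ∀ x q, c x ≠ 0 → q ∈ Φ x →
      Integrable (fun p => ((W q p).toReal : ℂ) * g x p) μ →
      ∫ p, ((W q p).toReal : ℂ) * g x p ∂μ = Ψ q) :
    ∫ z : Ω × P, ((avgFin Φ (fun q => W q z.2) z.1).toReal : ℂ) * (c z.1 * g z.1 z.2)
        ∂(Measure.count : Measure Ω).prod μ = ∑' q, Ψ q * pushFin Φ c q := by
  classical
  have hgm : Measurable fun z : Ω × P => c z.1 * g z.1 z.2 :=
    measurable_from_prod_countable_right fun x => (hg x).const_mul (c x)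
  have hWm := measurable_avgFin Φ hW
  have hle : ∀ x q, q ∈ Φ x → (∫⁻ p, W q p * ‖g x p‖ₑ ∂μ) * (‖c x‖ₑ * ((Φ x).card : ℝ≥0∞)⁻¹) ≤
      ∫⁻ p, avgFin Φ (fun q => W q p) x * ‖c x * g x p‖ₑ ∂μ := by
    intro x q hq
    have hm : Measurable fun p => W q p * ‖g x p‖ₑ := (hW q).mul (hg x).enorm
    rw [← lintegral_mul_const _ hm]
    refine lintegral_mono fun p => ?_
    rw [avgFin, enorm_mul]
    calc W q p * ‖g x p‖ₑ * (‖c x‖ₑ * ((Φ x).card : ℝ≥0∞)⁻¹)
        ≤ (∑ q ∈ Φ x, W q p) * ‖g x p‖ₑ * (‖c x‖ₑ * ((Φ x).card : ℝ≥0∞)⁻¹) := by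
          gcongr
          exact Finset.single_le_sum (f := fun q => W q p) (fun _ _ => zero_le) hq
      _ = _ := by ring
  have hmz : Measurable fun z : Ω × P =>
      avgFin Φ (fun q => W q z.2) z.1 * ‖c z.1 * g z.1 z.2‖ₑ := hWm.mul hgm.enorm
  have ec := lintegral_count_prod (μ := μ) hmz
  rw [ec] at hint
  have hi : Integrable (fun z : Ω × P =>
      ((avgFin Φ (fun q => W q z.2) z.1).toReal : ℂ) * (c z.1 * g z.1 z.2))
      ((Measure.count : Measure Ω).prod μ) := by
    refine ⟨((Complex.measurable_ofReal.comp hWm.ennreal_toReal).mul hgm).aestronglyMeasurable, ?_⟩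
    refine lt_of_le_of_lt (lintegral_mono fun z => ?_)
      (ec.trans_ne hint).lt_top
    rw [enorm_mul]
    refine mul_le_mul' ?_ le_rfl
    rw [← ofReal_norm, Complex.norm_real, Real.norm_of_nonneg ENNReal.toReal_nonneg]
    exact ENNReal.ofReal_toReal_le
  rw [integral_count_prod hi]
  have hterm : ∀ x q, c x ≠ 0 → q ∈ Φ x → Integrable (fun p => ((W q p).toReal : ℂ) * g x p) μ ∧
      ∫⁻ p, W q p * ‖g x p‖ₑ ∂μ ≠ ⊤ := by
    intro x q hc hq
    have hfin' : ∫⁻ p, W q p * ‖g x p‖ₑ ∂μ ≠ ⊤ := fun h => by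
      have h1 := (hle x q hq).trans
        (ENNReal.le_tsum (f := fun x => ∫⁻ p, avgFin Φ (fun q => W q p) x * ‖c x * g x p‖ₑ ∂μ) x)
      rw [h, ENNReal.top_mul (mul_ne_zero (by simpa using hc)
        (ENNReal.inv_ne_zero.2 (ENNReal.natCast_ne_top _))), top_le_iff] at h1
      exact hint h1
    refine ⟨⟨((Complex.measurable_ofReal.comp (hW q).ennreal_toReal).mul
      (hg x)).aestronglyMeasurable, lt_of_le_of_lt (lintegral_mono fun p => ?_)
        hfin'.lt_top⟩, hfin'⟩
    rw [enorm_mul, ← ofReal_norm (((W q p).toReal : ℂ)), Complex.norm_real,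
      Real.norm_of_nonneg ENNReal.toReal_nonneg]
    exact mul_le_mul' ENNReal.ofReal_toReal_le le_rfl
  have hx : ∀ x, ∫ p, ((avgFin Φ (fun q => W q p) x).toReal : ℂ) * (c x * g x p) ∂μ =
      c x * avgFin Φ Ψ x := by
    intro x
    by_cases hc : c x = 0
    · simp [hc]
    have e : ∀ p, ((avgFin Φ (fun q => W q p) x).toReal : ℂ) * (c x * g x p) =
        ∑ q ∈ Φ x, ((W q p).toReal : ℂ) * g x p * (c x * ((Φ x).card : ℂ)⁻¹) := fun p => by
      rw [avgFin, ENNReal.toReal_mul, ENNReal.toReal_sum fun q _ =>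
        ne_top_of_le_ne_top ENNReal.one_ne_top (hW1 q p),
        ENNReal.toReal_inv, ENNReal.toReal_natCast]
      push_cast
      rw [Finset.sum_mul, Finset.sum_mul]
      exact Finset.sum_congr rfl fun q _ => by ring
    simp only [e]
    rw [integral_finsetSum _ fun q hq => (hterm x q hc hq).1.mul_const _, avgFin,
      ← mul_assoc, Finset.mul_sum, Finset.sum_mul]
    refine Finset.sum_congr rfl fun q hq => ?_
    rw [integral_mul_const, hΨ x q hc hq (hterm x q hc hq).1]
    ring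
  simp only [hx]
  refine tsum_mul_avgFin Φ c Ψ hfin ?_
  refine ne_top_of_le_ne_top hint (ENNReal.tsum_le_tsum fun x => ?_)
  by_cases hc : c x = 0
  · simp [hc]
  rw [avgFin, ← mul_assoc, Finset.mul_sum, Finset.sum_mul]
  calc ∑ q ∈ Φ x, ‖c x‖ₑ * ‖Ψ q‖ₑ * ((Φ x).card : ℝ≥0∞)⁻¹
      ≤ ∑ q ∈ Φ x, (∫⁻ p, W q p * ‖g x p‖ₑ ∂μ) * (‖c x‖ₑ * ((Φ x).card : ℝ≥0∞)⁻¹) := by
        refine Finset.sum_le_sum fun q hq => ?_
        rw [mul_comm ‖c x‖ₑ, mul_assoc]
        gcongr
        rw [← hΨ x q hc hq (hterm x q hc hq).1]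
        refine (enorm_integral_le_lintegral_enorm _).trans (lintegral_mono fun p => ?_)
        rw [enorm_mul, ← ofReal_norm (((W q p).toReal : ℂ)), Complex.norm_real,
          Real.norm_of_nonneg ENNReal.toReal_nonneg]
        exact mul_le_mul' ENNReal.ofReal_toReal_le le_rfl
    _ = ∫⁻ p, avgFin Φ (fun q => W q p) x * ‖c x * g x p‖ₑ ∂μ := by
        simp only [avgFin, enorm_mul, Finset.sum_mul]
        have hmq : ∀ q ∈ Φ x, Measurable fun p =>
            W q p * ((Φ x).card : ℝ≥0∞)⁻¹ * (‖c x‖ₑ * ‖g x p‖ₑ) := fun q _ =>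
          ((hW q).mul_const _).mul ((hg x).enorm.const_mul _)
        rw [lintegral_finsetSum _ hmq]
        refine Finset.sum_congr rfl fun q _ => ?_
        have hm : Measurable fun p => W q p * ‖g x p‖ₑ := (hW q).mul (hg x).enorm
        rw [← lintegral_mul_const _ hm]
        exact lintegral_congr fun p => by ring

end Master

section Change

variable {G X D : Type*} [Group G] [Countable G] [MeasurableSpace X] [MulAction G X]
  [MeasurableConstSMul G X] [MulAction G D] {μ : Measure X} [SMulInvariantMeasure G X μ]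

/-- The integral of a class does not depend on its representative or on the weight. -/
theorem class_integral_congr {F : D → X → ℂ} (hFm : ∀ d, Measurable (F d))
    (hF : ∀ (g : G) d x, F (g • d) (g • x) = F d x) {d : D} (g : G) {W W' : X → ℝ≥0∞}
    (hW : IsWeight μ (stabilizer G d) W Set.univ)
    (hW' : IsWeight μ (stabilizer G (g • d)) W' Set.univ)
    (hfin : ∫⁻ x, W x * ‖F d x‖ₑ ∂μ ≠ ⊤) :
    ∫⁻ x, W' x * ‖F (g • d) x‖ₑ ∂μ ≠ ⊤ ∧
      ∫ x, ((W' x).toReal : ℂ) * F (g • d) x ∂μ = ∫ x, ((W x).toReal : ℂ) * F d x ∂μ := by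
  set V : X → ℝ≥0∞ := fun x => W' (g • x)
  have hV : IsWeight μ (stabilizer G d) V Set.univ := by
    refine ⟨hW'.measurable.comp (measurable_const_smul g), ?_⟩
    filter_upwards [(measurePreserving_smul g μ).quasiMeasurePreserving.ae hW'.sum_eq] with x hx hu
    rw [← hx hu]
    let e : stabilizer G d ≃ stabilizer G (g • d) :=
      { toFun := fun h => ⟨g * h * g⁻¹, by
          rw [mem_stabilizer_iff, mul_smul, mul_smul, inv_smul_smul, mem_stabilizer_iff.1 h.2]⟩
        invFun := fun h => ⟨g⁻¹ * h * g, by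
          rw [mem_stabilizer_iff, mul_smul, mul_smul, mem_stabilizer_iff.1 h.2, inv_smul_smul]⟩
        left_inv := fun h => Subtype.ext (by simp [mul_assoc])
        right_inv := fun h => Subtype.ext (by simp [mul_assoc]) }
    rw [← e.tsum_eq]
    refine tsum_congr fun h => congrArg W' ?_
    show g • (h : G) • x = (g * h * g⁻¹) • g • x
    rw [mul_smul, mul_smul, inv_smul_smul]
  have hinv : ∀ (h : stabilizer G d) x, F d (h • x) = F d x := fun h x => smul_eq_of_stab hF d h x
  have hm : Measurable fun x => W' x * ‖F (g • d) x‖ₑ := hW'.measurable.mul (hFm _).enorm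
  refine ⟨?_, ?_⟩
  · rw [← lintegral_comp_smul g _ hm]
    simp only [hF]
    rwa [← lintegral_weight_congr (hFm d).enorm (fun h x => by rw [hinv]) (hW.mono (by simp))
      (hV.mono (by simp))]
  · rw [← integral_comp_smul g]
    simp only [hF]
    exact (integral_weight_congr (hFm d) hinv (hW.mono (by simp)) (hV.mono (by simp)) hfin).symm

end Change

/-! ### Pulled back weights -/

variable {K L : Type} [Field K] [NumberField K] [Field L] [NumberField L] [Algebra K L]
  {τ : CubicAut K L} {UL : Level L} {UK : Level K} {fL : ∀ w : FPlace L, GLv w → ℂ}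
  {fK : ∀ v : FPlace K, GLv v → ℂ}

omit [NumberField K] in
theorem commute_out {γ : GL (Fin 2) K} (h : commSub γ) : Commute (h : PGLF K).out γ :=
  (mem_commSub_iff γ _).1 (by rw [QuotientGroup.out_eq']; exact h.2)

/-- Shortcut: instance search for this action is slow. -/
local instance smulSubgroupSpc {F : Type} [Field F] [NumberField F] {U : Level F}
    (H : Subgroup (PGLF F)) : SMul H (Spc U) := inferInstance

/-- The weight of the base pulled back along a projection. -/
def pullK {γ : GL (Fin 2) K} (P : GlobalProj UK fK γ) (W : Spc UK → ℝ≥0∞) (s : Spc UK) : ℝ≥0∞ :=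
  avgFin P.proj (fun q => W (q, s.2)) s.1

theorem tsum_pullK {γ : GL (Fin 2) K} (P : GlobalProj UK fK γ) {W : Spc UK → ℝ≥0∞}
    (hW : ∀ s, ∑' h : commSub γ, W (h • s) = 1) (s : Spc UK) (hs : baseG fK γ s.1 ≠ 0) :
    ∑' h : commSub γ, pullK P W (h • s) = 1 := by
  classical
  have e : ∀ h : commSub γ, pullK P W (h • s) =
      (∑ q ∈ P.proj s.1, W (h • ((q, s.2) : Spc UK))) * ((P.proj s.1).card : ℝ≥0∞)⁻¹ := by
    intro h
    have hp : P.proj (h • s).1 = (P.proj s.1).image fun q => (h : PGLF K).out • q := by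
      ext q
      rw [show (h • s).1 = (h : PGLF K).out • s.1 from
        congrArg Prod.fst (Kernel.pgl_smul_eq UK (h : PGLF K) s),
        P.smul _ (commute_out h), Finset.mem_image]
      exact ⟨fun hq => ⟨_, hq, smul_inv_smul _ _⟩, fun ⟨a, ha, e⟩ => by
        rw [← e, inv_smul_smul]; exact ha⟩
    rw [pullK, avgFin, hp, Finset.card_image_of_injective _ (MulAction.injective _),
      Finset.sum_image (MulAction.injective _).injOn]
    congr 1
    refine Finset.sum_congr rfl fun q _ => congrArg W ?_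
    rw [show h • ((q, s.2) : Spc UK) = (h : PGLF K).out • ((q, s.2) : Spc UK) from
      Kernel.pgl_smul_eq UK (h : PGLF K) (q, s.2),
      show (h • s).2 = (h : PGLF K).out • s.2 from
        congrArg Prod.snd (Kernel.pgl_smul_eq UK (h : PGLF K) s)]
    rfl
  simp only [e]
  rw [ENNReal.tsum_mul_right, Summable.tsum_finsetSum fun _ _ => ENNReal.summable]
  simp only [hW, Finset.sum_const, nsmul_eq_mul, mul_one]
  exact ENNReal.mul_inv_cancel (Nat.cast_ne_zero.2 (Finset.card_ne_zero.2 (P.nonempty _ hs)))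
    (ENNReal.natCast_ne_top _)

variable (L) in
/-- The commutant in `PGL₂(L)`. -/
def commSubL (γ : GL (Fin 2) K) : Subgroup (PGLF L) := (commSub γ).map (basePGL L)

/-- The weight of the extension pulled back along a projection. -/
def pullL (A : ArchFrame τ) {δ : GL (Fin 2) L} {γ : GL (Fin 2) K}
    (T : GlobalTransfer τ UL UK fL fK δ γ) (W : Spc UK → ℝ≥0∞) (s : Spc UL) : ℝ≥0∞ :=
  avgFin T.projL (fun q => W (q, A.proj s.2)) s.1

theorem tsum_pullL (A : ArchFrame τ) {δ : GL (Fin 2) L} {γ : GL (Fin 2) K}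
    (T : GlobalTransfer τ UL UK fL fK δ γ) {W : Spc UK → ℝ≥0∞}
    (hW : ∀ s, ∑' h : commSub γ, W (h • s) = 1) (s : Spc UL) (hs : twG τ fL δ s.1 ≠ 0) :
    ∑' h : commSubL L γ, pullL A T W (h • s) = 1 := by
  classical
  unfold commSubL
  rw [← ((commSub γ).equivMapOfInjective _ (basePGL_injective (L := L))).toEquiv.tsum_eq]
  have e : ∀ h : commSub γ, pullL A T W
      (((commSub γ).equivMapOfInjective _ (basePGL_injective (L := L))) h • s) =
      (∑ q ∈ T.projL s.1, W (h • ((q, A.proj s.2) : Spc UK))) *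
        ((T.projL s.1).card : ℝ≥0∞)⁻¹ := by
    intro h
    set g := (h : PGLF K).out
    have hs' : ((commSub γ).equivMapOfInjective _ (basePGL_injective (L := L))) h • s =
        baseGLH L g • s := by
      show basePGL L (h : PGLF K) • s = _
      rw [← QuotientGroup.out_eq' (h : PGLF K), basePGL_mk, mk_smul_spc]
    rw [hs']
    have hp : T.projL (baseGLH L g • s.1) = (T.projL s.1).image fun q => g • q := by
      ext q
      rw [T.smulL _ (commute_out h), Finset.mem_image]
      exact ⟨fun hq => ⟨_, hq, smul_inv_smul _ _⟩, fun ⟨a, ha, e⟩ => by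
        rw [← e, inv_smul_smul]; exact ha⟩
    show avgFin T.projL (fun q => W (q, A.proj (baseGLH L g • s.2))) (baseGLH L g • s.1) = _
    rw [avgFin, hp, Finset.card_image_of_injective _ (MulAction.injective _),
      Finset.sum_image (MulAction.injective _).injOn]
    congr 1
    refine Finset.sum_congr rfl fun q _ => congrArg W ?_
    rw [show h • ((q, A.proj s.2) : Spc UK) = g • ((q, A.proj s.2) : Spc UK) from
      Kernel.pgl_smul_eq UK (h : PGLF K) (q, A.proj s.2), A.proj_smul]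
    rfl
  refine (tsum_congr e).trans ?_
  rw [ENNReal.tsum_mul_right, Summable.tsum_finsetSum fun _ _ => ENNReal.summable]
  simp only [hW, Finset.sum_const, nsmul_eq_mul, mul_one]
  exact ENNReal.mul_inv_cancel (Nat.cast_ne_zero.2 (Finset.card_ne_zero.2 (T.nonemptyL _ hs)))
    (ENNReal.natCast_ne_top _)

theorem baseTwTerm_eq (hK : IsLocalFamily UK fK) (kK : InfinitePlace K → ℝ → ℂ)
    (γ : GL (Fin 2) K) (s : Spc UK) :
    baseTwTerm fK kK (⟨(γ : PGLF K)⟩ : ConjElt K) s =
      baseG fK γ s.1 * ∏ w, kK w (H3.coshDist (s.2 w) ((γ • s.2) w)) := by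
  obtain ⟨y, p⟩ := s
  rw [baseTwTerm, mk_smul_spc]
  conv_lhs => rw [← QuotientGroup.out_eq' y]
  show prodKernel fK kK (((y.out : Ωf UK), p) : Spc UK)
    ((((diag K γ * y.out : Gf K) : Ωf UK), γ • p) : Spc UK) = _
  rw [prodKernel_mk kK hK, baseG, mul_assoc]

omit [NumberField K] in
theorem twTerm_eq (hL : IsLocalFamily UL fL) (hU : IsStableLevel τ.σ.toRingEquiv UL)
    (kL : InfinitePlace L → ℝ → ℂ) (δ : GL (Fin 2) L) (s : Spc UL) :
    twTerm τ hU fL kL (⟨(δ : PGLF L)⟩ : TwistedElt τ) s =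
      twG τ fL δ s.1 * ∏ w, kL w (H3.coshDist (s.2 w) ((δ • autHyp τ.σ.toRingEquiv s.2) w)) := by
  obtain ⟨y, p⟩ := s
  rw [twTerm, mk_smul_spc]
  conv_lhs => rw [← QuotientGroup.out_eq' y]
  show prodKernel fL kL (((y.out : Ωf UL), p) : Spc UL)
    ((((diag L δ * autGf τ.σ.toRingEquiv y.out : Gf L) : Ωf UL),
      δ • autHyp τ.σ.toRingEquiv p) : Spc UL) = _
  rw [prodKernel_mk kL hL, twG, mul_assoc]

/-! ### Weights of the commutant -/

theorem exists_weight_commSub [IsTotallyComplex K] (UK : Level K) (γ : GL (Fin 2) K) :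
    ∃ W : Spc UK → ℝ≥0∞, Measurable W ∧ (∀ s, W s ≤ 1) ∧
      ∀ s, ∑' h : commSub γ, W (h • s) = 1 := by
  obtain ⟨W₀, -, -, -, -, -, -, -, -, -, hsum⟩ := exists_quotientWeight UK
  have : Countable (PGLF K ⧸ commSub γ) := Quotient.countable
  have h : ∀ s, ∑' h : commSub γ, orbitWeight (commSub γ) (fun t => (W₀.w t : ℝ≥0∞)) (h • s) = 1 :=
    fun s => (tsum_orbitWeight (commSub γ) _ s).trans (hsum s)
  refine ⟨orbitWeight (commSub γ) fun t => (W₀.w t : ℝ≥0∞), Measurable.tsum fun c =>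
    (measurable_coe_nnreal_ennreal.comp W₀.measurable).comp (measurable_const_smul _),
    fun s => ?_, h⟩
  rw [← h s]
  simpa using ENNReal.le_tsum
    (f := fun k : commSub γ => orbitWeight (commSub γ) (fun t => (W₀.w t : ℝ≥0∞)) (k • s)) 1

theorem measurable_slice {W : Spc UK → ℝ≥0∞} (hW : Measurable W) (q : Ωf UK) :
    Measurable fun p => W (q, p) :=
  hW.comp (measurable_const.prodMk measurable_id)

theorem measurable_pullK {γ : GL (Fin 2) K} (P : GlobalProj UK fK γ) {W : Spc UK → ℝ≥0∞}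
    (hW : Measurable W) : Measurable (pullK P W) :=
  measurable_avgFin P.proj fun q => measurable_slice hW q

theorem measurable_pullL (A : ArchFrame τ) {δ : GL (Fin 2) L} {γ : GL (Fin 2) K}
    (T : GlobalTransfer τ UL UK fL fK δ γ) {W : Spc UK → ℝ≥0∞} (hW : Measurable W) :
    Measurable (pullL A T W) :=
  measurable_avgFin T.projL fun q => (measurable_slice hW q).comp A.measurable_proj

/-- From the stabiliser to the commutant on the base. -/
theorem reduce_base {γ : GL (Fin 2) K} (P : GlobalProj UK fK γ) {W : Spc UK → ℝ≥0∞}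
    (hWm : Measurable W) (hW : ∀ s, ∑' h : commSub γ, W (h • s) = 1) {G : Spc UK → ℂ}
    (hG : Measurable G) (hsupp : ∀ s, G s ≠ 0 → baseG fK γ s.1 ≠ 0)
    (hinv : ∀ (h : stabilizer (PGLF K) (⟨(γ : PGLF K)⟩ : ConjElt K)) s, G (h • s) = G s)
    {V : Spc UK → ℝ≥0∞}
    (hV : IsWeight (volSpc UK) (stabilizer (PGLF K) (⟨(γ : PGLF K)⟩ : ConjElt K)) V Set.univ)
    (hfin : ∫⁻ s, V s * ‖G s‖ₑ ∂volSpc UK ≠ ⊤) :
    ∫⁻ s, pullK P W s * ‖G s‖ₑ ∂volSpc UK ≠ ⊤ ∧
      ∫ s, ((pullK P W s).toReal : ℂ) * G s ∂volSpc UK =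
        (Nat.card (stabilizer (PGLF K) (⟨(γ : PGLF K)⟩ : ConjElt K) ⧸
          (commSub γ).subgroupOf (stabilizer (PGLF K) (⟨(γ : PGLF K)⟩ : ConjElt K))) : ℂ) *
          ∫ s, ((V s).toReal : ℂ) * G s ∂volSpc UK :=
  have := finite_stab_quot γ
  integral_weight_index (commSub_le_stabilizer γ) hG hinv (hV.mono (Set.subset_univ _))
    ⟨measurable_pullK P hWm,
      Filter.Eventually.of_forall fun s hs => tsum_pullK P hW s (hsupp s hs)⟩ hfin

theorem GoodRep.commSubL_le (P : GoodRep τ) :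
    commSubL L P.γ ≤ stabilizer (PGLF L) P.twisted := by
  rw [P.stabilizer_eq]
  exact Subgroup.map_mono (commSub_le_stabilizer P.γ)

theorem GoodRep.card_stab_quot (P : GoodRep τ) :
    Nat.card (stabilizer (PGLF L) P.twisted ⧸
        (commSubL L P.γ).subgroupOf (stabilizer (PGLF L) P.twisted)) =
      Nat.card (stabilizer (PGLF K) P.conj ⧸
        (commSub P.γ).subgroupOf (stabilizer (PGLF K) P.conj)) := by
  show ((commSubL L P.γ).subgroupOf _).index = ((commSub P.γ).subgroupOf _).index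
  show (commSubL L P.γ).relIndex _ = (commSub P.γ).relIndex _
  rw [P.stabilizer_eq]
  exact Subgroup.relIndex_map_map_of_injective _ _ (basePGL_injective (L := L))

omit [NumberField K] [NumberField L] in
theorem GoodRep.card_stab_ne_zero (P : GoodRep τ) :
    Nat.card (stabilizer (PGLF K) P.conj ⧸
        (commSub P.γ).subgroupOf (stabilizer (PGLF K) P.conj)) ≠ 0 :=
  have : Finite (stabilizer (PGLF K) P.conj ⧸
      (commSub P.γ).subgroupOf (stabilizer (PGLF K) P.conj)) := finite_stab_quot P.γ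
  Nat.card_pos.ne'

/-- From the stabiliser to the commutant on the extension. -/
theorem GoodRep.reduce_twisted (A : ArchFrame τ) (P : GoodRep τ)
    (T : GlobalTransfer τ UL UK fL fK P.δ P.γ) {W : Spc UK → ℝ≥0∞}
    (hWm : Measurable W) (hW : ∀ s, ∑' h : commSub P.γ, W (h • s) = 1) {G : Spc UL → ℂ}
    (hG : Measurable G) (hsupp : ∀ s, G s ≠ 0 → twG τ fL P.δ s.1 ≠ 0)
    (hinv : ∀ (h : stabilizer (PGLF L) P.twisted) s, G (h • s) = G s)
    {V : Spc UL → ℝ≥0∞}
    (hV : IsWeight (volSpc UL) (stabilizer (PGLF L) P.twisted) V Set.univ)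
    (hfin : ∫⁻ s, V s * ‖G s‖ₑ ∂volSpc UL ≠ ⊤) :
    ∫⁻ s, pullL A T W s * ‖G s‖ₑ ∂volSpc UL ≠ ⊤ ∧
      ∫ s, ((pullL A T W s).toReal : ℂ) * G s ∂volSpc UL =
        (Nat.card (stabilizer (PGLF K) P.conj ⧸
          (commSub P.γ).subgroupOf (stabilizer (PGLF K) P.conj)) : ℂ) *
          ∫ s, ((V s).toReal : ℂ) * G s ∂volSpc UL := by
  have hfinite : Finite (stabilizer (PGLF L) P.twisted ⧸
      (commSubL L P.γ).subgroupOf (stabilizer (PGLF L) P.twisted)) :=
    Nat.finite_of_card_ne_zero (P.card_stab_quot ▸ P.card_stab_ne_zero)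
  rw [← P.card_stab_quot]
  exact integral_weight_index P.commSubL_le hG hinv (hV.mono (Set.subset_univ _))
    ⟨measurable_pullL A T hWm,
      Filter.Eventually.of_forall fun s hs => tsum_pullL A T hW s (hsupp s hs)⟩ hfin

end Fermat.Agent.ResidualThree.Orbital
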