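import Fermat.Agent.ResidualThree.Orbital.ClassIntegral

/-!
# Terms with singular norm vanish

The parity of the valuation of the determinant at the auxiliary place forces the terms of the
classes whose norm is not regular semisimple to vanish, on both sides of the trace identity.
-/

noncomputable section

open IsDedekindDomain NumberField Matrix
open scoped WithZero

namespace Fermat.Agent.ResidualThree.Orbital

variable {K L : Type} [Field K] [NumberField K] [Field L] [NumberField L] [Algebra K L]
  {τ : CubicAut K L} {UL : Level L} {UK : Level K} {r : FPlace K}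

local notation "M2" => Matrix (Fin 2) (Fin 2)

theorem IsLocalFamily.of_finPair_left (P : FinPair τ UL UK r) : IsLocalFamily UL P.fL :=
  ⟨P.biL, P.finL, P.unitL⟩

theorem IsLocalFamily.of_finPair_right (P : FinPair τ UL UK r) : IsLocalFamily UK P.fK :=
  ⟨P.biK, P.finK, P.unitK⟩

theorem det_eq_sq_of_not_regMat {F : Type} [Field F] [CharZero F] {g : M2 F} (h : ¬ RegMat g) :
    g.det = g.trace / 2 * (g.trace / 2) := by
  rw [RegMat, not_not] at h
  field_simp
  linear_combination -h

theorem baseG_eq_zero_of_singular (P : FinPair τ UL UK r) {γ : GL (Fin 2) K}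
    (h : ¬ RegMat (γ : M2 K)) (y : Ωf UK) : baseG P.fK γ y = 0 := by
  by_contra hy
  have h1 := P.oddK _ ((IsLocalFamily.of_finPair_right P).globalFun_ne_zero hy r)
  set u := (γ : M2 K).trace / 2
  have hu : u ≠ 0 := fun h0 =>
    γ.det_ne_zero (by rw [det_eq_sq_of_not_regMat h]; simp [u] at h0 ⊢; simp [h0])
  have e : valv r (((((y.out⁻¹ * diag K γ * y.out : Gf K)) : ∀ v, GLv v) r :
      M2 (r.adicCompletion K)).det) = r.valuation K u * r.valuation K u := by
    rw [← map_mul, ← det_eq_sq_of_not_regMat h, ← valv_algebraMap, RingHom.map_det]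
    show valv r ((((y.out : ∀ v, GLv v) r)⁻¹ * toLocal r γ * (y.out : ∀ v, GLv v) r : GLv r) :
      M2 (r.adicCompletion K)).det = _
    rw [Units.val_mul, Units.val_mul, Matrix.det_units_conj']
    rfl
  rw [e, WithZero.log_mul ((r.valuation K).ne_zero_iff.mpr hu) ((r.valuation K).ne_zero_iff.mpr hu)]
    at h1
  exact (Int.not_odd_iff_even.2 ⟨_, rfl⟩) h1

theorem twG_eq_zero_of_singular (P : FinPair τ UL UK r) {δ : GL (Fin 2) L}
    (h : ¬ RegMat (τ.norm (δ : M2 L))) (X : Ωf UL) : twG τ P.fL δ X = 0 := by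
  classical
  by_contra hX
  set σ := τ.σ.toRingEquiv
  set G : ∀ w : FPlace L, GLv w := fun w => (X.out : ∀ w, GLv w) w
  set Z : Gover L r := fun w => (G w.1)⁻¹ * toLocal w.1 δ * localAutGL σ w.1 (G (comapPlace σ w.1))
  have h1 := P.oddL Z fun w => (IsLocalFamily.of_finPair_left P).globalFun_ne_zero hX w.1
  set d := (δ : M2 L).det
  set n : Over L r → ℤ := fun w => WithZero.log (w.1.valuation L d)
  set m : Over L r → ℤ := fun w => WithZero.log (valv w.1 (G w.1 : M2 (w.1.adicCompletion L)).det)
  have hd : d ≠ 0 := δ.det_ne_zero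
  have hZ : ∀ w, WithZero.log (valv w.1 (Z w : M2 (w.1.adicCompletion L)).det) =
      -m w + n w + m (comapOver τ.σ w) := by
    intro w
    have e1 : (toLocal w.1 δ : M2 (w.1.adicCompletion L)).det = algebraMap L _ d :=
      (RingHom.map_det _ _).symm
    have e2 : (localAutGL σ w.1 (G (comapPlace σ w.1)) : M2 (w.1.adicCompletion L)).det =
        localAut σ w.1 (G (comapPlace σ w.1) : M2 ((comapPlace σ w.1).adicCompletion L)).det :=
      (RingHom.map_det (localAut σ w.1) _).symm
    have hv : ∀ (u : FPlace L) (g : GLv u), valv u (g : M2 (u.adicCompletion L)).det ≠ 0 :=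
      fun u g => (_root_.map_ne_zero _).2 g.det_ne_zero
    simp only [Z]
    rw [Units.val_mul, Units.val_mul, Matrix.det_mul, Matrix.det_mul, map_mul, map_mul,
      Matrix.coe_units_inv, Matrix.det_nonsing_inv, Ring.inverse_eq_inv', map_inv₀, e1, e2,
      valv_algebraMap, valv_localAut,
      WithZero.log_mul (mul_ne_zero (inv_ne_zero (hv _ _))
        ((w.1.valuation L).ne_zero_iff.mpr hd)) (hv _ _),
      WithZero.log_mul (inv_ne_zero (hv _ _)) ((w.1.valuation L).ne_zero_iff.mpr hd),
      WithZero.log_inv]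
    rfl
  have hbij : Function.Bijective (comapOver τ.σ : Over L r → Over L r) :=
    Finite.injective_iff_bijective.1 fun a b e =>
      Subtype.ext (comapPlace_injective σ (congrArg Subtype.val e))
  simp only [hZ, Finset.sum_add_distrib, Finset.sum_neg_distrib, hbij.sum_comp m] at h1
  rw [show -∑ x, m x + ∑ x, n x + ∑ x, m x = ∑ x, n x by ring] at h1
  set u := (τ.norm (δ : M2 L)).trace / 2
  have hsq : τ.nm d = u * u := by rw [← τ.det_norm]; exact det_eq_sq_of_not_regMat h
  have hu : u ≠ 0 := fun h0 => τ.nm_ne_zero hd (by rw [hsq, h0, mul_zero])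
  have key : ∀ w : Over L r, 2 * WithZero.log (w.1.valuation L u) =
      n w + n (comapOver τ.σ w) + n (comapOver τ.σ (comapOver τ.σ w)) := by
    intro w
    have e1 : n (comapOver τ.σ w) = WithZero.log (w.1.valuation L (τ.σ d)) :=
      congrArg WithZero.log (valuation_comapPlace σ w.1 d)
    have e2 : n (comapOver τ.σ (comapOver τ.σ w)) =
        WithZero.log (w.1.valuation L (τ.σ (τ.σ d))) :=
      congrArg WithZero.log ((valuation_comapPlace σ (comapPlace σ w.1) d).trans
        (valuation_comapPlace σ w.1 (σ d)))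
    have hne : ∀ x : L, x ≠ 0 → w.1.valuation L x ≠ 0 := fun x hx =>
      (w.1.valuation L).ne_zero_iff.mpr hx
    have hs : ∀ x : L, x ≠ 0 → τ.σ x ≠ 0 := fun x hx => (_root_.map_ne_zero _).2 hx
    rw [e1, e2, ← WithZero.log_mul (hne _ hd) (hne _ (hs _ hd)), ← map_mul,
      ← WithZero.log_mul (hne _ (mul_ne_zero hd (hs _ hd))) (hne _ (hs _ (hs _ hd))), ← map_mul,
      show d * τ.σ d * τ.σ (τ.σ d) = u * u from hsq, map_mul,
      WithZero.log_mul (hne _ hu) (hne _ hu)]
    ring
  have hsum := Fintype.sum_congr _ _ key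
  rw [← Finset.mul_sum, Finset.sum_add_distrib, Finset.sum_add_distrib,
    hbij.sum_comp (fun w => n (comapOver τ.σ w)), hbij.sum_comp n] at hsum
  obtain ⟨k, hk⟩ := h1
  omega

/-- A term of the twisted diagonal with singular norm vanishes. -/
theorem twTerm_eq_zero_of_singular (P : FinPair τ UL UK r)
    (hU : IsStableLevel τ.σ.toRingEquiv UL) (kL : InfinitePlace L → ℝ → ℂ) {δ : GL (Fin 2) L}
    (h : ¬ RegMat (τ.norm (δ : M2 L))) (s : Spc UL) :
    twTerm τ hU P.fL kL (⟨(δ : PGLF L)⟩ : TwistedElt τ) s = 0 := by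
  rw [twTerm_eq (IsLocalFamily.of_finPair_left P) hU, twG_eq_zero_of_singular P h, zero_mul]

/-- A singular term of the diagonal vanishes. -/
theorem baseTwTerm_eq_zero_of_singular (P : FinPair τ UL UK r) (kK : InfinitePlace K → ℝ → ℂ)
    {γ : GL (Fin 2) K} (h : ¬ RegMat (γ : M2 K)) (s : Spc UK) :
    baseTwTerm P.fK kK (⟨(γ : PGLF K)⟩ : ConjElt K) s = 0 := by
  rw [baseTwTerm_eq (IsLocalFamily.of_finPair_right P), baseG_eq_zero_of_singular P h, zero_mul]

end Fermat.Agent.ResidualThree.Orbital
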