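import Fermat.Agent.ResidualThree.Orbital.Reps
import Fermat.Agent.ResidualThree.Orbital.Vanish

/-!
# The values of the classes agree

For the data of one monomial the truncated value of a twisted class equals that of the class of
its norm: for elliptic classes (`exists_elliptic_eq`) and for diagonal classes with a large
truncation (`exists_hyperbolic_eq`). This is the class by class part of the trace identity.
-/

noncomputable section

open IsDedekindDomain NumberField MeasureTheory MulAction Matrix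
open scoped ENNReal

namespace Fermat.Agent.ResidualThree.Orbital

section General

variable {G X D : Type*} [Group G] [Countable G] [MeasurableSpace X] [MulAction G X]
  [MeasurableConstSMul G X] [MulAction G D] (μ : Measure X) [SMulInvariantMeasure G X μ]

/-- The contribution of a class: the integral of its term against the weight averaged over the
stabiliser. -/
def classVal (w : X → ℝ≥0∞) (F : D → X → ℂ) (d : D) : ℂ :=
  ∫ x, ((orbitWeight (stabilizer G d) w x).toReal : ℂ) * F d x ∂μ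

variable {μ}

theorem lintegral_orbitWeight_ne_top [Countable D] {F : D → X → ℂ}
    (hFm : ∀ d, Measurable (F d)) (hF : ∀ (g : G) d x, F (g • d) (g • x) = F d x)
    {w : X → ℝ≥0∞} (hw : Measurable w) (hfin : ∫⁻ x, w x * ∑' d, ‖F d x‖ₑ ∂μ ≠ ⊤) (d : D) :
    ∫⁻ x, orbitWeight (stabilizer G d) w x * ‖F d x‖ₑ ∂μ ≠ ⊤ := by
  have : Countable (G ⧸ stabilizer G d) := Quotient.countable
  refine ne_top_of_le_ne_top hfin ?_
  simp only [orbitWeight, ← ENNReal.tsum_mul_right, ← ENNReal.tsum_mul_left]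
  have hm : ∀ c : G ⧸ stabilizer G d, Measurable fun x => w (c.out • x) * ‖F d x‖ₑ :=
    fun c => (hw.comp (measurable_const_smul _)).mul (hFm _).enorm
  have hm' : ∀ d', Measurable fun x => w x * ‖F d' x‖ₑ := fun d' => hw.mul (hFm _).enorm
  rw [lintegral_tsum fun c => (hm c).aemeasurable, lintegral_tsum fun d' => (hm' d').aemeasurable]
  have hinj : Function.Injective fun c : G ⧸ stabilizer G d => c.out • d := fun c c' h => by
    rw [← QuotientGroup.out_eq' c, ← QuotientGroup.out_eq' c', QuotientGroup.eq, mem_stabilizer_iff,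
      mul_smul, ← show c.out • d = c'.out • d from h, inv_smul_smul]
  refine le_trans (le_of_eq (tsum_congr fun c => ?_))
    (ENNReal.tsum_comp_le_tsum_of_injective hinj _)
  rw [← lintegral_comp_smul c.out _ (hm' _)]
  simp_rw [hF]

theorem classVal_smul [Countable D] {F : D → X → ℂ} (hFm : ∀ d, Measurable (F d))
    (hF : ∀ (g : G) d x, F (g • d) (g • x) = F d x) {w : X → ℝ≥0∞} (hw : Measurable w)
    (hsum : ∀ᵐ x ∂μ, ∑' g : G, w (g • x) = 1) (hfin : ∫⁻ x, w x * ∑' d, ‖F d x‖ₑ ∂μ ≠ ⊤)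
    {d d' : D} (h : d' ∈ orbit G d) : classVal μ (G := G) w F d' = classVal μ (G := G) w F d := by
  obtain ⟨g, rfl⟩ := h
  exact (class_integral_congr hFm hF g (isWeight_orbitWeight _ hw hsum _)
    (isWeight_orbitWeight _ hw hsum _) (lintegral_orbitWeight_ne_top hFm hF hw hfin d)).2

end General

variable {K L : Type} [Field K] [NumberField K] [Field L] [NumberField L] [Algebra K L]
  {τ : CubicAut K L} {UL : Level L} {UK : Level K}

local notation "M2" => Matrix (Fin 2) (Fin 2)

variable [IsTotallyComplex K] [IsTotallyComplex L]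

section Terms

variable (τ) (hU : IsStableLevel τ.σ.toRingEquiv UL) (fL : ∀ w : FPlace L, GLv w → ℂ)
  (kL : InfinitePlace L → ℝ → ℂ) (fK : ∀ v : FPlace K, GLv v → ℂ) (kK : ℝ → ℂ)

/-- A truncated term of the twisted diagonal. -/
def trTw (T : ℝ) (d : TwistedElt τ) (s : Spc UL) : ℂ :=
  (truncated UL T).indicator (twTerm τ hU fL kL d) s

/-- A truncated term of the diagonal. -/
def trBase (T : ℝ) (d : ConjElt K) (s : Spc UK) : ℂ :=
  (truncated UK T).indicator (baseTwTerm fK (fun _ => kK) d) s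

variable {fL fK kL kK}

omit [NumberField K] [IsTotallyComplex K] in
theorem trTw_smul (hL : IsLocalFamily UL fL) (T : ℝ) (g : PGLF L) (d : TwistedElt τ) (s : Spc UL) :
    trTw τ hU fL kL T (g • d) (g • s) = trTw τ hU fL kL T d s := by
  unfold trTw
  by_cases h : s ∈ truncated UL T
  · rw [Set.indicator_of_mem h, Set.indicator_of_mem ((smul_mem_truncated_iff_pgl g).2 h),
      twTerm_smul τ hU fL kL hL]
  · rw [Set.indicator_of_notMem h,
      Set.indicator_of_notMem (mt (smul_mem_truncated_iff_pgl g).1 h)]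

theorem trBase_smul (hK : IsLocalFamily UK fK) (T : ℝ) (g : PGLF K) (d : ConjElt K) (s : Spc UK) :
    trBase fK kK T (g • d) (g • s) = trBase fK kK T d s := by
  unfold trBase
  by_cases h : s ∈ truncated UK T
  · rw [Set.indicator_of_mem h, Set.indicator_of_mem ((smul_mem_truncated_iff_pgl g).2 h),
      baseTwTerm_smul fK (fun _ => kK) hK]
  · rw [Set.indicator_of_notMem h,
      Set.indicator_of_notMem (mt (smul_mem_truncated_iff_pgl g).1 h)]

omit [NumberField K] [IsTotallyComplex K] [IsTotallyComplex L] in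
theorem measurable_trTw (hk : ∀ w, Continuous (kL w)) (T : ℝ) (d : TwistedElt τ) :
    Measurable (trTw τ hU fL kL T d) :=
  (measurable_twTerm τ hU fL kL hk d).indicator (measurableSet_truncated _ _)

omit [IsTotallyComplex K] in
theorem measurable_trBase (hk : Continuous kK) (T : ℝ) (d : ConjElt K) :
    Measurable (trBase (UK := UK) fK kK T d) :=
  (measurable_baseTwTerm fK (fun _ => kK) (fun _ => hk) d).indicator (measurableSet_truncated _ _)

end Terms

variable [IsPrincipalIdealRing (𝓞 K)]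

/-- The data of one monomial. -/
structure Monomial (τ : CubicAut K L) (UL : Level L) (UK : Level K) (r : FPlace K)
    (hU : IsStableLevel τ.σ.toRingEquiv UL) : Type where
  /-- the finite parts -/
  F : FinPair τ UL UK r
  /-- the frame -/
  A : ArchFrame τ
  /-- the radial functions -/
  kL : InfinitePlace L → ℝ → ℂ
  kernel : ∀ w, H3.IsKernel (kL w)
  /-- the weight of the extension -/
  wL : QuotientWeight UL
  /-- the weight of the base -/
  wK : QuotientWeight UK

namespace Monomial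

variable {r : FPlace K} {hU : IsStableLevel τ.σ.toRingEquiv UL} (M : Monomial τ UL UK r hU)

/-- The radial function of the base. -/
def kK : ℝ → ℂ := H3.compKernel (H3.compKernel (M.kL (M.A.placeEquiv 0)) (M.kL (M.A.placeEquiv 1)))
  (M.kL (M.A.placeEquiv 2))

omit [IsTotallyComplex K] [IsTotallyComplex L] [IsPrincipalIdealRing (𝓞 K)] in
theorem kernelK : H3.IsKernel M.kK := ((M.kernel _).comp (M.kernel _)).comp (M.kernel _)

omit [IsTotallyComplex K] [IsTotallyComplex L] [IsPrincipalIdealRing (𝓞 K)] in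
theorem localL : IsLocalFamily UL M.F.fL := IsLocalFamily.of_finPair_left M.F

omit [IsTotallyComplex K] [IsTotallyComplex L] [IsPrincipalIdealRing (𝓞 K)] in
theorem localK : IsLocalFamily UK M.F.fK := IsLocalFamily.of_finPair_right M.F

/-- The weight as an extended real. -/
def weightL (s : Spc UL) : ℝ≥0∞ := M.wL.w s

/-- The weight as an extended real. -/
def weightK (s : Spc UK) : ℝ≥0∞ := M.wK.w s

omit [IsTotallyComplex K] [IsTotallyComplex L] [IsPrincipalIdealRing (𝓞 K)] in
theorem measurable_weightL : Measurable M.weightL :=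
  measurable_coe_nnreal_ennreal.comp M.wL.measurable

omit [IsTotallyComplex K] [IsTotallyComplex L] [IsPrincipalIdealRing (𝓞 K)] in
theorem measurable_weightK : Measurable M.weightK :=
  measurable_coe_nnreal_ennreal.comp M.wK.measurable

/-- Truncated absolute convergence. -/
def TruncFinite : Prop :=
  ∀ T, (∫⁻ s, M.weightL s * ∑' d, ‖trTw τ hU M.F.fL M.kL T d s‖ₑ ∂volSpc UL ≠ ⊤) ∧
    ∫⁻ s, M.weightK s * ∑' d, ‖trBase M.F.fK M.kK T d s‖ₑ ∂volSpc UK ≠ ⊤

/-- The value of a twisted class at truncation `T`. -/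
def valL (T : ℝ) (d : TwistedElt τ) : ℂ :=
  classVal (volSpc UL) (G := PGLF L) M.weightL (trTw τ hU M.F.fL M.kL T) d

/-- The value of a class of the base at truncation `T`. -/
def valK (T : ℝ) (d : ConjElt K) : ℂ :=
  classVal (volSpc UK) (G := PGLF K) M.weightK (trBase M.F.fK M.kK T) d

omit [IsTotallyComplex K] [IsPrincipalIdealRing (𝓞 K)] in
theorem valL_smul (hf : M.TruncFinite) (T : ℝ) {d d' : TwistedElt τ} (h : d' ∈ orbit (PGLF L) d) :
    M.valL T d' = M.valL T d :=
  classVal_smul (measurable_trTw τ hU (fun w => (M.kernel w).cont) T) (trTw_smul τ hU M.localL T)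
    M.measurable_weightL M.wL.sum_eq (hf T).1 h

omit [IsTotallyComplex L] [IsPrincipalIdealRing (𝓞 K)] in
theorem valK_smul (hf : M.TruncFinite) (T : ℝ) {d d' : ConjElt K} (h : d' ∈ orbit (PGLF K) d) :
    M.valK T d' = M.valK T d :=
  classVal_smul (measurable_trBase M.kernelK.cont T) (trBase_smul M.localK T)
    M.measurable_weightK M.wK.sum_eq (hf T).2 h

omit [IsTotallyComplex K] [IsTotallyComplex L] [IsPrincipalIdealRing (𝓞 K)] in
theorem valL_singular (T : ℝ) {δ : GL (Fin 2) L} (h : ¬ RegMat (τ.norm (δ : M2 L))) :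
    M.valL T ⟨(δ : PGLF L)⟩ = 0 := by
  have h0 : twTerm τ hU M.F.fL M.kL ⟨(δ : PGLF L)⟩ = fun _ : Spc UL => (0 : ℂ) :=
    funext fun s => twTerm_eq_zero_of_singular M.F hU M.kL h s
  simp [valL, classVal, trTw, h0]

omit [IsTotallyComplex K] [IsTotallyComplex L] [IsPrincipalIdealRing (𝓞 K)] in
theorem valK_singular (T : ℝ) {γ : GL (Fin 2) K} (h : ¬ RegMat (γ : M2 K)) :
    M.valK T ⟨(γ : PGLF K)⟩ = 0 := by
  have h0 : baseTwTerm M.F.fK (fun _ => M.kK) ⟨(γ : PGLF K)⟩ = fun _ : Spc UK => (0 : ℂ) :=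
    funext fun s => baseTwTerm_eq_zero_of_singular M.F _ h s
  simp [valK, classVal, trBase, h0]

omit [IsTotallyComplex K] [IsTotallyComplex L] [IsPrincipalIdealRing (𝓞 K)] in
theorem valL_eq_zero (T : ℝ) (Q : GoodRep τ) (h : ∀ X : Ωf UL, twG τ M.F.fL Q.δ X = 0) :
    M.valL T Q.twisted = 0 := by
  have h0 : twTerm τ hU M.F.fL M.kL Q.twisted = fun _ : Spc UL => (0 : ℂ) := funext fun s => by
    rw [GoodRep.twisted, twTerm_eq M.localL hU, h, zero_mul]
  simp [valL, classVal, trTw, h0]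

omit [IsTotallyComplex K] [IsTotallyComplex L] [IsPrincipalIdealRing (𝓞 K)] in
theorem valK_eq_zero (T : ℝ) (γ : GL (Fin 2) K) (h : ∀ y, baseG (UK := UK) M.F.fK γ y = 0) :
    M.valK T ⟨(γ : PGLF K)⟩ = 0 := by
  have h0 : baseTwTerm M.F.fK (fun _ => M.kK) ⟨(γ : PGLF K)⟩ = fun _ : Spc UK => (0 : ℂ) :=
    funext fun s => by rw [baseTwTerm_eq M.localK, h, zero_mul]
  simp [valK, classVal, trBase, h0]

omit [IsTotallyComplex L] [IsPrincipalIdealRing (𝓞 K)] in
/-- Reduction of the value of a class to a pulled back weight. -/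
theorem reduceK (hf : M.TruncFinite) (T : ℝ) {γ : GL (Fin 2) K} (P : GlobalProj UK M.F.fK γ)
    {W : Spc UK → ℝ≥0∞} (hWm : Measurable W) (hW : ∀ s, ∑' h : commSub γ, W (h • s) = 1) :
    ∫⁻ s, pullK P W s * ‖trBase M.F.fK M.kK T ⟨(γ : PGLF K)⟩ s‖ₑ ∂volSpc UK ≠ ⊤ ∧
      ∫ s, ((pullK P W s).toReal : ℂ) * trBase M.F.fK M.kK T ⟨(γ : PGLF K)⟩ s ∂volSpc UK =
        (Nat.card (stabilizer (PGLF K) (⟨(γ : PGLF K)⟩ : ConjElt K) ⧸
          (commSub γ).subgroupOf (stabilizer (PGLF K) (⟨(γ : PGLF K)⟩ : ConjElt K))) : ℂ) *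
          M.valK T ⟨(γ : PGLF K)⟩ := by
  refine reduce_base P hWm hW (measurable_trBase M.kernelK.cont T _) (fun s hs hy => hs ?_)
    (fun h s => smul_eq_of_stab (trBase_smul M.localK T) _ h s)
    (isWeight_orbitWeight _ M.measurable_weightK M.wK.sum_eq _)
    (lintegral_orbitWeight_ne_top (measurable_trBase M.kernelK.cont T) (trBase_smul M.localK T)
      M.measurable_weightK (hf T).2 _)
  classical
  rw [trBase, Set.indicator_apply, baseTwTerm_eq M.localK, hy, zero_mul]
  split_ifs <;> rfl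

omit [IsTotallyComplex K] [IsPrincipalIdealRing (𝓞 K)] in
/-- Reduction of the value of a twisted class to a pulled back weight. -/
theorem reduceL (hf : M.TruncFinite) (T : ℝ) (Q : GoodRep τ)
    (Tr : GlobalTransfer τ UL UK M.F.fL M.F.fK Q.δ Q.γ)
    {W : Spc UK → ℝ≥0∞} (hWm : Measurable W) (hW : ∀ s, ∑' h : commSub Q.γ, W (h • s) = 1) :
    ∫⁻ s, pullL M.A Tr W s * ‖trTw τ hU M.F.fL M.kL T Q.twisted s‖ₑ ∂volSpc UL ≠ ⊤ ∧
      ∫ s, ((pullL M.A Tr W s).toReal : ℂ) * trTw τ hU M.F.fL M.kL T Q.twisted s ∂volSpc UL =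
        (Nat.card (stabilizer (PGLF K) Q.conj ⧸
          (commSub Q.γ).subgroupOf (stabilizer (PGLF K) Q.conj)) : ℂ) * M.valL T Q.twisted := by
  refine Q.reduce_twisted M.A Tr hWm hW (measurable_trTw τ hU (fun w => (M.kernel w).cont) T _)
    (fun s hs hy => hs ?_) (fun h s => smul_eq_of_stab (trTw_smul τ hU M.localL T) _ h s)
    (isWeight_orbitWeight _ M.measurable_weightL M.wL.sum_eq _)
    (lintegral_orbitWeight_ne_top (measurable_trTw τ hU (fun w => (M.kernel w).cont) T)
      (trTw_smul τ hU M.localL T) M.measurable_weightL (hf T).1 _)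
  classical
  rw [trTw, Set.indicator_apply, GoodRep.twisted, twTerm_eq M.localL hU, hy, zero_mul]
  split_ifs <;> rfl

omit [IsPrincipalIdealRing (𝓞 K)] in
/-- For large truncation an elliptic twisted class has the value of the class of its norm, and an
elliptic class which is not a norm has value zero. -/
theorem exists_elliptic_eq (hnp : NormPrinciple τ) (hf : M.TruncFinite) :
    ∃ T₀ : ℝ, ∀ T, T₀ ≤ T →
      (∀ Q : GoodRep τ, ¬ IsSquare (disc (Q.γ : M2 K)) → M.valL T Q.twisted = M.valK T Q.conj) ∧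
      ∀ γ : GL (Fin 2) K, RegMat (γ : M2 K) → ¬ IsSquare (disc (γ : M2 K)) →
        (¬ ∃ Q : GoodRep τ, Q.γ = γ) → M.valK T ⟨(γ : PGLF K)⟩ = 0 := by
  classical
  obtain ⟨DL, hDL⟩ := exists_elliptic_truncated_twisted hU M.localL M.kL M.kernel
  obtain ⟨DK, hDK⟩ := exists_elliptic_truncated_base M.localK (fun _ => M.kK) fun _ => M.kernelK
  refine ⟨max DL DK, fun T hT => ?_⟩
  have eK : ∀ γ : GL (Fin 2) K, ¬ IsSquare (disc (γ : M2 K)) →
      trBase (UK := UK) M.F.fK M.kK T ⟨(γ : PGLF K)⟩ =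
        baseTwTerm M.F.fK (fun _ => M.kK) ⟨(γ : PGLF K)⟩ := fun γ hγ => funext fun s => by
    rw [trBase, Set.indicator_apply]
    split_ifs with h
    · rfl
    · by_contra hne
      exact h (hDK γ hγ T ((le_max_right _ _).trans hT) s (Ne.symm hne))
  have eL : ∀ Q : GoodRep τ, ¬ IsSquare (disc (Q.γ : M2 K)) →
      trTw τ hU M.F.fL M.kL T Q.twisted = twTerm τ hU M.F.fL M.kL Q.twisted := fun Q hQ =>
    funext fun s => by
      rw [trTw, Set.indicator_apply]
      split_ifs with h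
      · rfl
      · by_contra hne
        exact h (hDL Q hQ T ((le_max_left _ _).trans hT) s (Ne.symm hne))
  refine ⟨fun Q hQ => ?_, fun γ hreg hsq hno => ?_⟩
  · obtain ⟨Tr⟩ := Q.exists_globalTransfer M.localL hU M.localK M.F.matching
    obtain ⟨W, hWm, hW1, hW⟩ := exists_weight_commSub UK Q.γ
    obtain ⟨i1, e1⟩ := M.reduceK hf T Tr.toGlobalProj hWm hW
    obtain ⟨i2, e2⟩ := M.reduceL hf T Q Tr hWm hW
    rw [eK Q.γ hQ] at i1 e1
    rw [eL Q hQ] at i2 e2
    rw [integral_pullK_eq M.A M.localK M.kernelK.cont Tr.toGlobalProj hWm hW1 i1] at e1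
    rw [integral_pullL_eq M.A M.localL hU M.kernel Q Tr hWm hW1 i2] at e2
    exact mul_left_cancel₀ (Nat.cast_ne_zero.2 Q.card_stab_ne_zero) (e2.symm.trans e1)
  · obtain ⟨htr, hnn⟩ := no_norm_of_no_rep hreg hno
    obtain ⟨P, hP⟩ := exists_globalProj_zero hnp M.localL M.localK M.F.matching hreg htr hnn
    obtain ⟨W, hWm, hW1, hW⟩ := exists_weight_commSub UK γ
    obtain ⟨i1, e1⟩ := M.reduceK hf T P hWm hW
    rw [eK γ hsq] at i1 e1
    rw [integral_pullK_eq M.A M.localK M.kernelK.cont P hWm hW1 i1] at e1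
    simp only [hP, mul_zero, tsum_zero] at e1
    have : Finite _ := finite_stab_quot γ
    exact (mul_eq_zero.1 e1.symm).resolve_left (Nat.cast_ne_zero.2 Nat.card_pos.ne')

/-- For large truncation the same holds for a diagonal class with bounded heights and vanishing
Abel transform. -/
theorem exists_hyperbolic_eq (hnp : NormPrinciple τ) (hf : M.TruncFinite) {a : Kˣ}
    (ha : (a : K) ≠ 1)
    (h0 : abelTransform M.kK (Real.log ‖M.A.w₀.embedding a‖) = 0) (B : ℝ)
    (hBK : ∀ y : Ωf UK, baseG M.F.fK (diagOne a) y ≠ 0 →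
      |Real.log (finH eFst y.out) + Real.log (finH eSnd y.out)| ≤ B)
    (hBL : ∀ (δ : GL (Fin 2) L) (c : L),
      τ.norm (δ : M2 L) = c • (diagOne a : M2 K).map (algebraMap K L) →
      ∀ X : Ωf UL, twG τ M.F.fL δ X ≠ 0 →
        |Real.log (finH eFst X.out) + Real.log (finH eSnd X.out)| ≤ B) :
    ∃ T₀ : ℝ, ∀ T, T₀ ≤ T →
      (∀ Q : GoodRep τ, Q.γ = diagOne a → M.valL T Q.twisted = M.valK T Q.conj) ∧
      ((¬ ∃ Q : GoodRep τ, Q.γ = diagOne a) → M.valK T ⟨(diagOne a : PGLF K)⟩ = 0) := by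
  classical
  have hreg := regMat_diagOne ha
  have hWm : Measurable fun s : Spc UK => torusWeight s.1 :=
    (measurable_from_top (f := fun q : Ωf UK => torusWeight q)).comp measurable_fst
  have hW := fun s : Spc UK => tsum_torusWeight M.A.w₀ M.A.unique ha s
  by_cases hQ : ∃ Q : GoodRep τ, Q.γ = diagOne a
  · obtain ⟨Q, hQγ⟩ := hQ
    obtain ⟨Tr⟩ := Q.exists_globalTransfer M.localL hU M.localK M.F.matching
    have hc : ∃ c : L, τ.norm (Q.δ : M2 L) = c • (diagOne a : M2 K).map (algebraMap K L) :=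
      hQγ ▸ Q.exists_norm
    obtain ⟨c, hc⟩ := hc
    obtain ⟨TL, hTL⟩ := exists_hyperbolic_twisted M.A M.localL hU M.kernel ha Q hQγ Tr h0 B
      (hBL _ c hc)
    have hW' : ∀ s : Spc UK, ∑' h : commSub Q.γ, torusWeight (h • s).1 = 1 := by
      rw [hQγ]; exact hW
    have key : ∀ (γ : GL (Fin 2) K), γ = diagOne a → ∀ P : GlobalProj UK M.F.fK γ,
        ∃ T₁ : ℝ, ∀ T, T₁ ≤ T →
          ∫⁻ s, pullK P (fun s => torusWeight s.1) s *
            ‖trBase M.F.fK M.kK T ⟨(γ : PGLF K)⟩ s‖ₑ ∂volSpc UK ≠ ⊤ →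
          ∫ s, ((pullK P (fun s => torusWeight s.1) s).toReal : ℂ) *
              trBase M.F.fK M.kK T ⟨(γ : PGLF K)⟩ s ∂volSpc UK =
            ∑' q, hypValue M.A M.kK γ q * pushFin P.proj (baseG M.F.fK γ) q := by
      rintro γ rfl P
      exact exists_hyperbolic_base M.A M.localK M.kernelK ha P h0 B hBK
    obtain ⟨TK, hTK⟩ := key Q.γ hQγ Tr.toGlobalProj
    refine ⟨max TL TK, fun T hT => ⟨fun Q' hQ' => ?_, fun h => absurd ⟨Q, hQγ⟩ h⟩⟩
    have hconj : Q'.conj = Q.conj := by rw [GoodRep.conj, GoodRep.conj, hQ', hQγ]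
    rw [M.valL_smul hf T (Q.orbit_eq_of_conj Q' (by rw [hconj]; exact mem_orbit_self _)), hconj]
    obtain ⟨i1, e1⟩ := M.reduceK hf T Tr.toGlobalProj hWm hW'
    obtain ⟨i2, e2⟩ := M.reduceL hf T Q Tr hWm hW'
    rw [hTK T ((le_max_right _ _).trans hT) i1] at e1
    have e3 := (hTL T ((le_max_left _ _).trans hT) i2).symm.trans e2
    exact mul_left_cancel₀ (Nat.cast_ne_zero.2 Q.card_stab_ne_zero) (e3.symm.trans e1)
  · obtain ⟨htr, hnn⟩ := no_norm_of_no_rep hreg hQ
    obtain ⟨P, hP⟩ := exists_globalProj_zero hnp M.localL M.localK M.F.matching hreg htr hnn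
    obtain ⟨T₀, hT₀⟩ := exists_hyperbolic_base M.A M.localK M.kernelK ha P h0 B hBK
    refine ⟨T₀, fun T hT => ⟨fun Q hQ' => absurd ⟨Q, hQ'⟩ hQ, fun _ => ?_⟩⟩
    obtain ⟨i1, e1⟩ := M.reduceK hf T P hWm hW
    have e := (hT₀ T hT i1).symm.trans e1
    simp only [hP, mul_zero, tsum_zero] at e
    have : Finite _ := finite_stab_quot (diagOne a)
    exact (mul_eq_zero.1 e.symm).resolve_left (Nat.cast_ne_zero.2 Nat.card_pos.ne')

end Monomial

end Fermat.Agent.ResidualThree.Orbital
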