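import Mathlib

/-!
# Integrals of functions invariant under a flow

`d` is a measure preserving action of `ℝ` on `X` and `u` satisfies `u (d t x) = u x + t`.  For an
invariant `G`, `∫ G Φ` only sees the integrals of `Φ` along the orbits.
-/

noncomputable section

open MeasureTheory
open scoped ENNReal

namespace Fermat.Agent.ResidualThree.Orbital

/-- The cut-off on the real line, of total mass one. -/
def eta (s : ℝ) : ℝ := (Set.Ico (0 : ℝ) 1).indicator 1 s

theorem measurable_eta : Measurable eta := measurable_const.indicator measurableSet_Ico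

theorem eta_nonneg (s : ℝ) : 0 ≤ eta s := Set.indicator_nonneg (fun _ _ => zero_le_one) s

theorem integral_eta_add (c : ℝ) : ∫ s, eta (c + s) = 1 := by
  rw [integral_add_left_eq_self (μ := (volume : Measure ℝ)) eta c]
  simp [eta, integral_indicator measurableSet_Ico]

theorem integrable_eta_add (c : ℝ) : Integrable fun s => eta (c + s) :=
  Integrable.comp_add_left ((integrable_indicator_iff measurableSet_Ico).2
    (integrableOn_const (by simp) (by simp))) c

variable {X : Type*} [MeasurableSpace X]

/-- A measure preserving flow. -/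
structure Flow (μ : Measure X) where
  /-- the action -/
  d : ℝ → X → X
  measurable : Measurable fun p : ℝ × X => d p.1 p.2
  preserves : ∀ t, MeasurePreserving (d t) μ μ
  d_zero : ∀ x, d 0 x = x
  d_add : ∀ s t x, d (s + t) x = d s (d t x)

variable {μ : Measure X} [SFinite μ] (D : Flow μ)

/-- The skew shift of `ℝ × X`. -/
def Flow.skew : ℝ × X ≃ᵐ ℝ × X where
  toFun p := (p.1, D.d (-p.1) p.2)
  invFun p := (p.1, D.d p.1 p.2)
  left_inv p := by simp [← D.d_add, D.d_zero]
  right_inv p := by simp [← D.d_add, D.d_zero]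
  measurable_toFun := measurable_fst.prodMk (D.measurable.comp
    ((measurable_fst.neg).prodMk measurable_snd))
  measurable_invFun := measurable_fst.prodMk D.measurable

theorem Flow.measurePreserving_skew :
    MeasurePreserving D.skew ((volume : Measure ℝ).prod μ) ((volume : Measure ℝ).prod μ) :=
  (MeasurePreserving.id (volume : Measure ℝ)).skew_product
    (g := fun s x => D.d (-s) x)
    (D.measurable.comp ((measurable_fst.neg).prodMk measurable_snd))
    (Filter.Eventually.of_forall fun s => (D.preserves (-s)).map_eq)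

variable {D}

/-- The integral of `G Φ` is that over the slice `η (u x)` of the integrals of `Φ` along orbits. -/
theorem Flow.integral_mul_eq {u : X → ℝ} (hu : Measurable u) (hud : ∀ t x, u (D.d t x) = u x + t)
    {G : X → ℂ} (hG : Measurable G) (hGd : ∀ t x, G (D.d t x) = G x)
    {Φ : X → ℝ} (hΦ : Measurable Φ) (hΦ0 : ∀ x, 0 ≤ Φ x)
    (hΦi : ∀ x, G x ≠ 0 → Integrable fun s => Φ (D.d (-s) x)) {B : ℝ}
    (hB : ∀ x, G x ≠ 0 → ∫ s, Φ (D.d (-s) x) ≤ B)
    (hGi : Integrable (fun x => G x * (eta (u x) : ℂ)) μ) :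
    Integrable (fun x => G x * (Φ x : ℂ)) μ ∧
      ∫ x, G x * (Φ x : ℂ) ∂μ =
        ∫ x, G x * (eta (u x) : ℂ) * ((∫ s, Φ (D.d (-s) x) : ℝ) : ℂ) ∂μ := by
  set H : ℝ × X → ℂ := fun p => G p.2 * (Φ p.2 : ℂ) * (eta (u p.2 + p.1) : ℂ) with hH
  have hHm : Measurable H :=
    ((hG.comp measurable_snd).mul (Complex.measurable_ofReal.comp (hΦ.comp measurable_snd))).mul
      (Complex.measurable_ofReal.comp (measurable_eta.comp
        ((hu.comp measurable_snd).add measurable_fst)))
  have hcomp : ∀ p, H (D.skew p) = G p.2 * (eta (u p.2) : ℂ) * (Φ (D.d (-p.1) p.2) : ℂ) := by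
    intro p
    show G (D.d (-p.1) p.2) * (Φ (D.d (-p.1) p.2) : ℂ) *
      (eta (u (D.d (-p.1) p.2) + p.1) : ℂ) = _
    rw [hGd, hud, neg_add_cancel_right]
    ring
  have hS : Integrable (H ∘ D.skew) ((volume : Measure ℝ).prod μ) := by
    refine (integrable_prod_iff' ((hHm.comp D.skew.measurable).aestronglyMeasurable)).2 ⟨?_, ?_⟩
    · refine Filter.Eventually.of_forall fun x => ?_
      simp only [Function.comp_apply, hcomp]
      by_cases h0 : G x = 0
      · simp [h0]
      · exact ((hΦi x h0).ofReal).const_mul _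
    · refine Integrable.mono' (hGi.norm.mul_const B)
        (StronglyMeasurable.integral_prod_left
          (f := fun s x => ‖(H ∘ D.skew) (s, x)‖)
          ((hHm.comp D.skew.measurable).norm.stronglyMeasurable)).aestronglyMeasurable ?_
      refine Filter.Eventually.of_forall fun x => ?_
      simp only [Function.comp_apply, hcomp]
      by_cases h0 : G x = 0
      · simp [h0]
      · simp only [norm_mul, Complex.norm_real, Real.norm_of_nonneg (hΦ0 _),
          Real.norm_of_nonneg (eta_nonneg _)]
        rw [integral_const_mul, Real.norm_of_nonneg (mul_nonneg (mul_nonneg (norm_nonneg _)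
          (eta_nonneg _)) (integral_nonneg fun s => hΦ0 _))]
        exact mul_le_mul_of_nonneg_left (hB x h0) (mul_nonneg (norm_nonneg _) (eta_nonneg _))
  have hI : Integrable H ((volume : Measure ℝ).prod μ) :=
    ((D.measurePreserving_skew).integrable_comp_emb D.skew.measurableEmbedding).1 hS
  have h1 : ∀ x, ∫ s, H (s, x) = G x * (Φ x : ℂ) := fun x => by
    simp only [hH]
    rw [integral_const_mul, integral_complex_ofReal, integral_eta_add]
    simp
  refine ⟨hI.integral_prod_right.congr (Filter.Eventually.of_forall h1), ?_⟩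
  calc ∫ x, G x * (Φ x : ℂ) ∂μ = ∫ x, (∫ s, H (s, x)) ∂μ := by simp only [h1]
    _ = ∫ p, H p ∂((volume : Measure ℝ).prod μ) := (integral_prod_symm _ hI).symm
    _ = ∫ p, H (D.skew p) ∂((volume : Measure ℝ).prod μ) :=
        ((D.measurePreserving_skew).integral_comp D.skew.measurableEmbedding H).symm
    _ = _ := by
      refine (integral_prod_symm (fun p => H (D.skew p)) hS).trans ?_
      refine integral_congr_ae (Filter.Eventually.of_forall fun x => ?_)
      simp only [hcomp]
      rw [integral_const_mul, integral_complex_ofReal]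

/-- Integrals of invariant functions over a slice do not depend on the slice. -/
theorem Flow.integral_slice_congr {u u' : X → ℝ} (hu : Measurable u) (hu' : Measurable u')
    (hud : ∀ t x, u (D.d t x) = u x + t) (hud' : ∀ t x, u' (D.d t x) = u' x + t)
    {G : X → ℂ} (hG : Measurable G) (hGd : ∀ t x, G (D.d t x) = G x)
    (hGi : Integrable (fun x => G x * (eta (u x) : ℂ)) μ) :
    Integrable (fun x => G x * (eta (u' x) : ℂ)) μ ∧
      ∫ x, G x * (eta (u' x) : ℂ) ∂μ = ∫ x, G x * (eta (u x) : ℂ) ∂μ := by
  have e : ∀ x, (fun s => eta (u' (D.d (-s) x))) = fun s => eta (u' x + -s) := fun x =>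
    funext fun s => by rw [hud']
  have h := D.integral_mul_eq hu hud hG hGd (Φ := fun x => eta (u' x)) (measurable_eta.comp hu')
    (fun x => eta_nonneg _) (B := 1)
    (fun x _ => by rw [e]; exact (integrable_eta_add (u' x)).comp_neg)
    (fun x _ => by
      rw [e, integral_neg_eq_self (fun s => eta (u' x + s))]
      exact (integral_eta_add _).le) hGi
  refine ⟨h.1, h.2.trans (integral_congr_ae (Filter.Eventually.of_forall fun x => ?_))⟩
  simp only [e]
  rw [integral_neg_eq_self (fun s => eta (u' x + s)), integral_eta_add]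
  simp

/-- Truncation from both ends: the orbit meets the window in an interval of known length. -/
theorem Flow.integral_truncated {u u₁ u₂ : X → ℝ} (hu : Measurable u) (hu₁ : Measurable u₁)
    (hu₂ : Measurable u₂) (hud : ∀ t x, u (D.d t x) = u x + t) {κ : ℝ} (hκ : 0 < κ)
    (h₁ : ∀ t x, u₁ (D.d t x) = u₁ x + κ * t) (h₂ : ∀ t x, u₂ (D.d t x) = u₂ x - κ * t)
    {G : X → ℂ} (hG : Measurable G) (hGd : ∀ t x, G (D.d t x) = G x)
    (hGi : Integrable (fun x => G x * (eta (u x) : ℂ)) μ) {C T : ℝ}
    (hC : ∀ x, G x ≠ 0 → |u₁ x + u₂ x| ≤ C) (hT : C ≤ 2 * T) :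
    ∫ x, {x | u₁ x ≤ T ∧ u₂ x ≤ T}.indicator G x ∂μ =
      ∫ x, G x * (eta (u x) : ℂ) * (((2 * T - (u₁ x + u₂ x)) / κ : ℝ) : ℂ) ∂μ := by
  set S := {x | u₁ x ≤ T ∧ u₂ x ≤ T}
  have hS : MeasurableSet S :=
    (measurableSet_le hu₁ measurable_const).inter (measurableSet_le hu₂ measurable_const)
  have hset : ∀ x, (fun s => S.indicator (1 : X → ℝ) (D.d (-s) x)) =
      (Set.Icc ((u₁ x - T) / κ) ((T - u₂ x) / κ)).indicator 1 := fun x => funext fun s => by
    have : D.d (-s) x ∈ S ↔ s ∈ Set.Icc ((u₁ x - T) / κ) ((T - u₂ x) / κ) := by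
      rw [Set.mem_Icc, div_le_iff₀ hκ, le_div_iff₀ hκ, Set.mem_ofPred_eq, h₁, h₂]
      constructor <;> rintro ⟨a, b⟩ <;> constructor <;> linarith
    by_cases hs : D.d (-s) x ∈ S
    · rw [Set.indicator_of_mem hs, Set.indicator_of_mem (this.1 hs)]; rfl
    · rw [Set.indicator_of_notMem hs, Set.indicator_of_notMem fun h => hs (this.2 h)]
  have hval : ∀ x, G x ≠ 0 → ∫ s, S.indicator (1 : X → ℝ) (D.d (-s) x) =
      (2 * T - (u₁ x + u₂ x)) / κ := by
    intro x hx
    rw [hset, integral_indicator_one measurableSet_Icc, Measure.real, Real.volume_Icc,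
      ENNReal.toReal_ofReal]
    · field_simp; ring
    · have := hC x hx
      rw [abs_le] at this
      rw [sub_nonneg, div_le_div_iff_of_pos_right hκ]
      linarith
  have h := D.integral_mul_eq hu hud hG hGd (Φ := S.indicator 1) (measurable_const.indicator hS)
    (fun x => Set.indicator_nonneg (fun _ _ => zero_le_one) x) (B := (2 * |T| + C) / κ)
    (fun x _ => by
      rw [hset x]
      exact (integrable_indicator_iff measurableSet_Icc).2
        (integrableOn_const (C := (1 : ℝ)) (measure_Icc_lt_top.ne) (by simp)))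
    (fun x hx => by
      rw [hval x hx]
      refine div_le_div_of_nonneg_right ?_ hκ.le
      have := hC x hx
      rw [abs_le] at this
      linarith [le_abs_self T]) hGi
  calc ∫ x, S.indicator G x ∂μ = ∫ x, G x * ((S.indicator (1 : X → ℝ) x : ℝ) : ℂ) ∂μ := by
        refine integral_congr_ae (Filter.Eventually.of_forall fun x => ?_)
        by_cases hs : x ∈ S <;> simp [hs]
    _ = _ := h.2
    _ = _ := by
      refine integral_congr_ae (Filter.Eventually.of_forall fun x => ?_)
      by_cases h0 : G x = 0
      · simp [h0]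
      · simp only [hval x h0]

end Fermat.Agent.ResidualThree.Orbital
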