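import Fermat.Agent.ResidualThree.Orbital.AutHeight
import Fermat.Agent.ResidualThree.Orbital.ClassIntegral

/-!
# Classes without eigenlines: no truncation, the pushforwards agree

A class without eigenlines vanishes high in the cusps, so truncation does not change it, and its
integrals on the two fields are those of the local orbital sums, which are equal by transfer.
-/

noncomputable section

open IsDedekindDomain NumberField MeasureTheory MulAction Matrix
open scoped ENNReal

namespace Fermat.Agent.ResidualThree.Orbital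

/-- The discriminant. -/
def disc {F : Type} [CommRing F] (g : Matrix (Fin 2) (Fin 2) F) : F := g.trace ^ 2 - 4 * g.det

variable {K L : Type} [Field K] [NumberField K] [Field L] [NumberField L] [Algebra K L]
  {τ : CubicAut K L} {UL : Level L} {UK : Level K} {fL : ∀ w : FPlace L, GLv w → ℂ}
  {fK : ∀ v : FPlace K, GLv v → ℂ}

local notation "M2" => Matrix (Fin 2) (Fin 2)

/-- An eigenvector over a field gives a root. -/
theorem root_of_eigen {F : Type} [Field F] {g : M2 F} {e : Fin 2 → F} (he : e ≠ 0) {μ : F}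
    (h : e ᵥ* g = μ • e) : μ * μ - g.trace * μ + g.det = 0 := by
  have h0 := congrFun h 0
  have h1 := congrFun h 1
  simp [Matrix.vecMul, dotProduct, Fin.sum_univ_two] at h0 h1
  rw [Matrix.trace_fin_two, Matrix.det_fin_two]
  by_contra hne
  refine he (funext (Fin.forall_fin_two.2 ⟨?_, ?_⟩)) <;> refine (mul_eq_zero.1 ?_).resolve_left hne
  · linear_combination (μ - g 1 1) * (-1) * h0 + (-1) * g 1 0 * h1
  · linear_combination (-1) * g 0 1 * h0 + (μ - g 0 0) * (-1) * h1

/-- Over the cubic extension an eigenvalue lies in the base. -/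
theorem isSquare_disc_of_eigen {γ : M2 K} {e : Fin 2 → L} (he : e ≠ 0) {μ : L}
    (h : e ᵥ* γ.map (algebraMap K L) = μ • e) (τ : CubicAut K L) : IsSquare (disc γ) := by
  set a := algebraMap K L γ.trace
  set d := algebraMap K L γ.det
  have hroot : μ * μ - a * μ + d = 0 := by
    have := root_of_eigen he h
    rwa [show (γ.map (algebraMap K L)).trace = a by simp [a, Matrix.trace_fin_two],
      show (γ.map (algebraMap K L)).det = d from (RingHom.map_det (algebraMap K L) γ).symm] at this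
  have hroot' : ∀ x : L, x * x - a * x + d = 0 → τ.σ x * τ.σ x - a * τ.σ x + d = 0 := fun x hx => by
    have := congrArg τ.σ hx
    simpa [a, d] using this
  have hfix : τ.σ μ = μ := by
    have h1 := hroot' μ hroot
    have h2 := hroot' _ h1
    by_contra hne
    have e1 : τ.σ μ + μ - a = 0 :=
      (mul_eq_zero.1 (show (τ.σ μ - μ) * (τ.σ μ + μ - a) = 0 by
        linear_combination h1 - hroot)).resolve_left (sub_ne_zero.2 hne)
    rcases mul_eq_zero.1 (show (τ.σ (τ.σ μ) - μ) * (τ.σ (τ.σ μ) + μ - a) = 0 by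
        linear_combination h2 - hroot) with e2 | e2
    · have := congrArg τ.σ (sub_eq_zero.1 e2)
      rw [τ.pow_three] at this
      exact hne this.symm
    · have e3 : τ.σ (τ.σ μ) = τ.σ μ := by linear_combination e2 - e1
      exact hne (τ.σ.injective e3)
  obtain ⟨k, hk⟩ := τ.fixed μ hfix
  refine ⟨2 * k - γ.trace, (algebraMap K L).injective ?_⟩
  simp only [disc, map_sub, map_mul, map_pow, map_ofNat, hk]
  linear_combination (-4 : L) * hroot

omit [NumberField K] in
/-- A high line at a point where a twisted term is non-zero is an eigenline of the norm. -/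
theorem exists_high_eigen_twisted [IsTotallyComplex L] (hU : IsStableLevel τ.σ.toRingEquiv UL)
    (hL : IsLocalFamily UL fL) (kL : InfinitePlace L → ℝ → ℂ) (hk : ∀ w, H3.IsKernel (kL w)) :
    ∃ D : ℝ, 1 ≤ D ∧ ∀ P : GoodRep τ, ∀ s : Spc UL, twTerm τ hU fL kL P.twisted s ≠ 0 →
      ∀ e : Fin 2 → L, e ≠ 0 → D < spcHeight e s →
        ∃ μ : L, e ᵥ* (P.γ : M2 K).map (algebraMap K L) = μ • e := by
  obtain ⟨D, hD1, hD⟩ := exists_height_ratio (U := UL) kL hL hk
  refine ⟨D, hD1, fun P s hs e he hhigh => ?_⟩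
  set t : Spc UL := (P.δ : PGLF L) • autSpc τ hU s
  obtain ⟨c, hc⟩ := P.exists_norm
  obtain ⟨-, hσc, hc0, -⟩ := τ.commute_of_norm P.δ.det_ne_zero hc
  set f : Fin 2 → L := fun i => τ.σ (τ.σ ((e ᵥ* (P.δ : M2 L)) i)) with hf
  have hf' : (fun i => τ.σ (f i)) = e ᵥ* (P.δ : M2 L) := funext fun i => τ.pow_three _
  have hf0 : f ≠ 0 := fun h0 => vecMul_ne_zero he P.δ (by rw [← hf', h0]; funext i; simp)
  have h1 : spcHeight e t = spcHeight f s := by
    rw [show t = P.δ • autSpc τ hU s from rfl, spcHeight_smul he, ← hf', spcHeight_autSpc]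
  have h2 : 1 < spcHeight f s := by
    have := (hD s t hs e he).2
    rw [h1] at this
    by_contra hle
    push Not at hle
    exact absurd (this.trans (mul_le_of_le_one_right (zero_le_one.trans hD1) hle)) (not_le.2 hhigh)
  obtain ⟨l, hl⟩ := eq_smul_of_dependent he
    (line_unique_of_one_lt_height h2 (hD1.trans_lt hhigh))
  have hmap : ∀ (v : Fin 2 → L) (g : M2 L), (fun i => τ.σ ((v ᵥ* g) i)) =
      (fun i => τ.σ (v i)) ᵥ* τ.mat g := fun v g => funext fun i => by
    simp [Matrix.vecMul, dotProduct, Fin.sum_univ_two, CubicAut.mat]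
  set se : Fin 2 → L := fun i => τ.σ (e i)
  set sse : Fin 2 → L := fun i => τ.σ (τ.σ (e i))
  have e1 : e ᵥ* (P.δ : M2 L) = τ.σ l • se := by
    rw [← hf', hl]; funext i; simp [se]
  have e2 : se ᵥ* τ.mat (P.δ : M2 L) = τ.σ (τ.σ l) • sse := by
    rw [← hmap, e1]; funext i; simp [sse, se]
  have e3 : sse ᵥ* τ.mat (τ.mat (P.δ : M2 L)) = l • e := by
    rw [show sse = fun i => τ.σ (se i) from rfl, ← hmap, e2]
    funext i
    simp [sse, τ.pow_three]
  refine ⟨c⁻¹ * (τ.σ l * τ.σ (τ.σ l) * l), ?_⟩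
  have e4 : e ᵥ* τ.norm (P.δ : M2 L) = (τ.σ l * τ.σ (τ.σ l) * l) • e := by
    rw [CubicAut.norm, ← Matrix.vecMul_vecMul, ← Matrix.vecMul_vecMul, e1, Matrix.smul_vecMul, e2,
      smul_smul, Matrix.smul_vecMul, e3, smul_smul]
  rw [hc, Matrix.vecMul_smul] at e4
  rw [← smul_smul, ← e4, smul_smul, inv_mul_cancel₀ hc0, one_smul]

/-- Points where an elliptic twisted term is non-zero are not high in the cusps. -/
theorem exists_elliptic_truncated_twisted [IsTotallyComplex L]
    (hU : IsStableLevel τ.σ.toRingEquiv UL)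
    (hL : IsLocalFamily UL fL) (kL : InfinitePlace L → ℝ → ℂ) (hk : ∀ w, H3.IsKernel (kL w)) :
    ∃ D : ℝ, ∀ P : GoodRep τ, ¬ IsSquare (disc (P.γ : M2 K)) → ∀ T, D ≤ T → ∀ s : Spc UL,
      twTerm τ hU fL kL P.twisted s ≠ 0 → s ∈ truncated UL T := by
  obtain ⟨D, -, hD⟩ := exists_high_eigen_twisted hU hL kL hk
  refine ⟨D, fun P hP T hT s hs e he => not_lt.1 fun hcon => hP ?_⟩
  obtain ⟨μ, hμ⟩ := hD P s hs e he (lt_of_le_of_lt hT hcon)
  exact isSquare_disc_of_eigen he hμ τ

/-- A high line at a point where a term is non-zero is an eigenline. -/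
theorem exists_high_eigen_base [IsTotallyComplex K] (hK : IsLocalFamily UK fK)
    (kK : InfinitePlace K → ℝ → ℂ) (hk : ∀ w, H3.IsKernel (kK w)) :
    ∃ D : ℝ, 1 ≤ D ∧ ∀ γ : GL (Fin 2) K, ∀ s : Spc UK,
      baseTwTerm fK kK (⟨(γ : PGLF K)⟩ : ConjElt K) s ≠ 0 →
      ∀ e : Fin 2 → K, e ≠ 0 → D < spcHeight e s → ∃ μ : K, e ᵥ* (γ : M2 K) = μ • e := by
  obtain ⟨D, hD1, hD⟩ := exists_height_ratio (U := UK) kK hK hk
  refine ⟨D, hD1, fun γ s hs e he hhigh => ?_⟩
  have h2 : 1 < spcHeight (e ᵥ* (γ : M2 K)) s := by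
    have := (hD s ((γ : PGLF K) • s) hs e he).2
    rw [mk_smul_spc, spcHeight_smul he] at this
    by_contra hle
    push Not at hle
    exact absurd (this.trans (mul_le_of_le_one_right (zero_le_one.trans hD1) hle)) (not_le.2 hhigh)
  obtain ⟨l, hl⟩ := eq_smul_of_dependent he
    (line_unique_of_one_lt_height h2 (hD1.trans_lt hhigh))
  exact ⟨l, hl⟩

/-- Points where an elliptic term is non-zero are not high in the cusps. -/
theorem exists_elliptic_truncated_base [IsTotallyComplex K] (hK : IsLocalFamily UK fK)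
    (kK : InfinitePlace K → ℝ → ℂ) (hk : ∀ w, H3.IsKernel (kK w)) :
    ∃ D : ℝ, ∀ γ : GL (Fin 2) K, ¬ IsSquare (disc (γ : M2 K)) → ∀ T, D ≤ T → ∀ s : Spc UK,
      baseTwTerm fK kK (⟨(γ : PGLF K)⟩ : ConjElt K) s ≠ 0 → s ∈ truncated UK T := by
  obtain ⟨D, -, hD⟩ := exists_high_eigen_base hK kK hk
  refine ⟨D, fun γ hγ T hT s hs e he => not_lt.1 fun hcon => hγ ?_⟩
  obtain ⟨l, hl⟩ := hD γ s hs e he (lt_of_le_of_lt hT hcon)
  have hr := root_of_eigen he hl
  exact ⟨2 * l - (γ : M2 K).trace, by rw [disc]; linear_combination (-4 : K) * hr⟩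

/-! ### Values -/

variable (A : ArchFrame τ)

/-- The orbital integral at infinity of `γ` on the coset `q`, weighted by `W`. -/
def ellipticValue (W : Spc UK → ℝ≥0∞) (k : ℝ → ℂ) (γ : GL (Fin 2) K) (q : Ωf UK) : ℂ :=
  ∫ p : Hyp K, ((W (q, p)).toReal : ℂ) * k (H3.coshDist (p A.w₀) (A.bmat γ • p A.w₀))
    ∂Measure.pi fun _ : InfinitePlace K => H3.vol

omit [NumberField L] in
theorem prod_base_eq (kK : ℝ → ℂ) (γ : GL (Fin 2) K) (p : Hyp K) :
    ∏ w : InfinitePlace K, kK (H3.coshDist (p w) ((γ • p) w)) =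
      kK (H3.coshDist (p A.w₀) (A.bmat γ • p A.w₀)) :=
  Fintype.prod_eq_single A.w₀ fun w hw => absurd (A.unique w) hw

omit [NumberField L] in
theorem integral_pullK_eq (hK : IsLocalFamily UK fK) {kK : ℝ → ℂ} (hk : Continuous kK)
    {γ : GL (Fin 2) K} (P : GlobalProj UK fK γ) {W : Spc UK → ℝ≥0∞} (hWm : Measurable W)
    (hW1 : ∀ s, W s ≤ 1)
    (hint : ∫⁻ s, pullK P W s *
      ‖baseTwTerm fK (fun _ => kK) (⟨(γ : PGLF K)⟩ : ConjElt K) s‖ₑ ∂volSpc UK ≠ ⊤) :
    ∫ s, ((pullK P W s).toReal : ℂ) * baseTwTerm fK (fun _ => kK) (⟨(γ : PGLF K)⟩ : ConjElt K) s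
        ∂volSpc UK = ∑' q, ellipticValue A W kK γ q * pushFin P.proj (baseG fK γ) q := by
  simp only [baseTwTerm_eq hK, prod_base_eq A] at hint ⊢
  exact integral_avg_eq P.proj (baseG fK γ) (W := fun q p => W (q, p)) (measurable_slice hWm)
    (fun q p => hW1 _) (g := fun _ p => kK (H3.coshDist (p A.w₀) (A.bmat γ • p A.w₀)))
    (fun _ => (hk.comp (continuous_coshDist_of (continuous_apply _)
      ((H3.continuous_smul_gl _).comp (continuous_apply _)))).measurable) _ P.finite hint
    fun _ _ _ _ _ => rfl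

variable [IsTotallyComplex L]

omit [NumberField K] [IsTotallyComplex L] in
theorem integral_twistChain {kL : InfinitePlace L → ℝ → ℂ} (hk : ∀ w, H3.IsKernel (kL w))
    {δ : GL (Fin 2) L} {γ : GL (Fin 2) K} {c : L}
    (e : τ.norm (δ : M2 L) = c • (γ : M2 K).map (algebraMap K L))
    {V : H3 → ℝ≥0∞} (hV : Measurable V)
    (hi : Integrable (fun p : Hyp L => ((V (A.coords p).1).toReal : ℂ) *
      twistChain (kL (A.placeEquiv 0)) (kL (A.placeEquiv 1)) (kL (A.placeEquiv 2))
        (A.cmat δ 0) (A.cmat δ 1) (A.cmat δ 2) (A.coords p))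
      (Measure.pi fun _ : InfinitePlace L => H3.vol)) :
    ∫ p : Hyp L, ((V (A.coords p).1).toReal : ℂ) *
      twistChain (kL (A.placeEquiv 0)) (kL (A.placeEquiv 1)) (kL (A.placeEquiv 2))
        (A.cmat δ 0) (A.cmat δ 1) (A.cmat δ 2) (A.coords p)
      ∂(Measure.pi fun _ : InfinitePlace L => H3.vol) =
    ∫ z : H3, ((V z).toReal : ℂ) * H3.compKernel (H3.compKernel (kL (A.placeEquiv 0))
      (kL (A.placeEquiv 1))) (kL (A.placeEquiv 2)) (H3.coshDist z (A.bmat γ • z)) ∂H3.vol := by
  set k₀ := kL (A.placeEquiv 0)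
  set k₁ := kL (A.placeEquiv 1)
  set k₂ := kL (A.placeEquiv 2)
  set δ₀ := A.cmat δ 0
  set δ₁ := A.cmat δ 1
  set δ₂ := A.cmat δ 2
  have hN : MeasurePreserving (fun q : Trip => (q.1, δ₀ • q.2.1, (δ₀ * δ₁) • q.2.2))
      volTrip volTrip :=
    (MeasurePreserving.id H3.vol).prod
      ((H3.measurePreserving_smul δ₀).prod (H3.measurePreserving_smul (δ₀ * δ₁)))
  have hM : MeasurePreserving (fun p : Hyp L =>
      ((A.coords p).1, δ₀ • (A.coords p).2.1, (δ₀ * δ₁) • (A.coords p).2.2))
      (Measure.pi fun _ : InfinitePlace L => H3.vol) volTrip := hN.comp A.measurePreserving_coords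
  set F : Trip → ℂ := fun r => ((V r.1).toReal : ℂ) * chain k₀ k₁ k₂ (δ₀ * δ₁ * δ₂) r
  have hF : Measurable F := (Complex.measurable_ofReal.comp
    (hV.ennreal_toReal.comp measurable_fst)).mul
      (continuous_chain (hk _) (hk _) (hk _) _).measurable
  simp only [twistChain_eq_chain] at hi ⊢
  have hiF : Integrable F volTrip := (hM.integrable_comp hF.aestronglyMeasurable).1 hi
  show ∫ p : Hyp L, F ((A.coords p).1, δ₀ • (A.coords p).2.1, (δ₀ * δ₁) • (A.coords p).2.2)
    ∂(Measure.pi fun _ : InfinitePlace L => H3.vol) = _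
  rw [← integral_map hM.aemeasurable (by rw [hM.map_eq]; exact hF.aestronglyMeasurable), hM.map_eq,
    integral_prod _ hiF]
  refine integral_congr_ae (Filter.Eventually.of_forall fun z => ?_)
  show ∫ r : H3 × H3, F (z, r) ∂H3.vol.prod H3.vol = _
  simp only [F, chain]
  rw [integral_const_mul, integral_pair (hk _) (hk _) (hk _), A.smul_cmat_prod e]

theorem integral_pullL_eq (hL : IsLocalFamily UL fL) (hU : IsStableLevel τ.σ.toRingEquiv UL)
    {kL : InfinitePlace L → ℝ → ℂ} (hk : ∀ w, H3.IsKernel (kL w)) (P : GoodRep τ)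
    (T : GlobalTransfer τ UL UK fL fK P.δ P.γ) {W : Spc UK → ℝ≥0∞} (hWm : Measurable W)
    (hW1 : ∀ s, W s ≤ 1)
    (hint : ∫⁻ s, pullL A T W s * ‖twTerm τ hU fL kL P.twisted s‖ₑ ∂volSpc UL ≠ ⊤) :
    ∫ s, ((pullL A T W s).toReal : ℂ) * twTerm τ hU fL kL P.twisted s ∂volSpc UL =
      ∑' q, ellipticValue A W (H3.compKernel (H3.compKernel (kL (A.placeEquiv 0))
        (kL (A.placeEquiv 1))) (kL (A.placeEquiv 2))) P.γ q * pushFin T.proj (baseG fK P.γ) q := by
  obtain ⟨c, hc⟩ := P.exists_norm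
  simp only [GoodRep.twisted, twTerm_eq hL hU, A.prod_kernel_eq] at hint ⊢
  have hcoords : Measurable A.coords := A.measurePreserving_coords.measurable
  refine (integral_avg_eq T.projL (twG τ fL P.δ) (W := fun q p => W (q, A.proj p))
    (fun q => (measurable_slice hWm q).comp A.measurable_proj) (fun q p => hW1 _)
    (g := fun _ p => twistChain (kL (A.placeEquiv 0)) (kL (A.placeEquiv 1)) (kL (A.placeEquiv 2))
      (A.cmat P.δ 0) (A.cmat P.δ 1) (A.cmat P.δ 2) (A.coords p))
    (fun _ => ?_) (ellipticValue A W (H3.compKernel (H3.compKernel (kL (A.placeEquiv 0))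
      (kL (A.placeEquiv 1))) (kL (A.placeEquiv 2))) P.γ) T.finiteL hint ?_).trans ?_
  · simp only [twistChain_eq_chain]
    exact (continuous_chain (hk _) (hk _) (hk _) _).measurable.comp
      (measurable_fst.prodMk (((H3.continuous_smul_gl _).measurable.comp
        (measurable_fst.comp measurable_snd)).prodMk
        ((H3.continuous_smul_gl _).measurable.comp
          (measurable_snd.comp measurable_snd))) |>.comp hcoords)
  · intro X q _ _ hi
    refine (integral_twistChain A hk hc (V := fun z => W (q, fun _ => z))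
      ((measurable_slice hWm q).comp (measurable_pi_lambda _ fun _ => measurable_id)) hi).trans ?_
    rw [ellipticValue]
    set k := H3.compKernel (H3.compKernel (kL (A.placeEquiv 0)) (kL (A.placeEquiv 1)))
      (kL (A.placeEquiv 2))
    have hkk : Continuous k := (((hk _).comp (hk _)).comp (hk _)).cont
    have hmf : Measurable fun z : H3 =>
        ((W (q, fun _ => z)).toReal : ℂ) * k (H3.coshDist z (A.bmat P.γ • z)) :=
      (Complex.measurable_ofReal.comp ((measurable_slice hWm q).comp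
        (measurable_pi_lambda _ fun _ => measurable_id)).ennreal_toReal).mul
        (hkk.comp (continuous_coshDist_of continuous_id (H3.continuous_smul_gl _))).measurable
    have key := integral_map (μ := Measure.pi fun _ : InfinitePlace K => H3.vol)
      A.measurePreserving_base.aemeasurable
      (f := fun z : H3 => ((W (q, fun _ => z)).toReal : ℂ) * k (H3.coshDist z (A.bmat P.γ • z)))
      hmf.aestronglyMeasurable
    rw [A.measurePreserving_base.map_eq] at key
    rw [key]
    refine integral_congr_ae (Filter.Eventually.of_forall fun p => ?_)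
    simp only
    rw [show (fun _ => p A.w₀ : Hyp K) = p from funext fun w => by rw [A.unique w]]
  · simp only [T.sum_eq]

end Fermat.Agent.ResidualThree.Orbital
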