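import Fermat.Agent.ResidualThree.Orbital.ClassIntegral

/-!
# Cosets of the diagonal torus: valuations, positions, a weight

When the integers are principal the diagonal torus meets every family of valuations, finitely
often for a single infinite place, so the normalised indicator of position zero is a weight for
the torus on the finite cosets (`tsum_torusWeight`).
-/

noncomputable section

open IsDedekindDomain NumberField Matrix MeasureTheory MulAction
open scoped WithZero ENNReal

namespace Fermat.Agent.ResidualThree.Orbital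

variable {F : Type} [Field F] [NumberField F]

local notation "M2" => Matrix (Fin 2) (Fin 2)

/-- The element with given valuations, when every prime is principal. -/
theorem exists_valuation_eq [IsPrincipalIdealRing (𝓞 F)] (n : FPlace F → ℤ)
    (hn : ∀ᶠ v in Filter.cofinite, n v = 0) :
    ∃ t : Fˣ, ∀ v, v.valuation F (t : F) = WithZero.exp (n v) := by
  classical
  have hgen : ∀ v : FPlace F, ∃ π : 𝓞 F, v.asIdeal = Ideal.span {π} :=
    fun v => (IsPrincipalIdealRing.principal v.asIdeal).1
  choose π hπ using hgen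
  have hπ0 : ∀ v, π v ≠ 0 := fun v h => v.ne_bot (by simp [hπ v, h])
  have hval : ∀ u v : FPlace F, v.valuation F (π u : F) =
      if v = u then WithZero.exp (-1 : ℤ) else 1 := fun u v => by
    split_ifs with h
    · subst h
      exact (HeightOneSpectrum.valuation_of_algebraMap v _).trans
        (v.intValuation_singleton (hπ0 v) (hπ v))
    · refine v.valuation_eq_one_iff_notMem.2 fun hm => h (HeightOneSpectrum.ext ?_)
      exact ((u.isPrime.isMaximal u.ne_bot).eq_of_le v.isPrime.ne_top (by
        rw [hπ u, Ideal.span_le, Set.singleton_subset_iff]; exact hm)).symm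
  set S := (Filter.eventually_cofinite.1 hn).toFinset
  have ht0 : ∏ u ∈ S, (π u : F) ^ (-n u) ≠ 0 :=
    Finset.prod_ne_zero_iff.2 fun u _ => zpow_ne_zero _ (by exact_mod_cast hπ0 u)
  refine ⟨Units.mk0 _ ht0, fun v => ?_⟩
  rw [Units.val_mk0, map_prod]
  by_cases hv : v ∈ S
  · rw [Finset.prod_eq_single_of_mem v hv fun u _ hu => by
      rw [map_zpow₀, hval, if_neg (Ne.symm hu), _root_.one_zpow]]
    rw [map_zpow₀, hval, if_pos rfl, ← WithZero.exp_zsmul]
    simp
  · have h0 : n v = 0 := by simpa [S] using hv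
    rw [h0, WithZero.exp_zero]
    refine Finset.prod_eq_one fun u hu => ?_
    rw [map_zpow₀, hval, if_neg fun (e : v = u) => hv (e ▸ hu), _root_.one_zpow]

/-- Over a field with one infinite place the elements with given valuations are finitely many. -/
theorem finite_valuation_fibre [IsTotallyComplex F] (w₀ : InfinitePlace F)
    (huniq : ∀ w, w = w₀) (n : FPlace F → ℤ) :
    {t : Fˣ | ∀ v : FPlace F, v.valuation F (t : F) = WithZero.exp (n v)}.Finite := by
  rcases Set.eq_empty_or_nonempty
      {t : Fˣ | ∀ v : FPlace F, v.valuation F (t : F) = WithZero.exp (n v)}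
    with h | ⟨t₀, ht₀⟩
  · rw [h]; exact Set.finite_empty
  refine (((Embeddings.finite_of_norm_le F ℂ (1 : ℝ)).preimage
    (f := fun t : Fˣ => (((t * t₀⁻¹ : Fˣ)) : F)) ?_)).subset fun t ht => ?_
  · intro a _ b _ h
    exact mul_right_cancel (Units.ext h)
  have h1 : ∀ v : FPlace F, v.valuation F ((t * t₀⁻¹ : Fˣ) : F) = 1 := fun v => by
    rw [Units.val_mul, Units.val_inv_eq_inv_val, map_mul, map_inv₀, ht v, ht₀ v,
      mul_inv_cancel₀ WithZero.exp_ne_zero]
  refine ⟨?_, fun φ => ?_⟩
  · obtain ⟨b, hb⟩ := HeightOneSpectrum.mem_integers_of_valuation_le_one F _ fun v => (h1 v).le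
    show IsIntegral ℤ ((t * t₀⁻¹ : Fˣ) : F)
    rw [← hb]
    exact b.2
  · have hp := prod_norm_eq_one (F := F) (x := ((t * t₀⁻¹ : Fˣ) : F)) (Units.ne_zero _)
    rw [finprod_eq_one_of_forall_eq_one fun v => (norm_eq_one_iff_valv _).2
      (by rw [valv_algebraMap]; exact h1 v), one_mul,
      Fintype.prod_eq_single w₀ fun w hw => absurd (huniq w) hw] at hp
    rw [← InfinitePlace.apply φ, huniq (InfinitePlace.mk φ), ← InfinitePlace.norm_embedding_eq]
    nlinarith [norm_nonneg (w₀.embedding ((t * t₀⁻¹ : Fˣ) : F))]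

/-- The diagonal matrix with entries `a, 1`. -/
def diagOne (a : Fˣ) : GL (Fin 2) F := upGL a 1 0

omit [NumberField F] in
theorem coe_diagOne (a : Fˣ) : (diagOne a : M2 F) = !![(a : F), 0; 0, 1] := coe_upGL _ _ _

/-- The valuation of a row. -/
def rowVal {v : FPlace F} (g : GLv v) (i : Fin 2) : ℤᵐ⁰ :=
  max (valv v ((g : M2 (v.adicCompletion F)) i 0)) (valv v ((g : M2 (v.adicCompletion F)) i 1))

theorem rowVal_ne_zero {v : FPlace F} (g : GLv v) (i : Fin 2) : rowVal g i ≠ 0 := fun h => by
  have h0 : ∀ j, (g : M2 (v.adicCompletion F)) i j = 0 := fun j => (map_eq_zero (valv v)).1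
    (le_antisymm (h ▸ by fin_cases j <;> simp [rowVal]) zero_le)
  exact g.det_ne_zero (by rw [Matrix.det_eq_zero_of_row_eq_zero i h0])

/-- The position along the diagonal torus. -/
def posAt {v : FPlace F} (g : GLv v) : ℤ :=
  WithZero.log (rowVal g 0) - WithZero.log (rowVal g 1)

theorem rowVal_mul_intGL_le {v : FPlace F} (g : GLv v) {k : GLv v}
    (hk : k ∈ Tree.intGL (valv v)) (i : Fin 2) : rowVal (g * k) i ≤ rowVal g i := by
  have h : ∀ j, valv v (((g * k : GLv v) : M2 (v.adicCompletion F)) i j) ≤ rowVal g i := fun j => by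
    rw [Units.val_mul, Matrix.mul_apply, Fin.sum_univ_two]
    refine (valv v).map_add_le ?_ ?_ <;> rw [map_mul] <;>
      refine (mul_le_of_le_one_right' (hk.1 _ j)).trans ?_
    · exact le_max_left _ _
    · exact le_max_right _ _
  exact max_le (h 0) (h 1)

theorem posAt_mul_max {v : FPlace F} (g : GLv v) {k : GLv v} (hk : k ∈ maxSubgroup v) :
    posAt (g * k) = posAt g := by
  obtain ⟨s, k', hk', rfl⟩ := Tree.mul_mem_vertexSubgroup_iff.mp hk
  have he : ∀ i, rowVal (g * k') i = rowVal g i := fun i =>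
    le_antisymm (rowVal_mul_intGL_le g hk' i) (by
      simpa using rowVal_mul_intGL_le (g * k') (inv_mem hk') i)
  have hs : valv v (s : v.adicCompletion F) ≠ 0 := (map_ne_zero _).2 s.ne_zero
  have hsr : ∀ i, rowVal (g * (Matrix.GeneralLinearGroup.scalar (Fin 2) s * k')) i =
      valv v (s : v.adicCompletion F) * rowVal (g * k') i := fun i => by
    simp only [rowVal, Units.val_mul, Tree.coe_scalar_eq_smul, Matrix.smul_mul, Matrix.one_mul,
      Matrix.mul_smul, Matrix.smul_apply, smul_eq_mul, map_mul]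
    exact (mul_max _ _ _).symm
  rw [posAt, posAt, hsr, hsr, he, he, WithZero.log_mul hs (rowVal_ne_zero g 0),
    WithZero.log_mul hs (rowVal_ne_zero g 1)]
  ring

theorem posAt_one (v : FPlace F) : posAt (1 : GLv v) = 0 := by
  simp [posAt, rowVal]

theorem posAt_diagOne_mul {v : FPlace F} (t : Fˣ) (g : GLv v) :
    posAt (toLocal v (diagOne t) * g) = WithZero.log (v.valuation F (t : F)) + posAt g := by
  have h0 : rowVal (toLocal v (diagOne t) * g) 0 = v.valuation F (t : F) * rowVal g 0 := by
    rw [rowVal, rowVal, mul_max, diagOne, toLocal_upGL]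
    simp [Matrix.mul_apply, Fin.sum_univ_two, valv_algebraMap]
  have h1 : rowVal (toLocal v (diagOne t) * g) 1 = rowVal g 1 := by
    rw [rowVal, rowVal, diagOne, toLocal_upGL]
    simp [Matrix.mul_apply, Fin.sum_univ_two]
  rw [posAt, posAt, h0, h1, WithZero.log_mul ((v.valuation F).ne_zero_iff.mpr t.ne_zero)
    (rowVal_ne_zero g 0)]
  ring

variable {U : Level F}

/-- The position of a coset. -/
def posQ (q : Ωf U) (v : FPlace F) : ℤ := posAt (qAt q v).out

theorem posQ_smul_diagOne (t : Fˣ) (q : Ωf U) (v : FPlace F) :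
    posQ (diagOne t • q) v = WithZero.log (v.valuation F (t : F)) + posQ q v := by
  rw [posQ, posQ, qAt_smul]
  generalize qAt q v = x
  induction x using QuotientGroup.induction_on with
  | H g =>
    obtain ⟨j, hj⟩ := QuotientGroup.mk_out_eq_mul (U.J v) g
    obtain ⟨j', hj'⟩ := QuotientGroup.mk_out_eq_mul (U.J v) (toLocal v (diagOne t) * g)
    show posAt (QuotientGroup.mk (toLocal v (diagOne t) * g) : GLv v ⧸ U.J v).out = _
    rw [hj, hj', posAt_mul_max _ (U.le_max v j.2), posAt_mul_max _ (U.le_max v j'.2),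
      posAt_diagOne_mul]

theorem eventually_posQ_eq_zero (q : Ωf U) : ∀ᶠ v in Filter.cofinite, posQ q v = 0 :=
  (eventually_qAt_eq_one U q).mono fun v h => by
    obtain ⟨j, hj⟩ := QuotientGroup.mk_out_eq_mul (U.J v) (1 : GLv v)
    rw [posQ, h, hj, posAt_mul_max _ (U.le_max v j.2), posAt_one]

omit [NumberField F] in
theorem commute_diagOne (a t : Fˣ) : Commute (diagOne t) (diagOne a) :=
  Units.ext (by
    rw [Units.val_mul, Units.val_mul, coe_diagOne, coe_diagOne]
    ext i j
    fin_cases i <;> fin_cases j <;> simp [Matrix.mul_apply, Fin.sum_univ_two, mul_comm])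

omit [NumberField F] in
theorem exists_diagOne_of_commute {a : Fˣ} (ha : (a : F) ≠ 1) {g : GL (Fin 2) F}
    (h : g * diagOne a = diagOne a * g) :
    ∃ t : Fˣ, (g : GL (Fin 2) F ⧸ Subgroup.center (GL (Fin 2) F)) = (diagOne t : GL (Fin 2) F) := by
  have e := congrArg (fun x : GL (Fin 2) F => (x : M2 F)) h
  simp only [Units.val_mul, coe_diagOne] at e
  have e01 := congrArg (fun m : M2 F => m 0 1) e
  have e10 := congrArg (fun m : M2 F => m 1 0) e
  simp [Matrix.mul_apply, Fin.sum_univ_two] at e01 e10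
  have h01 : (g : M2 F) 0 1 = 0 :=
    (mul_eq_zero.1 (show ((a : F) - 1) * (g : M2 F) 0 1 = 0 by
      linear_combination -e01)).resolve_left
      (sub_ne_zero.2 ha)
  have h10 : (g : M2 F) 1 0 = 0 :=
    (mul_eq_zero.1 (show ((a : F) - 1) * (g : M2 F) 1 0 = 0 by linear_combination e10)).resolve_left
      (sub_ne_zero.2 ha)
  have hd := g.det_ne_zero
  rw [Matrix.det_fin_two, h01, zero_mul, sub_zero, mul_ne_zero_iff] at hd
  refine ⟨Units.mk0 _ (div_ne_zero hd.1 hd.2), mk_eq_of_smul (r := ((g : M2 F) 1 1)⁻¹)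
    (inv_ne_zero hd.2) ?_⟩
  rw [coe_diagOne]
  ext i j
  fin_cases i <;> fin_cases j <;> simp [h01, h10, hd.2, div_eq_inv_mul]

omit [NumberField F] in
/-- The classes of diagonal matrices. -/
theorem diagOne_mk_bijective {a : Fˣ} (ha : (a : F) ≠ 1) :
    Function.Bijective (fun t : Fˣ => (⟨(diagOne t : PGLF F),
      (mem_commSub_iff _ _).2 (commute_diagOne a t).eq⟩ : commSub (diagOne a))) := by
  refine ⟨fun t t' h => ?_, fun x => ?_⟩
  · obtain ⟨r, -, e⟩ := exists_smul_of_mk_eq (congrArg Subtype.val h)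
    rw [coe_diagOne, coe_diagOne] at e
    have e11 := congrArg (fun m : M2 F => m 1 1) e
    have e00 := congrArg (fun m : M2 F => m 0 0) e
    simp at e11 e00
    exact Units.ext (by rw [e00, ← e11, one_mul])
  · obtain ⟨x, hx⟩ := x
    induction x using QuotientGroup.induction_on with
    | H g =>
      obtain ⟨t, ht⟩ := exists_diagOne_of_commute ha ((mem_commSub_iff _ _).1 hx)
      exact ⟨t, Subtype.ext ht.symm⟩

open Classical in
/-- The normalised indicator of the cosets in position zero. -/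
def torusWeight (q : Ωf U) : ℝ≥0∞ :=
  if ∀ v : FPlace F, posQ q v = 0 then
    ((Nat.card {t : Fˣ | ∀ v : FPlace F, v.valuation F (t : F) =
      WithZero.exp (0 : ℤ)} : ℕ) : ℝ≥0∞)⁻¹
  else 0

theorem torusWeight_le_one [IsTotallyComplex F] (w₀ : InfinitePlace F) (huniq : ∀ w, w = w₀)
    (q : Ωf U) : torusWeight q ≤ 1 := by
  rw [torusWeight]
  split_ifs with h
  · rw [ENNReal.inv_le_one]
    have := (finite_valuation_fibre w₀ huniq fun _ => 0).to_subtype
    have : Nonempty {t : Fˣ | ∀ v : FPlace F, v.valuation F (t : F) = WithZero.exp (0 : ℤ)} :=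
      ⟨⟨1, fun v => by simp⟩⟩
    exact_mod_cast Nat.card_pos
  · exact zero_le

theorem tsum_torusWeight [IsTotallyComplex F] [IsPrincipalIdealRing (𝓞 F)] (w₀ : InfinitePlace F)
    (huniq : ∀ w, w = w₀) {a : Fˣ} (ha : (a : F) ≠ 1) (s : Spc U) :
    ∑' h : commSub (diagOne a), torusWeight (h • s).1 = 1 := by
  classical
  rw [← (Equiv.ofBijective _ (diagOne_mk_bijective ha)).tsum_eq]
  have e : ∀ t : Fˣ, torusWeight ((Equiv.ofBijective _ (diagOne_mk_bijective ha) t) • s).1 =
      if ∀ v : FPlace F, v.valuation F (t : F) = WithZero.exp (-posQ s.1 v) then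
        ((Nat.card {t : Fˣ | ∀ v : FPlace F, v.valuation F (t : F) =
          WithZero.exp (0 : ℤ)} : ℕ) : ℝ≥0∞)⁻¹
      else 0 := by
    intro t
    rw [show ((Equiv.ofBijective _ (diagOne_mk_bijective ha) t) • s).1 = diagOne t • s.1 from
      congrArg Prod.fst (mk_smul_spc (diagOne t) s), torusWeight]
    refine if_congr (forall_congr' fun v => ?_) rfl rfl
    rw [posQ_smul_diagOne]
    constructor
    · intro h
      rw [← WithZero.exp_log ((v.valuation F).ne_zero_iff.mpr t.ne_zero)]
      congr 1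
      omega
    · intro h
      rw [h, WithZero.log_exp, neg_add_cancel]
  simp only [e]
  set U₁ := {t : Fˣ | ∀ v : FPlace F, v.valuation F (t : F) = WithZero.exp (0 : ℤ)}
  have hU₁ := finite_valuation_fibre w₀ huniq fun _ => (0 : ℤ)
  set B := {t : Fˣ | ∀ v : FPlace F, v.valuation F (t : F) = WithZero.exp (-posQ s.1 v)}
  have hB := finite_valuation_fibre w₀ huniq fun v => -posQ s.1 v
  obtain ⟨t₀, ht₀⟩ := exists_valuation_eq (fun v => -posQ s.1 v)
    ((eventually_posQ_eq_zero s.1).mono fun v h => by simp [h])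
  have hcard : Nat.card B = Nat.card U₁ := Nat.card_congr
    { toFun := fun t => ⟨t.1 * t₀⁻¹, fun v => by
        rw [Units.val_mul, Units.val_inv_eq_inv_val, map_mul, map_inv₀, t.2 v, ht₀ v,
          mul_inv_cancel₀ WithZero.exp_ne_zero, WithZero.exp_zero]⟩
      invFun := fun t => ⟨t.1 * t₀, fun v => by
        rw [Units.val_mul, map_mul, t.2 v, ht₀ v, WithZero.exp_zero, one_mul]⟩
      left_inv := fun t => Subtype.ext (by simp)
      right_inv := fun t => Subtype.ext (by simp) }
  calc (∑' c : Fˣ, if ∀ v : FPlace F, v.valuation F (c : F) = WithZero.exp (-posQ s.1 v) then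
        ((Nat.card U₁ : ℕ) : ℝ≥0∞)⁻¹ else 0)
      = ∑ _t ∈ hB.toFinset, ((Nat.card U₁ : ℕ) : ℝ≥0∞)⁻¹ :=
        (tsum_eq_sum fun c hc => if_neg fun h => hc (hB.mem_toFinset.2 h)).trans
          (Finset.sum_congr rfl fun c hc => if_pos (hB.mem_toFinset.1 hc))
    _ = 1 := by
        rw [Finset.sum_const, nsmul_eq_mul, ← Set.ncard_eq_toFinset_card _ hB, ← hcard]
        exact ENNReal.mul_inv_cancel (Nat.cast_ne_zero.2 (Set.ncard_ne_zero_of_mem ht₀ hB))
          (ENNReal.natCast_ne_top _)

end Fermat.Agent.ResidualThree.Orbital
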