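import Fermat.Agent.ResidualThree.Orbital.AutHeight
import Fermat.Agent.ResidualThree.Orbital.GlobalTransfer
import Fermat.Agent.ResidualThree.Orbital.HypWeight

/-!
# Bounds for the classes of the diagonal torus

Outside a finite set of ratios the diagonal classes vanish, and on the others the finite parts of
the heights of the two coordinate lines are bounded (`exists_hyp_bounds`). This makes the
truncation in the trace identity uniform in the class.
-/

noncomputable section

open IsDedekindDomain NumberField Matrix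
open scoped WithZero NNReal

namespace Fermat.Agent.ResidualThree.Orbital

variable {F : Type} [Field F] [NumberField F] {U : Level F} {f : ∀ v : FPlace F, GLv v → ℂ}

local notation "M2" => Matrix (Fin 2) (Fin 2)

theorem IsLocalFamily.exists_size_bounds (hf : IsLocalFamily U f) :
    ∃ S : FPlace F → ℝ, (∀ v, 1 ≤ S v) ∧ (∀ᶠ v in Filter.cofinite, S v = 1) ∧
      ∀ v g, f v g ≠ 0 → locSize g ≤ S v := by
  classical
  refine ⟨fun v => if U.J v = maxSubgroup v ∧ f v = unitFun v then 1 else
    1 + ∑ q ∈ (hf.fin v).toFinset, locSize q.out, fun v => ?_, hf.unit.mono fun v h => if_pos h,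
    fun v g hg => ?_⟩
  · simp only
    split_ifs
    · exact le_rfl
    · exact le_add_of_nonneg_right (Finset.sum_nonneg fun q _ => (locSize_pos _).le)
  · simp only
    split_ifs with h
    · rw [h.2, unitFun] at hg
      exact (locSize_eq_one_of_mem_max (not_not.1 fun hc => hg (if_neg hc))).le
    · obtain ⟨j, hj⟩ := QuotientGroup.mk_out_eq_mul (U.J v) g
      have hmem : (g : GLv v ⧸ U.J v) ∈ (hf.fin v).toFinset := by
        rw [Set.Finite.mem_toFinset]
        show f v _ ≠ 0
        rwa [hf.apply_out]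
      refine le_trans ?_ (le_add_of_nonneg_left zero_le_one)
      refine le_trans ?_ (Finset.single_le_sum (fun q _ => (locSize_pos q.out).le) hmem)
      rw [hj, locSize_mul_max _ (U.le_max v j.2)]

theorem locSize_center_mul {v : FPlace F} {z : GLv v} (hz : z ∈ Subgroup.center (GLv v))
    (g : GLv v) : locSize (z * g) = locSize g := by
  rw [← Subgroup.mem_center_iff.1 hz g, locSize_mul_max g (center_le_maxSubgroup v hz)]

/-- A conjugate of a diagonal matrix. -/
def diagConj {v : FPlace F} (a : Fˣ) (g : GLv v) : GLv v := g⁻¹ * toLocal v (diagOne a) * g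

theorem toLocal_diagOne (v : FPlace F) (a : Fˣ) :
    (toLocal v (diagOne a) : M2 (v.adicCompletion F)) =
      !![algebraMap F (v.adicCompletion F) a, 0; 0, 1] := by
  rw [diagOne, toLocal_upGL]
  simp

theorem det_diagConj {v : FPlace F} (a : Fˣ) (g : GLv v) :
    (diagConj a g : M2 (v.adicCompletion F)).det = algebraMap F (v.adicCompletion F) a := by
  rw [diagConj, Units.val_mul, Units.val_mul, Matrix.det_units_conj', toLocal_diagOne]
  simp [Matrix.det_fin_two]

theorem trace_diagConj {v : FPlace F} (a : Fˣ) (g : GLv v) :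
    (diagConj a g : M2 (v.adicCompletion F)).trace = algebraMap F (v.adicCompletion F) a + 1 := by
  rw [diagConj, Units.val_mul, Units.val_mul, Matrix.trace_units_conj', toLocal_diagOne]
  simp [Matrix.trace_fin_two]

theorem norm_le_of_diagConj {v : FPlace F} {a : Fˣ} {g : GLv v} {S : ℝ}
    (h : locSize (diagConj a g) ≤ S) :
    ‖algebraMap F (v.adicCompletion F) a‖ ≤ S ∧ ‖algebraMap F (v.adicCompletion F) a‖⁻¹ ≤ S := by
  set α := algebraMap F (v.adicCompletion F) a
  set C := (diagConj a g : M2 (v.adicCompletion F))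
  have hα : 0 < ‖α‖ := norm_pos_iff.2 ((_root_.map_ne_zero _).2 a.ne_zero)
  have h1 : 1 ≤ S := (one_le_locSize _).trans h
  rw [locSize, det_diagConj, div_le_iff₀ hα] at h
  have htr : ‖α + 1‖ ≤ entryMax C := by
    rw [← trace_diagConj a g, Matrix.trace_fin_two]
    exact (IsUltrametricDist.norm_add_le_max _ _).trans
      (max_le (norm_le_entryMax C 0 0) (norm_le_entryMax C 1 1))
  rcases lt_trichotomy ‖α‖ 1 with hl | he | hg
  · refine ⟨hl.le.trans h1, ?_⟩
    rw [IsUltrametricDist.norm_add_eq_max_of_norm_ne_norm (by simpa using hl.ne), norm_one,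
      max_eq_right hl.le] at htr
    rw [inv_le_iff_one_le_mul₀ hα]
    exact (one_le_pow₀ htr).trans h
  · simp [he, h1]
  · refine ⟨?_, le_trans (inv_le_one_of_one_le₀ hg.le) h1⟩
    rw [IsUltrametricDist.norm_add_eq_max_of_norm_ne_norm (by simpa using hg.ne'), norm_one,
      max_eq_left hg.le] at htr
    exact le_of_mul_le_mul_right ((sq ‖α‖ ▸ pow_le_pow_left₀ hα.le htr 2).trans h) hα

/-- The row vector `(0, 1)`, spanning one of the lines fixed by the diagonal torus. -/
def eFst : Fin 2 → F := ![0, 1]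

/-- The row vector `(1, 0)`, spanning the other fixed line. -/
def eSnd : Fin 2 → F := ![1, 0]

theorem eFst_ne_zero : (eFst : Fin 2 → F) ≠ 0 := fun h => by simpa [eFst] using congrFun h 1

theorem eSnd_ne_zero : (eSnd : Fin 2 → F) ≠ 0 := fun h => by simpa [eSnd] using congrFun h 0

theorem localHeight_pair_ge {v : FPlace F} {a : Fˣ} {g : GLv v} {S : ℝ}
    (h : locSize (diagConj a g) ≤ S) :
    (‖algebraMap F (v.adicCompletion F) ((a : F) - 1)‖ / S) ^ 2 ≤
      localHeight v eFst g * localHeight v eSnd g := by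
  obtain ⟨ha1, -⟩ := norm_le_of_diagConj h
  set G := (g : M2 (v.adicCompletion F))
  set α := algebraMap F (v.adicCompletion F) a
  set C := (diagConj a g : M2 (v.adicCompletion F)) with hC
  set D := ‖G.det‖
  have hD : 0 < D := norm_pos_iff.2 g.det_ne_zero
  have hS : 1 ≤ S := (one_le_locSize _).trans h
  have hEM : entryMax C ≤ S := by
    rw [locSize, det_diagConj,
      div_le_iff₀ (norm_pos_iff.2 ((_root_.map_ne_zero _).2 a.ne_zero))] at h
    refine (sq_le_sq₀ (entryMax_nonneg _) (zero_le_one.trans hS)).1 (h.trans ?_)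
    rw [sq]
    exact mul_le_mul_of_nonneg_left ha1 (zero_le_one.trans hS)
  have key : ∀ i j, ‖α - 1‖ * ‖G 0 j‖ * ‖G 1 i‖ ≤ S * D := by
    intro i j
    have e : ∀ k l, (α - 1) * G 0 l * (G.adjugate k 0) = G.det * (C - 1) k l := fun k l => by
      have : C = G.det⁻¹ • (G.adjugate * !![α, 0; 0, 1] * G) := by
        rw [hC, diagConj, Units.val_mul, Units.val_mul, toLocal_diagOne, coe_inv_eq_smul_adjugate,
          Matrix.smul_mul, Matrix.smul_mul]
      rw [this, Matrix.sub_apply, mul_sub, Matrix.smul_apply, smul_eq_mul, ← mul_assoc,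
        mul_inv_cancel₀ g.det_ne_zero, one_mul, Matrix.det_fin_two, Matrix.adjugate_fin_two]
      fin_cases k <;> fin_cases l <;> simp [Matrix.mul_apply, Fin.sum_univ_two] <;> ring
    have hb : ∀ k l, ‖(α - 1) * G 0 l * (G.adjugate k 0)‖ ≤ S * D := fun k l => by
      rw [e, norm_mul, mul_comm]
      refine mul_le_mul_of_nonneg_right ?_ hD.le
      rw [Matrix.sub_apply, sub_eq_add_neg]
      refine (IsUltrametricDist.norm_add_le_max _ _).trans
        (max_le ((norm_le_entryMax C k l).trans hEM) ?_)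
      rw [norm_neg]
      by_cases hkl : k = l
      · subst hkl
        rw [Matrix.one_apply_eq, norm_one]
        exact hS
      · rw [Matrix.one_apply_ne hkl, norm_zero]
        exact zero_le_one.trans hS
    fin_cases i
    · simpa [Matrix.adjugate_fin_two] using hb 1 j
    · simpa [Matrix.adjugate_fin_two] using hb 0 j
  have hr1 : locNorm (locRow v eFst ᵥ* G) = max ‖G 1 0‖ ‖G 1 1‖ := by
    simp [locNorm, locRow, eFst, Matrix.vecMul, dotProduct, Fin.sum_univ_two]
  have hr0 : locNorm (locRow v eSnd ᵥ* G) = max ‖G 0 0‖ ‖G 0 1‖ := by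
    simp [locNorm, locRow, eSnd, Matrix.vecMul, dotProduct, Fin.sum_univ_two]
  have hA := locNorm_locRow_mul_pos v (eFst_ne_zero (F := F)) g
  have hB := locNorm_locRow_mul_pos v (eSnd_ne_zero (F := F)) g
  rw [localHeight_eq, localHeight_eq, div_mul_div_comm, ← mul_pow, ← sq, ← div_pow]
  refine pow_le_pow_left₀ (div_nonneg (norm_nonneg _) (zero_le_one.trans hS)) ?_ 2
  rw [div_le_div_iff₀ (zero_lt_one.trans_le hS) (mul_pos hA hB), map_sub, map_one]
  change ‖α - 1‖ * _ ≤ D * S
  rw [hr1, hr0, max_mul_of_nonneg _ _ (le_max_of_le_left (norm_nonneg _)),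
    mul_max_of_nonneg _ _ (norm_nonneg _), mul_max_of_nonneg _ _ (norm_nonneg _),
    mul_max_of_nonneg _ _ (norm_nonneg _), mul_max_of_nonneg _ _ (norm_nonneg _),
    mul_max_of_nonneg _ _ (norm_nonneg _)]
  refine max_le (max_le ?_ ?_) (max_le ?_ ?_) <;>
    rw [← mul_assoc, mul_right_comm, mul_comm D] <;> exact key _ _

/-- The finite part of a height. -/
def finH (e : Fin 2 → F) (x : Gf F) : ℝ := ∏ᶠ v : FPlace F, localHeight v e (x.1 v)

theorem finH_pos {e : Fin 2 → F} (he : e ≠ 0) (x : Gf F) : 0 < finH e x :=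
  finprod_induction (0 < ·) one_pos (fun _ _ => mul_pos) fun v => localHeight_pos v he _

theorem exists_finH_bound (a : Fˣ) (ha : (a : F) ≠ 1) {S : FPlace F → ℝ} (hS1 : ∀ v, 1 ≤ S v)
    (hS : ∀ᶠ v in Filter.cofinite, S v = 1) :
    ∃ B : ℝ, ∀ x : Gf F, (∀ v, locSize (diagConj a (x.1 v)) ≤ S v) →
      |Real.log (finH eFst x) + Real.log (finH eSnd x)| ≤ B := by
  set c : FPlace F → ℝ := fun v => (‖algebraMap F (v.adicCompletion F) ((a : F) - 1)‖ / S v) ^ 2
  have hne : (a : F) - 1 ≠ 0 := sub_ne_zero.2 ha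
  have hc : c.HasFiniteMulSupport := Filter.eventually_cofinite.1
    ((hS.and (eventually_norm_eq_one hne)).mono fun v h => by
      show (_ / _) ^ 2 = 1
      rw [h.1, h.2, div_one, one_pow])
  have hc0 : 0 < ∏ᶠ v, c v := finprod_induction (0 < ·) one_pos (fun _ _ => mul_pos) fun v =>
    pow_pos (div_pos (norm_pos_iff.2 ((_root_.map_ne_zero _).2 hne))
      (zero_lt_one.trans_le (hS1 v))) 2
  refine ⟨|Real.log (∏ᶠ v, c v)|, fun x hx => ?_⟩
  have f1 := hasFiniteMulSupport_localHeight (eFst_ne_zero (F := F)) x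
  have f2 := hasFiniteMulSupport_localHeight (eSnd_ne_zero (F := F)) x
  have hlo : ∏ᶠ v, c v ≤ finH eFst x * finH eSnd x := by
    rw [finH, finH, ← finprod_mul_distrib f1 f2]
    have f := (f1.union f2).union hc
    rw [finprod_eq_prod_of_mulSupport_subset _ (s := f.toFinset) ?_,
      finprod_eq_prod_of_mulSupport_subset _ (s := f.toFinset) ?_]
    · exact Finset.prod_le_prod (fun v _ => pow_two_nonneg _) fun v _ =>
        localHeight_pair_ge (hx v)
    all_goals
      rw [Set.Finite.coe_toFinset]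
      intro v hv
      by_contra hcon
      simp only [Set.mem_union, Function.mem_mulSupport, not_or, not_not] at hcon
      exact hv (by first | exact hcon.2 | simp [hcon.1.1, hcon.1.2])
  have hhi : finH eFst x * finH eSnd x ≤ 1 := by
    rw [finH, finH, ← finprod_mul_distrib f1 f2]
    refine (finprod_induction (fun t : ℝ => 0 ≤ t ∧ t ≤ 1) ⟨zero_le_one, le_rfl⟩
      (fun p q hp hq => ⟨mul_nonneg hp.1 hq.1, mul_le_one₀ hp.2 hq.1 hq.2⟩) fun v => ?_).2
    refine ⟨mul_nonneg (localHeight_pos v eFst_ne_zero _).le (localHeight_pos v eSnd_ne_zero _).le,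
      (localHeight_mul_le _ _ eFst_ne_zero eSnd_ne_zero (by simp [eFst, eSnd]) _).trans ?_⟩
    simp [eFst, eSnd]
  rw [← Real.log_mul (finH_pos eFst_ne_zero x).ne' (finH_pos eSnd_ne_zero x).ne',
    abs_of_nonpos (Real.log_nonpos (hc0.le.trans hlo) hhi)]
  refine le_trans ?_ (neg_le_abs _)
  exact neg_le_neg (Real.log_le_log hc0 hlo)

/-! ### Finiteness -/

theorem finite_log_valuation (v : FPlace F) (S : ℝ) :
    {n : ℤ | (WithZeroMulInt.toNNReal (HeightOneSpectrum.absNorm_ne_zero v)
        (WithZero.exp n) : ℝ) ≤ S ∧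
      (WithZeroMulInt.toNNReal (HeightOneSpectrum.absNorm_ne_zero v)
        (WithZero.exp n) : ℝ)⁻¹ ≤ S}.Finite ∧
    (S = 1 → ∀ n : ℤ,
      (WithZeroMulInt.toNNReal (HeightOneSpectrum.absNorm_ne_zero v) (WithZero.exp n) : ℝ) ≤ S →
      (WithZeroMulInt.toNNReal (HeightOneSpectrum.absNorm_ne_zero v) (WithZero.exp n) : ℝ)⁻¹ ≤ S →
      n = 0) := by
  set q : ℝ := ((Ideal.absNorm v.asIdeal : ℝ≥0) : ℝ)
  have hq : 1 < q := NNReal.one_lt_coe.2 (HeightOneSpectrum.one_lt_absNorm_nnreal v)
  have hp : ∀ n : ℤ, (WithZeroMulInt.toNNReal (HeightOneSpectrum.absNorm_ne_zero v)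
      (WithZero.exp n) : ℝ) = q ^ n := fun n => by
    rw [WithZeroMulInt.toNNReal_neg_apply _ WithZero.exp_ne_zero]
    simp [q]
    rfl
  simp only [hp, ← _root_.zpow_neg]
  refine ⟨?_, fun hS n h1 h2 => ?_⟩
  · obtain ⟨N, hN⟩ := pow_unbounded_of_one_lt S hq
    refine (Set.finite_Icc (-(N : ℤ)) N).subset fun n hn => ⟨?_, ?_⟩
    · by_contra hlt
      push Not at hlt
      have := (zpow_le_zpow_right₀ hq.le (show (N : ℤ) ≤ -n by omega)).trans hn.2
      rw [zpow_natCast] at this
      linarith
    · by_contra hlt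
      push Not at hlt
      have := (zpow_le_zpow_right₀ hq.le hlt.le).trans hn.1
      rw [zpow_natCast] at this
      linarith
  · subst hS
    have a1 := (zpow_le_one_iff_right₀ hq).1 h1
    have a2 := (zpow_le_one_iff_right₀ hq).1 h2
    omega

variable {K L : Type} [Field K] [NumberField K] [Field L] [NumberField L] [Algebra K L]

/-- Elements of the base bounded at every place of the extension are finitely many. -/
theorem finite_units_bounded [IsTotallyComplex K] (w₀ : InfinitePlace K) (huniq : ∀ w, w = w₀)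
    (S : FPlace L → ℝ) (hS : ∀ᶠ w in Filter.cofinite, S w = 1) :
    {a : Kˣ | ∀ w : FPlace L, ‖algebraMap L (w.adicCompletion L) (algebraMap K L a)‖ ≤ S w ∧
      ‖algebraMap L (w.adicCompletion L) (algebraMap K L a)‖⁻¹ ≤ S w}.Finite := by
  classical
  set w : ∀ v : FPlace K, Over L v := fun v => Classical.choice (nonempty_over L v)
  set B := (Filter.eventually_cofinite.1 (eventually_over (K := K) hS)).toFinset
  set J : FPlace K → Set ℤ := fun v => {n : ℤ |
    (WithZeroMulInt.toNNReal (HeightOneSpectrum.absNorm_ne_zero (w v).1)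
      (WithZero.exp (ram K (w v).1 * n : ℤ)) : ℝ) ≤ S (w v).1 ∧
    (WithZeroMulInt.toNNReal (HeightOneSpectrum.absNorm_ne_zero (w v).1)
      (WithZero.exp (ram K (w v).1 * n : ℤ)) : ℝ)⁻¹ ≤ S (w v).1}
  have hr : ∀ v, ((ram K (w v).1 : ℕ) : ℤ) ≠ 0 := fun v => by
    exact_mod_cast (ram_pos (K := K) (w v).1).ne'
  have hJf : ∀ v, (J v).Finite := fun v =>
    (finite_log_valuation (w v).1 (S (w v).1)).1.preimage (mul_right_injective₀ (hr v)).injOn
  have hn : ∀ a : Kˣ, (∀ u : FPlace L,
      ‖algebraMap L (u.adicCompletion L) (algebraMap K L a)‖ ≤ S u ∧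
      ‖algebraMap L (u.adicCompletion L) (algebraMap K L a)‖⁻¹ ≤ S u) →
      ∀ v, WithZero.log (v.valuation K (a : K)) ∈ J v := fun a ha v => by
    have e : valv (w v).1 (algebraMap L ((w v).1.adicCompletion L) (algebraMap K L a)) =
        WithZero.exp (ram K (w v).1 * WithZero.log (v.valuation K (a : K)) : ℤ) := by
      rw [valv_algebraMap, valuation_algebraMap_of_below (w v).1 (w v).2,
        ← WithZero.exp_log ((v.valuation K).ne_zero_iff.mpr a.ne_zero), ← WithZero.exp_nsmul,
        WithZero.log_exp]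
      simp
    have := ha (w v).1
    rw [FinitePlace.norm_def, show Valued.v (algebraMap L ((w v).1.adicCompletion L)
      (algebraMap K L a)) = _ from e] at this
    exact this
  refine ((Set.Finite.pi fun v : B => hJf v.1).biUnion (t := fun n => {a : Kˣ | ∀ v : FPlace K,
    v.valuation K (a : K) = WithZero.exp (if h : v ∈ B then n ⟨v, h⟩ else 0)})
    fun n _ => finite_valuation_fibre w₀ huniq _).subset fun a ha => ?_
  refine Set.mem_biUnion (x := fun v : B => WithZero.log (v.1.valuation K (a : K)))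
    (fun v _ => hn a ha v.1) fun v => ?_
  rw [← WithZero.exp_log ((v.valuation K).ne_zero_iff.mpr a.ne_zero)]
  congr 1
  split_ifs with h
  · rfl
  · simp only [B, Set.Finite.mem_toFinset, Set.mem_ofPred_eq, not_not] at h
    have := hn a ha v
    simp only [J, Set.mem_ofPred_eq, h (w v)] at this
    exact (mul_eq_zero.1
      ((finite_log_valuation (w v).1 1).2 rfl _ this.1 this.2)).resolve_left (hr v)

/-! ### Application to the classes -/

variable {UL : Level L} {UK : Level K} {fL : ∀ w : FPlace L, GLv w → ℂ}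
  {fK : ∀ v : FPlace K, GLv v → ℂ}

/-- The scalar extension of a unit. -/
def upUnit (L : Type) [Field L] [Algebra K L] (a : Kˣ) : Lˣ :=
  Units.map (algebraMap K L).toMonoidHom a

omit [NumberField K] [NumberField L] in
theorem baseGLH_diagOne (a : Kˣ) : baseGLH L (diagOne a) = diagOne (upUnit L a) := by
  refine Units.ext ?_
  rw [coe_baseGLH, coe_diagOne, coe_diagOne]
  ext i j
  fin_cases i <;> fin_cases j <;> simp [upUnit]

omit [NumberField K] [NumberField L] in
theorem upUnit_ne_one {a : Kˣ} (ha : (a : K) ≠ 1) : ((upUnit L a : Lˣ) : L) ≠ 1 := fun h =>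
  ha ((algebraMap K L).injective (h.trans (map_one _).symm))

theorem exists_twG_size_bounds (τ : CubicAut K L) (hL : IsLocalFamily UL fL) :
    ∃ S : FPlace L → ℝ, (∀ w, 1 ≤ S w) ∧ (∀ᶠ w in Filter.cofinite, S w = 1) ∧
      ∀ (a : Kˣ) (δ : GL (Fin 2) L) (c : L),
        τ.norm (δ : M2 L) = c • (diagOne a : M2 K).map (algebraMap K L) →
        ∀ X : Ωf UL, twG τ fL δ X ≠ 0 →
          ∀ w, locSize (diagConj (upUnit L a) ((X.out : ∀ w, GLv w) w)) ≤ S w := by
  obtain ⟨S, hS1, hS, hSf⟩ := hL.exists_size_bounds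
  set σ := τ.σ.toRingEquiv
  refine ⟨fun w => S w * S (comapPlace σ w) * S (comapPlace σ (comapPlace σ w)), fun w =>
    one_le_mul_of_one_le_of_one_le (one_le_mul_of_one_le_of_one_le (hS1 _) (hS1 _)) (hS1 _), ?_,
    fun a δ c hc X hX w => ?_⟩
  · have h1 := (comapPlace_injective σ).tendsto_cofinite.eventually hS
    have h2 := ((comapPlace_injective σ).comp
      (comapPlace_injective σ)).tendsto_cofinite.eventually hS
    filter_upwards [hS, h1, h2] with w e e1 e2
    simp only [Function.comp_apply] at e2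
    simp [e, e1, e2]
  · set v := below K w
    set u : Over L v := ⟨w, rfl⟩
    set G : Gover L v := fun z => (X.out : ∀ w, GLv w) z.1
    set Z : Gover L v := G⁻¹ * diagOver v δ * autOver τ.σ G
    have hZ : ∀ z : Over L v, locSize (Z z) ≤ S z.1 := fun z =>
      hSf z.1 _ (hL.globalFun_ne_zero hX z.1)
    have hz := isLocalNorm_diagOver (v := v) τ hc u
    have e : locSize (diagConj (upUnit L a) (G u)) = locSize (normOver τ.σ Z u) := by
      rw [normOver_conj]
      set z := normOver τ.σ (diagOver v δ) u * (baseOver L v (toLocal v (diagOne a)) u)⁻¹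
      have hz' : z ∈ Subgroup.center (GLv u.1) := hz
      rw [show (G⁻¹ * normOver τ.σ (diagOver v δ) * G) u =
        (G u)⁻¹ * (z * baseOver L v (toLocal v (diagOne a)) u) * G u by
          simp [z],
        ← mul_assoc, Subgroup.mem_center_iff.1 hz', mul_assoc, mul_assoc, locSize_center_mul hz',
        congrFun (baseOver_toLocal v (diagOne a)) u,
        show Units.map (algebraMap K L).mapMatrix.toMonoidHom (diagOne a) = diagOne (upUnit L a)
          from baseGLH_diagOne a, diagConj, mul_assoc]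
      rfl
    refine e.le.trans ?_
    rw [normOver, Pi.mul_apply, Pi.mul_apply]
    refine (locSize_mul_le _ _).trans ?_
    refine mul_le_mul ((locSize_mul_le _ _).trans (mul_le_mul (hZ u) ?_ (locSize_pos _).le
      (zero_le_one.trans (hS1 _)))) ?_ (locSize_pos _).le
      (mul_nonneg (zero_le_one.trans (hS1 _)) (zero_le_one.trans (hS1 _)))
    · exact (locSize_localAutGL σ w _).trans_le (hZ (comapOver τ.σ u))
    · refine (locSize_localAutGL σ w _).trans_le ?_
      exact (locSize_localAutGL σ (comapPlace σ w) _).trans_le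
        (hZ (comapOver τ.σ (comapOver τ.σ u)))

/-- Outside a finite set the diagonal classes vanish and otherwise their heights are bounded. -/
theorem exists_hyp_bounds [IsTotallyComplex K] (w₀ : InfinitePlace K) (huniq : ∀ w, w = w₀)
    (τ : CubicAut K L) (hL : IsLocalFamily UL fL) (hK : IsLocalFamily UK fK) :
    ∃ (A : Finset Kˣ) (B : Kˣ → ℝ), ∀ a : Kˣ, (a : K) ≠ 1 →
      (∀ y : Ωf UK, baseG fK (diagOne a) y ≠ 0 →
        a ∈ A ∧ |Real.log (finH eFst y.out) + Real.log (finH eSnd y.out)| ≤ B a) ∧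
      ∀ (δ : GL (Fin 2) L) (c : L),
        τ.norm (δ : M2 L) = c • (diagOne a : M2 K).map (algebraMap K L) →
        ∀ X : Ωf UL, twG τ fL δ X ≠ 0 →
          a ∈ A ∧ |Real.log (finH eFst X.out) + Real.log (finH eSnd X.out)| ≤ B a := by
  classical
  obtain ⟨S, hS1, hS, hSf⟩ := hK.exists_size_bounds
  obtain ⟨S', hS1', hS', hSf'⟩ := exists_twG_size_bounds τ hL
  set A₁ := (finite_units_bounded (L := K) w₀ huniq S hS).toFinset
  set A₂ := (finite_units_bounded (L := L) w₀ huniq S' hS').toFinset
  have key : ∀ a : Kˣ, ∃ B : ℝ, (a : K) ≠ 1 →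
      (∀ x : Gf K, (∀ v, locSize (diagConj a (x.1 v)) ≤ S v) →
        |Real.log (finH eFst x) + Real.log (finH eSnd x)| ≤ B) ∧
      ∀ x : Gf L, (∀ w, locSize (diagConj (upUnit L a) (x.1 w)) ≤ S' w) →
        |Real.log (finH eFst x) + Real.log (finH eSnd x)| ≤ B := by
    intro a
    by_cases ha : (a : K) = 1
    · exact ⟨0, fun h => absurd ha h⟩
    · obtain ⟨B₁, h₁⟩ := exists_finH_bound a ha hS1 hS
      obtain ⟨B₂, h₂⟩ := exists_finH_bound (upUnit L a) (upUnit_ne_one ha) hS1' hS'
      exact ⟨max B₁ B₂, fun _ => ⟨fun x hx => (h₁ x hx).trans (le_max_left _ _),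
        fun x hx => (h₂ x hx).trans (le_max_right _ _)⟩⟩
  choose B hB using key
  refine ⟨A₁ ∪ A₂, B, fun a ha => ⟨fun y hy => ?_, fun δ c hc X hX => ?_⟩⟩
  · have h : ∀ v, locSize (diagConj a ((y.out : ∀ v, GLv v) v)) ≤ S v := fun v =>
      hSf v _ (hK.globalFun_ne_zero hy v)
    refine ⟨Finset.mem_union_left _ ((Set.Finite.mem_toFinset _).2 fun v => ?_), (hB a ha).1 _ h⟩
    rw [Algebra.algebraMap_self, RingHom.id_apply]
    exact norm_le_of_diagConj (h v)
  · have h := hSf' a δ c hc X hX
    refine ⟨Finset.mem_union_right _ ((Set.Finite.mem_toFinset _).2 ?_), (hB a ha).2 X.out h⟩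
    intro w
    have e : ((upUnit L a : Lˣ) : L) = algebraMap K L a := rfl
    have := norm_le_of_diagConj (h w)
    rw [e] at this
    exact this

end Fermat.Agent.ResidualThree.Orbital
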