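import Fermat.Agent.ResidualThree.Orbital.Elliptic
import Fermat.Agent.ResidualThree.Orbital.HypBounds

/-!
# Classes of the diagonal torus: truncated orbital integrals

High in a cusp only the coordinate lines matter, so the truncated weighted integral of a class of
the diagonal torus is the moment of the two log-heights, over the base (`exists_hyperbolic_base`)
and over the extension (`exists_hyperbolic_twisted`).
-/

noncomputable section

open IsDedekindDomain NumberField MeasureTheory MulAction Matrix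
open scoped ENNReal

namespace Fermat.Agent.ResidualThree.Orbital

local notation "M2" => Matrix (Fin 2) (Fin 2)

section Field

variable {F : Type} [Field F] [NumberField F] {U : Level F}

/-- Near a cusp only the coordinate lines are high. -/
theorem mem_truncated_iff_lines [IsTotallyComplex F] {a : Fˣ} (ha : (a : F) ≠ 1) {s : Spc U}
    {D T : ℝ} (hDT : D ≤ T) (h : ∀ e : Fin 2 → F, e ≠ 0 → D < spcHeight e s →
      ∃ μ : F, e ᵥ* (diagOne a : M2 F) = μ • e) :
    s ∈ truncated U T ↔ spcHeight eFst s ≤ T ∧ spcHeight eSnd s ≤ T := by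
  refine ⟨fun hs => ⟨hs _ eFst_ne_zero, hs _ eSnd_ne_zero⟩, fun hs e he => ?_⟩
  show spcHeight e s ≤ T
  by_contra hcon
  obtain ⟨μ, hμ⟩ := h e he (hDT.trans_lt (not_le.1 hcon))
  rw [coe_diagOne] at hμ
  have h0 := congrFun hμ 0
  have h1 := congrFun hμ 1
  simp [Matrix.vecMul, dotProduct, Fin.sum_univ_two] at h0 h1
  by_cases hz : e 0 = 0
  · have e1 : e = (e 1) • (eFst : Fin 2 → F) := funext fun i => by fin_cases i <;> simp [eFst, hz]
    refine hcon ?_
    rw [e1, spcHeight, height_smul eFst_ne_zero (fun h' => he (by rw [e1, h', zero_smul]))]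
    exact hs.1
  · have hμa : μ = a := mul_right_cancel₀ hz (by linear_combination -h0)
    have hz1 : e 1 = 0 := (mul_eq_zero.1 (show ((a : F) - 1) * e 1 = 0 by
      rw [hμa] at h1; linear_combination -h1)).resolve_left (sub_ne_zero.2 ha)
    have e1 : e = (e 0) • (eSnd : Fin 2 → F) := funext fun i => by fin_cases i <;> simp [eSnd, hz1]
    refine hcon ?_
    rw [e1, spcHeight, height_smul eSnd_ne_zero hz]
    exact hs.2

theorem log_spcHeight {e : Fin 2 → F} (he : e ≠ 0) (s : Spc U) :
    Real.log (spcHeight e s) = Real.log (finH e s.1.out) +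
      ∑ w : InfinitePlace F, Real.log ((archForm (archRow w e) (s.2 w) ^ 2)⁻¹) := by
  have hpos : ∀ w : InfinitePlace F, (archForm (archRow w e) (s.2 w) ^ 2)⁻¹ ≠ 0 := fun w =>
    inv_ne_zero (pow_ne_zero 2 (archForm_pos (archRow_ne_zero w he) _).ne')
  rw [spcHeight, height_eq, ← finH, Real.log_mul (finH_pos he _).ne'
    (Finset.prod_ne_zero_iff.2 fun w _ => hpos w), Real.log_prod fun w _ => hpos w]

theorem log_spcHeight_fst (s : Spc U) : Real.log (spcHeight eFst s) =
    Real.log (finH eFst s.1.out) + 2 * ∑ w : InfinitePlace F, b1 (s.2 w) := by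
  rw [log_spcHeight eFst_ne_zero, Finset.mul_sum]
  congr 1
  refine Finset.sum_congr rfl fun w _ => ?_
  simp [archForm, archRow, eFst, b1]

theorem log_spcHeight_snd (s : Spc U) : Real.log (spcHeight eSnd s) =
    Real.log (finH eSnd s.1.out) + 2 * ∑ w : InfinitePlace F, b2 (s.2 w) := by
  rw [log_spcHeight eSnd_ne_zero, Finset.mul_sum]
  congr 1
  refine Finset.sum_congr rfl fun w _ => ?_
  rw [b2, ← inv_pow, Real.log_pow, archForm, inv_div]
  simp [archRow, eSnd]

theorem spcHeight_le_iff {e : Fin 2 → F} (he : e ≠ 0) (s : Spc U) {T : ℝ} (hT : 0 < T) :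
    spcHeight e s ≤ T ↔ Real.log (spcHeight e s) ≤ Real.log T :=
  (Real.log_le_log_iff (height_pos he _ _) hT).symm

end Field

variable {K L : Type} [Field K] [NumberField K] [Field L] [NumberField L] [Algebra K L]
  {τ : CubicAut K L} {UL : Level L} {UK : Level K} {fL : ∀ w : FPlace L, GLv w → ℂ}
  {fK : ∀ v : FPlace K, GLv v → ℂ} (A : ArchFrame τ)

omit [NumberField L] in
theorem b1_coord (ψ : L →+* ℂ) (p : Hyp L) : b1 (coord ψ p) = b1 (p (InfinitePlace.mk ψ)) := by
  unfold coord
  split_ifs <;> simp [b1, conjH3]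

omit [NumberField L] in
theorem b2_coord (ψ : L →+* ℂ) (p : Hyp L) : b2 (coord ψ p) = b2 (p (InfinitePlace.mk ψ)) := by
  unfold coord
  split_ifs <;> simp [b2, conjH3, Complex.normSq_conj]

omit [NumberField K] in
theorem ArchFrame.sum_b1 (p : Hyp L) : ∑ w : InfinitePlace L, b1 (p w) =
    b1 (A.coords p).1 + b1 (A.coords p).2.1 + b1 (A.coords p).2.2 := by
  rw [← A.placeEquiv.sum_comp, Fin.sum_univ_three]
  simp only [ArchFrame.coords, b1_coord, A.placeEquiv_apply]

omit [NumberField K] in
theorem ArchFrame.sum_b2 (p : Hyp L) : ∑ w : InfinitePlace L, b2 (p w) =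
    b2 (A.coords p).1 + b2 (A.coords p).2.1 + b2 (A.coords p).2.2 := by
  rw [← A.placeEquiv.sum_comp, Fin.sum_univ_three]
  simp only [ArchFrame.coords, b2_coord, A.placeEquiv_apply]

omit [NumberField K] [NumberField L] in
theorem ArchFrame.isDiagMat_bmat (a : Kˣ) : IsDiagMat (A.bmat (diagOne a)) := by
  constructor <;> simp [ArchFrame.bmat, toComplex, diagOne]

omit [NumberField K] [NumberField L] in
theorem ArchFrame.diagRatio_bmat (a : Kˣ) :
    diagRatio (A.bmat (diagOne a)) = A.w₀.embedding a := by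
  simp [diagRatio, ArchFrame.bmat, toComplex, diagOne]

/-- The value of a class of the diagonal torus on a coset. -/
def hypValue (k : ℝ → ℂ) (γ : GL (Fin 2) K) (q : Ωf UK) : ℂ :=
  ((torusWeight q).toReal : ℂ) * archCoeff k (A.bmat γ)

variable [IsTotallyComplex K]

omit [NumberField L] in
/-- For large truncation the weighted truncated integral of a diagonal class of the base is the sum
of its fibre sums times `hypValue`. -/
theorem exists_hyperbolic_base (hK : IsLocalFamily UK fK) {kK : ℝ → ℂ} (hk : H3.IsKernel kK)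
    {a : Kˣ} (ha : (a : K) ≠ 1) (P : GlobalProj UK fK (diagOne a))
    (h0 : abelTransform kK (Real.log ‖A.w₀.embedding a‖) = 0) (B : ℝ)
    (hB : ∀ y : Ωf UK, baseG fK (diagOne a) y ≠ 0 →
      |Real.log (finH eFst y.out) + Real.log (finH eSnd y.out)| ≤ B) :
    ∃ T₀ : ℝ, ∀ T, T₀ ≤ T →
      ∫⁻ s, pullK P (fun s => torusWeight s.1) s * ‖(truncated UK T).indicator
        (baseTwTerm fK (fun _ => kK) (⟨(diagOne a : PGLF K)⟩ : ConjElt K)) s‖ₑ ∂volSpc UK ≠ ⊤ →
      ∫ s, ((pullK P (fun s => torusWeight s.1) s).toReal : ℂ) * (truncated UK T).indicator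
          (baseTwTerm fK (fun _ => kK) (⟨(diagOne a : PGLF K)⟩ : ConjElt K)) s ∂volSpc UK =
        ∑' q, hypValue A kK (diagOne a) q * pushFin P.proj (baseG fK (diagOne a)) q := by
  classical
  obtain ⟨D, hD1, hD⟩ := exists_high_eigen_base hK (fun _ => kK) fun _ => hk
  obtain ⟨B', hB'⟩ := orb_truncated hk (A.isDiagMat_bmat a)
    (by rw [A.diagRatio_bmat];
        exact fun h => ha (A.w₀.embedding.injective (h.trans (map_one _).symm)))
    (by rwa [A.diagRatio_bmat])
  refine ⟨max D (Real.exp ((B' + B) / 2)), fun T hT hint => ?_⟩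
  have hTD : D ≤ T := (le_max_left _ _).trans hT
  have hT0 : 0 < T := zero_lt_one.trans_le (hD1.trans hTD)
  have hlog : (B' + B) / 2 ≤ Real.log T :=
    (Real.le_log_iff_exp_le hT0).2 ((le_max_right _ _).trans hT)
  set g : Ωf UK → Hyp K → ℂ := fun y p =>
    {z : H3 | Real.log (finH eFst y.out) + 2 * b1 z ≤ Real.log T ∧
      Real.log (finH eSnd y.out) + 2 * b2 z ≤ Real.log T}.indicator
      (orbFun kK (A.bmat (diagOne a))) (p A.w₀) with hg
  have hmeas : ∀ f₁ f₂ : ℝ, MeasurableSet {z : H3 | f₁ + 2 * b1 z ≤ Real.log T ∧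
      f₂ + 2 * b2 z ≤ Real.log T} := fun f₁ f₂ =>
    (measurableSet_le (continuous_const.add (continuous_const.mul continuous_b1)).measurable
      measurable_const).inter
    (measurableSet_le (continuous_const.add (continuous_const.mul continuous_b2)).measurable
      measurable_const)
  have hgm : ∀ y, Measurable (g y) := fun y =>
    ((continuous_orbFun hk.cont _).measurable.indicator (hmeas _ _)).comp (measurable_pi_apply _)
  have key : ∀ s : Spc UK, (truncated UK T).indicator
      (baseTwTerm fK (fun _ => kK) (⟨(diagOne a : PGLF K)⟩ : ConjElt K)) s =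
      baseG fK (diagOne a) s.1 * g s.1 s.2 := by
    intro s
    have e := (baseTwTerm_eq hK (fun _ => kK) (diagOne a) s).trans
      (congrArg (baseG fK (diagOne a) s.1 * ·) (prod_base_eq A kK (diagOne a) s.2))
    by_cases h : baseTwTerm fK (fun _ => kK) (⟨(diagOne a : PGLF K)⟩ : ConjElt K) s = 0
    · rw [Set.indicator_apply_eq_zero.2 fun _ => h]
      rw [e] at h
      simp only [hg, Set.indicator_apply, orbFun]
      split_ifs
      · exact h.symm
      · rw [mul_zero]
    · have hiff : s ∈ truncated UK T ↔ s.2 A.w₀ ∈ {z : H3 |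
          Real.log (finH eFst s.1.out) + 2 * b1 z ≤ Real.log T ∧
          Real.log (finH eSnd s.1.out) + 2 * b2 z ≤ Real.log T} := by
        rw [mem_truncated_iff_lines ha hTD (hD _ s h), spcHeight_le_iff eFst_ne_zero _ hT0,
          spcHeight_le_iff eSnd_ne_zero _ hT0, log_spcHeight_fst, log_spcHeight_snd,
          Fintype.sum_eq_single A.w₀ fun w hw => absurd (A.unique w) hw,
          Fintype.sum_eq_single A.w₀ fun w hw => absurd (A.unique w) hw]
        rfl
      simp only [hg, Set.indicator_apply, hiff]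
      split_ifs
      · exact e
      · rw [mul_zero]
  simp only [key] at hint ⊢
  refine integral_avg_eq P.proj (baseG fK (diagOne a)) (W := fun q _ => torusWeight q)
    (fun q => measurable_const) (fun q _ => torusWeight_le_one A.w₀ A.unique q) hgm _ P.finite hint
    fun y q hy _ _ => ?_
  rw [integral_const_mul, hypValue]
  congr 1
  rw [← hB' _ _ (Real.log T) (by linarith [hB y hy])]
  have hm := (continuous_orbFun hk.cont (A.bmat (diagOne a))).measurable.indicator
    (hmeas (Real.log (finH eFst y.out)) (Real.log (finH eSnd y.out)))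
  conv_rhs => rw [← A.measurePreserving_base.map_eq]
  rw [integral_map A.measurePreserving_base.aemeasurable hm.aestronglyMeasurable]

variable [IsTotallyComplex L]

/-- For large truncation the same holds for a twisted class with diagonal norm. -/
theorem exists_hyperbolic_twisted (hL : IsLocalFamily UL fL) (hU : IsStableLevel τ.σ.toRingEquiv UL)
    {kL : InfinitePlace L → ℝ → ℂ} (hk : ∀ w, H3.IsKernel (kL w)) {a : Kˣ} (ha : (a : K) ≠ 1)
    (P : GoodRep τ) (hP : P.γ = diagOne a) (Tr : GlobalTransfer τ UL UK fL fK P.δ P.γ)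
    (h0 : abelTransform (H3.compKernel (H3.compKernel (kL (A.placeEquiv 0)) (kL (A.placeEquiv 1)))
      (kL (A.placeEquiv 2))) (Real.log ‖A.w₀.embedding a‖) = 0) (B : ℝ)
    (hB : ∀ X : Ωf UL, twG τ fL P.δ X ≠ 0 →
      |Real.log (finH eFst X.out) + Real.log (finH eSnd X.out)| ≤ B) :
    ∃ T₀ : ℝ, ∀ T, T₀ ≤ T →
      ∫⁻ s, pullL A Tr (fun s => torusWeight s.1) s * ‖(truncated UL T).indicator
        (twTerm τ hU fL kL P.twisted) s‖ₑ ∂volSpc UL ≠ ⊤ →
      ∫ s, ((pullL A Tr (fun s => torusWeight s.1) s).toReal : ℂ) * (truncated UL T).indicator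
          (twTerm τ hU fL kL P.twisted) s ∂volSpc UL =
        ∑' q, hypValue A (H3.compKernel (H3.compKernel (kL (A.placeEquiv 0))
          (kL (A.placeEquiv 1))) (kL (A.placeEquiv 2))) P.γ q *
            pushFin Tr.proj (baseG fK P.γ) q := by
  classical
  set k := H3.compKernel (H3.compKernel (kL (A.placeEquiv 0)) (kL (A.placeEquiv 1)))
    (kL (A.placeEquiv 2))
  obtain ⟨c, hc⟩ := P.exists_norm
  have ha' := upUnit_ne_one (L := L) ha
  have hΓ : (P.γ : M2 K).map (algebraMap K L) = (diagOne (upUnit L a) : M2 L) := by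
    rw [hP, ← coe_baseGLH, baseGLH_diagOne]
  have hcomm : Commute (P.δ : M2 L) (diagOne (upUnit L a) : M2 L) :=
    hΓ ▸ (τ.commute_of_norm P.δ.det_ne_zero hc).1
  have hd : (P.δ : M2 L) 0 1 = 0 ∧ (P.δ : M2 L) 1 0 = 0 := by
    have e := hcomm.eq
    rw [coe_diagOne] at e
    have e01 := congrArg (fun m : M2 L => m 0 1) e
    have e10 := congrArg (fun m : M2 L => m 1 0) e
    simp [Matrix.mul_apply, Fin.sum_univ_two] at e01 e10
    exact ⟨(mul_eq_zero.1 (show (((upUnit L a : Lˣ) : L) - 1) * (P.δ : M2 L) 0 1 = 0 by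
        linear_combination -e01)).resolve_left (sub_ne_zero.2 ha'),
      (mul_eq_zero.1 (show (((upUnit L a : Lˣ) : L) - 1) * (P.δ : M2 L) 1 0 = 0 by
        linear_combination e10)).resolve_left (sub_ne_zero.2 ha')⟩
  have hdi : ∀ i, IsDiagMat (A.cmat P.δ i) := fun i => by
    constructor <;> simp [ArchFrame.cmat, hd.1, hd.2]
  have hsm : ∀ q : H3, (A.cmat P.δ 0 * A.cmat P.δ 1 * A.cmat P.δ 2) • q = A.bmat P.γ • q :=
    A.smul_cmat_prod hc
  have hratio : diagRatio (A.cmat P.δ 0 * A.cmat P.δ 1 * A.cmat P.δ 2) = A.w₀.embedding a := by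
    have hφc : A.φ c ≠ 0 := (map_ne_zero _).2 (τ.commute_of_norm P.δ.det_ne_zero hc).2.2.1
    rw [← A.diagRatio_bmat, ← hP, diagRatio, diagRatio, A.cmat_prod hc]
    simp [mul_div_mul_left _ _ hφc]
  obtain ⟨D, hD1, hD⟩ := exists_high_eigen_twisted hU hL kL hk
  obtain ⟨B', hB'⟩ := twistChain_truncated (hk (A.placeEquiv 0)) (hk (A.placeEquiv 1))
    (hk (A.placeEquiv 2)) (hdi 0) (hdi 1) (hdi 2)
    (by rw [hratio]; exact fun h => ha (A.w₀.embedding.injective (h.trans (map_one _).symm)))
    (by rwa [hratio])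
  refine ⟨max D (Real.exp ((B' + B) / 2)), fun T hT hint => ?_⟩
  have hTD : D ≤ T := (le_max_left _ _).trans hT
  have hT0 : 0 < T := zero_lt_one.trans_le (hD1.trans hTD)
  have hlog : (B' + B) / 2 ≤ Real.log T :=
    (Real.le_log_iff_exp_le hT0).2 ((le_max_right _ _).trans hT)
  set ch : Trip → ℂ := twistChain (kL (A.placeEquiv 0)) (kL (A.placeEquiv 1))
    (kL (A.placeEquiv 2)) (A.cmat P.δ 0) (A.cmat P.δ 1) (A.cmat P.δ 2)
  set S : ℝ → ℝ → Set Trip := fun f₁ f₂ => {r : Trip |
    f₁ + 2 * (b1 r.1 + b1 r.2.1 + b1 r.2.2) ≤ Real.log T ∧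
      f₂ + 2 * (b2 r.1 + b2 r.2.1 + b2 r.2.2) ≤ Real.log T}
  set g : Ωf UL → Hyp L → ℂ := fun X p =>
    (S (Real.log (finH eFst X.out)) (Real.log (finH eSnd X.out))).indicator ch (A.coords p) with hg
  have hm : ∀ f₁ f₂, Measurable ((S f₁ f₂).indicator ch) := fun f₁ f₂ => by
    refine Measurable.indicator ?_ ?_
    · show Measurable fun r => twistChain (kL (A.placeEquiv 0)) (kL (A.placeEquiv 1))
        (kL (A.placeEquiv 2)) (A.cmat P.δ 0) (A.cmat P.δ 1) (A.cmat P.δ 2) r
      simp only [twistChain_eq_chain]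
      exact (continuous_chain (hk _) (hk _) (hk _) _).measurable.comp
        (measurable_fst.prodMk (((H3.continuous_smul_gl _).measurable.comp
          (measurable_fst.comp measurable_snd)).prodMk
          ((H3.continuous_smul_gl _).measurable.comp (measurable_snd.comp measurable_snd))))
    · exact (measurableSet_le (continuous_const.add (continuous_const.mul
          (((continuous_b1.comp continuous_fst).add
            (continuous_b1.comp (continuous_fst.comp continuous_snd))).add
            (continuous_b1.comp (continuous_snd.comp continuous_snd))))).measurable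
          measurable_const).inter
        (measurableSet_le (continuous_const.add (continuous_const.mul
          (((continuous_b2.comp continuous_fst).add
            (continuous_b2.comp (continuous_fst.comp continuous_snd))).add
            (continuous_b2.comp (continuous_snd.comp continuous_snd))))).measurable
          measurable_const)
  have key : ∀ s : Spc UL, (truncated UL T).indicator (twTerm τ hU fL kL P.twisted) s =
      twG τ fL P.δ s.1 * g s.1 s.2 := by
    intro s
    have e : twTerm τ hU fL kL P.twisted s = twG τ fL P.δ s.1 * ch (A.coords s.2) :=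
      (twTerm_eq hL hU kL P.δ s).trans
        (congrArg (twG τ fL P.δ s.1 * ·) (A.prod_kernel_eq kL P.δ s.2))
    by_cases h : twTerm τ hU fL kL P.twisted s = 0
    · rw [Set.indicator_apply_eq_zero.2 fun _ => h]
      rw [e] at h
      simp only [hg, Set.indicator_apply]
      split_ifs
      · exact h.symm
      · rw [mul_zero]
    · have hiff : s ∈ truncated UL T ↔ A.coords s.2 ∈
          S (Real.log (finH eFst s.1.out)) (Real.log (finH eSnd s.1.out)) := by
        have hlines : ∀ e' : Fin 2 → L, e' ≠ 0 → D < spcHeight e' s →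
            ∃ μ : L, e' ᵥ* (diagOne (upUnit L a) : M2 L) = μ • e' := fun e' he' hh => by
          rw [← hΓ]; exact hD P s h e' he' hh
        rw [mem_truncated_iff_lines ha' hTD hlines, spcHeight_le_iff eFst_ne_zero _ hT0,
          spcHeight_le_iff eSnd_ne_zero _ hT0, log_spcHeight_fst, log_spcHeight_snd, A.sum_b1,
          A.sum_b2]
        rfl
      simp only [hg, Set.indicator_apply, hiff]
      split_ifs
      · exact e
      · rw [mul_zero]
  simp only [key] at hint ⊢
  refine (integral_avg_eq Tr.projL (twG τ fL P.δ) (W := fun q _ => torusWeight q)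
    (fun q => measurable_const) (fun q _ => torusWeight_le_one A.w₀ A.unique q)
    (g := g) (fun X => (hm _ _).comp A.measurePreserving_coords.measurable) (hypValue A k P.γ)
    Tr.finiteL hint fun X q hX _ _ => ?_).trans ?_
  · rw [integral_const_mul, hypValue]
    congr 1
    refine Eq.trans ?_ ((hB' _ _ (Real.log T) (by linarith [hB X hX])).trans ?_)
    · conv_rhs => rw [← A.measurePreserving_coords.map_eq]
      rw [integral_map A.measurePreserving_coords.aemeasurable (hm _ _).aestronglyMeasurable]
    · simp only [archCoeff, orbFun, hsm]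
      rfl
  · simp only [Tr.sum_eq]

end Fermat.Agent.ResidualThree.Orbital
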