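import Fermat.Agent.ResidualThree.Orbital.Weight

/-!
# Averages over finite image sets, fibre sums, subgroups of finite index

A weight averaged over finite image sets integrates to the fibre sums, and passing to a subgroup
of finite index multiplies an integral by the index. These move class integrals between the
extension and the base.
-/

noncomputable section

open MeasureTheory MulAction
open scoped ENNReal

namespace Fermat.Agent.ResidualThree.Orbital

section Push

variable {X Q : Type*}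

/-- The average of a function over a finite image set. -/
def avgFin {M : Type*} [AddCommMonoid M] [Mul M] [Inv M] [NatCast M] (Φ : X → Finset Q)
    (W : Q → M) (x : X) : M :=
  (∑ q ∈ Φ x, W q) * ((Φ x).card : M)⁻¹

/-- The fibre sums. -/
def pushFin (Φ : X → Finset Q) (c : X → ℂ) (q : Q) : ℂ :=
  ∑ᶠ x ∈ {x | q ∈ Φ x}, c x / ((Φ x).card : ℂ)

/-- A sum against an average is the sum against the fibre sums. -/
theorem tsum_mul_avgFin (Φ : X → Finset Q) (c : X → ℂ) (Ψ : Q → ℂ)
    (hfin : ∀ q, {x | c x ≠ 0 ∧ q ∈ Φ x}.Finite)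
    (hsum : ∑' x, ‖c x‖ₑ * avgFin Φ (fun q => ‖Ψ q‖ₑ) x ≠ ⊤) :
    ∑' x, c x * avgFin Φ Ψ x = ∑' q, Ψ q * pushFin Φ c q := by
  classical
  let t : (Σ x : X, {q // q ∈ Φ x}) → ℂ := fun i => c i.1 * Ψ i.2.1 / ((Φ i.1).card : ℂ)
  have hnorm : ∀ x, ∑' q : {q // q ∈ Φ x}, ‖t ⟨x, q⟩‖ₑ = ‖c x‖ₑ * avgFin Φ (fun q => ‖Ψ q‖ₑ) x := by
    intro x
    rw [tsum_fintype, avgFin, ← mul_assoc, Finset.mul_sum, Finset.sum_mul,
      ← Finset.sum_coe_sort (Φ x)]
    refine Finset.sum_congr rfl fun q _ => ?_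
    have hn : (Φ x).card ≠ 0 := Finset.card_ne_zero.2 ⟨q.1, q.2⟩
    simp only [t]
    rw [div_eq_mul_inv, enorm_mul, enorm_mul, enorm_inv (by exact_mod_cast hn)]
    congr 2
    rw [← ofReal_norm, RCLike.norm_natCast, ENNReal.ofReal_natCast]
  have ht : Summable t := by
    refine Summable.of_norm ?_
    have h : ∑' i, ‖t i‖ₑ ≠ ⊤ := by
      rw [ENNReal.tsum_sigma' (fun i => ‖t i‖ₑ), tsum_congr hnorm]; exact hsum
    exact (ENNReal.summable_toReal h).congr fun i => toReal_enorm _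
  let e : (Σ q : Q, {x // q ∈ Φ x}) ≃ Σ x : X, {q // q ∈ Φ x} :=
    { toFun := fun i => ⟨i.2.1, i.1, i.2.2⟩
      invFun := fun i => ⟨i.2.1, i.1, i.2.2⟩ }
  have ht' : Summable (t ∘ e) := e.summable_iff.2 ht
  have h1 : ∀ x, ∑' q : {q // q ∈ Φ x}, t ⟨x, q⟩ = c x * avgFin Φ Ψ x := by
    intro x
    rw [tsum_fintype, avgFin, ← mul_assoc, Finset.mul_sum, Finset.sum_mul,
      ← Finset.sum_coe_sort (Φ x)]
    rfl
  have h2 : ∀ q, ∑' x : {x // q ∈ Φ x}, t (e ⟨q, x⟩) = Ψ q * pushFin Φ c q := by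
    intro q
    set g : X → ℂ := fun x => c x * Ψ q / ((Φ x).card : ℂ) with hg
    have hf : Function.HasFiniteSupport ({x | q ∈ Φ x}.indicator g) := by
      refine (hfin q).subset fun x hx => ?_
      simp only [Function.mem_support, ne_eq, Set.indicator_apply_eq_zero, Set.mem_ofPred_eq,
        Classical.not_imp] at hx
      exact ⟨fun h0 => hx.2 (by simp [hg, h0]), hx.1⟩
    show ∑' x : ({x | q ∈ Φ x} : Set X), g x = _
    rw [tsum_subtype {x | q ∈ Φ x} g, tsum_eq_finsum hf, pushFin,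
      ← finsum_mem_def {x | q ∈ Φ x} g]
    rw [mul_finsum_mem]
    exact finsum_mem_congr rfl fun x _ => by simp only [hg]; ring
  calc ∑' x, c x * avgFin Φ Ψ x = ∑' i, t i := by
        rw [ht.tsum_sigma]; exact tsum_congr fun x => (h1 x).symm
    _ = ∑' i, (t ∘ e) i := (e.tsum_eq t).symm
    _ = ∑' q, Ψ q * pushFin Φ c q := by
        rw [ht'.tsum_sigma]; exact tsum_congr h2

/-- An integral over a countable set times a space, slice by slice. -/
theorem integral_count_prod [Countable X] [MeasurableSpace X] [MeasurableSingletonClass X]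
    {Y : Type*} [MeasurableSpace Y] {μ : Measure Y} [SFinite μ] {F : X × Y → ℂ}
    (hF : Integrable F ((Measure.count : Measure X).prod μ)) :
    ∫ p, F p ∂(Measure.count : Measure X).prod μ = ∑' x, ∫ y, F (x, y) ∂μ := by
  rw [integral_prod F hF, integral_countable hF.integral_prod_left]
  simp [Measure.real]

/-- The same slicing for non-negative functions. -/
theorem lintegral_count_prod [MeasurableSpace X] [MeasurableSingletonClass X]
    {Y : Type*} [MeasurableSpace Y] {μ : Measure Y} [SFinite μ] {F : X × Y → ℝ≥0∞}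
    (hF : Measurable F) :
    ∫⁻ p, F p ∂(Measure.count : Measure X).prod μ = ∑' x, ∫⁻ y, F (x, y) ∂μ := by
  rw [lintegral_prod F hF.aemeasurable, lintegral_count]

end Push

section Index

variable {G X : Type*} [Group G] [MeasurableSpace X] [MulAction G X] [MeasurableConstSMul G X]
variable {μ : Measure X} [SMulInvariantMeasure G X μ]

omit [MeasurableSpace X] [MeasurableConstSMul G X] in
/-- The translates under `H` of an induced weight sum to those of the weight under the group. -/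
theorem tsum_orbitWeight (H : Subgroup G) (w : X → ℝ≥0∞) (x : X) :
    ∑' h : H, orbitWeight H w (h • x) = ∑' g : G, w (g • x) := by
  show ∑' h : H, ∑' c : G ⧸ H, w (c.out • h • x) = _
  rw [ENNReal.tsum_comm, ← ENNReal.tsum_prod, ← (cosetEquiv H).tsum_eq]
  refine tsum_congr fun p => ?_
  rw [show cosetEquiv H p = p.1.out * (p.2 : G) from rfl, mul_smul]
  rfl

/-- Passing to a subgroup of finite index multiplies by the index. -/
theorem integral_weight_index [Countable G] {H₀ H : Subgroup G} (hle : H₀ ≤ H)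
    [Finite (H ⧸ H₀.subgroupOf H)] {f : X → ℂ} (hf : Measurable f)
    (hinv : ∀ (h : H) x, f (h • x) = f x) {W W₀ : X → ℝ≥0∞}
    (hW : IsWeight μ H W {x | f x ≠ 0}) (hW₀ : IsWeight μ H₀ W₀ {x | f x ≠ 0})
    (hfin : ∫⁻ x, W x * ‖f x‖ₑ ∂μ ≠ ⊤) :
    ∫⁻ x, W₀ x * ‖f x‖ₑ ∂μ ≠ ⊤ ∧
      ∫ x, ((W₀ x).toReal : ℂ) * f x ∂μ =
        (Nat.card (H ⧸ H₀.subgroupOf H) : ℂ) * ∫ x, ((W x).toReal : ℂ) * f x ∂μ := by
  classical
  have := Fintype.ofFinite (H ⧸ H₀.subgroupOf H)
  set W' : X → ℝ≥0∞ := fun x => ∑ c : H ⧸ H₀.subgroupOf H, W (c.out • x) with hW'def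
  have hmW : ∀ c : H ⧸ H₀.subgroupOf H, Measurable fun x => W (c.out • x) := fun c =>
    hW.measurable.comp (measurable_const_smul (c.out : G))
  have hW' : IsWeight μ H₀ W' {x | f x ≠ 0} := by
    refine ⟨Finset.measurable_fun_sum _ fun c _ => hmW c, hW.sum_eq.mono fun x hx hS => ?_⟩
    rw [← hx hS]
    have e : ∀ h : H₀, W' (h • x) =
        ∑' c : H ⧸ H₀.subgroupOf H, W (c.out • (⟨(h : G), hle h.2⟩ : H) • x) := fun h => by
      rw [tsum_fintype]; rfl
    simp only [e]
    rw [← (Subgroup.subgroupOfEquivOfLe hle).toEquiv.tsum_eq]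
    show ∑' h : H₀.subgroupOf H, ∑' c : H ⧸ H₀.subgroupOf H, W (c.out • (h : H) • x) = _
    exact tsum_orbitWeight (G := H) (H₀.subgroupOf H) W x
  have hl : ∀ g : X → ℝ≥0∞, Measurable g → (∀ (h : H) x, g (h • x) = g x) →
      ∫⁻ x, W' x * g x ∂μ = (Nat.card (H ⧸ H₀.subgroupOf H) : ℝ≥0∞) * ∫⁻ x, W x * g x ∂μ := by
    intro g hg hgi
    simp only [hW'def, Finset.sum_mul]
    have hm2 : ∀ c : H ⧸ H₀.subgroupOf H, Measurable fun x => W (c.out • x) * g x :=
      fun c => (hmW c).mul hg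
    rw [lintegral_finsetSum _ fun c _ => hm2 c]
    have hc : ∀ c : H ⧸ H₀.subgroupOf H,
        ∫⁻ x, W (c.out • x) * g x ∂μ = ∫⁻ x, W x * g x ∂μ := fun c => by
      have hm3 : Measurable fun x => W x * g x := hW.measurable.mul hg
      conv_rhs => rw [← lintegral_comp_smul (c.out : G) _ hm3]
      refine lintegral_congr fun x => ?_
      rw [show ((c.out : H) : G) • x = c.out • x from rfl, hgi]
    simp only [hc, Finset.sum_const, Finset.card_univ, nsmul_eq_mul, Nat.card_eq_fintype_card]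
  have hinv₀ : ∀ (h : H₀) x, f (h • x) = f x := fun h x => hinv ⟨(h : G), hle h.2⟩ x
  have hfin' : ∫⁻ x, W' x * ‖f x‖ₑ ∂μ ≠ ⊤ := by
    rw [hl _ hf.enorm fun h x => by rw [hinv]]
    exact ENNReal.mul_ne_top (ENNReal.natCast_ne_top _) hfin
  have hfin₀ : ∫⁻ x, W₀ x * ‖f x‖ₑ ∂μ ≠ ⊤ := by
    rwa [lintegral_weight_congr hf.enorm (fun h x => by rw [hinv₀]) (hW₀.mono (by simp))
      (hW'.mono (by simp))]
  refine ⟨hfin₀, ?_⟩
  rw [integral_weight_congr hf hinv₀ hW₀ hW' hfin₀]
  have hae : ∀ᵐ x ∂μ, f x ≠ 0 → ∀ c : H ⧸ H₀.subgroupOf H, W (c.out • x) ≠ ⊤ := by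
    have h1 : ∀ᵐ x ∂μ, ∀ c : H ⧸ H₀.subgroupOf H,
        c.out • x ∈ {x | f x ≠ 0} → W (c.out • x) ≤ 1 :=
      ae_all_iff.2 fun c =>
        (measurePreserving_smul (c.out : G) μ).quasiMeasurePreserving.ae hW.le_one
    filter_upwards [h1] with x hx hfx c
    exact ne_top_of_le_ne_top ENNReal.one_ne_top (hx c (by simpa [hinv] using hfx))
  have e : ∀ᵐ x ∂μ, ((W' x).toReal : ℂ) * f x =
      ∑ c : H ⧸ H₀.subgroupOf H, ((W (c.out • x)).toReal : ℂ) * f x := by
    filter_upwards [hae] with x hx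
    by_cases h0 : f x = 0
    · simp [h0]
    · simp only [hW'def]
      rw [ENNReal.toReal_sum fun c _ => hx h0 c]
      push_cast
      rw [Finset.sum_mul]
  have hi : Integrable (fun x => ((W x).toReal : ℂ) * f x) μ := by
    refine ⟨((Complex.measurable_ofReal.comp hW.measurable.ennreal_toReal).mul
      hf).aestronglyMeasurable, lt_of_le_of_lt (lintegral_mono fun x => ?_) hfin.lt_top⟩
    rw [enorm_mul]
    gcongr
    rw [← ofReal_norm, Complex.norm_real, Real.norm_of_nonneg ENNReal.toReal_nonneg]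
    exact ENNReal.ofReal_toReal_le
  have hic : ∀ c : H ⧸ H₀.subgroupOf H,
      Integrable (fun x => ((W (c.out • x)).toReal : ℂ) * f x) μ := fun c => by
    refine (((measurePreserving_smul (c.out : G) μ).integrable_comp hi.1).2 hi).congr
      (Filter.Eventually.of_forall fun x => ?_)
    simp only [Function.comp_apply]
    rw [show ((c.out : H) : G) • x = c.out • x from rfl, hinv]
  rw [integral_congr_ae e, integral_finsetSum _ fun c _ => hic c]
  have hc : ∀ c : H ⧸ H₀.subgroupOf H, ∫ x, ((W (c.out • x)).toReal : ℂ) * f x ∂μ =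
      ∫ x, ((W x).toReal : ℂ) * f x ∂μ := fun c => by
    conv_rhs => rw [← integral_comp_smul (c.out : G)]
    refine integral_congr_ae (Filter.Eventually.of_forall fun x => ?_)
    simp only
    rw [show ((c.out : H) : G) • x = c.out • x from rfl, hinv]
  simp only [hc, Finset.sum_const, Finset.card_univ, nsmul_eq_mul, Nat.card_eq_fintype_card]

end Index

end Fermat.Agent.ResidualThree.Orbital
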