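import Fermat.Agent.ResidualThree.Orbital.Hyperbolic

/-!
# Representatives of the classes

A class of norms over the base has a representative with any prescribed norm in it, a regular
element without one is no norm, and a regular class with square discriminant is diagonal. These
organise the sum over classes.
-/

noncomputable section

open IsDedekindDomain NumberField MulAction Matrix

namespace Fermat.Agent.ResidualThree.Orbital

variable {K L : Type} [Field K] [NumberField K] [Field L] [NumberField L] [Algebra K L]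
  {τ : CubicAut K L}

local notation "M2" => Matrix (Fin 2) (Fin 2)

omit [NumberField K] in
theorem regMat_of_mem_orbit {γ γ' : GL (Fin 2) K}
    (h : (⟨(γ' : PGLF K)⟩ : ConjElt K) ∈ orbit (PGLF K) (⟨(γ : PGLF K)⟩ : ConjElt K))
    (hγ : RegMat (γ : M2 K)) : RegMat (γ' : M2 K) := by
  obtain ⟨k, hk⟩ := h
  induction k using QuotientGroup.induction_on with
  | H k =>
    obtain ⟨r, hr, e⟩ := exists_smul_of_mk_eq
      (show ((k * γ * k⁻¹ : GL (Fin 2) K) : PGLF K) = γ' from
      congrArg ConjElt.val hk)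
    rw [e, regMat_smul hr, RegMat, Units.val_mul, Units.val_mul,
      Matrix.trace_units_conj, Matrix.det_units_conj]
    exact hγ

omit [NumberField K] [NumberField L] in
/-- A representative with a prescribed norm in a given class of norms. -/
theorem exists_goodRep_conj (P : GoodRep τ) {γ' : GL (Fin 2) K}
    (h : (⟨(γ' : PGLF K)⟩ : ConjElt K) ∈ orbit (PGLF K) P.conj) :
    ∃ Q : GoodRep τ, Q.γ = γ' := by
  have hreg : RegMat (γ' : M2 K) := regMat_of_mem_orbit h P.regMat
  by_cases ht : (γ' : M2 K).trace = 0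
  · exact ⟨⟨baseGLH L γ', γ', hreg, ⟨_, norm_baseGLH_of_trace_zero τ ht⟩, Or.inr rfl⟩, rfl⟩
  obtain ⟨k, hk⟩ := h
  induction k using QuotientGroup.induction_on with
  | H k =>
    obtain ⟨r, hr, e⟩ := exists_smul_of_mk_eq
      (show ((k * P.γ * k⁻¹ : GL (Fin 2) K) : PGLF K) = γ' from congrArg ConjElt.val hk)
    obtain ⟨c, hc⟩ := P.exists_norm
    set B := baseGLH L k
    have hBB : (B : M2 L) * ((B⁻¹ : GL (Fin 2) L) : M2 L) = 1 := by
      rw [← Units.val_mul, mul_inv_cancel, Units.val_one]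
    have hB : τ.mat ((B⁻¹ : GL (Fin 2) L) : M2 L) = ((B⁻¹ : GL (Fin 2) L) : M2 L) := by
      rw [← map_inv]; exact τ.mat_base _
    let δ' : GL (Fin 2) L := B * P.δ * B⁻¹
    have hδ' : (δ' : M2 L) = B * P.δ * τ.mat ((B⁻¹ : GL (Fin 2) L) : M2 L) := by
      rw [hB]; rfl
    refine ⟨⟨δ', γ', hreg, ⟨c * (algebraMap K L r)⁻¹, ?_⟩, Or.inl ht⟩, rfl⟩
    rw [hδ', τ.norm_conj _ hBB, hc, e, Matrix.map_smul' _ _ _ (map_mul _), smul_smul, mul_assoc c,
      inv_mul_cancel₀ (by simpa using hr), mul_one, Matrix.mul_smul, Matrix.smul_mul,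
      Units.val_mul, Units.val_mul, Matrix.map_mul, Matrix.map_mul]
    rw [show B⁻¹ = baseGLH L k⁻¹ from (map_inv _ _).symm]
    rfl

omit [NumberField K] [NumberField L] in
/-- Without representatives an element is no norm and has non-zero trace. -/
theorem no_norm_of_no_rep {γ : GL (Fin 2) K} (hreg : RegMat (γ : M2 K))
    (h : ¬ ∃ Q : GoodRep τ, Q.γ = γ) : (γ : M2 K).trace ≠ 0 ∧
      ¬ ∃ (δ : GL (Fin 2) L) (c : L),
        τ.norm (δ : M2 L) = c • (γ : M2 K).map (algebraMap K L) := by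
  have ht : (γ : M2 K).trace ≠ 0 := fun ht =>
    h ⟨⟨baseGLH L γ, γ, hreg, ⟨_, norm_baseGLH_of_trace_zero τ ht⟩, Or.inr rfl⟩, rfl⟩
  exact ⟨ht, fun ⟨δ, c, e⟩ => h ⟨⟨δ, γ, hreg, ⟨c, e⟩, Or.inl ht⟩, rfl⟩⟩

omit [NumberField K] in
theorem regMat_diagOne {a : Kˣ} (ha : (a : K) ≠ 1) : RegMat (diagOne a : M2 K) := by
  rw [RegMat, coe_diagOne]
  simp [Matrix.trace_fin_two, Matrix.det_fin_two]
  intro h
  have : ((a : K) - 1) ^ 2 = 0 := by linear_combination h
  exact ha (sub_eq_zero.1 (pow_eq_zero_iff two_ne_zero |>.1 this))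

/-- A regular element with square discriminant is conjugate to a diagonal one. -/
theorem exists_diagOne_mem_orbit {γ : GL (Fin 2) K} (hreg : RegMat (γ : M2 K))
    (hsq : IsSquare (disc (γ : M2 K))) :
    ∃ a : Kˣ, (a : K) ≠ 1 ∧
      (⟨(diagOne a : PGLF K)⟩ : ConjElt K) ∈ orbit (PGLF K) (⟨(γ : PGLF K)⟩ : ConjElt K) := by
  obtain ⟨s, hs⟩ := hsq
  set t := (γ : M2 K).trace with ht
  set l₁ := (t + s) / 2
  set l₂ := (t - s) / 2
  have hprod : l₁ * l₂ = (γ : M2 K).det := by
    simp only [disc, ← ht] at hs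
    simp only [l₁, l₂]
    field_simp
    linear_combination hs
  have hne : l₁ * l₂ ≠ 0 := hprod ▸ γ.det_ne_zero
  have hs0 : s ≠ 0 := fun h0 => hreg (by
    simp only [disc, h0, mul_zero, ← ht, sub_eq_zero] at hs
    exact hs)
  have h12 : l₁ ≠ l₂ := fun h12 => hs0 (by
    simp only [l₁, l₂] at h12
    field_simp at h12
    linear_combination h12 / 2)
  set a : Kˣ := Units.mk0 (l₁ / l₂)
    (div_ne_zero (left_ne_zero_of_mul hne) (right_ne_zero_of_mul hne))
  refine ⟨a, fun h => h12 ((div_eq_one_iff_eq (right_ne_zero_of_mul hne)).1 h), ?_⟩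
  set g' : M2 K := !![l₁, 0; 0, l₂]
  have hns : CubicAut.NonScalar g' := fun c hc => h12 (by
    have e0 := congrArg (fun m : M2 K => m 0 0) hc
    have e1 := congrArg (fun m : M2 K => m 1 1) hc
    simp [g'] at e0 e1
    rw [e0, e1])
  obtain ⟨h, h', hh, he⟩ := CubicAut.exists_conj_of_trace_det (RegMat.nonScalar hreg) hns
    (by simp [g', Matrix.trace_fin_two, l₁, l₂, ← ht]; ring)
    (by simp [g', Matrix.det_fin_two, hprod])
  let H : GL (Fin 2) K := ⟨h, h', hh, mul_eq_one_comm.1 hh⟩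
  refine ⟨(H : PGLF K), ?_⟩
  show (⟨(H : PGLF K) * (γ : PGLF K) * (H : PGLF K)⁻¹⟩ : ConjElt K) = _
  congr 1
  rw [← QuotientGroup.mk_inv, ← QuotientGroup.mk_mul, ← QuotientGroup.mk_mul]
  refine mk_eq_of_smul (r := l₂⁻¹) (inv_ne_zero (right_ne_zero_of_mul hne)) ?_
  rw [show ((H * γ * H⁻¹ : GL (Fin 2) K) : M2 K) = g' from he.symm, coe_diagOne]
  ext i j
  fin_cases i <;> fin_cases j <;>
    simp [g', a, div_eq_inv_mul, right_ne_zero_of_mul hne]

end Fermat.Agent.ResidualThree.Orbital
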